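/-
Passage to the limit for level cohomology (P-CFT Global/S-version, abstract part (B)):
the level cohomology of `(G, 𝒰)` with values in `M` is the directed union of the cohomology groups
of the finite levels `Hⁿ(G ⧸ U, M^U)`; vanishing, injectivity of inflation, and (for `n = 2` with
cyclic finite levels of order `[G : U]`) the structure of the `p`-torsion and `p`-divisibility.
-/
import Fermat.Agent.Lib.CFT.Profinite.LevelFinite

set_option autoImplicit false

namespace Fermat.Agent.Lib.CFT.Global.SVersion.Limit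

open CategoryTheory groupCohomology
open Fermat.Agent.Lib.CFT.Profinite Fermat.Agent.Lib.CFT.Profinite.LevelFamily

universe u

/-! ### Finite cyclic groups -/

section Cyclic

variable {C : Type*} [AddCommGroup C]

/-- The `p`-torsion of a finite cyclic group of order divisible by the prime `p` has `p`
elements. -/
theorem card_torsion_of_isAddCyclic [IsAddCyclic C] [Finite C] {p : ℕ}
    (hdvd : p ∣ Nat.card C) : Nat.card (nsmulAddMonoidHom p : C →+ C).ker = p := by
  rw [IsAddCyclic.card_nsmulAddMonoidHom_ker, Nat.gcd_eq_right hdvd]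

/-- In a finite cyclic group of order `m'`, an element killed by `m` with `p * m ∣ m'` is divisible
by `p`. -/
theorem exists_nsmul_eq_of_isAddCyclic [IsAddCyclic C] [Finite C] {p m : ℕ} (hm : m ≠ 0)
    (hdvd : p * m ∣ Nat.card C) (z : C) (hz : m • z = 0) : ∃ y : C, p • y = z := by
  obtain ⟨g, hg⟩ := IsAddCyclic.exists_generator (α := C)
  obtain ⟨a, rfl⟩ := AddSubgroup.mem_zmultiples_iff.1 (hg z)
  have hord : addOrderOf g = Nat.card C := addOrderOf_eq_card_of_forall_mem_zmultiples hg
  obtain ⟨c, hc⟩ := hdvd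
  -- `m' ∣ m * a`
  have h1 : ((Nat.card C : ℕ) : ℤ) ∣ (m : ℤ) * a := by
    rw [← hord]
    apply (addOrderOf_dvd_iff_zsmul_eq_zero).2
    rw [mul_zsmul, natCast_zsmul]
    exact hz
  rw [hc] at h1
  have h2 : ((p * c : ℕ) : ℤ) ∣ a := by
    have h3 : ((m : ℤ) * ((p * c : ℕ) : ℤ)) ∣ (m : ℤ) * a := by
      convert h1 using 1
      push_cast
      ring
    exact (mul_dvd_mul_iff_left (by exact_mod_cast hm)).1 h3
  obtain ⟨b, rfl⟩ := h2
  refine ⟨(c * b) • g, ?_⟩
  rw [← natCast_zsmul, ← mul_zsmul]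
  congr 1
  push_cast
  ring

end Cyclic

/-! ### Level cohomology as a directed union -/

section Level

variable {k G : Type u} [CommRing k] [Group G] (𝒰 : LevelFamily G) (M : Rep.{u} k G)

/-- The cohomology of the finite level `U`: `Hⁿ(G ⧸ U, M^U)`. -/
noncomputable abbrev FinH (U : Subgroup G) [U.Normal] (n : ℕ) : ModuleCat k :=
  groupCohomology (M.quotientToInvariants U) n

/-- Inflation between finite levels. -/
noncomputable abbrev finInfl {U U' : Subgroup G} [U.Normal] [U'.Normal] (h : U' ≤ U) (n : ℕ) :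
    FinH M U n ⟶ FinH M U' n :=
  HomologicalComplex.homologyMap (inflLevels M U U' h) n

variable {𝒰 M}

theorem inflH_finInfl {U U' : Subgroup G} [U.Normal] [U'.Normal] (hU : U ∈ 𝒰.levels)
    (hU' : U' ∈ 𝒰.levels) (h : U' ≤ U) (n : ℕ) (y : FinH M U n) :
    𝒰.inflH M U' hU' n (finInfl M h n y) = 𝒰.inflH M U hU n y :=
  congr($(inflLevels_comp_inflH hU hU' h n) y)

variable (𝒰 M)

/-- (B1) If the finite levels with vanishing `Hⁿ` are cofinal, the level cohomology vanishes. -/
theorem subsingleton_levelCohomology (n : ℕ)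
    (h : ∀ (U : Subgroup G) (_ : U.Normal), U ∈ 𝒰.levels →
      ∃ (U' : Subgroup G) (_ : U'.Normal), U' ∈ 𝒰.levels ∧ U' ≤ U ∧ Subsingleton (FinH M U' n)) :
    Subsingleton (𝒰.levelCohomology M n) := by
  rw [subsingleton_iff_forall_eq 0]
  intro x
  obtain ⟨U₀, hU₀⟩ := 𝒰.nonempty
  obtain ⟨V, hV, hn, -, y, rfl⟩ := exists_inflH_eq n x hU₀
  obtain ⟨V', hn', hV', hle, hsub⟩ := h V hn hV
  have h1 := inflH_finInfl hV hV' hle n y
  have h2 : finInfl M hle n y = 0 := hsub.elim _ _
  rw [h2, map_zero] at h1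
  exact h1.symm

/-- (B2a) If all inflation maps between finite levels are injective in degree `n`, then inflation
from a finite level to the level cohomology is injective. -/
theorem inflH_injective (n : ℕ)
    (h1 : ∀ (U U' : Subgroup G) (_ : U.Normal) (_ : U'.Normal), U ∈ 𝒰.levels → U' ∈ 𝒰.levels →
      ∀ h : U' ≤ U, Function.Injective (finInfl M h n))
    (U : Subgroup G) [U.Normal] (hU : U ∈ 𝒰.levels) :
    Function.Injective (𝒰.inflH M U hU n) := by
  rw [injective_iff_map_eq_zero]
  intro y hy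
  obtain ⟨W, hW, hn, hWU, hz⟩ := exists_inflLevels_eq_zero n hU y hy
  exact (injective_iff_map_eq_zero _).1 (h1 U W inferInstance hn hU hW hWU) y hz

end Level

/-! ### Degree two with cyclic finite levels -/

section Cyclic2

variable {k G : Type u} [CommRing k] [Group G] (𝒰 : LevelFamily G) (M : Rep.{u} k G) (n : ℕ)
  (h1 : ∀ (U U' : Subgroup G) (_ : U.Normal) (_ : U'.Normal), U ∈ 𝒰.levels → U' ∈ 𝒰.levels →
    ∀ h : U' ≤ U, Function.Injective (finInfl M h n))
  (h2 : ∀ (U : Subgroup G) (_ : U.Normal), U ∈ 𝒰.levels →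
    IsAddCyclic (FinH M U n) ∧ Nat.card (FinH M U n) = U.index)

include h2 in
theorem finite_finH (U : Subgroup G) [U.Normal] (hU : U ∈ 𝒰.levels) : Finite (FinH M U n) := by
  have hfi := 𝒰.finiteIndex U hU
  apply Nat.finite_of_card_ne_zero
  rw [(h2 U inferInstance hU).2]
  exact Subgroup.FiniteIndex.index_ne_zero

include h1 h2 in
/-- (B2b) If `p` divides the index of some normal level, the `p`-torsion of the level cohomology
has exactly `p` elements. -/
theorem card_torsion_levelCohomology {p : ℕ} (U : Subgroup G) [U.Normal] (hU : U ∈ 𝒰.levels)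
    (hpU : p ∣ U.index) :
    Nat.card {x : 𝒰.levelCohomology M n // p • x = 0} = p := by
  have hcycU := (h2 U inferInstance hU).1
  have hfinU := finite_finH 𝒰 M n h2 U hU
  have hcardU : Nat.card (nsmulAddMonoidHom p : FinH M U n →+ FinH M U n).ker = p :=
    card_torsion_of_isAddCyclic (by rw [(h2 U inferInstance hU).2]; exact hpU)
  -- the map from the `p`-torsion of the finite level to the `p`-torsion of the limit
  let φ : (nsmulAddMonoidHom p : FinH M U n →+ FinH M U n).ker →
      {x : 𝒰.levelCohomology M n // p • x = 0} := fun y =>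
    ⟨𝒰.inflH M U hU n y.1, by
      rw [← map_nsmul]
      have : p • y.1 = 0 := y.2
      rw [this, map_zero]⟩
  refine (Nat.card_eq_of_bijective φ ⟨?_, ?_⟩).symm.trans hcardU
  · intro y y' hyy'
    apply Subtype.ext
    exact inflH_injective 𝒰 M n h1 U hU (congrArg Subtype.val hyy')
  · rintro ⟨x, hx⟩
    obtain ⟨V, hV, hn, hVU, y, rfl⟩ := exists_inflH_eq n x hU
    have hcycV := (h2 V hn hV).1
    have hfinV := finite_finH 𝒰 M n h2 V hV
    have hpV : p ∣ Nat.card (FinH M V n) := by
      rw [(h2 V hn hV).2]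
      exact hpU.trans (Subgroup.index_dvd_of_le hVU)
    have hcardV : Nat.card (nsmulAddMonoidHom p : FinH M V n →+ FinH M V n).ker = p :=
      card_torsion_of_isAddCyclic hpV
    -- `y` is `p`-torsion
    have hy : p • y = 0 := by
      apply inflH_injective 𝒰 M n h1 V hV
      rw [map_nsmul, hx, map_zero]
    -- inflation restricted to the `p`-torsion subgroups
    let ψ : (nsmulAddMonoidHom p : FinH M U n →+ FinH M U n).ker →
        (nsmulAddMonoidHom p : FinH M V n →+ FinH M V n).ker := fun z =>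
      ⟨finInfl M hVU n z.1, by
        change p • (finInfl M hVU n z.1) = 0
        rw [← map_nsmul]
        have : p • z.1 = 0 := z.2
        rw [this, map_zero]⟩
    have hψinj : Function.Injective ψ := by
      intro z z' hzz'
      apply Subtype.ext
      exact h1 U V inferInstance hn hU hV hVU (congrArg Subtype.val hzz')
    have hψbij : Function.Bijective ψ :=
      hψinj.bijective_of_nat_card_le (by rw [hcardU, hcardV])
    obtain ⟨z, hz⟩ := hψbij.2 ⟨y, hy⟩
    refine ⟨z, Subtype.ext ?_⟩
    change 𝒰.inflH M U hU n z.1 = 𝒰.inflH M V hV n y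
    rw [← inflH_finInfl hU hV hVU n z.1]
    exact congrArg _ (congrArg Subtype.val hz)

include h2 in
/-- (B2c) If the indices of the normal levels are cofinally multiplied by `p`, the level cohomology
is `p`-divisible. -/
theorem exists_nsmul_eq_levelCohomology {p : ℕ}
    (hp : ∀ (U : Subgroup G) (_ : U.Normal), U ∈ 𝒰.levels →
      ∃ (U' : Subgroup G) (_ : U'.Normal), U' ∈ 𝒰.levels ∧ U' ≤ U ∧ p * U.index ∣ U'.index)
    (x : 𝒰.levelCohomology M n) : ∃ y : 𝒰.levelCohomology M n, p • y = x := by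
  obtain ⟨U₀, hU₀⟩ := 𝒰.nonempty
  obtain ⟨U, hU, hn, -, x₀, rfl⟩ := exists_inflH_eq n x hU₀
  obtain ⟨U', hn', hU', hle, hdvd⟩ := hp U hn hU
  have hfi := 𝒰.finiteIndex U hU
  have hcyc' := (h2 U' hn' hU').1
  have hfin' := finite_finH 𝒰 M n h2 U' hU'
  have hfinU := finite_finH 𝒰 M n h2 U hU
  have hkill : U.index • (finInfl M hle n x₀) = 0 := by
    rw [← map_nsmul, ← (h2 U hn hU).2, card_nsmul_eq_zero', map_zero]
  obtain ⟨y₀, hy₀⟩ := exists_nsmul_eq_of_isAddCyclic (C := FinH M U' n)
    Subgroup.FiniteIndex.index_ne_zero (by rw [(h2 U' hn' hU').2]; exact hdvd) _ hkill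
  refine ⟨𝒰.inflH M U' hU' n y₀, ?_⟩
  rw [← map_nsmul, hy₀, inflH_finInfl hU hU' hle]

end Cyclic2

section Cyclic2Cor

variable {k G : Type u} [CommRing k] [Group G] (𝒰 : LevelFamily G) (M : Rep.{u} k G) (n : ℕ)
  (h1 : ∀ (U U' : Subgroup G) (_ : U.Normal) (_ : U'.Normal), U ∈ 𝒰.levels → U' ∈ 𝒰.levels →
    ∀ h : U' ≤ U, Function.Injective (finInfl M h n))
  (h2 : ∀ (U : Subgroup G) (_ : U.Normal), U ∈ 𝒰.levels →
    IsAddCyclic (FinH M U n) ∧ Nat.card (FinH M U n) = U.index)

include h1 h2 in
/-- (B2b), subgroup form: the kernel of multiplication by `p` on the level cohomology has `p`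
elements. -/
theorem card_ker_nsmul_levelCohomology {p : ℕ} (U : Subgroup G) [U.Normal] (hU : U ∈ 𝒰.levels)
    (hpU : p ∣ U.index) :
    Nat.card (nsmulAddMonoidHom p : 𝒰.levelCohomology M n →+ 𝒰.levelCohomology M n).ker = p :=
  card_torsion_levelCohomology 𝒰 M n h1 h2 U hU hpU

include h1 h2 in
/-- (B2b), `ZMod p` form: for a prime `p` dividing the index of some normal level, the `p`-torsion
of the level cohomology is isomorphic to `ZMod p`. -/
theorem nonempty_torsion_addEquiv_zmod {p : ℕ} [Fact p.Prime] (U : Subgroup G) [U.Normal]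
    (hU : U ∈ 𝒰.levels) (hpU : p ∣ U.index) :
    Nonempty ((nsmulAddMonoidHom p :
      𝒰.levelCohomology M n →+ 𝒰.levelCohomology M n).ker ≃+ ZMod p) := by
  have hcard := card_ker_nsmul_levelCohomology 𝒰 M n h1 h2 U hU hpU
  have hcyc := isAddCyclic_of_prime_card hcard
  have e := zmodAddCyclicAddEquiv hcyc
  rw [hcard] at e
  exact ⟨e.symm⟩

end Cyclic2Cor

end Fermat.Agent.Lib.CFT.Global.SVersion.Limit
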