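/-
Sub-families of the level family of a class formation (P-CFT Global/S-version, abstract piece (P3)):
for a formation `F` (helper7) and a level family `𝒲` all of whose levels are levels of `F.𝒰`:
* `H²(𝒲, C) → H²(F.𝒰, C)` is injective;
* if the indices of the normal levels of `𝒲` are cofinally multiplied by `p`, then `H²(𝒲, C)` is
  `p`-divisible and the map is bijective on `p`-torsion (both sides have `p` elements);
* `H¹` and `H³` vanish if the finite layers are class layers (Tate).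
-/
import Fermat.Agent.Lib.CFT.Coh.ClassFormation.Formation
import Fermat.Agent.Lib.CFT.Coh.TateThm
import Fermat.Agent.Lib.CFT.Global.SVersion.Limit
import Fermat.Agent.Lib.CFT.Profinite.LES

set_option autoImplicit false

namespace Fermat.Agent.Lib.CFT.Global.SVersion.FormationSub

open CategoryTheory groupCohomology
open Fermat.Agent.Lib.CFT.Profinite Fermat.Agent.Lib.CFT.Profinite.LevelFamily
open Fermat.Agent.Lib.CFT.Global.SVersion.Limit
open Fermat.Agent.Lib.CFT.Coh.ClassFormation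

universe u

/-! ### One layer: `H²` is cyclic of order `|G|` -/

section Layer

variable {k G : Type u} [CommRing k] [Group G] [Fintype G] {A : Rep.{u} k G} {u : G × G → A}

theorem exists_zsmul_fundClass (h : IsRecLayer A.ρ u) (y : H2 A) :
    ∃ m : ℤ, y = m • h.fundClass := by
  obtain ⟨x, rfl⟩ := H2π_surjective A y
  obtain ⟨m, b, hm⟩ := h.gen x.1 (isCoc2_of_mem_cocycles₂ x.2)
  refine ⟨m, ?_⟩
  rw [IsRecLayer.fundClass, ← map_zsmul, H2π_eq_iff, mem_coboundaries₂_iff]
  refine ⟨b, ?_⟩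
  have h1 : ((m • (⟨u, mem_cocycles₂_of_isCoc2 h.coc⟩ : cocycles₂ A) : cocycles₂ A) :
      G × G → A) = (m : k) • u := by
    rw [Int.cast_smul_eq_zsmul]
    rfl
  have hm' : (⇑x : G × G → A) = (m : k) • u + dOne A.ρ b := hm
  rw [h1, hm']
  abel

theorem zsmul_fundClass_eq_zero_iff (h : IsRecLayer A.ρ u) (m : ℤ) :
    m • h.fundClass = 0 ↔ (Fintype.card G : ℤ) ∣ m := by
  have key : ∀ m : ℤ, m • h.fundClass = 0 ↔ ∃ b : G → A, (m : k) • u = dOne A.ρ b := by
    intro m
    rw [IsRecLayer.fundClass, ← map_zsmul, H2π_eq_zero_iff, mem_coboundaries₂_iff]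
    have h1 : ((m • (⟨u, mem_cocycles₂_of_isCoc2 h.coc⟩ : cocycles₂ A) : cocycles₂ A) :
        G × G → A) = (m : k) • u := by
      rw [Int.cast_smul_eq_zsmul]
      rfl
    rw [h1]
  constructor
  · intro h0
    obtain ⟨b, hb⟩ := (key m).1 h0
    exact h.ord m b hb
  · rintro ⟨c, rfl⟩
    rw [mul_comm, mul_zsmul]
    have h2 : (Fintype.card G : ℤ) • h.fundClass = 0 :=
      (key _).2 ⟨_, card_smul_eq_dOne h.coc⟩
    rw [h2, smul_zero]

theorem isAddCyclic_H2 (h : IsRecLayer A.ρ u) : IsAddCyclic (H2 A) :=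
  ⟨⟨h.fundClass, fun y => by
    obtain ⟨m, rfl⟩ := exists_zsmul_fundClass h y
    exact ⟨m, rfl⟩⟩⟩

theorem addOrderOf_fundClass (h : IsRecLayer A.ρ u) : addOrderOf h.fundClass = Fintype.card G := by
  apply Nat.dvd_antisymm
  · rw [addOrderOf_dvd_iff_nsmul_eq_zero, ← natCast_zsmul, zsmul_fundClass_eq_zero_iff]
  · have h1 : ((addOrderOf h.fundClass : ℕ) : ℤ) • h.fundClass = 0 := by
      rw [natCast_zsmul, addOrderOf_nsmul_eq_zero]
    have h2 := (zsmul_fundClass_eq_zero_iff h _).1 h1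
    exact_mod_cast h2

theorem card_H2 (h : IsRecLayer A.ρ u) : Nat.card (H2 A) = Fintype.card G := by
  rw [← addOrderOf_fundClass h]
  exact (addOrderOf_eq_card_of_forall_mem_zmultiples (fun y => by
    obtain ⟨m, rfl⟩ := exists_zsmul_fundClass h y
    exact ⟨m, rfl⟩)).symm

end Layer

/-! ### Sub-families of the level family of a formation -/

section Sub

variable {k Γ : Type u} [CommRing k] [Group Γ] (F : Formation k Γ) (𝒲 : LevelFamily Γ)
  (hsub : ∀ U ∈ 𝒲.levels, U ∈ F.𝒰.levels)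

include hsub in
theorem isCompatible_of_sub : IsCompatible F.𝒰 𝒲 (MonoidHom.id Γ) :=
  fun U hU => ⟨U, hsub U hU, fun _ hx => hx⟩

/-- The canonical map `Hⁿ(𝒲, C) → Hⁿ(F.𝒰, C)`. -/
noncomputable abbrev subMap (n : ℕ) : 𝒲.levelCohomology F.C n ⟶ F.𝒰.levelCohomology F.C n :=
  LES.map (MonoidHom.id Γ) (isCompatible_of_sub F 𝒲 hsub) (𝟙 F.C) n

theorem levelInfl_comp_subMap (U : Subgroup Γ) [U.Normal] (hU : U ∈ 𝒲.levels) :
    𝒲.levelInfl F.C U hU ≫
        levelCochainsMap (MonoidHom.id Γ) (isCompatible_of_sub F 𝒲 hsub) (𝟙 F.C) =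
      F.𝒰.levelInfl F.C U (hsub U hU) := by
  ext n c : 3
  rfl

theorem inflH_comp_subMap (U : Subgroup Γ) [U.Normal] (hU : U ∈ 𝒲.levels) (n : ℕ) :
    𝒲.inflH F.C U hU n ≫ subMap F 𝒲 hsub n = F.𝒰.inflH F.C U (hsub U hU) n := by
  have h := HomologicalComplex.homologyMap_comp (𝒲.levelInfl F.C U hU)
    (levelCochainsMap (MonoidHom.id Γ) (isCompatible_of_sub F 𝒲 hsub) (𝟙 F.C)) n
  rw [levelInfl_comp_subMap F 𝒲 hsub U hU] at h
  exact h.symm

theorem subMap_inflH (U : Subgroup Γ) [U.Normal] (hU : U ∈ 𝒲.levels) (n : ℕ)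
    (y : FinH F.C U n) :
    (subMap F 𝒲 hsub n).hom ((𝒲.inflH F.C U hU n).hom y) =
      (F.𝒰.inflH F.C U (hsub U hU) n).hom y :=
  congr($(inflH_comp_subMap F 𝒲 hsub U hU n) y)

/-- The invariant of the image in `H²(F.𝒰, C)` of a class inflated from a finite level of `𝒲`. -/
theorem inv_subMap_inflH (U : Subgroup Γ) [U.Normal] (hU : U ∈ 𝒲.levels) (y : FinH F.C U 2) :
    F.inv ((subMap F 𝒲 hsub 2).hom ((𝒲.inflH F.C U hU 2).hom y)) =
      F.invLevel U (hsub U hU) y := by
  rw [subMap_inflH, F.inv_inflH]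

/-- **(ii)** `H²(𝒲, C) → H²(F.𝒰, C)` is injective. -/
theorem subMap_injective : Function.Injective (subMap F 𝒲 hsub 2).hom := by
  rw [injective_iff_map_eq_zero]
  intro x hx
  obtain ⟨U₀, hU₀⟩ := 𝒲.nonempty
  obtain ⟨U, hU, hn, -, y, rfl⟩ := exists_inflH_eq 2 x hU₀
  have h1 := inv_subMap_inflH F 𝒲 hsub U hU y
  rw [hx, map_zero] at h1
  have h2 : y = 0 := F.invLevel_injective U (hsub U hU) (by rw [← h1, map_zero])
  rw [h2, map_zero]

/-- The inflation maps between the finite levels of a formation are injective on `H²`. -/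
theorem finInfl_injective (U U' : Subgroup Γ) [U.Normal] [U'.Normal] (hU : U ∈ F.𝒰.levels)
    (hU' : U' ∈ F.𝒰.levels) (h : U' ≤ U) : Function.Injective (finInfl F.C h 2) := by
  intro y y' hyy'
  apply F.invLevel_injective U hU
  have h1 := F.invLevel_inflLevelsH U U' hU hU' h y
  have h2 := F.invLevel_inflLevelsH U U' hU hU' h y'
  rw [← h1, ← h2]
  exact congrArg _ hyy'

/-- The `H²` of a finite level of a formation is cyclic of order the index. -/
theorem isAddCyclic_and_card_finH (U : Subgroup Γ) [U.Normal] (hU : U ∈ F.𝒰.levels) :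
    IsAddCyclic (FinH F.C U 2) ∧ Nat.card (FinH F.C U 2) = U.index := by
  let _ := levelFintype F.𝒰 U hU
  refine ⟨isAddCyclic_H2 (F.isLayer U hU), ?_⟩
  rw [Subgroup.index_eq_card]
  exact (card_H2 (F.isLayer U hU)).trans Nat.card_eq_fintype_card.symm

include hsub in
theorem sub_h1 : ∀ (U U' : Subgroup Γ) (_ : U.Normal) (_ : U'.Normal), U ∈ 𝒲.levels →
    U' ∈ 𝒲.levels → ∀ h : U' ≤ U, Function.Injective (finInfl F.C h 2) :=
  fun U U' _ _ hU hU' h => finInfl_injective F U U' (hsub U hU) (hsub U' hU') h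

include hsub in
theorem sub_h2 : ∀ (U : Subgroup Γ) (_ : U.Normal), U ∈ 𝒲.levels →
    IsAddCyclic (FinH F.C U 2) ∧ Nat.card (FinH F.C U 2) = U.index :=
  fun U _ hU => isAddCyclic_and_card_finH F U (hsub U hU)

include hsub in
/-- The `p`-torsion of `H²(𝒲, C)` has `p` elements as soon as `p` divides the index of a normal
level of `𝒲`. -/
theorem card_torsion_sub {p : ℕ} (U : Subgroup Γ) [U.Normal] (hU : U ∈ 𝒲.levels)
    (hpU : p ∣ U.index) : Nat.card {x : 𝒲.levelCohomology F.C 2 // p • x = 0} = p :=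
  card_torsion_levelCohomology 𝒲 F.C 2 (sub_h1 F 𝒲 hsub) (sub_h2 F 𝒲 hsub) U hU hpU

/-- The `p`-torsion of `H²(F.𝒰, C)` has `p` elements as soon as `p` divides the index of a normal
level. -/
theorem card_torsion {p : ℕ} (U : Subgroup Γ) [U.Normal] (hU : U ∈ F.𝒰.levels)
    (hpU : p ∣ U.index) : Nat.card {x : F.𝒰.levelCohomology F.C 2 // p • x = 0} = p :=
  card_torsion_sub F F.𝒰 (fun _ h => h) U hU hpU

include hsub in
/-- **(iii a)** If the indices of the normal levels of `𝒲` are cofinally multiplied by `p`, then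
`H²(𝒲, C)` is `p`-divisible. -/
theorem exists_nsmul_eq_sub {p : ℕ}
    (hp : ∀ (U : Subgroup Γ) (_ : U.Normal), U ∈ 𝒲.levels →
      ∃ (U' : Subgroup Γ) (_ : U'.Normal), U' ∈ 𝒲.levels ∧ U' ≤ U ∧ p * U.index ∣ U'.index)
    (x : 𝒲.levelCohomology F.C 2) : ∃ y : 𝒲.levelCohomology F.C 2, p • y = x :=
  exists_nsmul_eq_levelCohomology 𝒲 F.C 2 (sub_h2 F 𝒲 hsub) hp x

/-- The map induced by `subMap` on `p`-torsion. -/
noncomputable def torsionMap (p : ℕ) :
    {x : 𝒲.levelCohomology F.C 2 // p • x = 0} → {x : F.𝒰.levelCohomology F.C 2 // p • x = 0} :=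
  fun x => ⟨(subMap F 𝒲 hsub 2).hom x.1, by rw [← map_nsmul, x.2, map_zero]⟩

@[simp]
theorem torsionMap_coe (p : ℕ) (x : {x : 𝒲.levelCohomology F.C 2 // p • x = 0}) :
    (torsionMap F 𝒲 hsub p x).1 = (subMap F 𝒲 hsub 2).hom x.1 := rfl

/-- **(iii b)** `H²(𝒲, C) → H²(F.𝒰, C)` is bijective on `p`-torsion as soon as `p` divides the
index of a normal level of `𝒲`. -/
theorem torsionMap_bijective {p : ℕ} (U : Subgroup Γ) [U.Normal] (hU : U ∈ 𝒲.levels)
    (hpU : p ∣ U.index) : Function.Bijective (torsionMap F 𝒲 hsub p) := by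
  have hp0 : p ≠ 0 := by
    rintro rfl
    have := 𝒲.finiteIndex U hU
    exact Subgroup.FiniteIndex.index_ne_zero (zero_dvd_iff.1 hpU)
  have h1 := card_torsion_sub F 𝒲 hsub U hU hpU
  have h2 := card_torsion F U (hsub U hU) hpU
  have hfin : Finite {x : F.𝒰.levelCohomology F.C 2 // p • x = 0} :=
    Nat.finite_of_card_ne_zero (by rw [h2]; exact hp0)
  have hinj : Function.Injective (torsionMap F 𝒲 hsub p) := by
    intro x x' hxx'
    apply Subtype.ext
    exact subMap_injective F 𝒲 hsub (congrArg Subtype.val hxx')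
  exact hinj.bijective_of_nat_card_le (by rw [h1, h2])

end Sub

/-! ### Variants for families all of whose levels are normal -/

section AllNormal

variable {k Γ : Type u} [CommRing k] [Group Γ] (F : Formation k Γ) (𝒲 : LevelFamily Γ)
  (hsub : ∀ U ∈ 𝒲.levels, U ∈ F.𝒰.levels) (hn : ∀ U ∈ 𝒲.levels, U.Normal)

include hsub hn in
/-- `p`-divisibility of `H²(𝒲, C)` when all levels of `𝒲` are normal. -/
theorem exists_nsmul_eq_sub_of_normal {p : ℕ}
    (hp : ∀ U ∈ 𝒲.levels, ∃ U' ∈ 𝒲.levels, U' ≤ U ∧ p * U.index ∣ U'.index)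
    (x : 𝒲.levelCohomology F.C 2) : ∃ y : 𝒲.levelCohomology F.C 2, p • y = x :=
  exists_nsmul_eq_sub F 𝒲 hsub (fun U _ hU => by
    obtain ⟨U', hU', hle, hdvd⟩ := hp U hU
    exact ⟨U', hn U' hU', hU', hle, hdvd⟩) x

include hn in
/-- Bijectivity on `p`-torsion when all levels of `𝒲` are normal and `p` divides some index. -/
theorem torsionMap_bijective_of_normal {p : ℕ} (U : Subgroup Γ) (hU : U ∈ 𝒲.levels)
    (hpU : p ∣ U.index) : Function.Bijective (torsionMap F 𝒲 hsub p) :=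
  haveI := hn U hU
  torsionMap_bijective F 𝒲 hsub U hU hpU

end AllNormal

/-! ### Vanishing of `H¹` and `H³` from class layers (`ℤ`-coefficients) -/

section ClassLayer

open Fermat.Agent.Lib.CFT.Coh.TateThm

variable {G : Type} [Group G]

/-- `H¹(G, A) = 0` for a class layer. -/
theorem isZero_H1_of_isClassLayer [Fintype G] {A : Rep.{0} ℤ G} {u : G × G → A}
    (h : IsClassLayer A u) : Limits.IsZero (groupCohomology A 1) := by
  induction A using Fermat.Agent.Lib.CFT.Coh.rep_int_induction with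
  | h A ρ =>
    have hat := h.all.2 G (MonoidHom.id G) Function.injective_id
    apply isZero_H1_of_forall
    intro y hy
    exact hat.h1 y hy

/-- `H³(G, A) = 0` for a class layer (Tate: `H³(G, A) ≅ H¹(G, ℤ) = 0`). -/
theorem isZero_H3_of_isClassLayer [Fintype G] {A : Rep.{0} ℤ G} {u : G × G → A}
    (h : IsClassLayer A u) : Limits.IsZero (groupCohomology A 3) :=
  isZero_H3 h

variable {Γ : Type} [Group Γ] (𝒲 : LevelFamily Γ) (M : Rep.{0} ℤ Γ)

/-- **(i)** If the finite layers of `(𝒲, M)` are cofinally class layers, then `H¹(𝒲, M) = 0`. -/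
theorem subsingleton_levelCohomology_one
    (hcl : ∀ (U : Subgroup Γ) (_ : U.Normal), U ∈ 𝒲.levels →
      ∃ (U' : Subgroup Γ) (_ : U'.Normal), U' ∈ 𝒲.levels ∧ U' ≤ U ∧
        ∃ u, IsClassLayer (M.quotientToInvariants U') u) :
    Subsingleton (𝒲.levelCohomology M 1) :=
  subsingleton_levelCohomology 𝒲 M 1 (fun U hn hU => by
    obtain ⟨U', hn', hU', hle, u, hu⟩ := hcl U hn hU
    have := 𝒲.finiteIndex U' hU'
    let _ : Fintype (Γ ⧸ U') := Fintype.ofFinite _
    exact ⟨U', hn', hU', hle,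
      (ModuleCat.isZero_iff_subsingleton).1 (isZero_H1_of_isClassLayer hu)⟩)

/-- **(i)** If the finite layers of `(𝒲, M)` are cofinally class layers, then `H³(𝒲, M) = 0`. -/
theorem subsingleton_levelCohomology_three
    (hcl : ∀ (U : Subgroup Γ) (_ : U.Normal), U ∈ 𝒲.levels →
      ∃ (U' : Subgroup Γ) (_ : U'.Normal), U' ∈ 𝒲.levels ∧ U' ≤ U ∧
        ∃ u, IsClassLayer (M.quotientToInvariants U') u) :
    Subsingleton (𝒲.levelCohomology M 3) :=
  subsingleton_levelCohomology 𝒲 M 3 (fun U hn hU => by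
    obtain ⟨U', hn', hU', hle, u, hu⟩ := hcl U hn hU
    have := 𝒲.finiteIndex U' hU'
    let _ : Fintype (Γ ⧸ U') := Fintype.ofFinite _
    exact ⟨U', hn', hU', hle,
      (ModuleCat.isZero_iff_subsingleton).1 (isZero_H3_of_isClassLayer hu)⟩)

/-- Version for a formation whose fundamental cocycles are class layers at all normal levels of
the sub-family `𝒲`. -/
theorem subsingleton_one_three (F : Formation ℤ Γ)
    (hsub : ∀ U ∈ 𝒲.levels, U ∈ F.𝒰.levels)
    (hcl : ∀ (U : Subgroup Γ) [U.Normal] (hU : U ∈ 𝒲.levels),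
      IsClassLayer (F.C.quotientToInvariants U) (F.u U (hsub U hU))) :
    Subsingleton (𝒲.levelCohomology F.C 1) ∧ Subsingleton (𝒲.levelCohomology F.C 3) :=
  ⟨subsingleton_levelCohomology_one 𝒲 F.C (fun U hn hU =>
      ⟨U, hn, hU, le_rfl, _, hcl U hU⟩),
    subsingleton_levelCohomology_three 𝒲 F.C (fun U hn hU =>
      ⟨U, hn, hU, le_rfl, _, hcl U hU⟩)⟩

end ClassLayer

end Fermat.Agent.Lib.CFT.Global.SVersion.FormationSub
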