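import Mathlib
import Fermat.Agent.Lib.CFT.Coh.ClassFormation.Formation
import Fermat.Agent.Lib.CFT.Coh.TateThm.Criterion

/-!
# A class formation from a compatible system of invariant maps (P-CFT, S-version, helper66)

`InvData 𝒰 C` packages, for a level family `𝒰` on `Γ` and a `Γ`-module `C`, invariant maps
`inv_U : H²(Γ ⧸ U, C^U) →+ ℚ/ℤ` at the normal levels which are injective, hit `1 / [Γ : U]`, are
compatible with inflation, together with Hilbert 90 (`H¹ = 0`) and the bound `|H²| ∣ |H|` for all
subgroups `H` of `Γ ⧸ U`.  By Tate's criterion (`isRecLayer_of_inv`) this gives a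
`Formation ℤ Γ` whose level invariant maps are the given ones.
-/

set_option autoImplicit false
set_option linter.unusedSectionVars false
set_option linter.style.haveILetI false

namespace Fermat.Agent.Lib.CFT.Global.SVersion.FormationOfInv

open Fermat.Agent.Lib.CFT.Profinite Fermat.Agent.Lib.CFT.Coh.ClassFormation
  Fermat.Agent.Lib.CFT.Coh.TateThm CategoryTheory CategoryTheory.Limits groupCohomology

variable {Γ : Type} [Group Γ]

/-- A compatible system of invariant maps on the layers of a level family. -/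
structure InvData (𝒰 : LevelFamily Γ) (C : Rep.{0} ℤ Γ) where
  /-- the invariant maps at the normal levels -/
  inv : ∀ (U : Subgroup Γ) [U.Normal], U ∈ 𝒰.levels →
    (groupCohomology (C.quotientToInvariants U) 2 →+ AddCircle (1 : ℚ))
  inv_injective : ∀ (U : Subgroup Γ) [U.Normal] (hU : U ∈ 𝒰.levels),
    Function.Injective (inv U hU)
  isZero_H1 : ∀ (U : Subgroup Γ) [U.Normal], U ∈ 𝒰.levels → ∀ H : Subgroup (Γ ⧸ U),
    IsZero (H1 (Rep.res H.subtype (C.quotientToInvariants U)))
  card_H2_dvd : ∀ (U : Subgroup Γ) [U.Normal], U ∈ 𝒰.levels → ∀ H : Subgroup (Γ ⧸ U),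
    Nat.card (H2 (Rep.res H.subtype (C.quotientToInvariants U))) ∣ Nat.card H
  exists_inv_eq : ∀ (U : Subgroup Γ) [U.Normal] (hU : U ∈ 𝒰.levels),
    ∃ x, inv U hU x = (((1 : ℚ) / (U.index : ℚ) : ℚ) : AddCircle (1 : ℚ))
  inv_infl : ∀ (U U' : Subgroup Γ) [U.Normal] [U'.Normal] (hU : U ∈ 𝒰.levels)
    (hU' : U' ∈ 𝒰.levels) (hle : U' ≤ U) (y : groupCohomology (C.quotientToInvariants U) 2),
    inv U' hU' ((inflLevelsH C U U' hle 2).hom y) = inv U hU y

namespace InvData

variable {𝒰 : LevelFamily Γ} {C : Rep.{0} ℤ Γ} (D : InvData 𝒰 C)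

/-- The chosen fundamental cocycle at a normal level. -/
noncomputable def fundCocycle (U : Subgroup Γ) [U.Normal] (hU : U ∈ 𝒰.levels) :
    cocycles₂ (C.quotientToInvariants U) :=
  Classical.choose (H2π_surjective (C.quotientToInvariants U)
    (Classical.choose (D.exists_inv_eq U hU)))

theorem inv_fundCocycle (U : Subgroup Γ) [U.Normal] (hU : U ∈ 𝒰.levels) :
    D.inv U hU ((H2π (C.quotientToInvariants U)).hom (D.fundCocycle U hU)) =
      (((1 : ℚ) / (U.index : ℚ) : ℚ) : AddCircle (1 : ℚ)) := by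
  have h1 := Classical.choose_spec (H2π_surjective (C.quotientToInvariants U)
    (Classical.choose (D.exists_inv_eq U hU)))
  have h2 := Classical.choose_spec (D.exists_inv_eq U hU)
  rw [fundCocycle]
  exact (congrArg (D.inv U hU) h1).trans h2

/-- The chosen fundamental cocycle makes the layer a class layer (hypothesis of Tate's theorem). -/
theorem isClassLayer_fundCocycle (U : Subgroup Γ) [U.Normal] (hU : U ∈ 𝒰.levels) :
    IsClassLayer (C.quotientToInvariants U) (D.fundCocycle U hU).1 := by
  have := 𝒰.finiteIndex U hU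
  have hfin : Finite (Γ ⧸ U) := Subgroup.finite_quotient_of_finiteIndex
  refine isClassLayer_of_inv (C.quotientToInvariants U) (D.fundCocycle U hU).1
    (D.fundCocycle U hU).2 (D.isZero_H1 U hU) (D.card_H2_dvd U hU) (D.inv U hU) ?_
  rw [← Subgroup.index_eq_card]
  exact D.inv_fundCocycle U hU

theorem isRecLayer_fundCocycle (U : Subgroup Γ) [U.Normal] (hU : U ∈ 𝒰.levels) :
    letI := levelFintype 𝒰 U hU
    IsRecLayer (C.quotientToInvariants U).ρ (D.fundCocycle U hU).1 := by
  letI := levelFintype 𝒰 U hU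
  refine isRecLayer_of_inv (C.quotientToInvariants U) (D.fundCocycle U hU).1
    (D.fundCocycle U hU).2 (D.isZero_H1 U hU) (D.card_H2_dvd U hU) (D.inv U hU) ?_
  rw [← Subgroup.index_eq_card]
  exact D.inv_fundCocycle U hU

theorem card_ker_levelMap_mul_index (U U' : Subgroup Γ) [U.Normal] [U'.Normal] (hle : U' ≤ U) :
    Nat.card (levelMap U U' hle).ker * U.index = U'.index := by
  have h1 := Subgroup.card_mul_index (levelMap U U' hle).ker
  rw [Subgroup.index_ker, MonoidHom.range_eq_top.2 (levelMap_surjective U U' hle),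
    Subgroup.card_top] at h1
  rw [Subgroup.index_eq_card, Subgroup.index_eq_card, h1]

/-- The class of the inflated fundamental cocycle is `[U : U']` times the fundamental class. -/
theorem H2π_mapCocycles₂_fundCocycle (U U' : Subgroup Γ) [U.Normal] [U'.Normal]
    (hU : U ∈ 𝒰.levels) (hU' : U' ∈ 𝒰.levels) (hle : U' ≤ U) :
    (H2π (C.quotientToInvariants U')).hom
      ((mapCocycles₂ (levelMap U U' hle) (invariantsInclusion C U U' hle)).hom
        (D.fundCocycle U hU)) =
    (H2π (C.quotientToInvariants U')).hom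
      (Nat.card (levelMap U U' hle).ker • D.fundCocycle U' hU') := by
  apply D.inv_injective U' hU'
  have e := congr($(H2π_comp_map (levelMap U U' hle) (invariantsInclusion C U U' hle))
    (D.fundCocycle U hU))
  simp only [ModuleCat.hom_comp, LinearMap.coe_comp, Function.comp_apply] at e
  have e2 : (H2π (C.quotientToInvariants U')).hom
      ((mapCocycles₂ (levelMap U U' hle) (invariantsInclusion C U U' hle)).hom
        (D.fundCocycle U hU)) = (inflLevelsH C U U' hle 2).hom
          ((H2π (C.quotientToInvariants U)).hom (D.fundCocycle U hU)) := e.symm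
  rw [e2, D.inv_infl U U' hU hU' hle, D.inv_fundCocycle U hU, map_nsmul, map_nsmul,
    D.inv_fundCocycle U' hU', ← card_ker_levelMap_mul_index U U' hle]
  have := 𝒰.finiteIndex U hU
  have hU0 : (U.index : ℚ) ≠ 0 := by exact_mod_cast Subgroup.FiniteIndex.index_ne_zero
  have hn0 : (Nat.card (levelMap U U' hle).ker : ℚ) ≠ 0 := by
    have := 𝒰.finiteIndex U' hU'
    have h0 : U'.index ≠ 0 := Subgroup.FiniteIndex.index_ne_zero
    rw [← card_ker_levelMap_mul_index U U' hle] at h0
    exact_mod_cast (mul_ne_zero_iff.1 h0).1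
  rw [← QuotientAddGroup.mk_nsmul]
  congr 1
  push_cast
  rw [nsmul_eq_mul]
  field_simp

theorem exists_infl_eq (U U' : Subgroup Γ) [U.Normal] [U'.Normal]
    (hU : U ∈ 𝒰.levels) (hU' : U' ∈ 𝒰.levels) (hle : U' ≤ U) :
    ∃ b : Γ ⧸ U' → C.quotientToInvariants U', ∀ g h : Γ ⧸ U',
      (invariantsInclusion C U U' hle).hom
          ((D.fundCocycle U hU).1 (levelMap U U' hle g, levelMap U U' hle h)) =
        Nat.card (levelMap U U' hle).ker • (D.fundCocycle U' hU').1 (g, h) +
          ((C.quotientToInvariants U').ρ g (b h) - b (g * h) + b g) := by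
  have h1 := D.H2π_mapCocycles₂_fundCocycle U U' hU hU' hle
  rw [← sub_eq_zero, ← map_sub, H2π_eq_zero_iff, mem_coboundaries₂_iff] at h1
  obtain ⟨b, hb⟩ := h1
  refine ⟨b, fun g h => ?_⟩
  have h3 : (invariantsInclusion C U U' hle).hom
          ((D.fundCocycle U hU).1 (levelMap U U' hle g, levelMap U U' hle h)) -
        Nat.card (levelMap U U' hle).ker • (D.fundCocycle U' hU').1 (g, h) =
      (C.quotientToInvariants U').ρ g (b h) - b (g * h) + b g := congrFun hb (g, h)
  rw [← h3]
  abel

/-- **The class formation** attached to a compatible system of invariant maps. -/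
noncomputable def toFormation (hdisc : 𝒰.IsDiscrete C) : Formation ℤ Γ where
  𝒰 := 𝒰
  C := C
  discrete := hdisc
  u U _ hU := (D.fundCocycle U hU).1
  isLayer U _ hU := D.isRecLayer_fundCocycle U hU
  infl U U' _ _ hU hU' hle := by
    obtain ⟨b, hb⟩ := D.exists_infl_eq U U' hU hU' hle
    refine ⟨b, ?_⟩
    funext ⟨g, h⟩
    refine (hb g h).trans ?_
    refine congrArg₂ (· + ·) ?_ rfl
    exact (@Nat.cast_smul_eq_nsmul ℤ _ _ _ (C.quotientToInvariants U').hV2
      (Nat.card (levelMap U U' hle).ker) ((D.fundCocycle U' hU').1 (g, h))).symm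

@[simp] theorem toFormation_𝒰 (hdisc : 𝒰.IsDiscrete C) : (D.toFormation hdisc).𝒰 = 𝒰 := rfl

@[simp] theorem toFormation_C (hdisc : 𝒰.IsDiscrete C) : (D.toFormation hdisc).C = C := rfl

theorem toFormation_u (hdisc : 𝒰.IsDiscrete C) (U : Subgroup Γ) [U.Normal] (hU : U ∈ 𝒰.levels) :
    (D.toFormation hdisc).u U hU = (D.fundCocycle U hU).1 := rfl

theorem invH2_eq_inv (U : Subgroup Γ) [U.Normal] (hU : U ∈ 𝒰.levels)
    (y : groupCohomology (C.quotientToInvariants U) 2) :
    letI := levelFintype 𝒰 U hU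
    (D.isRecLayer_fundCocycle U hU).invH2 y = D.inv U hU y := by
  letI := levelFintype 𝒰 U hU
  have h : IsRecLayer (C.quotientToInvariants U).ρ (D.fundCocycle U hU).1 :=
    D.isRecLayer_fundCocycle U hU
  obtain ⟨x, rfl⟩ : ∃ x : cocycles₂ (C.quotientToInvariants U),
      (H2π (C.quotientToInvariants U)).hom x = y := H2π_surjective (C.quotientToInvariants U) y
  obtain ⟨m, b, hm⟩ := h.gen x.1 (isCoc2_of_mem_cocycles₂ x.2)
  have h1 : h.invH2 ((H2π (C.quotientToInvariants U)).hom x) =
      h.inv x.1 (isCoc2_of_mem_cocycles₂ x.2) := h.invH2_H2π x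
  have h2 : (H2π (C.quotientToInvariants U)).hom x =
      m • (H2π (C.quotientToInvariants U)).hom (D.fundCocycle U hU) := by
    rw [← sub_eq_zero, ← map_zsmul, ← map_sub, H2π_eq_zero_iff, mem_coboundaries₂_iff]
    refine ⟨b, ?_⟩
    have key : ∀ W : (Γ ⧸ U) × (Γ ⧸ U) → C.quotientToInvariants U,
        x.1 = W + dOne (C.quotientToInvariants U).ρ b →
        W = (m • D.fundCocycle U hU : cocycles₂ (C.quotientToInvariants U)).1 →
        ((x - m • D.fundCocycle U hU : cocycles₂ (C.quotientToInvariants U)) :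
          (Γ ⧸ U) × (Γ ⧸ U) → C.quotientToInvariants U) =
            dOne (C.quotientToInvariants U).ρ b := by
      intro W hW hW2
      have h3 : ((x - m • D.fundCocycle U hU : cocycles₂ (C.quotientToInvariants U)) :
          (Γ ⧸ U) × (Γ ⧸ U) → C.quotientToInvariants U) =
          x.1 - (m • D.fundCocycle U hU : cocycles₂ (C.quotientToInvariants U)).1 := rfl
      rw [h3, ← hW2, hW]
      abel
    refine key _ hm ?_
    funext p
    exact @Int.cast_smul_eq_zsmul ℤ _ _ _ (C.quotientToInvariants U).hV2 m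
      ((D.fundCocycle U hU).1 p)
  refine h1.trans ?_
  rw [h.inv_eq _ m b hm, h2, map_zsmul, D.inv_fundCocycle, ← QuotientAddGroup.mk_zsmul,
    Subgroup.index_eq_card, Nat.card_eq_fintype_card]
  congr 1
  rw [zsmul_eq_mul, mul_one_div]

theorem toFormation_isClassLayer (hdisc : 𝒰.IsDiscrete C) (U : Subgroup Γ) [U.Normal]
    (hU : U ∈ 𝒰.levels) :
    IsClassLayer ((D.toFormation hdisc).C.quotientToInvariants U) ((D.toFormation hdisc).u U hU) :=
  D.isClassLayer_fundCocycle U hU

/-- The level invariant maps of the formation are the given ones. -/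
theorem toFormation_invLevel (hdisc : 𝒰.IsDiscrete C) (U : Subgroup Γ) [U.Normal]
    (hU : U ∈ 𝒰.levels) : (D.toFormation hdisc).invLevel U hU = D.inv U hU :=
  AddMonoidHom.ext fun y => D.invH2_eq_inv U hU y

theorem toFormation_inv_inflH (hdisc : 𝒰.IsDiscrete C) (U : Subgroup Γ) [U.Normal]
    (hU : U ∈ 𝒰.levels) (y : groupCohomology (C.quotientToInvariants U) 2) :
    (D.toFormation hdisc).inv ((𝒰.inflH C U hU 2).hom y) = D.inv U hU y := by
  rw [← D.toFormation_invLevel hdisc U hU]
  exact (D.toFormation hdisc).inv_inflH U hU y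

end InvData

end Fermat.Agent.Lib.CFT.Global.SVersion.FormationOfInv
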