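import Mathlib
import Fermat.Agent.Lib.CFT.Local.LocalLayer
import Fermat.Agent.Lib.CFT.Local.LocalInvContract
import Fermat.Agent.Lib.CFT.Global.SVersion.FormationOfInv

/-!
# The local class formation (P-CFT, S-version (P3), helper66)
-/

set_option autoImplicit false
set_option linter.unusedSectionVars false
set_option linter.style.haveILetI false

namespace Fermat.Agent.Lib.CFT.Global.SVersion.LocalFormation

open CategoryTheory CategoryTheory.Limits groupCohomology
open Fermat.Agent.Lib.CFT.Profinite Fermat.Agent.Lib.CFT.Coh.ClassFormation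
  Fermat.Agent.Lib.CFT.Coh.TateThm Fermat.Agent.Lib.CFT.Local Fermat.Agent.Lib.CFT.Local.LocalLayer
  Fermat.Agent.Lib.CFT.Global.SVersion.FormationOfInv
open Fermat.Agent.Lib.CFT.Global (unitsRepHomAlong groupCohomology_map_square)

attribute [local instance] Units.mulDistribMulActionRight

/-- A group which embeds into the `n`-torsion of `ℚ/ℤ` has order dividing `n`. -/
theorem card_dvd_of_injective_addCircle {M : Type*} [AddCommGroup M] (φ : M →+ AddCircle (1 : ℚ))
    (hφ : Function.Injective φ) (n : ℕ) (hn : n ≠ 0) (h : ∀ x, n • φ x = 0) : Nat.card M ∣ n := by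
  have hn0 : (n : ℚ) ≠ 0 := by exact_mod_cast hn
  set g : AddCircle (1 : ℚ) := (((1 : ℚ) / (n : ℚ) : ℚ) : AddCircle (1 : ℚ)) with hg
  have hord : addOrderOf g = n := AddCircle.addOrderOf_period_div (Nat.pos_of_ne_zero hn)
  have hrange : φ.range ≤ AddSubgroup.zmultiples g := by
    rintro _ ⟨x, rfl⟩
    obtain ⟨r, hr⟩ := QuotientAddGroup.mk_surjective (φ x)
    have h0 := h x
    rw [← hr, ← QuotientAddGroup.mk_nsmul, ← QuotientAddGroup.mk_zero, QuotientAddGroup.eq,
      AddSubgroup.mem_zmultiples_iff] at h0
    obtain ⟨k, hk⟩ := h0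
    rw [AddSubgroup.mem_zmultiples_iff]
    refine ⟨-k, ?_⟩
    rw [← hr, hg, ← QuotientAddGroup.mk_zsmul]
    congr 1
    simp only [zsmul_eq_mul, mul_one, nsmul_eq_mul] at hk
    have : r = -(k : ℚ) / n := by
      field_simp
      linarith
    rw [this]
    simp only [zsmul_eq_mul, Int.cast_neg]
    field_simp
  have h1 : Nat.card M = Nat.card φ.range :=
    Nat.card_congr (AddMonoidHom.ofInjective hφ).toEquiv
  have h2 : Nat.card (AddSubgroup.zmultiples g) = n := by rw [Nat.card_zmultiples, hord]
  rw [h1, ← h2]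
  exact AddSubgroup.card_dvd_of_le hrange

section Nat

variable (q : ℕ) [Fact q.Prime] (T : LocalInvTheory q)
variable (W : Subgroup (PadicAlgCl q ≃ₐ[ℚ_[q]] PadicAlgCl q))

/-- The map induced on `H²` by the layer dictionary. -/
noncomputable def layerH2 (U : Subgroup ↥W) [U.Normal] :
    groupCohomology ((CW W).quotientToInvariants U) 2 ⟶
      groupCohomology (Rep.ofMulDistribMulAction (↥W ⧸ U) (↥(E W U))ˣ) 2 :=
  (groupCohomology.functor ℤ (↥W ⧸ U) 2).map (layerIso W U).hom

theorem layerH2_eq (U : Subgroup ↥W) [U.Normal] :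
    layerH2 q W U = groupCohomology.map (A := (CW W).quotientToInvariants U)
      (B := Rep.ofMulDistribMulAction (↥W ⧸ U) (↥(E W U))ˣ) (MonoidHom.id (↥W ⧸ U))
      (layerIso W U).hom 2 := rfl

theorem layerH2_bijective (U : Subgroup ↥W) [U.Normal] :
    Function.Bijective (layerH2 q W U).hom := by
  have h : IsIso (layerH2 q W U) :=
    inferInstanceAs (IsIso ((groupCohomology.functor ℤ (↥W ⧸ U) 2).map (layerIso W U).hom))
  exact ConcreteCategory.bijective_of_isIso (layerH2 q W U)

/-- The invariant map of the layer `W ⧸ U` of the local formation. -/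
noncomputable def layerInv (U : Subgroup ↥W) [U.Normal] (hU : IsLevel W U) :
    groupCohomology ((CW W).quotientToInvariants U) 2 →+ AddCircle (1 : ℚ) :=
  haveI := hU.finiteDimensional
  haveI := hU.finite_quotient
  haveI := hU.faithfulSMul
  (T.inv (E W U) (↥W ⧸ U)).comp (layerH2 q W U).hom.toAddMonoidHom

theorem layerInv_apply (U : Subgroup ↥W) [U.Normal] (hU : IsLevel W U)
    (y : groupCohomology ((CW W).quotientToInvariants U) 2) :
    haveI := hU.finiteDimensional
    haveI := hU.finite_quotient
    haveI := hU.faithfulSMul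
    layerInv q T W U hU y = T.inv (E W U) (↥W ⧸ U) ((layerH2 q W U).hom y) := rfl

theorem layerInv_injective (U : Subgroup ↥W) [U.Normal] (hU : IsLevel W U) :
    Function.Injective (layerInv q T W U hU) := by
  haveI := hU.finiteDimensional
  haveI := hU.finite_quotient
  haveI := hU.faithfulSMul
  intro y y' h
  rw [layerInv_apply, layerInv_apply] at h
  exact (layerH2_bijective q W U).1 (T.inv_injective (E W U) (↥W ⧸ U) h)

/-- **Inflation compatibility** of the layer invariants. -/
theorem layerInv_infl (U U' : Subgroup ↥W) [U.Normal] [U'.Normal] (hU : IsLevel W U)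
    (hU' : IsLevel W U') (hle : U' ≤ U)
    (y : groupCohomology ((CW W).quotientToInvariants U) 2) :
    layerInv q T W U' hU' ((inflLevelsH (CW W) U U' hle 2).hom y) = layerInv q T W U hU y := by
  haveI := hU.finiteDimensional
  haveI := hU.finite_quotient
  haveI := hU.faithfulSMul
  haveI := hU'.finiteDimensional
  haveI := hU'.finite_quotient
  haveI := hU'.faithfulSMul
  rw [layerInv_apply, layerInv_apply]
  have hsq := groupCohomology_map_square (k := ℤ) (quotMap W U U' hle) (MonoidHom.id (↥W ⧸ U))
    (MonoidHom.id (↥W ⧸ U')) (quotMap W U U' hle) rfl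
    (A := (CW W).quotientToInvariants U) (A' := (CW W).quotientToInvariants U')
    (B := Rep.ofMulDistribMulAction (↥W ⧸ U) (↥(E W U))ˣ)
    (B' := Rep.ofMulDistribMulAction (↥W ⧸ U') (↥(E W U'))ˣ)
    (invariantsInclusion (CW W) U U' hle) (layerIso W U).hom (layerIso W U').hom
    (unitsRepHomAlong (quotMap W U U' hle)
      ((inclE W U U' hle : ↥(E W U) →ₐ[ℚ_[q]] ↥(E W U')) : ↥(E W U) →+* ↥(E W U'))
      (inclE_smul W U U' hle))
    (by
      ext x
      exact (layerIso_invariantsInclusion_apply W U U' hle x).symm) 2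
  have h1 : (layerH2 q W U').hom ((inflLevelsH (CW W) U U' hle 2).hom y) =
      (groupCohomology.map (quotMap W U U' hle) (unitsRepHomAlong (quotMap W U U' hle)
        ((inclE W U U' hle : ↥(E W U) →ₐ[ℚ_[q]] ↥(E W U')) : ↥(E W U) →+* ↥(E W U'))
        (inclE_smul W U U' hle)) 2).hom ((layerH2 q W U).hom y) :=
    congr($hsq y)
  rw [h1]
  exact T.inv_infl (E W U) (↥W ⧸ U) (E W U') (↥W ⧸ U') (quotMap W U U' hle)
    (levelMap_surjective U U' hle) (inclE W U U' hle) (inclE_smul W U U' hle)
    (fun y hy => exists_inclE_eq_of_fixed W U U' hle y hy) _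

/-- A class with invariant `1 / [W : U]`. -/
theorem exists_layerInv_eq (U : Subgroup ↥W) [U.Normal] (hU : IsLevel W U) :
    ∃ x, layerInv q T W U hU x = (((1 : ℚ) / (U.index : ℚ) : ℚ) : AddCircle (1 : ℚ)) := by
  haveI := hU.finiteDimensional
  haveI := hU.finite_quotient
  haveI := hU.faithfulSMul
  have hn0 : (Nat.card (↥W ⧸ U) : ℚ) ≠ 0 := by
    have : Nat.card (↥W ⧸ U) ≠ 0 := Nat.card_pos.ne'
    exact_mod_cast this
  obtain ⟨z, hz⟩ := T.exists_inv_eq (E W U) (↥W ⧸ U)
    (((1 : ℚ) / (Nat.card (↥W ⧸ U) : ℚ) : ℚ) : AddCircle (1 : ℚ)) (by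
      rw [← QuotientAddGroup.mk_nsmul, ← QuotientAddGroup.mk_zero, QuotientAddGroup.eq,
        AddSubgroup.mem_zmultiples_iff]
      refine ⟨-1, ?_⟩
      simp only [zsmul_eq_mul, mul_one, nsmul_eq_mul, add_zero, Int.cast_neg, Int.cast_one]
      field_simp)
  obtain ⟨x, rfl⟩ := (layerH2_bijective q W U).2 z
  refine ⟨x, ?_⟩
  rw [layerInv_apply, hz, Subgroup.index_eq_card]

/-- Hilbert 90 on the layers of the local formation. -/
theorem isZero_H1_layer (U : Subgroup ↥W) [U.Normal] (hU : IsLevel W U)
    (H : Subgroup (↥W ⧸ U)) :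
    IsZero (H1 (Rep.res H.subtype ((CW W).quotientToInvariants U))) :=
  (hU.isZero_H1_res H).of_iso ((groupCohomology.functor ℤ ↥H 1).mapIso
    ((Rep.resFunctor H.subtype).mapIso (layerIso W U)))

include T in
/-- The order of `H²` of a sub-layer divides the order of the group. -/
theorem card_H2_layer_dvd (U : Subgroup ↥W) [U.Normal] (hU : IsLevel W U)
    (H : Subgroup (↥W ⧸ U)) :
    Nat.card (H2 (Rep.res H.subtype ((CW W).quotientToInvariants U))) ∣ Nat.card ↥H := by
  haveI := hU.finiteDimensional
  haveI := hU.finite_quotient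
  haveI := hU.faithfulSMul
  have e : H2 (Rep.res H.subtype ((CW W).quotientToInvariants U)) ≅
      H2 (Rep.ofMulDistribMulAction ↥H (↥(E W U))ˣ) :=
    (groupCohomology.functor ℤ ↥H 2).mapIso ((Rep.resFunctor H.subtype).mapIso (layerIso W U))
  have hbij : Function.Bijective e.hom.hom := ConcreteCategory.bijective_of_isIso e.hom
  refine card_dvd_of_injective_addCircle
    ((T.inv (E W U) ↥H).comp e.hom.hom.toAddMonoidHom) ?_ (Nat.card ↥H) Nat.card_pos.ne' ?_
  · exact (T.inv_injective (E W U) ↥H).comp hbij.1
  · intro x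
    exact T.card_nsmul_inv (E W U) ↥H _

/-- The module `(PadicAlgCl q)ˣ` is discrete for the open subgroups of `W`. -/
theorem isDiscrete_CW : (LES.restrict (Bridge.localLevels q) W).IsDiscrete (CW W) := by
  intro x
  set α : PadicAlgCl q := ((unitOf W x : (PadicAlgCl q)ˣ) : PadicAlgCl q) with hα
  have halg : IsAlgebraic ℚ_[q] α := Algebra.IsAlgebraic.isAlgebraic α
  have hfd : FiniteDimensional ℚ_[q] (IntermediateField.adjoin ℚ_[q] {α}) :=
    IntermediateField.adjoin.finiteDimensional halg.isIntegral
  refine ⟨(IntermediateField.adjoin ℚ_[q] {α}).fixingSubgroup.comap W.subtype,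
    LES.comap_mem_comap_levels W.subtype ⟨IntermediateField.adjoin ℚ_[q] {α}, hfd, rfl⟩,
    fun s hs => ?_⟩
  apply unitOf_injective W
  apply Units.ext
  rw [coe_unitOf_ρ]
  exact hs ⟨α, IntermediateField.mem_adjoin_simple_self _ α⟩

variable (hW : W ∈ (Bridge.localLevels q).levels)

/-- The system of invariant maps of the local formation on the open subgroup `W`. -/
noncomputable def invData : InvData (LES.restrict (Bridge.localLevels q) W) (CW W) where
  inv U _ hU := layerInv q T W U (isLevel_of_mem_restrict_localLevels q hW hU)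
  inv_injective U _ hU :=
    layerInv_injective q T W U (isLevel_of_mem_restrict_localLevels q hW hU)
  isZero_H1 U _ hU H := isZero_H1_layer q W U (isLevel_of_mem_restrict_localLevels q hW hU) H
  card_H2_dvd U _ hU H :=
    card_H2_layer_dvd q T W U (isLevel_of_mem_restrict_localLevels q hW hU) H
  exists_inv_eq U _ hU :=
    exists_layerInv_eq q T W U (isLevel_of_mem_restrict_localLevels q hW hU)
  inv_infl U U' _ _ hU hU' hle y :=
    layerInv_infl q T W U U' (isLevel_of_mem_restrict_localLevels q hW hU)
      (isLevel_of_mem_restrict_localLevels q hW hU') hle y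

/-- **The local class formation** on an open subgroup `W` of `Gal(PadicAlgCl q / ℚ_q)`. -/
noncomputable def formationNat : Formation ℤ ↥W :=
  (invData q T W hW).toFormation (isDiscrete_CW q W)

theorem formationNat_𝒰 : (formationNat q T W hW).𝒰 = LES.restrict (Bridge.localLevels q) W := rfl

theorem formationNat_C : (formationNat q T W hW).C = CW W := rfl

theorem formationNat_isClassLayer (U : Subgroup ↥W) [U.Normal]
    (hU : U ∈ (LES.restrict (Bridge.localLevels q) W).levels) :
    IsClassLayer ((CW W).quotientToInvariants U) ((formationNat q T W hW).u U hU) :=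
  (invData q T W hW).toFormation_isClassLayer (isDiscrete_CW q W) U hU

theorem formationNat_invLevel (U : Subgroup ↥W) [U.Normal]
    (hU : U ∈ (LES.restrict (Bridge.localLevels q) W).levels) :
    (formationNat q T W hW).invLevel U hU =
      layerInv q T W U (isLevel_of_mem_restrict_localLevels q hW hU) :=
  (invData q T W hW).toFormation_invLevel (isDiscrete_CW q W) U hU

end Nat

/-! ### The formation on the open subgroups of `primeLocalGaloisGroup q` -/

section Primes

open ExtCitation Fermat.Agent.Lib.CFT.Duality Fermat.Agent.Lib.CFT.Local.LqModule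

variable (q : Nat.Primes) (T : @LocalInvTheory (q : ℕ) ⟨q.2⟩)
  (W : Subgroup (primeLocalGaloisGroup q)) (hW : W ∈ (primeLocalLevels q).levels)

/-- **The local class formation** on an open subgroup `W` of the local Galois group at `q`:
levels `LES.restrict (primeLocalLevels q) W`, module `Rep.res W.subtype (Lq q)`. -/
noncomputable def localFormation : Formation ℤ ↥W :=
  letI : Fact (q : ℕ).Prime := ⟨q.2⟩
  formationNat (q : ℕ) T W hW

theorem localFormation_𝒰 :
    (localFormation q T W hW).𝒰 = LES.restrict (primeLocalLevels q) W := rfl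

theorem localFormation_C : (localFormation q T W hW).C = Rep.res W.subtype (Lq q) := rfl

theorem isClassLayer_localFormation (U : Subgroup ↥W) [U.Normal]
    (hU : U ∈ (LES.restrict (primeLocalLevels q) W).levels) :
    IsClassLayer ((Rep.res W.subtype (Lq q)).quotientToInvariants U)
      ((localFormation q T W hW).u U hU) :=
  letI : Fact (q : ℕ).Prime := ⟨q.2⟩
  @formationNat_isClassLayer (q : ℕ) _ T W hW U ‹U.Normal› hU

/-- The level invariant maps of the local formation are the canonical local invariants of the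
finite layers, transported along the layer dictionary. -/
theorem localFormation_invLevel (U : Subgroup ↥W) [U.Normal]
    (hU : U ∈ (LES.restrict (primeLocalLevels q) W).levels) :
    letI : Fact (q : ℕ).Prime := ⟨q.2⟩
    (localFormation q T W hW).invLevel U hU =
      @layerInv (q : ℕ) _ T W U ‹U.Normal›
        (@isLevel_of_mem_restrict_localLevels (q : ℕ) _ W U hW hU) :=
  letI : Fact (q : ℕ).Prime := ⟨q.2⟩
  @formationNat_invLevel (q : ℕ) _ T W hW U ‹U.Normal› hU

end Primes

end Fermat.Agent.Lib.CFT.Global.SVersion.LocalFormation
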