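import Mathlib
import Fermat.Agent.Lib.CFT.Global.SVersion.LocalFormation
import Fermat.Agent.Lib.CFT.Global.SVersion.FormationSub
import Fermat.Agent.Lib.CFT.Local.LocalInvInstance

/-!
# Cohomology of the local formation along sub-families of levels (P-CFT, S-version (P3), helper66)

For an open subgroup `W` of the local Galois group at `q`, `C := Rep.res W.subtype (Lq q)` and the
level family `𝒱 := LES.restrict (primeLocalLevels q) W` of all open subgroups of `W`:

* `H¹(𝒱, C) = 0` (Hilbert 90) and `H³(𝒱, C) = 0`;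
* for a sub-family `𝒲'` of normal open subgroups: `H¹(𝒲', C) = H³(𝒲', C) = 0`,
  `H²(𝒲', C) → H²(𝒱, C)` is injective; if the indices in `𝒲'` are cofinally multiplied by `p`,
  `H²(𝒲', C)` is `p`-divisible and the map is bijective on `p`-torsion.

These are helper33's abstract `FormationSub` statements applied to `localFormation`.
-/

set_option autoImplicit false
set_option linter.unusedSectionVars false

namespace Fermat.Agent.Lib.CFT.Global.SVersion.LocalCompare

open CategoryTheory groupCohomology ExtCitation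
open Fermat.Agent.Lib.CFT.Profinite Fermat.Agent.Lib.CFT.Profinite.LevelFamily
  Fermat.Agent.Lib.CFT.Coh.ClassFormation
  Fermat.Agent.Lib.CFT.Coh.TateThm Fermat.Agent.Lib.CFT.Local Fermat.Agent.Lib.CFT.Duality
  Fermat.Agent.Lib.CFT.Local.LqModule
  Fermat.Agent.Lib.CFT.Global.SVersion.LocalFormation
  Fermat.Agent.Lib.CFT.Global.SVersion.FormationSub

/-! ### Subgroups containing a level are levels -/

section UpwardClosed

/-- In the Galois group of a Galois extension, a subgroup containing the fixing subgroup of a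
finite subextension is itself the fixing subgroup of a finite subextension. -/
theorem mem_fixingLevels_of_le {K L : Type} [Field K] [Field L] [Algebra K L] [IsGalois K L]
    {V W : Subgroup (L ≃ₐ[K] L)} (hV : V ∈ (Bridge.fixingLevels K L).levels) (hle : V ≤ W) :
    W ∈ (Bridge.fixingLevels K L).levels := by
  obtain ⟨E, hE, rfl⟩ := hV
  have := hE
  have hopen : IsOpen (W : Set (L ≃ₐ[K] L)) := Subgroup.isOpen_mono hle E.fixingSubgroup_isOpen
  have hclosed : IsClosed (W : Set (L ≃ₐ[K] L)) := Subgroup.isClosed_of_isOpen W hopen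
  have h1 : (IntermediateField.fixedField W).fixingSubgroup = W :=
    InfiniteGalois.fixingSubgroup_fixedField ⟨W, hclosed⟩
  have h2 : IntermediateField.fixedField W ≤ E := by
    rw [← InfiniteGalois.fixedField_fixingSubgroup E]
    intro x hx
    rw [IntermediateField.mem_fixedField_iff] at hx ⊢
    exact fun g hg => hx g (hle hg)
  refine ⟨IntermediateField.fixedField W, ?_, h1.symm⟩
  have h3 : (IntermediateField.fixedField W).toSubalgebra.toSubmodule ≤
      E.toSubalgebra.toSubmodule := h2
  exact Submodule.finiteDimensional_of_le h3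

/-- A subgroup of the local Galois group at `q` containing an open subgroup is open (a level). -/
theorem mem_primeLocalLevels_of_le (q : Nat.Primes) {V W : Subgroup (primeLocalGaloisGroup q)}
    (hV : V ∈ (primeLocalLevels q).levels) (hle : V ≤ W) : W ∈ (primeLocalLevels q).levels :=
  letI : Fact (q : ℕ).Prime := ⟨q.2⟩
  mem_fixingLevels_of_le (K := ℚ_[(q : ℕ)]) (L := PadicAlgCl (q : ℕ)) hV hle

/-- The preimage in the local Galois group of a level of a compatible family is a level. -/
theorem comap_mem_primeLocalLevels (q : Nat.Primes) {G : Type} [Group G] {𝒰 : LevelFamily G}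
    (φ : primeLocalGaloisGroup q →* G) (hφ : IsCompatible (primeLocalLevels q) 𝒰 φ)
    {U : Subgroup G} (hU : U ∈ 𝒰.levels) : U.comap φ ∈ (primeLocalLevels q).levels := by
  obtain ⟨V, hV, hle⟩ := hφ U hU
  exact mem_primeLocalLevels_of_le q hV (fun x hx => hle hx)

end UpwardClosed

section WithT

variable (q : Nat.Primes) (T : @LocalInvTheory (q : ℕ) ⟨q.2⟩)
  (W : Subgroup (primeLocalGaloisGroup q)) (hW : W ∈ (primeLocalLevels q).levels)

include T hW in
/-- `H¹` and `H³` of the full family of open subgroups of `W` vanish. -/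
theorem subsingleton_one_three_of_T :
    Subsingleton ((LES.restrict (primeLocalLevels q) W).levelCohomology
        (Rep.res W.subtype (Lq q)) 1) ∧
      Subsingleton ((LES.restrict (primeLocalLevels q) W).levelCohomology
        (Rep.res W.subtype (Lq q)) 3) :=
  ⟨subsingleton_levelCohomology_one _ _ (fun U hn hU =>
      ⟨U, hn, hU, le_rfl, _, @isClassLayer_localFormation q T W hW U hn hU⟩),
    subsingleton_levelCohomology_three _ _ (fun U hn hU =>
      ⟨U, hn, hU, le_rfl, _, @isClassLayer_localFormation q T W hW U hn hU⟩)⟩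

variable (𝒲' : LevelFamily ↥W)
  (hsub : ∀ U ∈ 𝒲'.levels, U ∈ (LES.restrict (primeLocalLevels q) W).levels)
  (hn : ∀ U ∈ 𝒲'.levels, U.Normal)

include T hW hsub in
/-- `H¹` and `H³` of a sub-family of normal open subgroups of `W` vanish. -/
theorem sub_subsingleton_one_three_of_T :
    Subsingleton (𝒲'.levelCohomology (Rep.res W.subtype (Lq q)) 1) ∧
      Subsingleton (𝒲'.levelCohomology (Rep.res W.subtype (Lq q)) 3) :=
  subsingleton_one_three 𝒲' (localFormation q T W hW) hsub
    (fun U hnU hU => @isClassLayer_localFormation q T W hW U hnU (hsub U hU))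

end WithT

/-! ### The comparison map `H²(𝒲', C) → H²(𝒱, C)` -/

section Cmp

variable (q : Nat.Primes) (W : Subgroup (primeLocalGaloisGroup q))
  (𝒲' : LevelFamily ↥W)
  (hsub : ∀ U ∈ 𝒲'.levels, U ∈ (LES.restrict (primeLocalLevels q) W).levels)

include hsub in
theorem isCompatible_sub :
    IsCompatible (LES.restrict (primeLocalLevels q) W) 𝒲' (MonoidHom.id ↥W) :=
  fun U hU => ⟨U, hsub U hU, fun _ hx => hx⟩

/-- The canonical map `Hⁿ(𝒲', C) → Hⁿ(𝒱, C)` for a sub-family `𝒲'` of the open subgroups of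
`W`. -/
noncomputable abbrev cmpMap (n : ℕ) :
    𝒲'.levelCohomology (Rep.res W.subtype (Lq q)) n ⟶
      (LES.restrict (primeLocalLevels q) W).levelCohomology (Rep.res W.subtype (Lq q)) n :=
  LES.map (MonoidHom.id ↥W) (isCompatible_sub q W 𝒲' hsub) (𝟙 (Rep.res W.subtype (Lq q))) n

theorem cmpMap_eq_subMap (T : @LocalInvTheory (q : ℕ) ⟨q.2⟩)
    (hW : W ∈ (primeLocalLevels q).levels) (n : ℕ) :
    cmpMap q W 𝒲' hsub n = subMap (localFormation q T W hW) 𝒲' hsub n := rfl

/-- The map induced by `cmpMap` on `p`-torsion of `H²`. -/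
noncomputable def cmpTorsionMap (p : ℕ) :
    {x : 𝒲'.levelCohomology (Rep.res W.subtype (Lq q)) 2 // p • x = 0} →
      {x : (LES.restrict (primeLocalLevels q) W).levelCohomology
        (Rep.res W.subtype (Lq q)) 2 // p • x = 0} :=
  fun x => ⟨(cmpMap q W 𝒲' hsub 2).hom x.1, by rw [← map_nsmul, x.2, map_zero]⟩

@[simp]
theorem cmpTorsionMap_coe (p : ℕ)
    (x : {x : 𝒲'.levelCohomology (Rep.res W.subtype (Lq q)) 2 // p • x = 0}) :
    (cmpTorsionMap q W 𝒲' hsub p x).1 = (cmpMap q W 𝒲' hsub 2).hom x.1 := rfl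

variable (T : @LocalInvTheory (q : ℕ) ⟨q.2⟩) (hW : W ∈ (primeLocalLevels q).levels)

include T hW in
/-- `H²(𝒲', C) → H²(𝒱, C)` is injective. -/
theorem cmpMap_injective_of_T : Function.Injective (cmpMap q W 𝒲' hsub 2).hom :=
  subMap_injective (localFormation q T W hW) 𝒲' hsub

variable (hn : ∀ U ∈ 𝒲'.levels, U.Normal) {p : ℕ}
  (hp : ∀ U ∈ 𝒲'.levels, ∃ U' ∈ 𝒲'.levels, U' ≤ U ∧ p * U.index ∣ U'.index)

include T hW hsub hn hp in
/-- If the indices in `𝒲'` are cofinally multiplied by `p`, then `H²(𝒲', C)` is `p`-divisible. -/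
theorem exists_nsmul_eq_of_T (x : 𝒲'.levelCohomology (Rep.res W.subtype (Lq q)) 2) :
    ∃ y : 𝒲'.levelCohomology (Rep.res W.subtype (Lq q)) 2, p • y = x :=
  exists_nsmul_eq_sub_of_normal (localFormation q T W hW) 𝒲' hsub hn hp x

include T hW hn hp in
/-- If the indices in `𝒲'` are cofinally multiplied by `p`, then `H²(𝒲', C) → H²(𝒱, C)` is
bijective on `p`-torsion. -/
theorem cmpTorsionMap_bijective_of_T : Function.Bijective (cmpTorsionMap q W 𝒲' hsub p) := by
  obtain ⟨U₀, hU₀⟩ := 𝒲'.nonempty
  obtain ⟨U, hU, -, hdvd⟩ := hp U₀ hU₀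
  exact torsionMap_bijective_of_normal (localFormation q T W hW) 𝒲' hsub hn U hU
    (Dvd.dvd.trans (Dvd.intro _ rfl) hdvd)

end Cmp

/-! ### Unconditional statements (canonical local invariants) -/

section Canonical

variable (q : Nat.Primes) (W : Subgroup (primeLocalGaloisGroup q))
  (hW : W ∈ (primeLocalLevels q).levels)

/-- The canonical local invariants at `q`. -/
noncomputable def canonicalT : @LocalInvTheory (q : ℕ) ⟨q.2⟩ :=
  @localInvTheory (q : ℕ) ⟨q.2⟩

/-- **The canonical local class formation** on the open subgroup `W` of the local Galois group. -/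
noncomputable def canonicalFormation : Formation ℤ ↥W :=
  localFormation q (canonicalT q) W hW

theorem canonicalFormation_𝒰 :
    (canonicalFormation q W hW).𝒰 = LES.restrict (primeLocalLevels q) W := rfl

theorem canonicalFormation_C :
    (canonicalFormation q W hW).C = Rep.res W.subtype (Lq q) := rfl

theorem isClassLayer_canonicalFormation (U : Subgroup ↥W) [U.Normal]
    (hU : U ∈ (LES.restrict (primeLocalLevels q) W).levels) :
    IsClassLayer ((Rep.res W.subtype (Lq q)).quotientToInvariants U)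
      ((canonicalFormation q W hW).u U hU) :=
  isClassLayer_localFormation q (canonicalT q) W hW U hU

include hW in
/-- **Hilbert 90** for the open subgroup `W`: `H¹(W, (ℚ̄_q)ˣ) = 0`. -/
theorem subsingleton_H1 :
    Subsingleton ((LES.restrict (primeLocalLevels q) W).levelCohomology
      (Rep.res W.subtype (Lq q)) 1) :=
  (subsingleton_one_three_of_T q (canonicalT q) W hW).1

include hW in
/-- `H³(W, (ℚ̄_q)ˣ) = 0`. -/
theorem subsingleton_H3 :
    Subsingleton ((LES.restrict (primeLocalLevels q) W).levelCohomology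
      (Rep.res W.subtype (Lq q)) 3) :=
  (subsingleton_one_three_of_T q (canonicalT q) W hW).2

variable (𝒲' : LevelFamily ↥W)
  (hsub : ∀ U ∈ 𝒲'.levels, U ∈ (LES.restrict (primeLocalLevels q) W).levels)

include hW hsub in
/-- `H¹(𝒲', (ℚ̄_q)ˣ) = 0` for a sub-family of open subgroups of `W`. -/
theorem sub_subsingleton_H1 :
    Subsingleton (𝒲'.levelCohomology (Rep.res W.subtype (Lq q)) 1) :=
  (sub_subsingleton_one_three_of_T q (canonicalT q) W hW 𝒲' hsub).1

include hW hsub in
/-- `H³(𝒲', (ℚ̄_q)ˣ) = 0` for a sub-family of open subgroups of `W`. -/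
theorem sub_subsingleton_H3 :
    Subsingleton (𝒲'.levelCohomology (Rep.res W.subtype (Lq q)) 3) :=
  (sub_subsingleton_one_three_of_T q (canonicalT q) W hW 𝒲' hsub).2

include hW in
/-- `H²(𝒲', (ℚ̄_q)ˣ) → H²(W, (ℚ̄_q)ˣ)` is injective. -/
theorem cmpMap_injective : Function.Injective (cmpMap q W 𝒲' hsub 2).hom :=
  cmpMap_injective_of_T q W 𝒲' hsub (canonicalT q) hW

variable (hn : ∀ U ∈ 𝒲'.levels, U.Normal) {p : ℕ}
  (hp : ∀ U ∈ 𝒲'.levels, ∃ U' ∈ 𝒲'.levels, U' ≤ U ∧ p * U.index ∣ U'.index)

include hW hsub hn hp in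
/-- If the indices in `𝒲'` are cofinally multiplied by `p`, `H²(𝒲', (ℚ̄_q)ˣ)` is `p`-divisible. -/
theorem exists_nsmul_eq (x : 𝒲'.levelCohomology (Rep.res W.subtype (Lq q)) 2) :
    ∃ y : 𝒲'.levelCohomology (Rep.res W.subtype (Lq q)) 2, p • y = x :=
  exists_nsmul_eq_of_T q W 𝒲' hsub (canonicalT q) hW hn hp x

include hW hn hp in
/-- If the indices in `𝒲'` are cofinally multiplied by `p`, `H²(𝒲', (ℚ̄_q)ˣ) → H²(W, (ℚ̄_q)ˣ)` is
bijective on `p`-torsion. -/
theorem cmpTorsionMap_bijective : Function.Bijective (cmpTorsionMap q W 𝒲' hsub p) :=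
  cmpTorsionMap_bijective_of_T q W 𝒲' hsub (canonicalT q) hW hn hp

/-- The invariant map `H²(W, (ℚ̄_q)ˣ) →+ ℚ/ℤ` of the canonical local formation. -/
noncomputable def invW : (LES.restrict (primeLocalLevels q) W).levelCohomology
    (Rep.res W.subtype (Lq q)) 2 →+ AddCircle (1 : ℚ) :=
  (canonicalFormation q W hW).inv

theorem invW_injective : Function.Injective (invW q W hW) :=
  (canonicalFormation q W hW).inv_injective

end Canonical

end Fermat.Agent.Lib.CFT.Global.SVersion.LocalCompare
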