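import Fermat.Agent.Lib.CFT.Global.IdeleMap

/-!
# The ambient idele product of `Qbar` (helper11, P-CFT Global/S-version, task 219, file 1)

`LocAlg L q = ℚ_q ⊗ L` and `ArchAlg L = ℝ ⊗ L` make sense for every field of characteristic
zero, in particular for `Qbar = AlgebraicClosure ℚ`, on which `Γℚ = Gal(Qbar/ℚ)` acts through the
second tensor factor.  The unrestricted product `AmbJ` of the unit groups of these algebras
receives the idele group of every finite subextension `F ⊆ Qbar` (injectively, compatibly with the
transition maps `ideleMap`, and `Γℚ`-equivariantly when `F` is normal).  All the discrete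
`Γℚ`-modules of the `S`-version (`E_S`, `J_S`, `C_S`) are realised as subquotients of `AmbJ`,
so no direct limit is needed.
-/

open scoped TensorProduct NumberField

noncomputable section

namespace Fermat.Agent.Lib.CFT.Global.SVersion

local notation "Qbar" => AlgebraicClosure ℚ
local notation "Γℚ" => (AlgebraicClosure ℚ ≃ₐ[ℚ] AlgebraicClosure ℚ)

/-- The ambient group: the unrestricted product of the unit groups of `ℚ_q ⊗ Qbar` and of
`ℝ ⊗ Qbar`.  It is a commutative group with a `MulDistribMulAction` of `Γℚ` (Pi / Prod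
instances on top of `locAlgUnitsAction`, `archAlgUnitsAction`). -/
abbrev AmbJ : Type := (∀ q : Nat.Primes, (LocAlg Qbar q)ˣ) × (ArchAlg Qbar)ˣ

@[simp] lemma smul_ambJ_fst (σ : Γℚ) (a : AmbJ) (q : Nat.Primes) : (σ • a).1 q = σ • a.1 q := rfl

@[simp] lemma smul_ambJ_snd (σ : Γℚ) (a : AmbJ) : (σ • a).2 = σ • a.2 := rfl

/-- A finite subextension of `Qbar / ℚ` is a number field. -/
instance numberField_of_finiteDimensional (F : IntermediateField ℚ Qbar) [FiniteDimensional ℚ F] :
    NumberField F := ⟨⟩

section ToAmb

variable (F : IntermediateField ℚ Qbar)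

/-- The inclusion `F → Qbar` as a ring homomorphism. -/
def incl : F →+* Qbar := (F.val : F →+* Qbar)

@[simp] lemma incl_apply (x : F) : incl F x = (x : Qbar) := rfl

lemma incl_comp_inclusion {F F' : IntermediateField ℚ Qbar} (h : F ≤ F') :
    (incl F').comp ((IntermediateField.inclusion h : F →ₐ[ℚ] F') : F →+* F') = incl F := by
  ext x; rfl

/-- The local component map `(ℚ_q ⊗ F)ˣ → (ℚ_q ⊗ Qbar)ˣ`. -/
def locToAmb (q : Nat.Primes) : (LocAlg F q)ˣ →* (LocAlg Qbar q)ˣ :=
  Units.map ((locMap (incl F) q : LocAlg F q →ₐ[ℚ_[pv q]] LocAlg Qbar q) : LocAlg F q →* LocAlg Qbar q)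

/-- The archimedean component map `(ℝ ⊗ F)ˣ → (ℝ ⊗ Qbar)ˣ`. -/
def archToAmb : (ArchAlg F)ˣ →* (ArchAlg Qbar)ˣ :=
  Units.map ((archMap (incl F) : ArchAlg F →ₐ[ℝ] ArchAlg Qbar) : ArchAlg F →* ArchAlg Qbar)

@[simp] lemma val_locToAmb (q : Nat.Primes) (u : (LocAlg F q)ˣ) :
    ((locToAmb F q u : (LocAlg Qbar q)ˣ) : LocAlg Qbar q) = locMap (incl F) q (u : LocAlg F q) := rfl

@[simp] lemma val_archToAmb (u : (ArchAlg F)ˣ) :
    ((archToAmb F u : (ArchAlg Qbar)ˣ) : ArchAlg Qbar) = archMap (incl F) (u : ArchAlg F) := rfl

lemma locToAmb_injective (q : Nat.Primes) : Function.Injective (locToAmb F q) := by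
  intro u v h
  apply Units.ext
  apply TensorExt.tmap_injective ℚ_[pv q] (incl F)
  exact congrArg Units.val h

lemma archToAmb_injective : Function.Injective (archToAmb F) := by
  intro u v h
  apply Units.ext
  apply TensorExt.tmap_injective ℝ (incl F)
  exact congrArg Units.val h

variable [FiniteDimensional ℚ F]

/-- The idele group of a finite subextension `F` of `Qbar`, mapped to the ambient product. -/
def toAmb : Idele F →* AmbJ where
  toFun a := (fun q => locToAmb F q ((a : IdeleProd F).1 q), archToAmb F (a : IdeleProd F).2)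
  map_one' := by
    ext : 1
    · funext q; exact map_one _
    · exact map_one _
  map_mul' a b := by
    ext : 1
    · funext q; exact map_mul _ _ _
    · exact map_mul _ _ _

@[simp] lemma toAmb_fst (a : Idele F) (q : Nat.Primes) :
    (toAmb F a).1 q = locToAmb F q ((a : IdeleProd F).1 q) := rfl

@[simp] lemma toAmb_snd (a : Idele F) : (toAmb F a).2 = archToAmb F (a : IdeleProd F).2 := rfl

lemma toAmb_injective : Function.Injective (toAmb F) := by
  intro a b h
  apply Subtype.ext
  ext : 1
  · funext q
    apply locToAmb_injective F q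
    exact congrFun (congrArg Prod.fst h) q
  · apply archToAmb_injective F
    exact congrArg Prod.snd h

end ToAmb

section Transition

variable {F F' : IntermediateField ℚ Qbar} [FiniteDimensional ℚ F] [FiniteDimensional ℚ F']

/-- The transition map `Idele F → Idele F'` for `F ≤ F'`. -/
def levelMap (h : F ≤ F') : Idele F →* Idele F' :=
  ideleMap ((IntermediateField.inclusion h : F →ₐ[ℚ] F') : F →+* F')

/-- The maps to the ambient product are compatible with the transition maps. -/
lemma toAmb_levelMap (h : F ≤ F') (a : Idele F) : toAmb F' (levelMap h a) = toAmb F a := by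
  ext : 1
  · funext q
    apply Units.ext
    change locMap (incl F') q (locMap _ q _) = locMap (incl F) q _
    rw [← locMap_comp, incl_comp_inclusion h]
  · apply Units.ext
    change archMap (incl F') (archMap _ _) = archMap (incl F) _
    rw [← archMap_comp, incl_comp_inclusion h]

lemma levelMap_injective (h : F ≤ F') : Function.Injective (levelMap h) :=
  ideleMap_injective _

lemma range_toAmb_mono (h : F ≤ F') : (toAmb F).range ≤ (toAmb F').range := by
  rintro _ ⟨a, rfl⟩
  exact ⟨levelMap h a, toAmb_levelMap h a⟩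

end Transition

section Galois

variable (F : IntermediateField ℚ Qbar)

/-- Elements of the fixing subgroup of `F` fix the image of the ideles of `F`. -/
lemma smul_toAmb_of_mem_fixingSubgroup [FiniteDimensional ℚ F] {σ : Γℚ}
    (hσ : σ ∈ F.fixingSubgroup) (a : Idele F) : σ • toAmb F a = toAmb F a := by
  have hcomp : (MulSemiringAction.toRingHom Γℚ Qbar σ).comp (incl F) = incl F := by
    ext x
    exact (IntermediateField.mem_fixingSubgroup_iff F σ).1 hσ x x.2
  ext : 1
  · funext q
    apply Units.ext
    change locMap (MulSemiringAction.toRingHom Γℚ Qbar σ) q (locMap (incl F) q _) =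
      locMap (incl F) q _
    rw [← locMap_comp, hcomp]
  · apply Units.ext
    change archMap (MulSemiringAction.toRingHom Γℚ Qbar σ) (archMap (incl F) _) =
      archMap (incl F) _
    rw [← archMap_comp, hcomp]

/-- The action of `Γℚ` on a normal subextension of `Qbar` (through `Gal(F/ℚ)`).  It is a plain
`def` turned into a scoped instance: `open scoped Fermat.Agent.Lib.CFT.Global.SVersion`. -/
@[reducible] def galAction [Normal ℚ F] : MulSemiringAction Γℚ F :=
  MulSemiringAction.compHom F (AlgEquiv.restrictNormalHom (F := ℚ) (K₁ := Qbar) F)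

scoped[Fermat.Agent.Lib.CFT.Global.SVersion] attribute [instance] galAction

variable [Normal ℚ F]

lemma galAction_smul_def (σ : Γℚ) (x : F) : σ • x = AlgEquiv.restrictNormal σ F x := rfl

@[simp] lemma coe_galAction_smul (σ : Γℚ) (x : F) : ((σ • x : F) : Qbar) = σ (x : Qbar) :=
  AlgEquiv.restrictNormal_commutes σ F x

lemma incl_comp_toRingHom (σ : Γℚ) :
    (incl F).comp (MulSemiringAction.toRingHom Γℚ F σ) =
      (MulSemiringAction.toRingHom Γℚ Qbar σ).comp (incl F) := by
  ext x
  exact coe_galAction_smul F σ x

/-- For a normal finite subextension `F`, the map `Idele F → AmbJ` is `Γℚ`-equivariant. -/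
lemma toAmb_smul [FiniteDimensional ℚ F] (σ : Γℚ) (a : Idele F) :
    toAmb F (σ • a) = σ • toAmb F a := by
  ext : 1
  · funext q
    apply Units.ext
    change locMap (incl F) q (locMap (MulSemiringAction.toRingHom Γℚ F σ) q _) =
      locMap (MulSemiringAction.toRingHom Γℚ Qbar σ) q (locMap (incl F) q _)
    rw [← locMap_comp, ← locMap_comp, incl_comp_toRingHom]
  · apply Units.ext
    change archMap (incl F) (archMap (MulSemiringAction.toRingHom Γℚ F σ) _) =
      archMap (MulSemiringAction.toRingHom Γℚ Qbar σ) (archMap (incl F) _)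
    rw [← archMap_comp, ← archMap_comp, incl_comp_toRingHom]

/-- The image of the ideles of a normal finite subextension is `Γℚ`-stable. -/
lemma smul_mem_range_toAmb [FiniteDimensional ℚ F] (σ : Γℚ) {a : AmbJ}
    (ha : a ∈ (toAmb F).range) : σ • a ∈ (toAmb F).range := by
  obtain ⟨b, rfl⟩ := ha
  exact ⟨σ • b, toAmb_smul F σ b⟩

/-- The transition maps between normal levels are equivariant. -/
lemma levelMap_smul {F F' : IntermediateField ℚ Qbar} [FiniteDimensional ℚ F]
    [FiniteDimensional ℚ F'] [Normal ℚ F] [Normal ℚ F'] (h : F ≤ F') (σ : Γℚ) (a : Idele F) :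
    levelMap h (σ • a) = σ • levelMap h a := by
  apply toAmb_injective F'
  rw [toAmb_levelMap, toAmb_smul, toAmb_smul, toAmb_levelMap]

end Galois

end Fermat.Agent.Lib.CFT.Global.SVersion
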