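import Mathlib
import Fermat.Prelude.Def_GroupCohomology_ContinuousUnramified
import Fermat.Agent.Lib.CFT.Profinite.BridgeNormal

/-!
# P-CFT, Global/SVersion (S-b), helper25: divisibility of the `S`-units of `ℚ_S`

Everything is phrased with valuation subrings of a big field (`AlgebraicClosure ℚ` in the end)
and the Prelude notion `IntermediateField.IsUnramifiedOutside`.

* `inertia_apply_eq_of_pow_eq` : the inertia group of `A` fixes every `n`-th root `x` of a fixed
  element, provided `x` and `n` are units of `A`.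
* `isUnramifiedOutside_sup_adjoin_of_pow_mem` : Kummer ramification criterion.
* `ESbar S` : the `S`-units of `ℚ_S`, its divisibility and torsion.
-/

set_option autoImplicit false

open scoped Pointwise

namespace Fermat.Agent.Lib.CFT.Global.SVersion

open Fermat.Agent.Lib.CFT.Profinite.Bridge

section Core

variable {K L : Type*} [Field K] [Field L] [Algebra K L]

theorem inertia_sub_mem_nonunits {A : ValuationSubring L} {σ : L ≃ₐ[K] L}
    (hσ : σ ∈ A.inertiaSubgroupIn K) {x : L} (hx : x ∈ A) : σ x - x ∈ A.nonunits :=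
  ((mem_inertiaSubgroupIn_iff A σ).mp hσ).2 x hx

theorem inertia_apply_mem {A : ValuationSubring L} {σ : L ≃ₐ[K] L}
    (hσ : σ ∈ A.inertiaSubgroupIn K) {x : L} (hx : x ∈ A) : σ x ∈ A := by
  have h := ((mem_inertiaSubgroupIn_iff A σ).mp hσ).1
  have h1 : σ • x ∈ σ • A := ValuationSubring.smul_mem_pointwise_smul _ _ _ hx
  rw [h] at h1
  exact h1

/-- An `n`-th root of unity congruent to `1` modulo the maximal ideal of a valuation subring in
which `n` is a unit is equal to `1`. -/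
theorem eq_one_of_pow_eq_one_of_sub_one_mem_nonunits {A : ValuationSubring L} {n : ℕ}
    (hn : A.valuation (n : L) = 1) {ζ : L} (hζn : ζ ^ n = 1) (hζ : ζ - 1 ∈ A.nonunits) :
    ζ = 1 := by
  by_contra hne
  have hsum : (∑ i ∈ Finset.range n, ζ ^ i) = 0 := by
    have h1 : (ζ - 1) * ∑ i ∈ Finset.range n, ζ ^ i = 0 := by
      rw [mul_geom_sum, hζn, sub_self]
    rcases mul_eq_zero.mp h1 with h | h
    · exact absurd (sub_eq_zero.mp h) hne
    · exact h
  -- each `ζ ^ i - 1` is a nonunit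
  have hζA : ζ ∈ A := by
    have h1 : ζ - 1 ∈ A := A.nonunits_subset hζ
    have : ζ = (ζ - 1) + 1 := by ring
    rw [this]
    exact A.add_mem _ _ h1 A.one_mem
  have hpow : ∀ i : ℕ, A.valuation (ζ ^ i - 1) < 1 := by
    intro i
    have h1 : ζ ^ i - 1 = (ζ - 1) * ∑ j ∈ Finset.range i, ζ ^ j := (mul_geom_sum ζ i).symm
    have h2 : (∑ j ∈ Finset.range i, ζ ^ j) ∈ A :=
      A.toSubring.sum_mem fun j _ => A.toSubring.pow_mem hζA j
    rw [h1, map_mul]
    have h3 : A.valuation (ζ - 1) < 1 := (ValuationSubring.mem_nonunits_iff A).mp hζ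
    exact mul_lt_one_of_nonneg_of_lt_one_left zero_le h3 ((A.valuation_le_one_iff _).mpr h2)
  have hdiff : A.valuation ((∑ i ∈ Finset.range n, ζ ^ i) - (n : L)) < 1 := by
    have h1 : (∑ i ∈ Finset.range n, ζ ^ i) - (n : L) = ∑ i ∈ Finset.range n, (ζ ^ i - 1) := by
      rw [Finset.sum_sub_distrib]
      simp
    rw [h1]
    exact Valuation.map_sum_lt _ one_ne_zero fun i _ => hpow i
  rw [hsum, zero_sub, Valuation.map_neg, hn] at hdiff
  exact lt_irrefl _ hdiff

/-- The inertia group of `A` fixes every `n`-th root `x` of an element fixed by it, as soon as `n`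
is a unit of `A` and the valuation of `x` is the valuation of a fixed element `c`. -/
theorem inertia_apply_eq_of_pow_eq' {A : ValuationSubring L} {σ : L ≃ₐ[K] L}
    (hσ : σ ∈ A.inertiaSubgroupIn K) {n : ℕ} (hn : A.valuation (n : L) = 1) {x c : L}
    (hc0 : c ≠ 0) (hσc : σ c = c) (hxc : A.valuation x = A.valuation c)
    (hfix : σ (x ^ n) = x ^ n) : σ x = x := by
  have hvc : A.valuation c ≠ 0 := (Valuation.ne_zero_iff _).mpr hc0
  have hx0 : x ≠ 0 := by
    intro h
    rw [h, map_zero] at hxc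
    exact hvc hxc.symm
  set y : L := x / c with hy
  have hy0 : y ≠ 0 := div_ne_zero hx0 hc0
  have hvy : A.valuation y = 1 := by rw [hy, map_div₀, hxc, div_self hvc]
  have hyA : y ∈ A := (A.valuation_le_one_iff _).mp hvy.le
  have hσy : σ y = σ x / c := by rw [hy, map_div₀, hσc]
  set ζ : L := σ y / y with hζdef
  have hζn : ζ ^ n = 1 := by
    have h1 : σ (y ^ n) = y ^ n := by
      rw [hy, div_pow, map_div₀, hfix, map_pow, hσc]
    rw [hζdef, div_pow, ← map_pow, h1, div_self (pow_ne_zero _ hy0)]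
  have hζ : ζ - 1 ∈ A.nonunits := by
    rw [ValuationSubring.mem_nonunits_iff]
    have h1 : ζ - 1 = (σ y - y) / y := by
      rw [hζdef]; field_simp
    rw [h1, map_div₀, hvy, div_one]
    exact (ValuationSubring.mem_nonunits_iff A).mp (inertia_sub_mem_nonunits hσ hyA)
  have h1 := eq_one_of_pow_eq_one_of_sub_one_mem_nonunits hn hζn hζ
  have h2 : σ y = y := by
    rw [hζdef] at h1
    exact (div_eq_one_iff_eq hy0).mp h1
  rw [hσy, hy] at h2
  have h3 := congrArg (fun z => z * c) h2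
  simpa [div_mul_cancel₀ _ hc0] using h3

theorem inertia_apply_eq_of_pow_eq {A : ValuationSubring L} {σ : L ≃ₐ[K] L}
    (hσ : σ ∈ A.inertiaSubgroupIn K) {n : ℕ} (hn : A.valuation (n : L) = 1) {x : L}
    (hx : A.valuation x = 1) (hfix : σ (x ^ n) = x ^ n) : σ x = x :=
  inertia_apply_eq_of_pow_eq' hσ hn one_ne_zero (map_one σ) (by rw [hx, map_one]) hfix

omit [Field K] [Algebra K L] in
theorem valuation_intCast_le_one (A : ValuationSubring L) (k : ℤ) : A.valuation (k : L) ≤ 1 :=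
  (A.valuation_le_one_iff _).mpr (intCast_mem A k)

omit [Field K] [Algebra K L] in
/-- A natural number prime to the residue characteristic is a unit. -/
theorem valuation_natCast_eq_one {A : ValuationSubring L} {q : ℕ}
    (hA : A.LiesOverPrime q) (hq : q.Prime) {n : ℕ} (hn : ¬ q ∣ n) :
    A.valuation (n : L) = 1 := by
  have hcop : IsCoprime (n : ℤ) (q : ℤ) := by
    rw [Int.isCoprime_iff_gcd_eq_one, Int.gcd_natCast_natCast]
    exact (Nat.Coprime.symm ((Nat.Prime.coprime_iff_not_dvd hq).mpr hn))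
  obtain ⟨a, b, hab⟩ := hcop
  have hab' : (a : L) * (n : L) + (b : L) * (q : L) = 1 := by exact_mod_cast congrArg (Int.cast : ℤ → L) hab
  have hq1 : A.valuation (q : L) < 1 := (ValuationSubring.mem_nonunits_iff A).mp hA
  have hbq : A.valuation ((b : L) * (q : L)) < 1 := by
    rw [map_mul, mul_comm]
    exact mul_lt_one_of_nonneg_of_lt_one_left zero_le hq1 (valuation_intCast_le_one A b)
  have h1 : A.valuation ((a : L) * (n : L)) = 1 := by
    have : (a : L) * (n : L) = 1 - (b : L) * (q : L) := by rw [← hab']; ring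
    rw [this]
    exact Valuation.map_one_sub_of_lt _ hbq
  rw [map_mul] at h1
  have hn1 : A.valuation (n : L) ≤ 1 := by
    exact_mod_cast valuation_intCast_le_one A (n : ℤ)
  rcases lt_or_eq_of_le hn1 with h | h
  · exfalso
    have : A.valuation (a : L) * A.valuation (n : L) < 1 := by
      rw [mul_comm]
      exact mul_lt_one_of_nonneg_of_lt_one_left zero_le h (valuation_intCast_le_one A a)
    rw [h1] at this
    exact lt_irrefl _ this
  · exact h

end Core

section Rat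

local notation "Ω" => AlgebraicClosure ℚ

open IntermediateField

variable {S : Finset Nat.Primes}

/-- An automorphism fixing `x` fixes `ℚ⟮x⟯`. -/
theorem mem_fixingSubgroup_adjoin_simple {σ : Ω ≃ₐ[ℚ] Ω} {x : Ω} (hx : σ x = x) :
    σ ∈ (ℚ⟮x⟯).fixingSubgroup := by
  rw [IntermediateField.mem_fixingSubgroup_iff]
  intro y hy
  induction hy using adjoin_induction with
  | mem z hz =>
    rw [Set.mem_singleton_iff] at hz
    rw [hz]; exact hx
  | algebraMap a => exact σ.commutes a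
  | add a b _ _ ha hb => rw [map_add, ha, hb]
  | inv a _ ha => rw [map_inv₀, ha]
  | mul a b _ _ ha hb => rw [map_mul, ha, hb]

/-- **Kummer ramification criterion** (Prelude shape). Let `F` be unramified outside `S`, `n` a
natural number all of whose prime factors lie in `S`, and `x` with `x ^ n ∈ F` such that at every
valuation subring over a prime outside `S` the valuation of `x` is the valuation of an element of
`F`. Then `F(x)` is unramified outside `S`. -/
theorem isUnramifiedOutside_sup_adjoin_of_pow_mem {n : ℕ}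
    (hn : ∀ q : Nat.Primes, (q : ℕ) ∣ n → q ∈ S) {F : IntermediateField ℚ Ω}
    (hF : F.IsUnramifiedOutside S) {x : Ω} (hxF : x ^ n ∈ F)
    (hloc : ∀ q : Nat.Primes, q ∉ S → ∀ A : ValuationSubring Ω, A.LiesOverPrime (q : ℕ) →
      ∃ c ∈ F, c ≠ 0 ∧ A.valuation x = A.valuation c) :
    (F ⊔ ℚ⟮x⟯).IsUnramifiedOutside S := by
  have := hF.1
  have hxint : IsIntegral ℚ x := ((AlgebraicClosure.isAlgebraic ℚ).isAlgebraic x).isIntegral
  have : FiniteDimensional ℚ ℚ⟮x⟯ := adjoin.finiteDimensional hxint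
  refine ⟨IntermediateField.finiteDimensional_sup F ℚ⟮x⟯, fun q hq A hA σ hσ => ?_⟩
  rw [IntermediateField.fixingSubgroup_sup]
  have hσF : σ ∈ F.fixingSubgroup := hF.2 q hq A hA hσ
  refine ⟨hσF, mem_fixingSubgroup_adjoin_simple ?_⟩
  obtain ⟨c, hcF, hc0, hxc⟩ := hloc q hq A hA
  have hfixF : ∀ y ∈ F, σ y = y := (IntermediateField.mem_fixingSubgroup_iff _ _).mp hσF
  have hqn : ¬ (q : ℕ) ∣ n := fun h => hq (hn q h)
  exact inertia_apply_eq_of_pow_eq' hσ (valuation_natCast_eq_one hA q.2 hqn) hc0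
    (hfixF c hcF) hxc (hfixF _ hxF)

/-- Special case: `x` is a unit at all valuation subrings over primes outside `S`. -/
theorem isUnramifiedOutside_sup_adjoin_of_pow_mem_of_unit {n : ℕ}
    (hn : ∀ q : Nat.Primes, (q : ℕ) ∣ n → q ∈ S) {F : IntermediateField ℚ Ω}
    (hF : F.IsUnramifiedOutside S) {x : Ω} (hxF : x ^ n ∈ F)
    (hunit : ∀ q : Nat.Primes, q ∉ S → ∀ A : ValuationSubring Ω, A.LiesOverPrime (q : ℕ) →
      A.valuation x = 1) :
    (F ⊔ ℚ⟮x⟯).IsUnramifiedOutside S :=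
  isUnramifiedOutside_sup_adjoin_of_pow_mem hn hF hxF fun q hq A hA =>
    ⟨1, F.one_mem, one_ne_zero, by rw [hunit q hq A hA, map_one]⟩

/-- `x` lies in a finite extension of `ℚ` unramified outside `S`, i.e. `x ∈ ℚ_S`. -/
def InQS (S : Finset Nat.Primes) (x : Ω) : Prop :=
  ∃ F : IntermediateField ℚ Ω, F.IsUnramifiedOutside S ∧ x ∈ F

/-- `x` is a unit at every valuation subring over a prime outside `S`. -/
def IsSUnitBar (S : Finset Nat.Primes) (x : Ω) : Prop :=
  ∀ q : Nat.Primes, q ∉ S → ∀ A : ValuationSubring Ω, A.LiesOverPrime (q : ℕ) →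
    A.valuation x = 1

theorem InQS.add {x y : Ω} (hx : InQS S x) (hy : InQS S y) : InQS S (x + y) := by
  obtain ⟨F, hF, hxF⟩ := hx
  obtain ⟨F', hF', hyF'⟩ := hy
  exact ⟨F ⊔ F', hF.sup hF', add_mem ((le_sup_left : F ≤ F ⊔ F') hxF)
    ((le_sup_right : F' ≤ F ⊔ F') hyF')⟩

theorem InQS.mul {x y : Ω} (hx : InQS S x) (hy : InQS S y) : InQS S (x * y) := by
  obtain ⟨F, hF, hxF⟩ := hx
  obtain ⟨F', hF', hyF'⟩ := hy
  exact ⟨F ⊔ F', hF.sup hF', mul_mem ((le_sup_left : F ≤ F ⊔ F') hxF)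
    ((le_sup_right : F' ≤ F ⊔ F') hyF')⟩

theorem InQS.inv {x : Ω} (hx : InQS S x) : InQS S x⁻¹ := by
  obtain ⟨F, hF, hxF⟩ := hx
  exact ⟨F, hF, inv_mem hxF⟩

theorem InQS.neg {x : Ω} (hx : InQS S x) : InQS S (-x) := by
  obtain ⟨F, hF, hxF⟩ := hx
  exact ⟨F, hF, neg_mem hxF⟩

theorem inQS_algebraMap (r : ℚ) : InQS S (algebraMap ℚ Ω r) :=
  ⟨⊥, IntermediateField.isUnramifiedOutside_bot S, (⊥ : IntermediateField ℚ Ω).algebraMap_mem r⟩

theorem inQS_one : InQS S (1 : Ω) := by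
  have := inQS_algebraMap (S := S) 1
  rwa [map_one] at this

theorem InQS.map {x : Ω} (hx : InQS S x) (σ : Ω ≃ₐ[ℚ] Ω) : InQS S (σ x) := by
  obtain ⟨F, hF, hxF⟩ := hx
  exact ⟨F.map (σ : Ω →ₐ[ℚ] Ω), isUnramifiedOutside_map hF σ, ⟨x, hxF, rfl⟩⟩

theorem IsSUnitBar.map {x : Ω} (hx : IsSUnitBar S x) (σ : Ω ≃ₐ[ℚ] Ω) : IsSUnitBar S (σ x) := by
  intro q hq A hA
  have hA' : (σ⁻¹ • A).LiesOverPrime (q : ℕ) := (liesOverPrime_smul_iff σ⁻¹ A q).mpr hA
  have h1 := hx q hq (σ⁻¹ • A) hA'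
  have hmem : ∀ (B : ValuationSubring Ω) (y : Ω),
      B.valuation y = 1 ↔ y ∈ B ∧ y ∉ B.nonunits := by
    intro B y
    rw [← B.valuation_le_one_iff, ValuationSubring.mem_nonunits_iff, not_lt]
    exact le_antisymm_iff
  rw [hmem] at h1 ⊢
  rw [mem_smul_iff, mem_nonunits_smul_iff] at h1
  exact h1

/-- The `S`-units of `ℚ_S`, as a subgroup of `Ωˣ`. -/
def ESbar (S : Finset Nat.Primes) : Subgroup Ωˣ where
  carrier := {x | InQS S (x : Ω) ∧ IsSUnitBar S (x : Ω)}
  one_mem' := ⟨by simpa using inQS_one (S := S), fun q _ A _ => by simp⟩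
  mul_mem' := by
    rintro x y ⟨hx1, hx2⟩ ⟨hy1, hy2⟩
    refine ⟨by simpa using hx1.mul hy1, fun q hq A hA => ?_⟩
    rw [Units.val_mul, map_mul, hx2 q hq A hA, hy2 q hq A hA, one_mul]
  inv_mem' := by
    rintro x ⟨hx1, hx2⟩
    refine ⟨by simpa using hx1.inv, fun q hq A hA => ?_⟩
    rw [Units.val_inv_eq_inv_val, map_inv₀, hx2 q hq A hA, inv_one]

theorem mem_ESbar {x : Ωˣ} : x ∈ ESbar S ↔ InQS S (x : Ω) ∧ IsSUnitBar S (x : Ω) := Iff.rfl

/-- `ESbar S` is stable under the absolute Galois group. -/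
theorem map_mem_ESbar {x : Ωˣ} (hx : x ∈ ESbar S) (σ : Ω ≃ₐ[ℚ] Ω) :
    Units.map (σ : Ω →* Ω) x ∈ ESbar S :=
  ⟨hx.1.map σ, hx.2.map σ⟩

/-- **Divisibility**: every `n`-th root of an element of `ESbar S` lies in `ESbar S` when all
prime factors of `n` lie in `S`. -/
theorem mem_ESbar_of_pow_mem {n : ℕ} (hn0 : n ≠ 0) (hn : ∀ q : Nat.Primes, (q : ℕ) ∣ n → q ∈ S)
    {x : Ωˣ} (hx : x ^ n ∈ ESbar S) : x ∈ ESbar S := by
  obtain ⟨⟨F, hF, hxF⟩, hunit⟩ := hx
  have hunit' : IsSUnitBar S (x : Ω) := by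
    intro q hq A hA
    have h1 := hunit q hq A hA
    rw [Units.val_pow_eq_pow_val, map_pow] at h1
    exact (pow_eq_one_iff_of_nonneg zero_le hn0).mp h1
  rw [Units.val_pow_eq_pow_val] at hxF
  exact ⟨⟨F ⊔ ℚ⟮(x : Ω)⟯, isUnramifiedOutside_sup_adjoin_of_pow_mem_of_unit hn hF hxF hunit',
    (le_sup_right : ℚ⟮(x : Ω)⟯ ≤ F ⊔ ℚ⟮(x : Ω)⟯) (mem_adjoin_simple_self ℚ _)⟩, hunit'⟩

theorem pow_mem_ESbar_iff {n : ℕ} (hn0 : n ≠ 0) (hn : ∀ q : Nat.Primes, (q : ℕ) ∣ n → q ∈ S)
    {x : Ωˣ} : x ^ n ∈ ESbar S ↔ x ∈ ESbar S :=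
  ⟨mem_ESbar_of_pow_mem hn0 hn, fun h => pow_mem h n⟩

/-- `ESbar S` is `n`-divisible. -/
theorem exists_pow_eq_of_mem_ESbar {n : ℕ} (hn0 : n ≠ 0)
    (hn : ∀ q : Nat.Primes, (q : ℕ) ∣ n → q ∈ S) {u : Ωˣ} (hu : u ∈ ESbar S) :
    ∃ x ∈ ESbar S, x ^ n = u := by
  obtain ⟨y, hy⟩ := IsAlgClosed.exists_pow_nat_eq (u : Ω) (Nat.pos_of_ne_zero hn0)
  have hy0 : y ≠ 0 := by
    rintro rfl
    rw [zero_pow hn0] at hy
    exact u.ne_zero hy.symm
  have hxu : (Units.mk0 y hy0) ^ n = u := Units.ext (by simpa using hy)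
  exact ⟨Units.mk0 y hy0, mem_ESbar_of_pow_mem hn0 hn (by rw [hxu]; exact hu), hxu⟩

/-- The `n`-torsion of `ESbar S` consists of all `n`-th roots of unity of `Ω`. -/
theorem rootsOfUnity_le_ESbar {n : ℕ} (hn0 : n ≠ 0)
    (hn : ∀ q : Nat.Primes, (q : ℕ) ∣ n → q ∈ S) : rootsOfUnity n Ω ≤ ESbar S := by
  intro x hx
  rw [mem_rootsOfUnity] at hx
  exact mem_ESbar_of_pow_mem hn0 hn (by rw [hx]; exact one_mem _)

/-- **Capitulation core.** If `α ∈ F` has, at every valuation subring over a prime outside `S`,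
the valuation of an `n`-th power of an element of `F`, then every `n`-th root `β` of `α`
generates an extension unramified outside `S`, and `β` has the valuations of elements of `F`. -/
theorem isUnramifiedOutside_sup_adjoin_root_of_valuation_pow {n : ℕ} (hn0 : n ≠ 0)
    (hn : ∀ q : Nat.Primes, (q : ℕ) ∣ n → q ∈ S) {F : IntermediateField ℚ Ω}
    (hF : F.IsUnramifiedOutside S) {α β : Ω} (hαF : α ∈ F) (hβ : β ^ n = α)
    (hloc : ∀ q : Nat.Primes, q ∉ S → ∀ A : ValuationSubring Ω, A.LiesOverPrime (q : ℕ) →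
      ∃ c ∈ F, c ≠ 0 ∧ A.valuation α = A.valuation c ^ n) :
    (F ⊔ ℚ⟮β⟯).IsUnramifiedOutside S ∧
      ∀ q : Nat.Primes, q ∉ S → ∀ A : ValuationSubring Ω, A.LiesOverPrime (q : ℕ) →
        ∀ c : Ω, A.valuation α = A.valuation c ^ n → A.valuation β = A.valuation c := by
  have hval : ∀ (A : ValuationSubring Ω) (c : Ω), A.valuation α = A.valuation c ^ n →
      A.valuation β = A.valuation c := by
    intro A c hc
    rw [← hβ, map_pow] at hc
    exact (pow_left_inj₀ zero_le zero_le hn0).mp hc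
  refine ⟨isUnramifiedOutside_sup_adjoin_of_pow_mem hn hF (by rw [hβ]; exact hαF)
    fun q hq A hA => ?_, fun q _ A _ c hc => hval A c hc⟩
  obtain ⟨c, hcF, hc0, hc⟩ := hloc q hq A hA
  exact ⟨c, hcF, hc0, hval A c hc⟩

end Rat

end Fermat.Agent.Lib.CFT.Global.SVersion
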