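import Fermat.Agent.Lib.CFT.Global.IdeleMap

/-!
# The `S`-version at finite level (helper11, P-CFT Global/S-version, task 219, file 2)

`F` a number field, `S` a finite set of rational primes.  Subgroups of the idele group of `F`:
* `unitsOut S F` (`U_{F,S}`): trivial at the primes of `S` and at infinity, integral units outside;
* `ideleAtS S F` (`J_S(F)`): trivial outside `S`;
* `sIdeleGroup S F = J_S(F) × U_{F,S}`: integral units outside `S`;
* `sUnitsS S F` (`E_S(F)`): the `S`-units of `F`, i.e. the principal ideles in `sIdeleGroup`;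
* `cutS S F : Idele F →* Idele F`: the projection onto the components in `S ∪ {∞}`;
* `CSLevel S F = Idele F ⧸ (Fˣ · U_{F,S})` (`C_S(F)`), and the exact sequence
  `1 → E_S(F) → J_S(F) → C_S(F)` with cokernel `Idele F ⧸ (Fˣ · J_S(F) · U_{F,S})`.
-/

open scoped TensorProduct NumberField

noncomputable section

namespace Fermat.Agent.Lib.CFT.Global.SVersion

variable (S : Finset Nat.Primes) (F : Type) [Field F] [NumberField F]

/-- `U_{F,S}`: ideles which are `1` at the primes of `S` and at infinity and integral units at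
the primes outside `S`. -/
def unitsOut : Subgroup (Idele F) where
  carrier := {b | (∀ q ∈ S, (b : IdeleProd F).1 q = 1) ∧ (b : IdeleProd F).2 = 1 ∧
    ∀ q ∉ S, (b : IdeleProd F).1 q ∈ locIntUnits F q}
  mul_mem' := by
    rintro a b ⟨ha1, ha2, ha3⟩ ⟨hb1, hb2, hb3⟩
    refine ⟨fun q hq => ?_, ?_, fun q hq => ?_⟩
    · change (a : IdeleProd F).1 q * (b : IdeleProd F).1 q = 1
      rw [ha1 q hq, hb1 q hq, one_mul]
    · change (a : IdeleProd F).2 * (b : IdeleProd F).2 = 1
      rw [ha2, hb2, one_mul]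
    · exact mul_mem (ha3 q hq) (hb3 q hq)
  one_mem' := ⟨fun _ _ => rfl, rfl, fun _ _ => one_mem _⟩
  inv_mem' := by
    rintro a ⟨ha1, ha2, ha3⟩
    refine ⟨fun q hq => ?_, ?_, fun q hq => ?_⟩
    · change ((a : IdeleProd F).1 q)⁻¹ = 1
      rw [ha1 q hq, inv_one]
    · change ((a : IdeleProd F).2)⁻¹ = 1
      rw [ha2, inv_one]
    · exact inv_mem (ha3 q hq)

lemma mem_unitsOut (b : Idele F) : b ∈ unitsOut S F ↔
    (∀ q ∈ S, (b : IdeleProd F).1 q = 1) ∧ (b : IdeleProd F).2 = 1 ∧
      ∀ q ∉ S, (b : IdeleProd F).1 q ∈ locIntUnits F q := Iff.rfl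

/-- `J_S(F)`: ideles which are `1` outside `S`. -/
def ideleAtS : Subgroup (Idele F) where
  carrier := {b | ∀ q ∉ S, (b : IdeleProd F).1 q = 1}
  mul_mem' := by
    intro a b ha hb q hq
    change (a : IdeleProd F).1 q * (b : IdeleProd F).1 q = 1
    rw [ha q hq, hb q hq, one_mul]
  one_mem' := fun _ _ => rfl
  inv_mem' := by
    intro a ha q hq
    change ((a : IdeleProd F).1 q)⁻¹ = 1
    rw [ha q hq, inv_one]

lemma mem_ideleAtS (b : Idele F) :
    b ∈ ideleAtS S F ↔ ∀ q ∉ S, (b : IdeleProd F).1 q = 1 := Iff.rfl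

/-- The `S`-ideles `J_S(F) × U_{F,S}`: integral units outside `S`. -/
def sIdeleGroup : Subgroup (Idele F) where
  carrier := {b | ∀ q ∉ S, (b : IdeleProd F).1 q ∈ locIntUnits F q}
  mul_mem' := fun ha hb q hq => mul_mem (ha q hq) (hb q hq)
  one_mem' := fun _ _ => one_mem _
  inv_mem' := fun ha q hq => inv_mem (ha q hq)

lemma mem_sIdeleGroup (b : Idele F) :
    b ∈ sIdeleGroup S F ↔ ∀ q ∉ S, (b : IdeleProd F).1 q ∈ locIntUnits F q := Iff.rfl

lemma unitsOut_le_sIdeleGroup : unitsOut S F ≤ sIdeleGroup S F := fun _ hb => hb.2.2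

lemma ideleAtS_le_sIdeleGroup : ideleAtS S F ≤ sIdeleGroup S F := by
  intro b hb q hq
  rw [hb q hq]
  exact one_mem _

lemma ideleAtS_inf_unitsOut : ideleAtS S F ⊓ unitsOut S F = ⊥ := by
  rw [eq_bot_iff]
  rintro b ⟨hb1, hb2, hb3, -⟩
  rw [Subgroup.mem_bot]
  apply Subtype.ext
  ext : 1
  · funext q
    by_cases hq : q ∈ S
    · exact hb2 q hq
    · exact hb1 q hq
  · exact hb3

open Classical in
/-- The projection of the ideles onto the components in `S ∪ {∞}`. -/
def cutS : Idele F →* Idele F where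
  toFun b := ⟨(fun q => if q ∈ S then (b : IdeleProd F).1 q else 1, (b : IdeleProd F).2), by
    refine Set.Finite.subset S.finite_toSet ?_
    intro q hq
    by_contra hqS
    apply hq
    simp only [Finset.mem_coe] at hqS
    simp only [if_neg hqS]
    exact one_mem _⟩
  map_one' := by
    apply Subtype.ext
    ext : 1
    · funext q
      change (if q ∈ S then (1 : (LocAlg F q)ˣ) else 1) = 1
      simp
    · rfl
  map_mul' a b := by
    apply Subtype.ext
    ext : 1
    · funext q
      change (if q ∈ S then (a : IdeleProd F).1 q * (b : IdeleProd F).1 q else 1) =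
        (if q ∈ S then (a : IdeleProd F).1 q else 1) * (if q ∈ S then (b : IdeleProd F).1 q else 1)
      split_ifs <;> simp
    · rfl

lemma cutS_fst_of_mem (b : Idele F) {q : Nat.Primes} (hq : q ∈ S) :
    (cutS S F b : IdeleProd F).1 q = (b : IdeleProd F).1 q := by
  change (if q ∈ S then (b : IdeleProd F).1 q else 1) = _
  rw [if_pos hq]

lemma cutS_fst_of_not_mem (b : Idele F) {q : Nat.Primes} (hq : q ∉ S) :
    (cutS S F b : IdeleProd F).1 q = 1 := by
  change (if q ∈ S then (b : IdeleProd F).1 q else 1) = _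
  rw [if_neg hq]

@[simp] lemma cutS_snd (b : Idele F) : (cutS S F b : IdeleProd F).2 = (b : IdeleProd F).2 := rfl

lemma cutS_mem_ideleAtS (b : Idele F) : cutS S F b ∈ ideleAtS S F :=
  fun _ hq => cutS_fst_of_not_mem S F b hq

lemma cutS_eq_self_iff (b : Idele F) : cutS S F b = b ↔ b ∈ ideleAtS S F := by
  constructor
  · intro h
    rw [← h]
    exact cutS_mem_ideleAtS S F b
  · intro hb
    apply Subtype.ext
    ext : 1
    · funext q
      by_cases hq : q ∈ S
      · exact cutS_fst_of_mem S F b hq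
      · rw [cutS_fst_of_not_mem S F b hq, hb q hq]
    · rfl

lemma cutS_eq_one_of_mem_unitsOut {b : Idele F} (hb : b ∈ unitsOut S F) : cutS S F b = 1 := by
  apply Subtype.ext
  ext : 1
  · funext q
    by_cases hq : q ∈ S
    · rw [cutS_fst_of_mem S F b hq, hb.1 q hq]; rfl
    · rw [cutS_fst_of_not_mem S F b hq]; rfl
  · exact hb.2.1

/-- `b / cutS b` lies in `U_{F,S}` exactly when `b` is an `S`-idele. -/
lemma div_cutS_mem_unitsOut_iff (b : Idele F) :
    b / cutS S F b ∈ unitsOut S F ↔ b ∈ sIdeleGroup S F := by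
  constructor
  · intro h q hq
    have := h.2.2 q hq
    change (b : IdeleProd F).1 q / (cutS S F b : IdeleProd F).1 q ∈ _ at this
    rwa [cutS_fst_of_not_mem S F b hq, div_one] at this
  · intro h
    refine ⟨fun q hq => ?_, ?_, fun q hq => ?_⟩
    · change (b : IdeleProd F).1 q / (cutS S F b : IdeleProd F).1 q = 1
      rw [cutS_fst_of_mem S F b hq, div_self']
    · change (b : IdeleProd F).2 / (cutS S F b : IdeleProd F).2 = 1
      rw [cutS_snd, div_self']
    · change (b : IdeleProd F).1 q / (cutS S F b : IdeleProd F).1 q ∈ _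
      rw [cutS_fst_of_not_mem S F b hq, div_one]
      exact h q hq

lemma ideleAtS_sup_unitsOut : ideleAtS S F ⊔ unitsOut S F = sIdeleGroup S F := by
  apply le_antisymm
  · exact sup_le (ideleAtS_le_sIdeleGroup S F) (unitsOut_le_sIdeleGroup S F)
  · intro b hb
    rw [Subgroup.mem_sup]
    refine ⟨cutS S F b, cutS_mem_ideleAtS S F b, b / cutS S F b,
      (div_cutS_mem_unitsOut_iff S F b).2 hb, ?_⟩
    rw [mul_div_cancel]

/-- `E_S(F)`: the `S`-units of `F`, as a subgroup of `Fˣ`. -/
def sUnitsS : Subgroup Fˣ := (sIdeleGroup S F).comap (principal F)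

lemma mem_sUnitsS (x : Fˣ) :
    x ∈ sUnitsS S F ↔ ∀ q ∉ S, locUnit F q x ∈ locIntUnits F q := Iff.rfl

/-- The archimedean component detects principal ideles. -/
lemma archUnit_injective : Function.Injective (archUnit F) := by
  intro x y h
  apply Units.ext
  have h1 : ((1 : ℝ) ⊗ₜ[ℚ] (x : F) : ArchAlg F) = (1 : ℝ) ⊗ₜ[ℚ] (y : F) := congrArg Units.val h
  exact Algebra.TensorProduct.includeRight_injective
    (FaithfulSMul.algebraMap_injective ℚ ℝ) h1

lemma principal_injective : Function.Injective (principal F) := by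
  intro x y h
  apply archUnit_injective F
  exact congrArg (fun b : Idele F => (b : IdeleProd F).2) h

/-- `Fˣ ∩ U_{F,S} = 1`. -/
lemma range_principal_inf_unitsOut : (principal F).range ⊓ unitsOut S F = ⊥ := by
  rw [eq_bot_iff]
  rintro b ⟨⟨x, rfl⟩, hb⟩
  rw [Subgroup.mem_bot]
  have h1 : archUnit F x = 1 := hb.2.1
  have : x = 1 := archUnit_injective F (by rw [h1, map_one])
  rw [this, map_one]

/-- `C_S(F) = Idele F ⧸ (Fˣ · U_{F,S})`. -/
abbrev CSLevel : Type := Idele F ⧸ ((principal F).range ⊔ unitsOut S F)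

/-- The map `E_S(F) → J_S(F)`: the components of an `S`-unit at `S ∪ {∞}`. -/
def sUnitsToIdele : sUnitsS S F →* Idele F := (cutS S F).comp ((principal F).comp (sUnitsS S F).subtype)

lemma sUnitsToIdele_mem_ideleAtS (x : sUnitsS S F) : sUnitsToIdele S F x ∈ ideleAtS S F :=
  cutS_mem_ideleAtS S F _

lemma sUnitsToIdele_injective : Function.Injective (sUnitsToIdele S F) := by
  intro x y h
  apply Subtype.ext
  apply archUnit_injective F
  exact congrArg (fun b : Idele F => (b : IdeleProd F).2) h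

/-- Exactness of `E_S(F) → J_S(F) → C_S(F)`: an element of `J_S(F)` is trivial in `C_S(F)` iff it
comes from an `S`-unit. -/
lemma mem_range_sup_unitsOut_iff {b : Idele F} (hb : b ∈ ideleAtS S F) :
    b ∈ (principal F).range ⊔ unitsOut S F ↔ b ∈ (sUnitsToIdele S F).range := by
  constructor
  · intro h
    obtain ⟨_, ⟨x, rfl⟩, u, hu, hxu⟩ := Subgroup.mem_sup.1 h
    have hx : x ∈ sUnitsS S F := by
      intro q hq
      have h1 : (principal F x : IdeleProd F).1 q * (u : IdeleProd F).1 q = 1 := by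
        have := congrArg (fun c : Idele F => (c : IdeleProd F).1 q) hxu
        simpa [hb q hq] using this
      have h2 : locUnit F q x = ((u : IdeleProd F).1 q)⁻¹ := eq_inv_of_mul_eq_one_left h1
      change locUnit F q x ∈ locIntUnits F q
      rw [h2]
      exact inv_mem (hu.2.2 q hq)
    refine ⟨⟨x, hx⟩, ?_⟩
    change cutS S F (principal F x) = b
    rw [← (cutS_eq_self_iff S F b).2 hb, ← hxu, map_mul, cutS_eq_one_of_mem_unitsOut S F hu,
      mul_one]
  · rintro ⟨x, rfl⟩
    rw [Subgroup.mem_sup]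
    refine ⟨principal F x, ⟨x, rfl⟩, (principal F x / cutS S F (principal F x))⁻¹,
      inv_mem ((div_cutS_mem_unitsOut_iff S F _).2 x.2), ?_⟩
    change _ = cutS S F (principal F x)
    rw [inv_div, mul_div_cancel]

section Functoriality

variable {F} {F' : Type} [Field F'] [NumberField F'] (f : F →+* F')

lemma ideleMap_mem_ideleAtS_iff (b : Idele F) :
    ideleMap f b ∈ ideleAtS S F' ↔ b ∈ ideleAtS S F := by
  constructor
  · intro h q hq
    apply locUnitsMap_injective f q
    rw [map_one]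
    exact h q hq
  · intro h q hq
    change locUnitsMap f q ((b : IdeleProd F).1 q) = 1
    rw [h q hq, map_one]

lemma ideleMap_mem_sIdeleGroup {b : Idele F} (hb : b ∈ sIdeleGroup S F) :
    ideleMap f b ∈ sIdeleGroup S F' :=
  fun q hq => locUnitsMap_mem_locIntUnits f q (hb q hq)

lemma ideleMap_mem_unitsOut {b : Idele F} (hb : b ∈ unitsOut S F) :
    ideleMap f b ∈ unitsOut S F' := by
  refine ⟨fun q hq => ?_, ?_, fun q hq => locUnitsMap_mem_locIntUnits f q (hb.2.2 q hq)⟩
  · change locUnitsMap f q ((b : IdeleProd F).1 q) = 1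
    rw [hb.1 q hq, map_one]
  · change archUnitsMap f (b : IdeleProd F).2 = 1
    rw [hb.2.1, map_one]

lemma cutS_ideleMap (b : Idele F) : cutS S F' (ideleMap f b) = ideleMap f (cutS S F b) := by
  apply Subtype.ext
  ext : 1
  · funext q
    by_cases hq : q ∈ S
    · rw [cutS_fst_of_mem S F' _ hq, ideleMap_fst, ideleMap_fst, cutS_fst_of_mem S F _ hq]
    · rw [cutS_fst_of_not_mem S F' _ hq, ideleMap_fst, cutS_fst_of_not_mem S F _ hq, map_one]
  · rfl

lemma map_mem_sUnitsS {x : Fˣ} (hx : x ∈ sUnitsS S F) :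
    Units.map (f : F →* F') x ∈ sUnitsS S F' := by
  change principal F' _ ∈ sIdeleGroup S F'
  rw [← ideleMap_principal]
  exact ideleMap_mem_sIdeleGroup S f hx

end Functoriality

section Action

variable (G : Type) [Group G] [MulSemiringAction G F]

lemma smul_mem_ideleAtS (g : G) {b : Idele F} (hb : b ∈ ideleAtS S F) : g • b ∈ ideleAtS S F := by
  intro q hq
  change g • (b : IdeleProd F).1 q = 1
  rw [hb q hq, smul_one]

lemma smul_mem_sIdeleGroup (g : G) {b : Idele F} (hb : b ∈ sIdeleGroup S F) :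
    g • b ∈ sIdeleGroup S F :=
  fun q hq => smul_mem_locIntUnits F G q g (hb q hq)

lemma smul_mem_unitsOut (g : G) {b : Idele F} (hb : b ∈ unitsOut S F) : g • b ∈ unitsOut S F := by
  refine ⟨fun q hq => ?_, ?_, fun q hq => smul_mem_locIntUnits F G q g (hb.2.2 q hq)⟩
  · change g • (b : IdeleProd F).1 q = 1
    rw [hb.1 q hq, smul_one]
  · change g • (b : IdeleProd F).2 = 1
    rw [hb.2.1, smul_one]

lemma cutS_smul (g : G) (b : Idele F) : cutS S F (g • b) = g • cutS S F b := by
  apply Subtype.ext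
  ext : 1
  · funext q
    by_cases hq : q ∈ S
    · rw [cutS_fst_of_mem S F _ hq]
      change g • (b : IdeleProd F).1 q = g • (cutS S F b : IdeleProd F).1 q
      rw [cutS_fst_of_mem S F _ hq]
    · rw [cutS_fst_of_not_mem S F _ hq]
      change 1 = g • (cutS S F b : IdeleProd F).1 q
      rw [cutS_fst_of_not_mem S F _ hq, smul_one]
  · rfl

open scoped Fermat.Agent.Lib.CFT.Global in
lemma smul_mem_sUnitsS (g : G) {x : Fˣ} (hx : x ∈ sUnitsS S F) : g • x ∈ sUnitsS S F := by
  change principal F (g • x) ∈ sIdeleGroup S F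
  rw [principal_smul]
  exact smul_mem_sIdeleGroup S F G g hx

end Action

end Fermat.Agent.Lib.CFT.Global.SVersion
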