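import Mathlib
import Fermat.Agent.Lib.CFT.Global.SVersion.Divisible
import Fermat.Agent.Lib.CFT.Global.SVersion.Ambient
import Fermat.Agent.Lib.CFT.Global.SVersion.Level
import Fermat.Agent.Lib.CFT.Global.ArtinCyclotomic
import Fermat.Agent.Lib.CFT.Global.IdeleNorm

/-!
# P-CFT, Global/SVersion, helper25: idelic integrality versus valuation subrings of `Qbar`

For a finite subextension `F ⊆ Qbar` and a rational prime `q`:
`1 ⊗ y ∈ locInt F q` iff `y` lies in every valuation subring of `Qbar` over `q`, and
`locUnit F q x ∈ locIntUnits F q` iff `x` is a unit of every valuation subring over `q`.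
-/

set_option autoImplicit false

open scoped TensorProduct NumberField

noncomputable section

namespace Fermat.Agent.Lib.CFT.Global.SVersion

open Fermat.Agent.Lib.CFT.Global Fermat.Agent.Lib.CFT.Global.ArtinCyc

section General

variable {L : Type*} [Field L]

/-- Algebraic integers lie in every valuation subring. -/
theorem mem_valuationSubring_of_isIntegral (A : ValuationSubring L) {z : L}
    (hz : IsIntegral ℤ z) : z ∈ A := by
  have h1 : IsIntegral A z := hz.tower_top
  obtain ⟨y, hy⟩ := IsIntegrallyClosedIn.isIntegral_iff.mp h1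
  rw [← hy]
  exact y.2

theorem natCast_mem_valuationSubring (A : ValuationSubring L) (n : ℕ) : (n : L) ∈ A :=
  natCast_mem A n

/-- If `A` does not lie over `q` and `q ^ k * z` is an algebraic integer then `z ∈ A`. -/
theorem mem_of_not_liesOverPrime (A : ValuationSubring L) {q : ℕ} (hA : ¬ A.LiesOverPrime q)
    {k : ℕ} {z : L} (hz : IsIntegral ℤ ((q : L) ^ k * z)) : z ∈ A := by
  have hq1 : A.valuation (q : L) = 1 := by
    have h1 : A.valuation (q : L) ≤ 1 :=
      (A.valuation_le_one_iff _).mpr (natCast_mem A q)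
    have h2 : ¬ A.valuation (q : L) < 1 := fun h =>
      hA ((ValuationSubring.mem_nonunits_iff A).mpr h)
    exact le_antisymm h1 (not_lt.mp h2)
  have h3 := (A.valuation_le_one_iff _).mpr (mem_valuationSubring_of_isIntegral A hz)
  rw [map_mul, map_pow, hq1, one_pow, one_mul] at h3
  exact (A.valuation_le_one_iff _).mp h3

/-- An element lying in all valuation subrings over `q` which becomes an algebraic integer after
multiplication by a power of `q` is an algebraic integer. -/
theorem isIntegral_of_forall_mem_of_liesOverPrime {q : ℕ} {k : ℕ} {z : L}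
    (hz : IsIntegral ℤ ((q : L) ^ k * z))
    (h : ∀ A : ValuationSubring L, A.LiesOverPrime q → z ∈ A) : IsIntegral ℤ z := by
  by_contra hcon
  let R : Subring L := (integralClosure ℤ L).toSubring
  have hzR : z ∉ R := hcon
  have hR : IsIntegrallyClosedIn R L :=
    inferInstanceAs (IsIntegrallyClosedIn (integralClosure ℤ L) L)
  obtain ⟨V, -, hzV⟩ := Subring.exists_le_valuationSubring_of_isIntegrallyClosedIn hzR
  by_cases hV : V.LiesOverPrime q
  · exact hzV (h V hV)
  · exact hzV (mem_of_not_liesOverPrime V hV hz)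

end General

section Bridge

local notation "Qbar" => AlgebraicClosure ℚ

variable (F : IntermediateField ℚ Qbar) [FiniteDimensional ℚ F] (q : Nat.Primes)

/-- Elements of `F` lying in all valuation subrings of `Qbar` over `q` are `q`-integral. -/
theorem exists_mul_isIntegral_of_forall_mem (y : F)
    (h : ∀ A : ValuationSubring Qbar, A.LiesOverPrime (q : ℕ) → (y : Qbar) ∈ A) :
    ∃ m : ℕ, ¬ (q : ℕ) ∣ m ∧ IsIntegral ℤ ((m : F) * y) := by
  have halg : IsAlgebraic ℤ y := by
    have : IsAlgebraic ℚ y := Algebra.IsAlgebraic.isAlgebraic y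
    exact (IsFractionRing.isAlgebraic_iff ℤ ℚ F).mpr this
  obtain ⟨N, hN0, hN⟩ := halg.exists_integral_multiple
  -- make `N` a natural number
  have hN' : IsIntegral ℤ ((N.natAbs : F) * y) := by
    rcases Int.natAbs_eq N with h1 | h1
    · have : ((N.natAbs : ℕ) : F) * y = N • y := by
        rw [zsmul_eq_mul]; congr 1; rw [h1]; simp
      rw [this]; exact hN
    · have : ((N.natAbs : ℕ) : F) * y = -(N • y) := by
        rw [zsmul_eq_mul, ← neg_mul]; congr 1
        have : (N : F) = -((N.natAbs : ℕ) : F) := by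
          conv_lhs => rw [h1]
          simp
        rw [this, neg_neg]
      rw [this]; exact hN.neg
  have hNabs : N.natAbs ≠ 0 := Int.natAbs_ne_zero.mpr hN0
  obtain ⟨k, m, hqm, hNkm⟩ := Nat.exists_eq_pow_mul_and_not_dvd hNabs (q : ℕ) q.2.ne_one
  refine ⟨m, hqm, ?_⟩
  -- `z = m * y` lies in all valuation subrings over `q` and `q ^ k * z` is integral
  have hz1 : IsIntegral ℤ (((q : ℕ) : Qbar) ^ k * (((m : F) * y : F) : Qbar)) := by
    have h1 : (((q : ℕ) : Qbar) ^ k * (((m : F) * y : F) : Qbar)) =
        algebraMap F Qbar ((N.natAbs : F) * y) := by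
      rw [hNkm]
      simp [mul_assoc]
    rw [h1]
    exact hN'.map (IsScalarTower.toAlgHom ℤ F Qbar)
  have hz2 : ∀ A : ValuationSubring Qbar, A.LiesOverPrime (q : ℕ) →
      (((m : F) * y : F) : Qbar) ∈ A := by
    intro A hA
    have : (((m : F) * y : F) : Qbar) = (m : Qbar) * (y : Qbar) := by simp
    rw [this]
    exact A.mul_mem _ _ (natCast_mem A m) (h A hA)
  have hz3 := isIntegral_of_forall_mem_of_liesOverPrime hz1 hz2
  exact (isIntegral_algebraMap_iff (algebraMap F Qbar).injective).mp hz3

/-- `1 ⊗ y` is integral at `q` iff `y` lies in every valuation subring of `Qbar` over `q`. -/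
theorem one_tmul_mem_locInt_iff (y : F) :
    ((1 : ℚ_[pv q]) ⊗ₜ[ℚ] y : LocAlg F q) ∈ locInt F q ↔
      ∀ A : ValuationSubring Qbar, A.LiesOverPrime (q : ℕ) → (y : Qbar) ∈ A := by
  constructor
  · intro hy A hA
    rw [mem_locInt_iff] at hy
    -- coordinates of `y` in the integral basis
    have hrepr : ∀ i, (locBasis F q).repr ((1 : ℚ_[pv q]) ⊗ₜ[ℚ] y) i =
        (((NumberField.integralBasis F).repr y i : ℚ) : ℚ_[pv q]) := by
      intro i
      rw [locBasis, Algebra.TensorProduct.basis_repr_tmul]
      simp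
    have hcoord : ∀ i, (((NumberField.integralBasis F).repr y i : ℚ) : Qbar) ∈ A := by
      intro i
      set c : ℚ := (NumberField.integralBasis F).repr y i with hc
      have h1 : ‖(c : ℚ_[pv q])‖ ≤ 1 := by rw [← hrepr i]; exact hy i
      have h2 : ¬ (q : ℕ) ∣ c.den := by
        have h3 := PadicInt.isUnit_iff.mp (PadicInt.isUnit_den c h1)
        rw [PadicInt.norm_natCast_eq_one_iff] at h3
        exact (Nat.Prime.coprime_iff_not_dvd q.2).mp h3
      have h4 : A.valuation ((c.den : ℕ) : Qbar) = 1 := valuation_natCast_eq_one hA q.2 h2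
      have h5 : (c : Qbar) = (c.num : Qbar) / (c.den : Qbar) := by
        conv_lhs => rw [← Rat.num_div_den c]
        push_cast; rfl
      rw [h5, ← A.valuation_le_one_iff, map_div₀, h4, div_one]
      exact valuation_intCast_le_one A _
    have hsum : (y : Qbar) = ∑ i, (((NumberField.integralBasis F).repr y i : ℚ) : Qbar) *
        (((NumberField.RingOfIntegers.basis F i : 𝓞 F) : F) : Qbar) := by
      conv_lhs => rw [← (NumberField.integralBasis F).sum_repr y]
      rw [AddSubmonoidClass.coe_finsetSum]
      refine Finset.sum_congr rfl fun i _ => ?_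
      rw [NumberField.integralBasis_apply, Algebra.smul_def]
      simp
    rw [hsum]
    refine A.toSubring.sum_mem fun i _ => A.mul_mem _ _ (hcoord i) ?_
    refine mem_valuationSubring_of_isIntegral A ?_
    have : IsIntegral ℤ ((NumberField.RingOfIntegers.basis F i : 𝓞 F) : F) :=
      NumberField.RingOfIntegers.isIntegral_coe _
    exact this.map (IsScalarTower.toAlgHom ℤ F Qbar)
  · intro h
    obtain ⟨m, hqm, hint⟩ := exists_mul_isIntegral_of_forall_mem F q y h
    exact one_tmul_mem_locInt_of_mul_integral F q m hqm y hint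

/-- **Bridge**: the principal idele of `x` is an integral unit at `q` iff `x` is a unit of every
valuation subring of `Qbar` over `q`. -/
theorem locUnit_mem_locIntUnits_iff_valuation (x : Fˣ) :
    locUnit F q x ∈ locIntUnits F q ↔
      ∀ A : ValuationSubring Qbar, A.LiesOverPrime (q : ℕ) → A.valuation ((x : F) : Qbar) = 1 := by
  rw [mem_locIntUnits]
  have h1 : ((locUnit F q x : (LocAlg F q)ˣ) : LocAlg F q) = (1 : ℚ_[pv q]) ⊗ₜ[ℚ] (x : F) := rfl
  have h2 : (((locUnit F q x)⁻¹ : (LocAlg F q)ˣ) : LocAlg F q) =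
      (1 : ℚ_[pv q]) ⊗ₜ[ℚ] ((x⁻¹ : Fˣ) : F) := by
    rw [← map_inv]; rfl
  rw [h1, h2, one_tmul_mem_locInt_iff, one_tmul_mem_locInt_iff]
  constructor
  · rintro ⟨ha, hb⟩ A hA
    have h3 := (A.valuation_le_one_iff _).mpr (ha A hA)
    have h4 := (A.valuation_le_one_iff _).mpr (hb A hA)
    have h5 : (((x⁻¹ : Fˣ) : F) : Qbar) = (((x : F) : Qbar))⁻¹ := by simp
    rw [h5, map_inv₀] at h4
    have hx0 : A.valuation ((x : F) : Qbar) ≠ 0 := by
      rw [Valuation.ne_zero_iff]
      simp
    exact le_antisymm h3 ((inv_le_one₀ (zero_lt_iff.mpr hx0)).mp h4)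
  · intro h
    refine ⟨fun A hA => (A.valuation_le_one_iff _).mp (h A hA).le, fun A hA => ?_⟩
    have h5 : (((x⁻¹ : Fˣ) : F) : Qbar) = (((x : F) : Qbar))⁻¹ := by simp
    rw [← A.valuation_le_one_iff, h5, map_inv₀, h A hA, inv_one]

/-- The `S`-units of `F` in the idelic sense are exactly the elements of `F` which are units at
all valuation subrings of `Qbar` over primes outside `S`. -/
theorem mem_sUnitsS_iff_isSUnitBar (S : Finset Nat.Primes) (x : Fˣ) :
    x ∈ sUnitsS S F ↔ IsSUnitBar S ((x : F) : Qbar) := by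
  rw [mem_sUnitsS]
  constructor
  · intro h q' hq' A hA
    exact (locUnit_mem_locIntUnits_iff_valuation F q' x).mp (h q' hq') A hA
  · intro h q' hq'
    exact (locUnit_mem_locIntUnits_iff_valuation F q' x).mpr fun A hA => h q' hq' A hA

/-- An `S`-unit of a level field gives an element of `ESbar S`. -/
theorem unitsMap_mem_ESbar {S : Finset Nat.Primes} (hF : F.IsUnramifiedOutside S) {x : Fˣ}
    (hx : x ∈ sUnitsS S F) : Units.map (algebraMap F Qbar : F →* Qbar) x ∈ ESbar S :=
  ⟨⟨F, hF, (x : F).2⟩, (mem_sUnitsS_iff_isSUnitBar F S x).mp hx⟩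

end Bridge

end Fermat.Agent.Lib.CFT.Global.SVersion
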