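import Mathlib
import Fermat.Agent.Lib.CFT.Global.SVersion.ValBridge
import Fermat.Agent.Lib.CFT.Global.IdeleCovers

/-!
# P-CFT, Global/SVersion (S-b), helper25: capitulation at finite level

`colim_F Idele F ⧸ (Fˣ · J_S(F) · U_{F,S})` (`= colim_F Cl_S(F)`, the limit over the finite
subfields `F ⊆ Qbar` unramified outside `S`) has no `n`-torsion when all prime factors of `n`
lie in `S`.  In the language of `SVersion/Level.lean` and `SVersion/Ambient.lean`:

* `exists_locUnit_inv_mul_mem_locIntUnits` : every local component of an idele is a principal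
  idele up to an integral unit (weak approximation);
* `exists_levelMap_mem_of_pow_mem` : if `b ^ n ∈ Fˣ · sIdeleGroup S F` then the image of `b` in
  some bigger level field `F'` lies in `F'ˣ · sIdeleGroup S F'`;
* `exists_levelMap_mem_of_pow_mem_normal` : the same with `F'` Galois over `ℚ`.
-/

set_option autoImplicit false

open scoped TensorProduct NumberField

noncomputable section

namespace Fermat.Agent.Lib.CFT.Global.SVersion

open Fermat.Agent.Lib.CFT.Global

section Approx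

variable (L : Type) [Field L] [NumberField L]

/-- Every local component of an idele is, up to an integral unit, the component of a principal
idele. -/
theorem exists_locUnit_inv_mul_mem_locIntUnits (b : Idele L) (q : Nat.Primes) :
    ∃ c : Lˣ, (locUnit L q c)⁻¹ * (b : IdeleProd L).1 q ∈ locIntUnits L q := by
  obtain ⟨x, hx, -⟩ := WeakApprox.exists_principal_approx L b {q} 1 Set.univ
    (by rw [Set.preimage_univ]; exact isOpen_univ) (Set.mem_univ _)
  obtain ⟨z, hz, hzq⟩ := hx q (Finset.mem_singleton_self q)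
  exact ⟨x, IdeleCovers.mem_locIntUnits_of_sub_one L q _ 1 one_ne_zero z hz hzq⟩

end Approx

section Main

local notation "Qbar" => AlgebraicClosure ℚ

open IntermediateField Fermat.Agent.Lib.CFT.Profinite.Bridge

variable {S : Finset Nat.Primes}

/-- Membership in `Fˣ · sIdeleGroup S F` is preserved by the transition maps. -/
theorem levelMap_mem_range_sup_sIdeleGroup {F F' : IntermediateField ℚ Qbar}
    [FiniteDimensional ℚ F] [FiniteDimensional ℚ F'] (h : F ≤ F') {b : Idele F}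
    (hb : b ∈ (principal F).range ⊔ sIdeleGroup S F) :
    levelMap h b ∈ (principal F').range ⊔ sIdeleGroup S F' := by
  obtain ⟨_, ⟨x, rfl⟩, u, hu, rfl⟩ := Subgroup.mem_sup.1 hb
  rw [map_mul]
  refine Subgroup.mul_mem_sup ⟨Units.map _ x, (ideleMap_principal _ x).symm⟩ ?_
  exact ideleMap_mem_sIdeleGroup S _ hu

/-- **Capitulation at finite level.** If all prime factors of `n` lie in `S`, `F` is a finite
subfield of `Qbar` unramified outside `S` and the class of the idele `b` in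
`Idele F ⧸ (Fˣ · sIdeleGroup S F)` (the `S`-class group of `F`) is killed by `n`, then this class
becomes trivial in a bigger finite subfield `F'` unramified outside `S`. -/
theorem exists_levelMap_mem_of_pow_mem {n : ℕ} (hn0 : n ≠ 0)
    (hn : ∀ q : Nat.Primes, (q : ℕ) ∣ n → q ∈ S)
    (F : IntermediateField ℚ Qbar) [FiniteDimensional ℚ F] (hF : F.IsUnramifiedOutside S)
    (b : Idele F) (hb : b ^ n ∈ (principal F).range ⊔ sIdeleGroup S F) :
    ∃ (F' : IntermediateField ℚ Qbar) (_ : FiniteDimensional ℚ F') (h : F ≤ F'),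
      F'.IsUnramifiedOutside S ∧ levelMap h b ∈ (principal F').range ⊔ sIdeleGroup S F' := by
  obtain ⟨_, ⟨x, rfl⟩, u, hu, hxu⟩ := Subgroup.mem_sup.1 hb
  -- an `n`-th root of `x`
  obtain ⟨β, hβ⟩ := IsAlgClosed.exists_pow_nat_eq (((x : F) : Qbar)) (Nat.pos_of_ne_zero hn0)
  have hx0 : ((x : F) : Qbar) ≠ 0 := by simp
  have hβ0 : β ≠ 0 := by
    rintro rfl
    rw [zero_pow hn0] at hβ
    exact hx0 hβ.symm
  -- local approximations
  have hc : ∀ q : Nat.Primes, ∃ c : Fˣ,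
      (locUnit F q c)⁻¹ * (b : IdeleProd F).1 q ∈ locIntUnits F q :=
    fun q => exists_locUnit_inv_mul_mem_locIntUnits F b q
  choose c hc using hc
  -- valuations of `x`
  have hval : ∀ q : Nat.Primes, q ∉ S → ∀ A : ValuationSubring Qbar, A.LiesOverPrime (q : ℕ) →
      A.valuation ((x : F) : Qbar) = A.valuation ((c q : F) : Qbar) ^ n := by
    intro q hq A hA
    have hq1 : (b : IdeleProd F).1 q ^ n = locUnit F q x * (u : IdeleProd F).1 q := by
      have := congrArg (fun a : Idele F => (a : IdeleProd F).1 q) hxu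
      exact this.symm
    have hmem : locUnit F q (x * (c q ^ n)⁻¹) ∈ locIntUnits F q := by
      have h1 : locUnit F q (x * (c q ^ n)⁻¹) =
          ((locUnit F q (c q))⁻¹ * (b : IdeleProd F).1 q) ^ n * ((u : IdeleProd F).1 q)⁻¹ := by
        rw [mul_pow, hq1, map_mul, map_inv, map_pow, inv_pow]
        rw [mul_comm ((locUnit F q (c q) ^ n)⁻¹), mul_assoc, mul_assoc, mul_comm _ ((u : IdeleProd F).1 q)⁻¹,
          ← mul_assoc ((u : IdeleProd F).1 q), mul_inv_cancel, one_mul]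
      rw [h1]
      exact mul_mem (pow_mem (hc q) n) (inv_mem (hu q hq))
    have h2 := (locUnit_mem_locIntUnits_iff_valuation F q (x * (c q ^ n)⁻¹)).mp hmem A hA
    have h3 : (((x * (c q ^ n)⁻¹ : Fˣ) : F) : Qbar) =
        ((x : F) : Qbar) * (((c q : F) : Qbar) ^ n)⁻¹ := by
      simp
    rw [h3, map_mul, map_inv₀, map_pow] at h2
    have hc0 : A.valuation ((c q : F) : Qbar) ^ n ≠ 0 := by
      apply pow_ne_zero
      rw [Valuation.ne_zero_iff]
      simp
    exact (mul_inv_eq_one₀ hc0).mp h2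
  -- the capitulation core
  obtain ⟨hF', hβval⟩ := isUnramifiedOutside_sup_adjoin_root_of_valuation_pow hn0 hn hF
    (α := ((x : F) : Qbar)) (β := β) (x : F).2 hβ
    (fun q hq A hA => ⟨((c q : F) : Qbar), (c q : F).2, by simp, hval q hq A hA⟩)
  have hfin : FiniteDimensional ℚ ↥(F ⊔ ℚ⟮β⟯) := hF'.1
  have hle : F ≤ F ⊔ ℚ⟮β⟯ := le_sup_left
  refine ⟨F ⊔ ℚ⟮β⟯, hfin, hle, hF', ?_⟩
  have hβmem : β ∈ F ⊔ ℚ⟮β⟯ := (le_sup_right : ℚ⟮β⟯ ≤ F ⊔ ℚ⟮β⟯) (mem_adjoin_simple_self ℚ β)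
  set y : (↥(F ⊔ ℚ⟮β⟯))ˣ := Units.mk0 ⟨β, hβmem⟩ (by
    intro h0
    exact hβ0 (congrArg Subtype.val h0)) with hy
  have hkey : (principal ↥(F ⊔ ℚ⟮β⟯) y)⁻¹ * levelMap hle b ∈ sIdeleGroup S ↥(F ⊔ ℚ⟮β⟯) := by
    intro q hq
    have hcomp : (((principal ↥(F ⊔ ℚ⟮β⟯) y)⁻¹ * levelMap hle b : Idele ↥(F ⊔ ℚ⟮β⟯)) :
        IdeleProd ↥(F ⊔ ℚ⟮β⟯)).1 q =
        (locUnit ↥(F ⊔ ℚ⟮β⟯) q y)⁻¹ *
          locUnitsMap ((IntermediateField.inclusion hle : F →ₐ[ℚ] ↥(F ⊔ ℚ⟮β⟯)) :
            F →+* ↥(F ⊔ ℚ⟮β⟯)) q ((b : IdeleProd F).1 q) := rfl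
    rw [hcomp]
    set f : F →+* ↥(F ⊔ ℚ⟮β⟯) :=
      ((IntermediateField.inclusion hle : F →ₐ[ℚ] ↥(F ⊔ ℚ⟮β⟯)) : F →+* ↥(F ⊔ ℚ⟮β⟯)) with hf
    have hbq : (b : IdeleProd F).1 q =
        locUnit F q (c q) * ((locUnit F q (c q))⁻¹ * (b : IdeleProd F).1 q) := by
      rw [mul_inv_cancel_left]
    rw [hbq, map_mul, locUnitsMap_locUnit, ← mul_assoc]
    refine mul_mem ?_ (locUnitsMap_mem_locIntUnits f q (hc q))
    rw [← map_inv, ← map_mul]
    rw [locUnit_mem_locIntUnits_iff_valuation]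
    intro A hA
    have h3 : (((y⁻¹ * Units.map (f : F →* ↥(F ⊔ ℚ⟮β⟯)) (c q) : (↥(F ⊔ ℚ⟮β⟯))ˣ) :
        ↥(F ⊔ ℚ⟮β⟯)) : Qbar) = β⁻¹ * ((c q : F) : Qbar) := by
      simp [hy, hf]
    rw [h3, map_mul, map_inv₀, hβval q hq A hA _ (hval q hq A hA)]
    apply inv_mul_cancel₀
    rw [Valuation.ne_zero_iff]
    simp
  have : levelMap hle b = principal ↥(F ⊔ ℚ⟮β⟯) y * ((principal ↥(F ⊔ ℚ⟮β⟯) y)⁻¹ * levelMap hle b) := by
    rw [mul_inv_cancel_left]
  rw [this]
  exact Subgroup.mul_mem_sup ⟨y, rfl⟩ hkey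

/-- **Capitulation at finite level**, with a bigger field which is Galois over `ℚ`. -/
theorem exists_levelMap_mem_of_pow_mem_normal {n : ℕ} (hn0 : n ≠ 0)
    (hn : ∀ q : Nat.Primes, (q : ℕ) ∣ n → q ∈ S)
    (F : IntermediateField ℚ Qbar) [FiniteDimensional ℚ F] (hF : F.IsUnramifiedOutside S)
    (b : Idele F) (hb : b ^ n ∈ (principal F).range ⊔ sIdeleGroup S F) :
    ∃ (F' : IntermediateField ℚ Qbar) (_ : FiniteDimensional ℚ F') (h : F ≤ F'),
      F'.IsUnramifiedOutside S ∧ Normal ℚ F' ∧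
        levelMap h b ∈ (principal F').range ⊔ sIdeleGroup S F' := by
  obtain ⟨F₁, hfin₁, h₁, hF₁, hmem⟩ := exists_levelMap_mem_of_pow_mem hn0 hn F hF b hb
  have hnq : Normal ℚ Qbar := normal_qbar
  have hF₂ := isUnramifiedOutside_normalClosure hF₁
  have hfin₂ : FiniteDimensional ℚ ↥(IntermediateField.normalClosure ℚ F₁ Qbar) := hF₂.1
  have h₂ : F₁ ≤ IntermediateField.normalClosure ℚ F₁ Qbar := F₁.le_normalClosure
  refine ⟨IntermediateField.normalClosure ℚ F₁ Qbar, hfin₂, h₁.trans h₂, hF₂,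
    normalClosure.normal ℚ F₁ Qbar, ?_⟩
  have h3 := levelMap_mem_range_sup_sIdeleGroup (S := S) h₂ hmem
  have h4 : levelMap h₂ (levelMap h₁ b) = levelMap (h₁.trans h₂) b := by
    apply toAmb_injective
    rw [toAmb_levelMap, toAmb_levelMap, toAmb_levelMap]
  rwa [h4] at h3

end Main

end Fermat.Agent.Lib.CFT.Global.SVersion
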