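import Mathlib.RepresentationTheory.Rep.Res
import Mathlib.Algebra.Homology.ShortComplex.ModuleCat
import Mathlib.GroupTheory.QuotientGroup.Basic

/-!
# Multiplicative `G`-modules as objects of `Rep ℤ G` (helper11, P-CFT Global/S-version, generic)

Generic glue for commutative groups `A` with a `MulDistribMulAction G A`:
* `IsSMulStable G N` : the subgroup `N ≤ A` is stable under `G`;
* `subgroupAction`, `quotientAction` : the induced actions on `N` and on `A ⧸ N`;
* `repHom f hf` : an equivariant monoid homomorphism as a morphism of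
  `Rep.ofMulDistribMulAction`;
* `shortExact_of_mul` : short exactness in `Rep ℤ G` from the multiplicative statements
  (injective, `range = ker`, surjective).
-/

open CategoryTheory

noncomputable section

namespace Fermat.Agent.Lib.CFT.Global.SVersion.RepMul

universe u v

variable (G : Type v) [Group G] {A B C : Type u} [CommGroup A] [CommGroup B] [CommGroup C]
  [MulDistribMulAction G A] [MulDistribMulAction G B] [MulDistribMulAction G C]

/-- A subgroup stable under the action. -/
def IsSMulStable (N : Subgroup A) : Prop := ∀ (g : G) (a : A), a ∈ N → g • a ∈ N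

variable {G}

lemma IsSMulStable.smul_mem_iff {N : Subgroup A} (hN : IsSMulStable G N) (g : G) {a : A} :
    g • a ∈ N ↔ a ∈ N := by
  refine ⟨fun h => ?_, hN g a⟩
  have := hN g⁻¹ _ h
  rwa [inv_smul_smul] at this

lemma IsSMulStable.inf {N N' : Subgroup A} (hN : IsSMulStable G N) (hN' : IsSMulStable G N') :
    IsSMulStable G (N ⊓ N') := fun g a ha => ⟨hN g a ha.1, hN' g a ha.2⟩

lemma IsSMulStable.sup {N N' : Subgroup A} (hN : IsSMulStable G N) (hN' : IsSMulStable G N') :
    IsSMulStable G (N ⊔ N') := by
  intro g a ha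
  obtain ⟨x, hx, y, hy, rfl⟩ := Subgroup.mem_sup.1 ha
  rw [smul_mul']
  exact Subgroup.mem_sup.2 ⟨_, hN g x hx, _, hN' g y hy, rfl⟩

lemma isSMulStable_bot : IsSMulStable G (⊥ : Subgroup A) := by
  intro g a ha
  rw [Subgroup.mem_bot] at ha ⊢
  rw [ha, smul_one]

lemma isSMulStable_top : IsSMulStable G (⊤ : Subgroup A) := fun _ _ _ => Subgroup.mem_top _

lemma IsSMulStable.comap {N : Subgroup B} (hN : IsSMulStable G N) (f : A →* B)
    (hf : ∀ (g : G) (a : A), f (g • a) = g • f a) : IsSMulStable G (N.comap f) := by
  intro g a ha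
  rw [Subgroup.mem_comap, hf]
  exact hN g _ ha

lemma IsSMulStable.map {N : Subgroup A} (hN : IsSMulStable G N) (f : A →* B)
    (hf : ∀ (g : G) (a : A), f (g • a) = g • f a) : IsSMulStable G (N.map f) := by
  rintro g _ ⟨a, ha, rfl⟩
  exact ⟨g • a, hN g a ha, hf g a⟩

lemma isSMulStable_range (f : A →* B) (hf : ∀ (g : G) (a : A), f (g • a) = g • f a) :
    IsSMulStable G f.range := by
  rintro g _ ⟨a, rfl⟩
  exact ⟨g • a, hf g a⟩

lemma isSMulStable_ker (f : A →* B) (hf : ∀ (g : G) (a : A), f (g • a) = g • f a) :
    IsSMulStable G f.ker := by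
  intro g a ha
  rw [MonoidHom.mem_ker] at ha ⊢
  rw [hf, ha, smul_one]

/-- The action on a stable subgroup. -/
@[reducible] def subgroupAction (N : Subgroup A) (hN : IsSMulStable G N) :
    MulDistribMulAction G N where
  smul g x := ⟨g • (x : A), hN g x x.2⟩
  one_smul x := Subtype.ext (one_smul G (x : A))
  mul_smul g h x := Subtype.ext (mul_smul g h (x : A))
  smul_mul g x y := Subtype.ext (smul_mul' g (x : A) (y : A))
  smul_one g := Subtype.ext (smul_one g)

/-- The action on the quotient by a stable subgroup. -/
@[reducible] def quotientAction (N : Subgroup A) (hN : IsSMulStable G N) :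
    MulDistribMulAction G (A ⧸ N) where
  smul g := QuotientGroup.map N N (MulDistribMulAction.toMonoidHom A g) (fun a ha => hN g a ha)
  one_smul x := by
    induction x using QuotientGroup.induction_on with
    | H x =>
      change (QuotientGroup.mk ((1 : G) • x) : A ⧸ N) = QuotientGroup.mk x
      rw [one_smul]
  mul_smul g h x := by
    induction x using QuotientGroup.induction_on with
    | H x =>
      change (QuotientGroup.mk ((g * h) • x) : A ⧸ N) = QuotientGroup.mk (g • h • x)
      rw [mul_smul]
  smul_mul g x y := map_mul _ x y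
  smul_one g := map_one _

lemma quotientAction_smul_mk (N : Subgroup A) (hN : IsSMulStable G N) (g : G) (a : A) :
    letI := quotientAction N hN
    g • (QuotientGroup.mk a : A ⧸ N) = QuotientGroup.mk (g • a) := rfl

lemma subgroupAction_coe_smul (N : Subgroup A) (hN : IsSMulStable G N) (g : G) (x : N) :
    letI := subgroupAction N hN
    ((g • x : N) : A) = g • (x : A) := rfl

/-- An equivariant monoid homomorphism as a morphism in `Rep ℤ G`. -/
def repHom (f : A →* B) (hf : ∀ (g : G) (a : A), f (g • a) = g • f a) :
    Rep.ofMulDistribMulAction G A ⟶ Rep.ofMulDistribMulAction G B :=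
  Rep.ofHom (LinearMap.intertwiningMap_of_isIntertwiningMap
    (ρ := Representation.ofMulDistribMulAction G A) (σ := Representation.ofMulDistribMulAction G B)
    (f.toAdditive.toIntLinearMap) (fun g v => by
      change Additive.ofMul (f (g • v.toMul)) = Additive.ofMul (g • f v.toMul)
      rw [hf]))

@[simp] lemma repHom_apply (f : A →* B) (hf : ∀ (g : G) (a : A), f (g • a) = g • f a)
    (a : Additive A) : (repHom f hf).hom a = Additive.ofMul (f a.toMul) := rfl

lemma repHom_comp (f : A →* B) (hf : ∀ (g : G) (a : A), f (g • a) = g • f a)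
    (f' : B →* C) (hf' : ∀ (g : G) (a : B), f' (g • a) = g • f' a) :
    repHom f hf ≫ repHom f' hf' = repHom (f'.comp f) (fun g a => by simp [hf, hf']) := by
  apply Rep.hom_ext
  apply Representation.IntertwiningMap.ext
  rfl

lemma mono_repHom (f : A →* B) (hf : ∀ (g : G) (a : A), f (g • a) = g • f a)
    (hinj : Function.Injective f) : Mono (repHom f hf) := by
  rw [Rep.mono_iff_injective]
  intro a b h
  exact hinj h

lemma epi_repHom (f : A →* B) (hf : ∀ (g : G) (a : A), f (g • a) = g • f a)
    (hsurj : Function.Surjective f) : Epi (repHom f hf) := by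
  rw [Rep.epi_iff_surjective]
  intro b
  obtain ⟨a, ha⟩ := hsurj b.toMul
  exact ⟨Additive.ofMul a, congrArg Additive.ofMul ha⟩

/-- The short complex of `Rep ℤ G` attached to two composable equivariant homomorphisms with
trivial composite. -/
def shortComplex (f : A →* B) (hf : ∀ (g : G) (a : A), f (g • a) = g • f a)
    (f' : B →* C) (hf' : ∀ (g : G) (a : B), f' (g • a) = g • f' a)
    (hzero : ∀ a, f' (f a) = 1) : ShortComplex (Rep.{u} ℤ G) where
  X₁ := Rep.ofMulDistribMulAction G A
  X₂ := Rep.ofMulDistribMulAction G B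
  X₃ := Rep.ofMulDistribMulAction G C
  f := repHom f hf
  g := repHom f' hf'
  zero := by
    apply Rep.hom_ext
    apply Representation.IntertwiningMap.ext
    ext a
    exact congrArg Additive.ofMul (hzero a.toMul)

/-- Exactness in `Rep k G` can be checked on elements. -/
lemma rep_exact_of_forall {k : Type*} [CommRing k] {G : Type v} [Group G]
    (S : ShortComplex (Rep.{u} k G))
    (h : ∀ x₂ : S.X₂, S.g.hom x₂ = 0 → ∃ x₁ : S.X₁, S.f.hom x₁ = x₂) : S.Exact := by
  rw [← ShortComplex.exact_map_iff_of_faithful _ (forget₂ (Rep.{u} k G) (ModuleCat.{u} k)),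
    ShortComplex.moduleCat_exact_iff]
  intro b hb
  exact h b hb

/-- Short exactness in `Rep ℤ G` from the multiplicative statements. -/
lemma shortExact_of_mul (f : A →* B) (hf : ∀ (g : G) (a : A), f (g • a) = g • f a)
    (f' : B →* C) (hf' : ∀ (g : G) (a : B), f' (g • a) = g • f' a)
    (hinj : Function.Injective f) (hsurj : Function.Surjective f')
    (hex : ∀ b, f' b = 1 ↔ b ∈ f.range) :
    (shortComplex f hf f' hf' (fun a => (hex (f a)).2 ⟨a, rfl⟩)).ShortExact := by
  have hmono := mono_repHom f hf hinj
  have hepi := epi_repHom f' hf' hsurj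
  refine ShortComplex.ShortExact.mk' (rep_exact_of_forall _ ?_) hmono hepi
  intro b hb
  obtain ⟨a, ha⟩ := (hex (Additive.toMul b)).1 (congrArg Additive.toMul hb)
  exact ⟨Additive.ofMul a, congrArg Additive.ofMul ha⟩

end Fermat.Agent.Lib.CFT.Global.SVersion.RepMul
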