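import Mathlib
import Fermat.Agent.Lib.CFT.Global.SVersion.Divisible
import Fermat.Agent.Lib.CFT.Global.SVersion.RepMul
import Fermat.Agent.Lib.CFT.Profinite.BridgeLevels
import Fermat.Agent.Lib.CFT.Profinite.LevelCochains

/-!
# P-CFT, Global/SVersion (S-b), helper25: the `S`-units of `ℚ_S` as a discrete Galois module

`ESbarRep S : Rep ℤ Γℚ` is the module of `S`-units of the maximal extension of `ℚ` unramified
outside `S` (multiplicative group `ESbar S`, written additively).  It is discrete for the level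
family `levelsS S`, multiplication by `n` is surjective on it when all prime factors of `n` lie in
`S`, with kernel the `n`-th roots of unity, and its invariants under the fixing subgroup of a
finite extension `F` are the elements lying in `F`.
-/

set_option autoImplicit false

open CategoryTheory

noncomputable section

namespace Fermat.Agent.Lib.CFT.Global.SVersion

open Fermat.Agent.Lib.CFT.Profinite Fermat.Agent.Lib.CFT.Profinite.Bridge

local notation "Ω" => AlgebraicClosure ℚ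
local notation "Γℚ" => (AlgebraicClosure ℚ ≃ₐ[ℚ] AlgebraicClosure ℚ)

local instance isAlgebraicQbar_es : Algebra.IsAlgebraic ℚ (AlgebraicClosure ℚ) :=
  AlgebraicClosure.isAlgebraic ℚ
local instance isAlgClosureQbar_es : IsAlgClosure ℚ (AlgebraicClosure ℚ) :=
  ⟨inferInstance, inferInstance⟩
local instance normalQbar_es : Normal ℚ (AlgebraicClosure ℚ) :=
  IsAlgClosure.normal ℚ (AlgebraicClosure ℚ)
local instance isGaloisQbar_es : IsGalois ℚ (AlgebraicClosure ℚ) := ⟨⟩

variable (S : Finset Nat.Primes)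

theorem smul_units_eq_map (σ : Γℚ) (x : Ωˣ) : σ • x = Units.map (σ : Ω →* Ω) x :=
  Units.ext rfl

theorem isSMulStable_ESbar : RepMul.IsSMulStable Γℚ (ESbar S) := by
  intro σ x hx
  rw [smul_units_eq_map]
  exact map_mem_ESbar hx σ

/-- The action of the absolute Galois group on `ESbar S`. -/
@[reducible] def ESbarAction : MulDistribMulAction Γℚ (ESbar S) :=
  RepMul.subgroupAction (ESbar S) (isSMulStable_ESbar S)

attribute [local instance] ESbarAction

theorem coe_smul_ESbar (σ : Γℚ) (x : ESbar S) : (((σ • x : ESbar S) : Ωˣ) : Ω) = σ ((x : Ωˣ) : Ω) :=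
  rfl

/-- The `S`-units of `ℚ_S` as an object of `Rep ℤ Γℚ`. -/
def ESbarRep : Rep ℤ Γℚ := Rep.ofMulDistribMulAction Γℚ (ESbar S)

theorem ESbarRep_ρ_apply (σ : Γℚ) (a : Additive (ESbar S)) :
    (ESbarRep S).ρ σ a = Additive.ofMul (σ • a.toMul) := rfl

/-- `ESbarRep S` is a discrete module for the level family `levelsS S`. -/
theorem isDiscrete_ESbarRep : (levelsS S).IsDiscrete (ESbarRep S) := by
  intro m
  let x : ESbar S := Additive.toMul (show Additive (ESbar S) from m)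
  obtain ⟨F, hF, hxF⟩ := x.2.1
  refine ⟨F.fixingSubgroup, ⟨F, hF, rfl⟩, fun s hs => ?_⟩
  have h1 : s ((x : Ωˣ) : Ω) = ((x : Ωˣ) : Ω) :=
    (IntermediateField.mem_fixingSubgroup_iff _ _).mp hs _ hxF
  have h2 : s • x = x := by
    apply Subtype.ext
    apply Units.ext
    exact h1
  change Additive.ofMul (s • x) = Additive.ofMul x
  rw [h2]

/-- The `n`-th power map of `ESbar S`. -/
def ESbarPow (n : ℕ) : ESbar S →* ESbar S := powMonoidHom n

theorem ESbarPow_smul (n : ℕ) (σ : Γℚ) (x : ESbar S) :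
    ESbarPow S n (σ • x) = σ • ESbarPow S n x := by
  change (σ • x) ^ n = σ • x ^ n
  rw [smul_pow']

variable {S} in
theorem ESbarPow_surjective {n : ℕ} (hn0 : n ≠ 0) (hn : ∀ q : Nat.Primes, (q : ℕ) ∣ n → q ∈ S) :
    Function.Surjective (ESbarPow S n) := by
  intro u
  obtain ⟨x, hx, hxu⟩ := exists_pow_eq_of_mem_ESbar hn0 hn u.2
  exact ⟨⟨x, hx⟩, Subtype.ext hxu⟩

/-- The `n`-th roots of unity of `Ω`, as a subgroup of `ESbar S`. -/
def muSub (n : ℕ) : Subgroup (ESbar S) := (ESbarPow S n).ker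

theorem mem_muSub_iff (n : ℕ) (x : ESbar S) : x ∈ muSub S n ↔ ((x : Ωˣ) : Ω) ^ n = 1 := by
  unfold muSub
  rw [MonoidHom.mem_ker]
  change x ^ n = 1 ↔ _
  rw [Subtype.ext_iff, Units.ext_iff]
  simp

variable {S} in
/-- Every `n`-th root of unity of `Ω` lies in `ESbar S` (all prime factors of `n` in `S`). -/
theorem exists_mem_muSub_of_pow_eq_one {n : ℕ} (hn0 : n ≠ 0)
    (hn : ∀ q : Nat.Primes, (q : ℕ) ∣ n → q ∈ S) {ζ : Ω} (hζ : ζ ^ n = 1) :
    ∃ x : ESbar S, x ∈ muSub S n ∧ ((x : Ωˣ) : Ω) = ζ := by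
  have hζ0 : ζ ≠ 0 := by
    rintro rfl
    rw [zero_pow hn0] at hζ
    exact zero_ne_one hζ
  have hmem : Units.mk0 ζ hζ0 ∈ rootsOfUnity n Ω := by
    rw [mem_rootsOfUnity]
    exact Units.ext (by simpa using hζ)
  refine ⟨⟨Units.mk0 ζ hζ0, rootsOfUnity_le_ESbar hn0 hn hmem⟩, ?_, rfl⟩
  rw [mem_muSub_iff]
  exact hζ

/-- Multiplication by `n` on `ESbarRep S`, as a morphism of representations. -/
def ESbarRepPow (n : ℕ) : ESbarRep S ⟶ ESbarRep S :=
  RepMul.repHom (ESbarPow S n) (fun σ x => ESbarPow_smul S n σ x)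

theorem ESbarRepPow_apply (n : ℕ) (a : Additive (ESbar S)) :
    (ESbarRepPow S n).hom a = n • a := rfl

variable {S} in
theorem epi_ESbarRepPow {n : ℕ} (hn0 : n ≠ 0) (hn : ∀ q : Nat.Primes, (q : ℕ) ∣ n → q ∈ S) :
    Epi (ESbarRepPow S n) :=
  RepMul.epi_repHom _ _ (ESbarPow_surjective hn0 hn)

variable {S} in
theorem ESbarRepPow_surjective {n : ℕ} (hn0 : n ≠ 0)
    (hn : ∀ q : Nat.Primes, (q : ℕ) ∣ n → q ∈ S) :
    Function.Surjective (ESbarRepPow S n).hom := by
  intro b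
  obtain ⟨a, ha⟩ := ESbarPow_surjective hn0 hn (Additive.toMul b)
  exact ⟨Additive.ofMul a, congrArg Additive.ofMul ha⟩

theorem isSMulStable_muSub (n : ℕ) : RepMul.IsSMulStable Γℚ (muSub S n) :=
  RepMul.isSMulStable_ker _ (fun σ x => ESbarPow_smul S n σ x)

/-- **Invariants**: an element of `ESbar S` fixed by the fixing subgroup of a finite extension
`F` of `ℚ` lies in `F`. -/
theorem mem_of_forall_smul_eq (F : IntermediateField ℚ Ω) [FiniteDimensional ℚ F] (x : ESbar S)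
    (hx : ∀ σ ∈ F.fixingSubgroup, σ • x = x) : ((x : Ωˣ) : Ω) ∈ F := by
  have h1 : ((x : Ωˣ) : Ω) ∈ IntermediateField.fixedField F.fixingSubgroup := by
    rw [IntermediateField.mem_fixedField_iff]
    intro σ hσ
    have := hx σ hσ
    exact congrArg (fun y : ESbar S => ((y : Ωˣ) : Ω)) this
  rwa [InfiniteGalois.fixedField_fixingSubgroup] at h1

theorem smul_eq_of_mem (F : IntermediateField ℚ Ω) (x : ESbar S) (hx : ((x : Ωˣ) : Ω) ∈ F)
    (σ : Γℚ) (hσ : σ ∈ F.fixingSubgroup) : σ • x = x := by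
  apply Subtype.ext
  apply Units.ext
  exact (IntermediateField.mem_fixingSubgroup_iff _ _).mp hσ _ hx

section KummerSequence

theorem ESbarPow_eq_one_iff (n : ℕ) (b : ESbar S) :
    ESbarPow S n b = 1 ↔ b ∈ (muSub S n).subtype.range := by
  rw [Subgroup.range_subtype]
  rfl

/-- The Kummer sequence `0 → μ_n → E_S → E_S → 0` as a short complex of `Rep ℤ Γℚ`. -/
def kummerComplex (n : ℕ) : ShortComplex (Rep ℤ Γℚ) :=
  letI := RepMul.subgroupAction (muSub S n) (isSMulStable_muSub S n)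
  RepMul.shortComplex (G := Γℚ) (muSub S n).subtype (fun _ _ => rfl) (ESbarPow S n)
    (fun σ x => ESbarPow_smul S n σ x)
    (fun a => (ESbarPow_eq_one_iff S n _).2 ⟨a, rfl⟩)

theorem kummerComplex_X₂ (n : ℕ) : (kummerComplex S n).X₂ = ESbarRep S := rfl

theorem kummerComplex_X₃ (n : ℕ) : (kummerComplex S n).X₃ = ESbarRep S := rfl

theorem kummerComplex_g (n : ℕ) : (kummerComplex S n).g = ESbarRepPow S n := rfl

variable {S} in
/-- The Kummer sequence is short exact when all prime factors of `n` lie in `S`. -/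
theorem kummerComplex_shortExact {n : ℕ} (hn0 : n ≠ 0)
    (hn : ∀ q : Nat.Primes, (q : ℕ) ∣ n → q ∈ S) : (kummerComplex S n).ShortExact :=
  letI := RepMul.subgroupAction (muSub S n) (isSMulStable_muSub S n)
  RepMul.shortExact_of_mul (G := Γℚ) (muSub S n).subtype (fun _ _ => rfl) (ESbarPow S n)
    (fun σ x => ESbarPow_smul S n σ x) Subtype.val_injective (ESbarPow_surjective hn0 hn)
    (ESbarPow_eq_one_iff S n)

end KummerSequence

section Mu

variable (p : ℕ) [hp : Fact p.Prime]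

/-- Galois action on a `p`-th root of unity through the cyclotomic character of the Prelude. -/
theorem apply_eq_pow_cycloExp (σ : Γℚ) {ζ : Ω} (hζ : ζ ^ p = 1) :
    σ ζ = ζ ^ ExtCitation.cycloExp p σ := by
  have : NeZero p := ⟨hp.out.ne_zero⟩
  have hζ0 : ζ ≠ 0 := by
    rintro rfl
    rw [zero_pow hp.out.ne_zero] at hζ
    exact zero_ne_one hζ
  have hmem : Units.mk0 ζ hζ0 ∈ rootsOfUnity p Ω := by
    rw [mem_rootsOfUnity]
    exact Units.ext (by simpa using hζ)
  have := modularCyclotomicCharacter.spec Ω (ExtCitation.card_rootsOfUnity_eq_self p)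
    (σ : Ω ≃+* Ω) hmem
  simpa [ExtCitation.cycloExp] using this

theorem prime_dvd_mem {S : Finset Nat.Primes} (hpS : (⟨p, hp.out⟩ : Nat.Primes) ∈ S)
    (q : Nat.Primes) (hq : (q : ℕ) ∣ p) : q ∈ S := by
  have h1 : (q : ℕ) = p := (Nat.prime_dvd_prime_iff_eq q.2 hp.out).mp hq
  have h2 : q = ⟨p, hp.out⟩ := Subtype.ext h1
  rw [h2]; exact hpS

/-- The `p`-torsion of `ESbar S` is, as a Galois module, `ℤ/p` twisted by the cyclotomic
character (`p ∈ S`). -/
theorem exists_muSub_addEquiv (hpS : (⟨p, hp.out⟩ : Nat.Primes) ∈ S) :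
    letI := RepMul.subgroupAction (muSub S p) (isSMulStable_muSub S p)
    ∃ e : ZMod p ≃+ Additive (muSub S p), ∀ (σ : Γℚ) (a : ZMod p),
      e ((ExtCitation.cycloChar p σ : ZMod p) * a) = Additive.ofMul (σ • (e a).toMul) := by
  let _ := RepMul.subgroupAction (muSub S p) (isSMulStable_muSub S p)
  have : NeZero p := ⟨hp.out.ne_zero⟩
  have hn0 : p ≠ 0 := hp.out.ne_zero
  have hn := prime_dvd_mem p hpS
  obtain ⟨ζ, hζ⟩ := HasEnoughRootsOfUnity.exists_primitiveRoot Ω p
  obtain ⟨z, hz, hzζ⟩ := exists_mem_muSub_of_pow_eq_one hn0 hn hζ.pow_eq_one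
  let z' : muSub S p := ⟨z, hz⟩
  have hcoe : ∀ (x y : muSub S p), (((x : ESbar S) : Ωˣ) : Ω) = (((y : ESbar S) : Ωˣ) : Ω) →
      x = y := fun x y h => Subtype.ext (Subtype.ext (Units.ext h))
  have hcoe_zpow : ∀ i : ℤ, ((((z' ^ i : muSub S p) : ESbar S) : Ωˣ) : Ω) = ζ ^ i := by
    intro i
    simp [z', hzζ]
  have hcoe_pow : ∀ i : ℕ, ((((z' ^ i : muSub S p) : ESbar S) : Ωˣ) : Ω) = ζ ^ i := by
    intro i
    simp [z', hzζ]
  let f : ℤ →+ Additive (muSub S p) := zmultiplesHom _ (Additive.ofMul z')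
  have hf_apply : ∀ i : ℤ, f i = Additive.ofMul (z' ^ i) := by
    intro i
    simp [f, ofMul_zpow]
  have hf : f (p : ℤ) = 0 := by
    rw [hf_apply]
    have : z' ^ ((p : ℕ) : ℤ) = 1 := by
      apply hcoe
      rw [hcoe_zpow]
      simp [hζ.pow_eq_one]
    rw [this]; rfl
  let e₀ : ZMod p →+ Additive (muSub S p) := ZMod.lift p ⟨f, hf⟩
  have he₀ : ∀ i : ℤ, e₀ (i : ZMod p) = Additive.ofMul (z' ^ i) := by
    intro i
    rw [← hf_apply]
    exact ZMod.lift_coe p ⟨f, hf⟩ i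
  have hinj : Function.Injective e₀ := by
    rw [injective_iff_map_eq_zero]
    intro a ha
    obtain ⟨i, rfl⟩ := ZMod.intCast_surjective a
    rw [he₀] at ha
    have h1 : z' ^ i = 1 := ha
    have h2 : ζ ^ i = 1 := by
      rw [← hcoe_zpow, h1]; simp
    exact (ZMod.intCast_zmod_eq_zero_iff_dvd i p).mpr ((hζ.zpow_eq_one_iff_dvd i).mp h2)
  have hsurj : Function.Surjective e₀ := by
    intro x
    have hx : (((Additive.toMul x : muSub S p) : ESbar S) : Ωˣ).val ^ p = 1 :=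
      (mem_muSub_iff S p _).mp (Additive.toMul x).2
    obtain ⟨i, -, hi⟩ := hζ.eq_pow_of_pow_eq_one hx
    refine ⟨((i : ℤ) : ZMod p), ?_⟩
    rw [he₀]
    apply congrArg Additive.ofMul
    apply hcoe
    rw [hcoe_zpow, zpow_natCast, hi]
    rfl
  refine ⟨AddEquiv.ofBijective e₀ ⟨hinj, hsurj⟩, fun σ a => ?_⟩
  obtain ⟨i, rfl⟩ := ZMod.intCast_surjective a
  change e₀ _ = Additive.ofMul (σ • (e₀ _).toMul)
  rw [ExtCitation.coe_cycloChar, he₀]
  have h1 : ((ExtCitation.cycloExp p σ : ℕ) : ZMod p) * ((i : ℤ) : ZMod p) =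
      (((ExtCitation.cycloExp p σ : ℤ) * i : ℤ) : ZMod p) := by push_cast; ring
  rw [h1, he₀]
  apply congrArg Additive.ofMul
  apply hcoe
  rw [hcoe_zpow]
  change ζ ^ _ = σ ((((z' ^ i : muSub S p) : ESbar S) : Ωˣ) : Ω)
  rw [hcoe_zpow, map_zpow₀, apply_eq_pow_cycloExp p σ hζ.pow_eq_one, zpow_mul, zpow_natCast]

end Mu

end Fermat.Agent.Lib.CFT.Global.SVersion
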