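import Fermat.Agent.Lib.CFT.Global.SVersion.Modules

/-!
# The `S`-version modules as objects of `Rep ℤ Γℚ` (helper11, P-CFT Global/S-version, file 4)

`ES S, JS S, CS' S, CS S, QS S : Rep ℤ Γℚ` (additive versions of the multiplicative groups of
`Modules.lean`), the two short exact sequences
`0 → E_S → J_S → C'_S → 0` and `0 → C'_S → C_S → Q_S → 0`, and discreteness with respect to
`levelsS S`.  This is item (G1) of CFT-L4-DESIGN except for the `p`-divisibility statements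
(`Divisible.lean`, helper25).
-/

open scoped TensorProduct NumberField
open CategoryTheory

noncomputable section

namespace Fermat.Agent.Lib.CFT.Global.SVersion

open Fermat.Agent.Lib.CFT.Profinite Fermat.Agent.Lib.CFT.Profinite.Bridge RepMul

local notation "Qbar" => AlgebraicClosure ℚ
local notation "Γℚ" => (AlgebraicClosure ℚ ≃ₐ[ℚ] AlgebraicClosure ℚ)

variable (S : Finset Nat.Primes)

/-- `E_S`, the `S`-units of `ℚ_S`, as a `ℤ[Γℚ]`-module. -/
def ES : Rep ℤ Γℚ := Rep.ofMulDistribMulAction Γℚ (ESgrp S)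

/-- `J_S = ∏_{q ∈ S} (ℚ_q ⊗ ℚ_S)ˣ × (ℝ ⊗ ℚ_S)ˣ` as a `ℤ[Γℚ]`-module. -/
def JS : Rep ℤ Γℚ := Rep.ofMulDistribMulAction Γℚ (JSgrp S)

/-- `C'_S = J_S / E_S` as a `ℤ[Γℚ]`-module. -/
def CS' : Rep ℤ Γℚ := Rep.ofMulDistribMulAction Γℚ (CS'grp S)

/-- `C_S = colim_F Idele F ⧸ Fˣ U_{F,S}` as a `ℤ[Γℚ]`-module. -/
def CS : Rep ℤ Γℚ := Rep.ofMulDistribMulAction Γℚ (CSgrp S)

/-- `Q_S = colim_F Cl_S(F)` as a `ℤ[Γℚ]`-module. -/
def QS : Rep ℤ Γℚ := Rep.ofMulDistribMulAction Γℚ (QSgrp S)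

lemma mk'_eq_one_iff_mem_range_esToJS (b : JSgrp S) :
    QuotientGroup.mk' (esToJS S).range b = 1 ↔ b ∈ (esToJS S).range :=
  QuotientGroup.eq_one_iff b

lemma mk'_smul_CS' (σ : Γℚ) (a : JSgrp S) :
    QuotientGroup.mk' (esToJS S).range (σ • a) = σ • QuotientGroup.mk' (esToJS S).range a := rfl

/-- The sequence `0 → E_S → J_S → C'_S → 0`. -/
def seqEJC : ShortComplex (Rep ℤ Γℚ) :=
  shortComplex (G := Γℚ) (A := ESgrp S) (B := JSgrp S) (C := CS'grp S)
    (esToJS S) (esToJS_smul S) (QuotientGroup.mk' (esToJS S).range)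
    (mk'_smul_CS' S) (fun a => (mk'_eq_one_iff_mem_range_esToJS S (esToJS S a)).2 ⟨a, rfl⟩)

lemma shortExact_seqEJC : (seqEJC S).ShortExact := by
  unfold seqEJC
  exact shortExact_of_mul (G := Γℚ) (A := ESgrp S) (B := JSgrp S) (C := CS'grp S)
    (esToJS S) (esToJS_smul S) (QuotientGroup.mk' (esToJS S).range)
    (mk'_smul_CS' S) (esToJS_injective S) (QuotientGroup.mk'_surjective _)
    (mk'_eq_one_iff_mem_range_esToJS S)

/-- The sequence `0 → C'_S → C_S → Q_S → 0`. -/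
def seqCCQ : ShortComplex (Rep ℤ Γℚ) :=
  shortComplex (G := Γℚ) (A := CS'grp S) (B := CSgrp S) (C := QSgrp S)
    (cs'ToCS S) (cs'ToCS_smul S) (csToQS S) (csToQS_smul S)
    (fun a => (csToQS_eq_one_iff S (cs'ToCS S a)).2 ⟨a, rfl⟩)

lemma shortExact_seqCCQ : (seqCCQ S).ShortExact := by
  unfold seqCCQ
  exact shortExact_of_mul (G := Γℚ) (A := CS'grp S) (B := CSgrp S) (C := QSgrp S)
    (cs'ToCS S) (cs'ToCS_smul S) (csToQS S) (csToQS_smul S)
    (cs'ToCS_injective S) (csToQS_surjective S) (csToQS_eq_one_iff S)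

@[simp] lemma seqEJC_X₁ : (seqEJC S).X₁ = ES S := rfl
@[simp] lemma seqEJC_X₂ : (seqEJC S).X₂ = JS S := rfl
@[simp] lemma seqEJC_X₃ : (seqEJC S).X₃ = CS' S := rfl
@[simp] lemma seqCCQ_X₁ : (seqCCQ S).X₁ = CS' S := rfl
@[simp] lemma seqCCQ_X₂ : (seqCCQ S).X₂ = CS S := rfl
@[simp] lemma seqCCQ_X₃ : (seqCCQ S).X₃ = QS S := rfl

/-! ### Discreteness -/

/-- Elements of the ambient unions are fixed by the fixing subgroup of a Galois level. -/
lemma exists_level_fixing_ideleS {a : AmbJ} (ha : a ∈ ideleS S) :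
    ∃ U ∈ (levelsS S).levels, ∀ σ ∈ U, σ • a = a := by
  obtain ⟨L, hL⟩ := LevelSubgroups.exists_level_fixing ha
  exact ⟨_, L.fixingSubgroup_mem_levels, hL⟩

lemma isDiscrete_JS : (levelsS S).IsDiscrete (JS S) := by
  intro m
  obtain ⟨U, hU, h⟩ := exists_level_fixing_ideleS S (ideleSS_le_ideleS S (Additive.toMul m).2)
  refine ⟨U, hU, fun σ hσ => ?_⟩
  apply congrArg Additive.ofMul
  exact Subtype.ext (h σ hσ)

lemma exists_level_fixing_unitsS {x : Qbarˣ} (hx : x ∈ unitsS S) :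
    ∃ U ∈ (levelsS S).levels, ∀ σ ∈ U, σ • x = x := by
  obtain ⟨L, y, -, rfl⟩ := hx
  refine ⟨_, L.fixingSubgroup_mem_levels, fun σ hσ => ?_⟩
  apply Units.ext
  exact (IntermediateField.mem_fixingSubgroup_iff L.F σ).1 hσ _ (y : L.F).2

lemma isDiscrete_ES : (levelsS S).IsDiscrete (ES S) := by
  intro m
  obtain ⟨U, hU, h⟩ := exists_level_fixing_unitsS S (Additive.toMul m).2
  refine ⟨U, hU, fun σ hσ => ?_⟩
  apply congrArg Additive.ofMul
  exact Subtype.ext (h σ hσ)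

lemma exists_level_fixing_CSgrp (c : CSgrp S) :
    ∃ U ∈ (levelsS S).levels, ∀ σ ∈ U, σ • c = c := by
  induction c using QuotientGroup.induction_on with
  | H a =>
    obtain ⟨U, hU, h⟩ := exists_level_fixing_ideleS S a.2
    refine ⟨U, hU, fun σ hσ => ?_⟩
    rw [smul_mk_CSgrp]
    congr 1
    exact Subtype.ext (h σ hσ)

lemma exists_level_fixing_QSgrp (c : QSgrp S) :
    ∃ U ∈ (levelsS S).levels, ∀ σ ∈ U, σ • c = c := by
  induction c using QuotientGroup.induction_on with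
  | H a =>
    obtain ⟨U, hU, h⟩ := exists_level_fixing_ideleS S a.2
    refine ⟨U, hU, fun σ hσ => ?_⟩
    rw [smul_mk_QSgrp]
    congr 1
    exact Subtype.ext (h σ hσ)

lemma exists_level_fixing_CS'grp (c : CS'grp S) :
    ∃ U ∈ (levelsS S).levels, ∀ σ ∈ U, σ • c = c := by
  induction c using QuotientGroup.induction_on with
  | H a =>
    obtain ⟨U, hU, h⟩ := exists_level_fixing_ideleS S (ideleSS_le_ideleS S a.2)
    refine ⟨U, hU, fun σ hσ => ?_⟩
    rw [smul_mk_CS'grp]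
    congr 1
    exact Subtype.ext (h σ hσ)

lemma isDiscrete_CS : (levelsS S).IsDiscrete (CS S) := by
  intro m
  obtain ⟨U, hU, h⟩ := exists_level_fixing_CSgrp S (Additive.toMul m)
  exact ⟨U, hU, fun σ hσ => congrArg Additive.ofMul (h σ hσ)⟩

lemma isDiscrete_QS : (levelsS S).IsDiscrete (QS S) := by
  intro m
  obtain ⟨U, hU, h⟩ := exists_level_fixing_QSgrp S (Additive.toMul m)
  exact ⟨U, hU, fun σ hσ => congrArg Additive.ofMul (h σ hσ)⟩

lemma isDiscrete_CS' : (levelsS S).IsDiscrete (CS' S) := by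
  intro m
  obtain ⟨U, hU, h⟩ := exists_level_fixing_CS'grp S (Additive.toMul m)
  exact ⟨U, hU, fun σ hσ => congrArg Additive.ofMul (h σ hσ)⟩

end Fermat.Agent.Lib.CFT.Global.SVersion
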