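import Mathlib
import Fermat.Agent.Lib.CFT.Global.SVersion.Reps
import Fermat.Agent.Lib.CFT.Global.SVersion.Capitulation
import Fermat.Agent.Lib.CFT.Global.SVersion.ESbarRep

/-!
# P-CFT, Global/SVersion (S-b), helper25: divisibility statements for the modules of `Reps.lean`

Item (G1) of CFT-L4-DESIGN for the modules `ES S`, `QS S : Rep ℤ Γℚ` of `Reps.lean`
(all prime factors of `n` in `S`):

* `unitsS_eq_ESbar` : the idelic `S`-units of `ℚ_S` are the `S`-units in the valuation language;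
* `esIso : ES S ≅ ESbarRep S` (so that the Kummer sequence `kummerComplex_shortExact` and the
  description of `μ_p` of `ESbarRep.lean` apply to `ES S`);
* `exists_pow_eq_ESgrp`, `exists_nsmul_eq_ES` : `E_S` is `n`-divisible;
* `pow_eq_one_iff_ESgrp`, `rootsOfUnity_le_unitsS` : `E_S[n] = μ_n(Qbar)`;
* `eq_one_of_pow_eq_one_QSgrp`, `eq_zero_of_nsmul_eq_zero_QS` : `Q_S = colim Cl_S(F)` has no
  `n`-torsion.
-/

set_option autoImplicit false

open scoped TensorProduct NumberField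
open CategoryTheory

noncomputable section

namespace Fermat.Agent.Lib.CFT.Global.SVersion

open Fermat.Agent.Lib.CFT.Profinite Fermat.Agent.Lib.CFT.Profinite.Bridge RepMul

local notation "Qbar" => AlgebraicClosure ℚ
local notation "Γℚ" => (AlgebraicClosure ℚ ≃ₐ[ℚ] AlgebraicClosure ℚ)

variable (S : Finset Nat.Primes)

/-! ### `E_S` -/

/-- The idelic `S`-units of `ℚ_S` (`Modules.lean`) coincide with the `S`-units of `ℚ_S` in the
valuation-subring language (`Divisible.lean`). -/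
theorem unitsS_eq_ESbar : unitsS S = ESbar S := by
  ext x
  constructor
  · rintro ⟨L, y, hy, rfl⟩
    exact unitsMap_mem_ESbar L.F L.unram hy
  · rintro ⟨⟨F, hF, hxF⟩, hunit⟩
    have hxL : (x : Qbar) ∈ (GalLevel.ofUnram F hF).F := GalLevel.le_ofUnram F hF hxF
    set L := GalLevel.ofUnram F hF with hL
    have hx0 : (⟨(x : Qbar), hxL⟩ : L.F) ≠ 0 := by
      intro h0
      exact x.ne_zero (congrArg Subtype.val h0)
    refine ⟨L, Units.mk0 ⟨(x : Qbar), hxL⟩ hx0, ?_, Units.ext rfl⟩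
    rw [mem_sUnitsS_iff_isSUnitBar]
    exact hunit

/-- The identification of `ESgrp S` with `ESbar S`. -/
def esEquiv : ESgrp S ≃* ESbar S := MulEquiv.subgroupCongr (unitsS_eq_ESbar S)

@[simp] theorem coe_esEquiv (x : ESgrp S) : ((esEquiv S x : ESbar S) : Qbarˣ) = (x : Qbarˣ) := rfl

@[simp] theorem coe_esEquiv_symm (x : ESbar S) :
    (((esEquiv S).symm x : ESgrp S) : Qbarˣ) = (x : Qbarˣ) := rfl

attribute [local instance] ESbarAction

theorem esEquiv_smul (σ : Γℚ) (x : ESgrp S) : esEquiv S (σ • x) = σ • esEquiv S x := rfl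

theorem esEquiv_symm_smul (σ : Γℚ) (x : ESbar S) :
    (esEquiv S).symm (σ • x) = σ • (esEquiv S).symm x := rfl

/-- `ES S` of `Reps.lean` is isomorphic to `ESbarRep S` of `ESbarRep.lean`. -/
def esIso : ES S ≅ ESbarRep S where
  hom := repHom (G := Γℚ) (esEquiv S).toMonoidHom (esEquiv_smul S)
  inv := repHom (G := Γℚ) (esEquiv S).symm.toMonoidHom (esEquiv_symm_smul S)
  hom_inv_id := by
    apply Rep.hom_ext
    apply Representation.IntertwiningMap.ext
    rfl
  inv_hom_id := by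
    apply Rep.hom_ext
    apply Representation.IntertwiningMap.ext
    rfl

theorem esIso_hom_apply (a : Additive (ESgrp S)) :
    (esIso S).hom.hom a = Additive.ofMul (esEquiv S a.toMul) := rfl

theorem esIso_inv_apply (a : Additive (ESbar S)) :
    (esIso S).inv.hom a = Additive.ofMul ((esEquiv S).symm a.toMul) := rfl

variable {S}

/-- `E_S` is `n`-divisible when all prime factors of `n` lie in `S`. -/
theorem exists_pow_eq_ESgrp {n : ℕ} (hn0 : n ≠ 0) (hn : ∀ q : Nat.Primes, (q : ℕ) ∣ n → q ∈ S)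
    (u : ESgrp S) : ∃ x : ESgrp S, x ^ n = u := by
  obtain ⟨x, hx, hxu⟩ := exists_pow_eq_of_mem_ESbar hn0 hn
    (show (u : Qbarˣ) ∈ ESbar S from (unitsS_eq_ESbar S) ▸ u.2)
  exact ⟨⟨x, (unitsS_eq_ESbar S).symm ▸ hx⟩, Subtype.ext hxu⟩

/-- `E_S` is `n`-divisible (additive form, for `ES S : Rep ℤ Γℚ`). -/
theorem exists_nsmul_eq_ES {n : ℕ} (hn0 : n ≠ 0) (hn : ∀ q : Nat.Primes, (q : ℕ) ∣ n → q ∈ S)
    (m : ES S) : ∃ m' : ES S, n • m' = m := by
  obtain ⟨x, hx⟩ := exists_pow_eq_ESgrp hn0 hn (Additive.toMul (show Additive (ESgrp S) from m))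
  exact ⟨Additive.ofMul x, congrArg Additive.ofMul hx⟩

/-- The `n`-torsion of `E_S` consists of roots of unity. -/
theorem pow_eq_one_iff_ESgrp (n : ℕ) (x : ESgrp S) :
    x ^ n = 1 ↔ ((x : Qbarˣ) : Qbar) ^ n = 1 := by
  rw [Subtype.ext_iff, Units.ext_iff]
  simp

/-- All `n`-th roots of unity of `Qbar` lie in `E_S` when all prime factors of `n` lie in `S`. -/
theorem rootsOfUnity_le_unitsS {n : ℕ} (hn0 : n ≠ 0)
    (hn : ∀ q : Nat.Primes, (q : ℕ) ∣ n → q ∈ S) : rootsOfUnity n Qbar ≤ unitsS S := by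
  rw [unitsS_eq_ESbar]
  exact rootsOfUnity_le_ESbar hn0 hn

/-! ### `Q_S` -/

/-- `sIdeleGroup = ideleAtS ⊔ unitsOut` inside the supremum with the principal ideles. -/
theorem range_sup_sIdeleGroup_eq (F : Type) [Field F] [NumberField F] :
    (principal F).range ⊔ sIdeleGroup S F =
      ((principal F).range ⊔ unitsOut S F) ⊔ ideleAtS S F := by
  rw [← ideleAtS_sup_unitsOut, sup_assoc, sup_comm (unitsOut S F)]

/-- The members of `prinUnitsS S ⊔ ideleSS S` are the images of the elements of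
`Fˣ · sIdeleGroup S F` for the Galois levels `F`. -/
theorem mem_prinUnitsS_sup_ideleSS_iff {a : AmbJ} :
    a ∈ prinUnitsS S ⊔ ideleSS S ↔
      ∃ L : GalLevel S, ∃ b ∈ (principal L.F).range ⊔ sIdeleGroup S L.F, toAmb L.F b = a := by
  constructor
  · intro ha
    obtain ⟨u, hu, j, hj, rfl⟩ := Subgroup.mem_sup.1 ha
    obtain ⟨L, b, hb, b', hb', rfl, rfl⟩ := LevelSubgroups.exists_common_level hu hj
    refine ⟨L, b * b', ?_, map_mul _ _ _⟩
    rw [range_sup_sIdeleGroup_eq]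
    exact Subgroup.mul_mem_sup hb hb'
  · rintro ⟨L, b, hb, rfl⟩
    rw [range_sup_sIdeleGroup_eq] at hb
    obtain ⟨u, hu, j, hj, rfl⟩ := Subgroup.mem_sup.1 hb
    rw [map_mul]
    exact Subgroup.mul_mem_sup ⟨L, u, hu, rfl⟩ ⟨L, j, hj, rfl⟩

/-- **`Q_S = colim_F Cl_S(F)` has no `n`-torsion** when all prime factors of `n` lie in `S`
(ambient form). -/
theorem mem_of_pow_mem_prinUnitsS_sup_ideleSS {n : ℕ} (hn0 : n ≠ 0)
    (hn : ∀ q : Nat.Primes, (q : ℕ) ∣ n → q ∈ S) {a : AmbJ} (ha : a ∈ ideleS S)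
    (han : a ^ n ∈ prinUnitsS S ⊔ ideleSS S) : a ∈ prinUnitsS S ⊔ ideleSS S := by
  obtain ⟨L₁, b₁, hb₁, h₁⟩ := mem_prinUnitsS_sup_ideleSS_iff.1 han
  obtain ⟨L₀, b₀, -, h₀⟩ := ha
  -- common level
  set L := L₀.sup L₁ with hL
  set b : Idele L.F := levelMap (L₀.le_sup_left L₁) b₀ with hb
  have hba : toAmb L.F b = a := by rw [hb, toAmb_levelMap, h₀]
  have hbn : b ^ n ∈ (principal L.F).range ⊔ sIdeleGroup S L.F := by
    have h2 : b ^ n = levelMap (L₀.le_sup_right L₁) b₁ := by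
      apply toAmb_injective L.F
      rw [map_pow, hba, toAmb_levelMap, h₁]
    rw [h2]
    exact levelMap_mem_range_sup_sIdeleGroup _ hb₁
  obtain ⟨F', hfin, hle, hF', hnorm, hmem⟩ :=
    exists_levelMap_mem_of_pow_mem_normal hn0 hn L.F L.unram b hbn
  rw [mem_prinUnitsS_sup_ideleSS_iff]
  refine ⟨⟨F', hF', hnorm⟩, levelMap hle b, hmem, ?_⟩
  rw [toAmb_levelMap, hba]

/-- **`Q_S` has no `n`-torsion** (multiplicative form). -/
theorem eq_one_of_pow_eq_one_QSgrp {n : ℕ} (hn0 : n ≠ 0)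
    (hn : ∀ q : Nat.Primes, (q : ℕ) ∣ n → q ∈ S) (c : QSgrp S) (hc : c ^ n = 1) : c = 1 := by
  induction c using QuotientGroup.induction_on with
  | H a =>
    rw [← QuotientGroup.mk_pow, QuotientGroup.eq_one_iff] at hc
    rw [QuotientGroup.eq_one_iff]
    exact mem_of_pow_mem_prinUnitsS_sup_ideleSS hn0 hn a.2 hc

/-- **`Q_S` has no `n`-torsion** (additive form, for `QS S : Rep ℤ Γℚ`). -/
theorem eq_zero_of_nsmul_eq_zero_QS {n : ℕ} (hn0 : n ≠ 0)
    (hn : ∀ q : Nat.Primes, (q : ℕ) ∣ n → q ∈ S) (m : QS S) (hm : n • m = 0) : m = 0 := by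
  have h := eq_one_of_pow_eq_one_QSgrp hn0 hn (Additive.toMul (show Additive (QSgrp S) from m))
    (congrArg Additive.toMul hm)
  exact congrArg Additive.ofMul h

/-- `Q_S` has no `p`-primary torsion for `p ∈ S`. -/
theorem eq_zero_of_prime_pow_nsmul_eq_zero_QS {p : ℕ} (hp : p.Prime)
    (hpS : (⟨p, hp⟩ : Nat.Primes) ∈ S) (k : ℕ) (m : QS S) (hm : (p ^ k) • m = 0) : m = 0 := by
  refine eq_zero_of_nsmul_eq_zero_QS (pow_ne_zero k hp.ne_zero) (fun q hq => ?_) m hm
  have h1 : (q : ℕ) ∣ p := q.2.dvd_of_dvd_pow hq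
  have h2 : (q : ℕ) = p := (Nat.prime_dvd_prime_iff_eq q.2 hp).mp h1
  have h3 : q = ⟨p, hp⟩ := Subtype.ext h2
  rw [h3]; exact hpS

end Fermat.Agent.Lib.CFT.Global.SVersion
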