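import Mathlib
import Fermat.Agent.Lib.CFT.Global.SVersion.DivisibleReps
import Fermat.Agent.Lib.CFT.Duality.BaseCase.KCalcRep

/-!
# P-CFT, Global/SVersion (S-b), helper25: the `p`-torsion of `E_S` is `μ_p`

In the language of the `K(X)`-calculus (`Duality/BaseCase/KCalcRep.lean`): for a prime `p ∈ S`,
`ES S` is `p`-divisible, so `KCalc.torsionSeq p (ES S)` is short exact, and the `p`-torsion
subrepresentation `KCalc.torsionRep p (ES S)` is `ℤ/p` with `Γℚ` acting through the mod `p`
cyclotomic character (i.e. `muRep p` after change of rings).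
-/

set_option autoImplicit false

open scoped TensorProduct NumberField
open CategoryTheory

noncomputable section

namespace Fermat.Agent.Lib.CFT.Global.SVersion

open Fermat.Agent.Lib.CFT.Profinite Fermat.Agent.Lib.CFT.Profinite.Bridge RepMul
open Fermat.Agent.Lib.CFT.Duality

local notation "Qbar" => AlgebraicClosure ℚ
local notation "Γℚ" => (AlgebraicClosure ℚ ≃ₐ[ℚ] AlgebraicClosure ℚ)

variable {S : Finset Nat.Primes} (p : ℕ) [hp : Fact p.Prime]

/-- The Kummer sequence `0 → E_S[p] → E_S → E_S → 0` is short exact (`p ∈ S`). -/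
theorem torsionSeq_ES_shortExact (hpS : (⟨p, hp.out⟩ : Nat.Primes) ∈ S) :
    (KCalc.torsionSeq p (ES S)).ShortExact :=
  KCalc.torsionSeq_shortExact p (ES S)
    (exists_nsmul_eq_ES hp.out.ne_zero (prime_dvd_mem p hpS))

attribute [local instance] ESbarAction

/-- The `p`-torsion of `ES S` is `ℤ/p` twisted by the mod `p` cyclotomic character. -/
theorem exists_torsionRep_ES_addEquiv (hpS : (⟨p, hp.out⟩ : Nat.Primes) ∈ S) :
    ∃ e : ZMod p ≃+ KCalc.torsionRep p (ES S), ∀ (σ : Γℚ) (a : ZMod p),
      e ((ExtCitation.cycloChar p σ : ZMod p) * a) = (KCalc.torsionRep p (ES S)).ρ σ (e a) := by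
  letI := RepMul.subgroupAction (muSub S p) (isSMulStable_muSub S p)
  obtain ⟨e₀, he₀⟩ := exists_muSub_addEquiv S p hpS
  -- the identification `μ_p ⊆ ESbar S` with the `p`-torsion of `ES S`
  have hmem : ∀ x : muSub S p,
      p • (Additive.ofMul ((esEquiv S).symm (x : ESbar S)) : Additive (ESgrp S)) = 0 := by
    intro x
    have h1 : (x : ESbar S) ^ p = 1 := x.2
    have h2 : ((esEquiv S).symm (x : ESbar S)) ^ p = 1 := by
      rw [← map_pow, h1, map_one]
    exact congrArg Additive.ofMul h2
  let f : Additive (muSub S p) →+ KCalc.torsionRep p (ES S) :=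
    { toFun := fun x => ⟨Additive.ofMul ((esEquiv S).symm ((Additive.toMul x : muSub S p) : ESbar S)),
        hmem (Additive.toMul x)⟩
      map_zero' := by
        apply Subtype.ext
        change Additive.ofMul ((esEquiv S).symm (1 : ESbar S)) = 0
        rw [map_one]; rfl
      map_add' := by
        intro x y
        apply Subtype.ext
        change Additive.ofMul ((esEquiv S).symm
          (((Additive.toMul x : muSub S p) : ESbar S) * ((Additive.toMul y : muSub S p) : ESbar S))) = _
        rw [map_mul]; rfl }
  have hf_apply : ∀ x : Additive (muSub S p), ((f x : KCalc.torsionRep p (ES S)) : ES S) =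
      Additive.ofMul ((esEquiv S).symm ((Additive.toMul x : muSub S p) : ESbar S)) := fun _ => rfl
  have hinj : Function.Injective f := by
    intro x y hxy
    have h1 := congrArg Subtype.val hxy
    rw [hf_apply, hf_apply] at h1
    have h2 : ((Additive.toMul x : muSub S p) : ESbar S) = ((Additive.toMul y : muSub S p) : ESbar S) :=
      (esEquiv S).symm.injective (Additive.ofMul.injective h1)
    exact congrArg Additive.ofMul (Subtype.ext h2)
  have hsurj : Function.Surjective f := by
    rintro ⟨m, hm⟩
    let y : ESgrp S := Additive.toMul (show Additive (ESgrp S) from m)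
    have hy : y ^ p = 1 := congrArg Additive.toMul hm
    have hz : esEquiv S y ∈ muSub S p := by
      change (esEquiv S y) ^ p = 1
      rw [← map_pow, hy, map_one]
    refine ⟨Additive.ofMul ⟨esEquiv S y, hz⟩, ?_⟩
    apply Subtype.ext
    rw [hf_apply]
    change Additive.ofMul ((esEquiv S).symm (esEquiv S y)) = m
    rw [MulEquiv.symm_apply_apply]
    rfl
  refine ⟨e₀.trans (AddEquiv.ofBijective f ⟨hinj, hsurj⟩), fun σ a => ?_⟩
  change f (e₀ _) = (KCalc.torsionRep p (ES S)).ρ σ (f (e₀ a))
  rw [he₀ σ a]
  apply Subtype.ext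
  rfl

end Fermat.Agent.Lib.CFT.Global.SVersion
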