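import Mathlib
import Fermat.Agent.Lib.CFT.Global.SVersion.DivisibleReps

/-!
# P-CFT, Global/SVersion (S-b), helper25: `Q_S = colim Cl_S(F)` is a torsion group

* `exists_ordAt_eq_classNumber_mul` : every divisor of a number field becomes principal after
  multiplication by the class number;
* `pow_classNumber_mem` : `b ^ h_F ∈ Fˣ · sIdeleGroup S F` for every idele `b` of `F`
  (finiteness of the `S`-class group in idelic form);
* `exists_pow_eq_one_QSgrp` : `QSgrp S` is a torsion group;
* `bijective_pow_QSgrp`, `bijective_nsmul_QS` : for a prime `p ∈ S` the `p`-th power map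
  (multiplication by `p`) is bijective on `Q_S`.
-/

set_option autoImplicit false

open scoped TensorProduct NumberField

noncomputable section

namespace Fermat.Agent.Lib.CFT.Global.SVersion

open Fermat.Agent.Lib.CFT.Global IsDedekindDomain NumberField

section ClassNumber

variable (K : Type*) [Field K] [NumberField K]

open Classical in
/-- The `h`-th power of a prime is principal (`h` the class number): there is `a ∈ Kˣ` with
divisor `h · v`. -/
theorem exists_ordAt_eq_classNumber_single (v : HeightOneSpectrum (𝓞 K)) :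
    ∃ a : Kˣ, ∀ w : HeightOneSpectrum (𝓞 K),
      SUnits.ordAt w a = if w = v then (classNumber K : ℤ) else 0 := by
  classical
  have hvI : v.asIdeal ∈ nonZeroDivisors (Ideal (𝓞 K)) :=
    mem_nonZeroDivisors_iff_ne_zero.mpr v.ne_bot
  have hpow : v.asIdeal ^ classNumber K ∈ nonZeroDivisors (Ideal (𝓞 K)) :=
    pow_mem hvI _
  have h1 : ClassGroup.mk0 ⟨v.asIdeal ^ classNumber K, hpow⟩ = 1 := by
    have h2 : (⟨v.asIdeal ^ classNumber K, hpow⟩ : nonZeroDivisors (Ideal (𝓞 K))) =
        ⟨v.asIdeal, hvI⟩ ^ classNumber K := Subtype.ext rfl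
    rw [h2, map_pow]
    exact pow_card_eq_one
  rw [ClassGroup.mk0_eq_one_iff] at h1
  obtain ⟨a, ha⟩ := h1.principal
  have hspan : v.asIdeal ^ classNumber K = Ideal.span {a} := ha
  have ha0 : a ≠ 0 := by
    rintro rfl
    rw [Ideal.span_singleton_eq_bot.mpr rfl] at hspan
    exact pow_ne_zero _ v.ne_bot hspan
  have haK : (a : K) ≠ 0 := RingOfIntegers.coe_ne_zero_iff.mpr ha0
  refine ⟨Units.mk0 (a : K) haK, fun w => ?_⟩
  rw [SUnits.ordAt_mk0_eq_multiplicity, ← hspan]
  split_ifs with hwv
  · rw [hwv, multiplicity_pow_self_of_prime v.prime]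
  · have hfin : FiniteMultiplicity w.asIdeal v.asIdeal :=
      FiniteMultiplicity.of_prime_left w.prime v.ne_bot
    rw [hfin.multiplicity_pow w.prime, SUnits.multiplicity_asIdeal_of_ne hwv, mul_zero]
    rfl

/-- Every divisor becomes principal after multiplication by the class number. -/
theorem exists_ordAt_eq_classNumber_mul (n : HeightOneSpectrum (𝓞 K) →₀ ℤ) :
    ∃ a : Kˣ, ∀ w : HeightOneSpectrum (𝓞 K), SUnits.ordAt w a = (classNumber K : ℤ) * n w := by
  classical
  induction n using Finsupp.induction_linear with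
  | zero => exact ⟨1, fun w => by simp⟩
  | add f g hf hg =>
    obtain ⟨x, hx⟩ := hf
    obtain ⟨y, hy⟩ := hg
    exact ⟨x * y, fun w => by rw [SUnits.ordAt_mul, hx w, hy w, Finsupp.add_apply, mul_add]⟩
  | single v m =>
    obtain ⟨a, ha⟩ := exists_ordAt_eq_classNumber_single K v
    refine ⟨a ^ m, fun w => ?_⟩
    rw [SUnits.ordAt_zpow, ha w, Finsupp.single_apply]
    by_cases hwv : w = v
    · rw [if_pos hwv, if_pos hwv.symm, mul_comm]
    · rw [if_neg hwv, if_neg (Ne.symm hwv), mul_zero, mul_zero]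

end ClassNumber

section Idelic

variable (S : Finset Nat.Primes) (L : Type) [Field L] [NumberField L]

/-- **Finiteness of the class group in idelic form**: the `h`-th power of every idele is the
product of a principal idele and an idele which is an integral unit at all finite places. -/
theorem exists_principal_mul_of_pow_classNumber (b : Idele L) :
    ∃ a : Lˣ, ∀ q : Nat.Primes,
      ((b ^ classNumber L * (principal L a)⁻¹ : Idele L) : IdeleProd L).1 q ∈ locIntUnits L q := by
  classical
  set h := classNumber L with hh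
  have hT : {q : Nat.Primes | (b : IdeleProd L).1 q ∉ locIntUnits L q}.Finite := b.2
  set T : Finset Nat.Primes := hT.toFinset with hTdef
  have hmemT : ∀ q, q ∈ T ↔ (b : IdeleProd L).1 q ∉ locIntUnits L q := fun q => by
    rw [hTdef, Set.Finite.mem_toFinset]; rfl
  obtain ⟨y, hy, -⟩ := WeakApprox.exists_principal_approx L b T 1 Set.univ
    (by rw [Set.preimage_univ]; exact isOpen_univ) (Set.mem_univ _)
  have hbT : ∀ q ∈ T, (locUnit L q y)⁻¹ * (b : IdeleProd L).1 q ∈ locIntUnits L q := by
    intro q hq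
    obtain ⟨z, hz, hzq⟩ := hy q hq
    exact IdeleCovers.mem_locIntUnits_of_sub_one L q _ 1 one_ne_zero z hz hzq
  -- the divisor of `y` above `T`
  have hfin : (Function.support fun v : HeightOneSpectrum (𝓞 L) =>
      if v ∈ FirstIneq.primesAbove L T then SUnits.ordAt v y else (0 : ℤ)).Finite := by
    refine (FirstIneq.primesAbove L T).finite_toSet.subset ?_
    intro v hv
    rw [Function.mem_support] at hv
    by_contra hvT
    exact hv (if_neg hvT)
  set n : HeightOneSpectrum (𝓞 L) →₀ ℤ := Finsupp.ofSupportFinite _ hfin with hn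
  have hnv : ∀ v, n v = if v ∈ FirstIneq.primesAbove L T then SUnits.ordAt v y else (0 : ℤ) :=
    fun v => rfl
  obtain ⟨a, ha⟩ := exists_ordAt_eq_classNumber_mul L n
  refine ⟨a, fun q => ?_⟩
  have hcomp : ((b ^ h * (principal L a)⁻¹ : Idele L) : IdeleProd L).1 q =
      (b : IdeleProd L).1 q ^ h * (locUnit L q a)⁻¹ := rfl
  rw [hcomp]
  by_cases hqT : q ∈ T
  · have h1 : (b : IdeleProd L).1 q ^ h * (locUnit L q a)⁻¹ =
        ((locUnit L q y)⁻¹ * (b : IdeleProd L).1 q) ^ h * locUnit L q (y ^ h * a⁻¹) := by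
      rw [mul_pow, map_mul, map_pow, map_inv, inv_pow]
      rw [mul_comm ((locUnit L q y ^ h)⁻¹), mul_assoc, ← mul_assoc ((locUnit L q y ^ h)⁻¹),
        inv_mul_cancel, one_mul]
    rw [h1]
    refine mul_mem (pow_mem (hbT q hqT) h) ?_
    rw [FirstIneq.locUnit_mem_locIntUnits_iff]
    intro v hv
    rw [SUnits.valuation_eq_one_iff_ordAt]
    have hvT : v ∈ FirstIneq.primesAbove L T := by
      rw [FirstIneq.mem_primesAbove_iff_of_mem L hv]; exact hqT
    rw [SUnits.ordAt_mul, SUnits.ordAt_inv, SUnits.ordAt_pow, ha v, hnv, if_pos hvT]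
    ring
  · have hbq : (b : IdeleProd L).1 q ∈ locIntUnits L q := by
      by_contra hcon
      exact hqT ((hmemT q).2 hcon)
    refine mul_mem (pow_mem hbq h) (inv_mem ?_)
    rw [FirstIneq.locUnit_mem_locIntUnits_iff]
    intro v hv
    rw [SUnits.valuation_eq_one_iff_ordAt]
    have hvT : v ∉ FirstIneq.primesAbove L T := by
      rw [FirstIneq.mem_primesAbove_iff_of_mem L hv]; exact hqT
    rw [ha v, hnv, if_neg hvT, mul_zero]

theorem classNumber_pos' : 0 < classNumber L := Fintype.card_pos

/-- The `S`-class group `Idele L ⧸ (Lˣ · sIdeleGroup S L)` is killed by the class number. -/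
theorem pow_classNumber_mem (b : Idele L) :
    b ^ classNumber L ∈ (principal L).range ⊔ sIdeleGroup S L := by
  obtain ⟨a, ha⟩ := exists_principal_mul_of_pow_classNumber L b
  have h1 : b ^ classNumber L = principal L a * (b ^ classNumber L * (principal L a)⁻¹) := by
    rw [mul_comm (b ^ classNumber L), mul_inv_cancel_left]
  rw [h1]
  exact Subgroup.mul_mem_sup ⟨a, rfl⟩ (fun q _ => ha q)

end Idelic

section QS

local notation "Qbar" => AlgebraicClosure ℚ
local notation "Γℚ" => (AlgebraicClosure ℚ ≃ₐ[ℚ] AlgebraicClosure ℚ)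

variable {S : Finset Nat.Primes}

/-- **`Q_S` is a torsion group.** -/
theorem exists_pow_eq_one_QSgrp (c : QSgrp S) : ∃ n : ℕ, 0 < n ∧ c ^ n = 1 := by
  induction c using QuotientGroup.induction_on with
  | H a =>
    obtain ⟨L, b, -, hb⟩ := a.2
    refine ⟨classNumber L.F, classNumber_pos' L.F, ?_⟩
    rw [← QuotientGroup.mk_pow, QuotientGroup.eq_one_iff]
    change ((a : AmbJ) ^ classNumber L.F) ∈ prinUnitsS S ⊔ ideleSS S
    rw [mem_prinUnitsS_sup_ideleSS_iff]
    refine ⟨L, b ^ classNumber L.F, pow_classNumber_mem S L.F b, ?_⟩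
    rw [map_pow, hb]

theorem isOfFinOrder_QSgrp (c : QSgrp S) : IsOfFinOrder c := by
  obtain ⟨n, hn, hc⟩ := exists_pow_eq_one_QSgrp c
  exact isOfFinOrder_iff_pow_eq_one.mpr ⟨n, hn, hc⟩

/-- For a prime `p ∈ S`, the `p`-th power map is bijective on `Q_S`. -/
theorem bijective_pow_QSgrp {p : ℕ} (hp : p.Prime) (hpS : (⟨p, hp⟩ : Nat.Primes) ∈ S) :
    Function.Bijective (fun c : QSgrp S => c ^ p) := by
  have hn : ∀ q : Nat.Primes, (q : ℕ) ∣ p → q ∈ S := by
    intro q hq
    have h2 : (q : ℕ) = p := (Nat.prime_dvd_prime_iff_eq q.2 hp).mp hq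
    have h3 : q = ⟨p, hp⟩ := Subtype.ext h2
    rw [h3]; exact hpS
  have htors : ∀ c : QSgrp S, c ^ p = 1 → c = 1 :=
    fun c hc => eq_one_of_pow_eq_one_QSgrp hp.ne_zero hn c hc
  constructor
  · intro c c' hcc'
    have h1 : (c * c'⁻¹) ^ p = 1 := by
      have h0 : c ^ p = c' ^ p := hcc'
      rw [show (c * c'⁻¹) ^ p = c ^ p * (c'⁻¹) ^ p from mul_pow c c'⁻¹ p, inv_pow, h0]
      exact mul_inv_cancel _
    exact mul_inv_eq_one.mp (htors _ h1)
  · intro c
    have hfin := isOfFinOrder_QSgrp c
    have hcop : p.Coprime (orderOf c) := by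
      rw [hp.coprime_iff_not_dvd]
      intro hdvd
      obtain ⟨k, hk⟩ := hdvd
      have hk0 : 0 < k := by
        rcases Nat.eq_zero_or_pos k with h0 | h0
        · rw [h0, mul_zero] at hk
          exact absurd hk hfin.orderOf_pos.ne'
        · exact h0
      have h1 : (c ^ k) ^ p = 1 := by
        rw [← pow_mul, mul_comm, ← hk, pow_orderOf_eq_one]
      have h2 : c ^ k = 1 := htors _ h1
      have h3 : orderOf c ∣ k := orderOf_dvd_of_pow_eq_one h2
      have h4 : orderOf c ≤ k := Nat.le_of_dvd hk0 h3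
      rw [hk] at h4
      have : p * k ≤ 1 * k := by simpa using h4
      have h5 := Nat.le_of_mul_le_mul_right this hk0
      exact absurd h5 (not_le.mpr hp.one_lt)
    obtain ⟨m, hm⟩ := exists_pow_eq_self_of_coprime hcop
    refine ⟨c ^ m, ?_⟩
    change (c ^ m) ^ p = c
    rw [← pow_mul, mul_comm, pow_mul]
    exact hm

/-- For a prime `p ∈ S`, multiplication by `p` is bijective on `QS S : Rep ℤ Γℚ`. -/
theorem bijective_nsmul_QS {p : ℕ} (hp : p.Prime) (hpS : (⟨p, hp⟩ : Nat.Primes) ∈ S) :
    Function.Bijective (fun m : QS S => p • m) := by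
  obtain ⟨hinj, hsurj⟩ := bijective_pow_QSgrp (S := S) hp hpS
  constructor
  · intro m m' hmm'
    have := hinj (a₁ := Additive.toMul (show Additive (QSgrp S) from m))
      (a₂ := Additive.toMul (show Additive (QSgrp S) from m')) (congrArg Additive.toMul hmm')
    exact congrArg Additive.ofMul this
  · intro m
    obtain ⟨c, hc⟩ := hsurj (Additive.toMul (show Additive (QSgrp S) from m))
    exact ⟨Additive.ofMul c, congrArg Additive.ofMul hc⟩

end QS

end Fermat.Agent.Lib.CFT.Global.SVersion
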