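import Fermat.Agent.Lib.CFT.Global.SVersion.Reps
import Fermat.Agent.Lib.CFT.Profinite.LES
import Fermat.Agent.Lib.CFT.Profinite.BridgeLocalLevels

/-!
# The Galois level family over a base level (helper11, P-CFT Global/S-version)

For a Galois level `L₀` (a finite Galois extension `F₀ / ℚ` inside `Qbar`, unramified outside `S`)
put `V := L₀.V = F₀.fixingSubgroup ≤ Γℚ` (a normal subgroup).  We define

* `galFamilyAt S L₀ : LevelFamily ↥L₀.V`, the level family on `V` whose levels are the subgroups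
  `(L.V).subgroupOf V` for the Galois levels `L ≥ L₀`.  ALL its levels are normal in `V`
  (`galFamilyAt_normal`), so a `Formation` over it only has to provide layers for the extensions
  `L.F / L₀.F` with `L` Galois over `ℚ`;
* mutual cofinality with `restrict (levelsS S) V` (`isCompatible_galFamilyAt_restrict`,
  `isCompatible_restrict_galFamilyAt`), hence an isomorphism of level cohomology
  `galFamilyAtIso` and equality of the notions of discreteness;
* `galFamily S : LevelFamily Γℚ` (levels `L.V`), mutually cofinal with `levelsS S`;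
* more generally `galFamilyOver F₀ hF₀ : LevelFamily ↥F₀.fixingSubgroup` for an ARBITRARY level
  field `F₀` (finite over `ℚ`, unramified outside `S`, not necessarily Galois): levels
  `(L.V).subgroupOf F₀.fixingSubgroup` for the Galois levels `L` with `F₀ ≤ L.F`; again all levels
  are normal, and the family is mutually cofinal with `restrict (levelsS S) F₀.fixingSubgroup`.
  `galFamilyAt L₀` is the special case `F₀ = L₀.F`.
-/

set_option autoImplicit false

noncomputable section

namespace Fermat.Agent.Lib.CFT.Global.SVersion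

open Fermat.Agent.Lib.CFT.Profinite Fermat.Agent.Lib.CFT.Profinite.Bridge
open Fermat.Agent.Lib.CFT.Profinite.LES LevelFamily

local notation "Qbar" => AlgebraicClosure ℚ
local notation "Γℚ" => (AlgebraicClosure ℚ ≃ₐ[ℚ] AlgebraicClosure ℚ)

local instance isAlgebraicQbar_lfa : Algebra.IsAlgebraic ℚ (AlgebraicClosure ℚ) :=
  AlgebraicClosure.isAlgebraic ℚ
local instance isAlgClosureQbar_lfa : IsAlgClosure ℚ (AlgebraicClosure ℚ) :=
  ⟨inferInstance, inferInstance⟩
local instance normalQbar_lfa : Normal ℚ (AlgebraicClosure ℚ) :=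
  IsAlgClosure.normal ℚ (AlgebraicClosure ℚ)
local instance isGaloisQbar_lfa : IsGalois ℚ (AlgebraicClosure ℚ) := ⟨⟩

variable (S : Finset Nat.Primes)

namespace GalLevel

variable {S}

/-- The open normal subgroup of `Γℚ` attached to a Galois level. -/
abbrev V (L : GalLevel S) : Subgroup Γℚ := L.F.fixingSubgroup

instance normal_V (L : GalLevel S) : (L.V).Normal := by
  have h1 : @Normal ℚ L.F _ _ (IntermediateField.algebra' L.F) :=
    normal_rat_congr _ _ L.normal
  have : @IsGalois ℚ _ L.F _ (IntermediateField.algebra' L.F) :=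
    @IsGalois.mk _ _ _ _ _ inferInstance h1
  exact IsGalois.fixingSubgroup_normal_of_isGalois L.F

lemma V_le_of_le {L L' : GalLevel S} (h : L.F ≤ L'.F) : L'.V ≤ L.V :=
  IntermediateField.fixingSubgroup_antitone h

lemma V_sup (L L' : GalLevel S) : (L.sup L').V = L.V ⊓ L'.V :=
  IntermediateField.fixingSubgroup_sup

lemma finiteIndex_V (L : GalLevel S) : (L.V).FiniteIndex :=
  (levelsS S).finiteIndex _ L.fixingSubgroup_mem_levels

end GalLevel

/-- The level family on `Γℚ` of the Galois levels. -/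
def galFamily : LevelFamily Γℚ where
  levels := {U | ∃ L : GalLevel S, U = L.V}
  nonempty := ⟨_, GalLevel.bot S, rfl⟩
  directed := by
    rintro _ ⟨L, rfl⟩ _ ⟨L', rfl⟩
    exact ⟨_, ⟨L.sup L', rfl⟩, (GalLevel.V_sup L L').le⟩
  finiteIndex := by
    rintro _ ⟨L, rfl⟩
    exact L.finiteIndex_V
  normal_le := by
    rintro _ ⟨L, rfl⟩
    exact ⟨_, ⟨L, rfl⟩, le_rfl, inferInstance⟩

theorem galFamily_normal {U : Subgroup Γℚ} (hU : U ∈ (galFamily S).levels) : U.Normal := by
  obtain ⟨L, rfl⟩ := hU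
  infer_instance

theorem isCompatible_galFamily_levelsS :
    IsCompatible (galFamily S) (levelsS S) (MonoidHom.id Γℚ) := by
  rintro _ ⟨F, hF, rfl⟩
  exact ⟨_, ⟨GalLevel.ofUnram F hF, rfl⟩,
    IntermediateField.fixingSubgroup_antitone (GalLevel.le_ofUnram F hF)⟩

theorem isCompatible_levelsS_galFamily :
    IsCompatible (levelsS S) (galFamily S) (MonoidHom.id Γℚ) := by
  rintro _ ⟨L, rfl⟩
  exact ⟨_, L.fixingSubgroup_mem_levels, le_rfl⟩

/-- Level cohomology over the Galois levels agrees with level cohomology over `levelsS S`. -/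
def galFamilyIso {k : Type} [CommRing k] (M : Rep.{0} k Γℚ) (n : ℕ) :
    (galFamily S).levelCohomology M n ≅ (levelsS S).levelCohomology M n :=
  levelCohomologyIsoOfMutual (isCompatible_levelsS_galFamily S) (isCompatible_galFamily_levelsS S)
    M n

variable {S}

/-! ### The Galois level family over an arbitrary base level field -/

/-- The Galois level family over the base field `F₀` (any intermediate field; in practice finite
over `ℚ` and unramified outside `S`), on the group `F₀.fixingSubgroup`: the levels are the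
subgroups `(L.V).subgroupOf F₀.fixingSubgroup` for the Galois levels `L` with `F₀ ≤ L.F`. -/
def galFamilyOver (F₀ : IntermediateField ℚ Qbar) (hF₀ : F₀.IsUnramifiedOutside S) :
    LevelFamily ↥F₀.fixingSubgroup where
  levels := {U | ∃ L : GalLevel S, F₀ ≤ L.F ∧ U = (L.V).subgroupOf F₀.fixingSubgroup}
  nonempty := ⟨_, GalLevel.ofUnram F₀ hF₀, GalLevel.le_ofUnram F₀ hF₀, rfl⟩
  directed := by
    rintro _ ⟨L, hL, rfl⟩ _ ⟨L', hL', rfl⟩
    refine ⟨_, ⟨L.sup L', hL.trans (GalLevel.le_sup_left L L'), rfl⟩, ?_⟩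
    rw [GalLevel.V_sup]
    intro x hx
    exact ⟨hx.1, hx.2⟩
  finiteIndex := by
    rintro _ ⟨L, hL, rfl⟩
    have := L.finiteIndex_V
    infer_instance
  normal_le := by
    rintro _ ⟨L, hL, rfl⟩
    exact ⟨_, ⟨L, hL, rfl⟩, le_rfl, inferInstance⟩

section Over

variable {F₀ : IntermediateField ℚ Qbar} {hF₀ : F₀.IsUnramifiedOutside S}

theorem mem_galFamilyOver_levels {U : Subgroup ↥F₀.fixingSubgroup} :
    U ∈ (galFamilyOver F₀ hF₀).levels ↔
      ∃ L : GalLevel S, F₀ ≤ L.F ∧ U = (L.V).subgroupOf F₀.fixingSubgroup := Iff.rfl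

theorem subgroupOf_mem_galFamilyOver {L : GalLevel S} (h : F₀ ≤ L.F) :
    (L.V).subgroupOf F₀.fixingSubgroup ∈ (galFamilyOver F₀ hF₀).levels := ⟨L, h, rfl⟩

/-- Every level of `galFamilyOver F₀` is normal. -/
theorem galFamilyOver_normal {U : Subgroup ↥F₀.fixingSubgroup}
    (hU : U ∈ (galFamilyOver F₀ hF₀).levels) : U.Normal := by
  obtain ⟨L, -, rfl⟩ := hU
  infer_instance

variable (F₀ hF₀)

theorem isCompatible_galFamilyOver_restrict :
    IsCompatible (galFamilyOver F₀ hF₀) (restrict (levelsS S) F₀.fixingSubgroup)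
      (MonoidHom.id ↥F₀.fixingSubgroup) := by
  rintro _ ⟨_, ⟨F, hF, rfl⟩, rfl⟩
  refine ⟨_, ⟨GalLevel.ofUnram (F₀ ⊔ F) (hF₀.sup hF),
    le_sup_left.trans (GalLevel.le_ofUnram _ _), rfl⟩, ?_⟩
  intro x hx
  have h1 : (GalLevel.ofUnram (F₀ ⊔ F) (hF₀.sup hF)).V ≤ F.fixingSubgroup :=
    IntermediateField.fixingSubgroup_antitone (le_sup_right.trans (GalLevel.le_ofUnram _ _))
  exact h1 hx

theorem isCompatible_restrict_galFamilyOver :
    IsCompatible (restrict (levelsS S) F₀.fixingSubgroup) (galFamilyOver F₀ hF₀)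
      (MonoidHom.id ↥F₀.fixingSubgroup) := by
  rintro _ ⟨L, -, rfl⟩
  exact ⟨_, ⟨L.V, L.fixingSubgroup_mem_levels, rfl⟩, le_rfl⟩

/-- Level cohomology of `F₀.fixingSubgroup` over the Galois levels above `F₀` agrees with level
cohomology over the restriction of `levelsS S`. -/
def galFamilyOverIso {k : Type} [CommRing k] (M : Rep.{0} k ↥F₀.fixingSubgroup) (n : ℕ) :
    (galFamilyOver F₀ hF₀).levelCohomology M n ≅
      (restrict (levelsS S) F₀.fixingSubgroup).levelCohomology M n :=
  levelCohomologyIsoOfMutual (isCompatible_restrict_galFamilyOver F₀ hF₀)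
    (isCompatible_galFamilyOver_restrict F₀ hF₀) M n

theorem isDiscrete_galFamilyOver_iff {k : Type} [CommRing k]
    (M : Rep.{0} k ↥F₀.fixingSubgroup) :
    (galFamilyOver F₀ hF₀).IsDiscrete M ↔
      (restrict (levelsS S) F₀.fixingSubgroup).IsDiscrete M := by
  constructor
  · intro h m
    obtain ⟨U, hU, hm⟩ := h m
    obtain ⟨U', hU', hle⟩ := isCompatible_restrict_galFamilyOver F₀ hF₀ U hU
    exact ⟨U', hU', fun s hs => hm s (hle hs)⟩
  · intro h m
    obtain ⟨U, hU, hm⟩ := h m
    obtain ⟨U', hU', hle⟩ := isCompatible_galFamilyOver_restrict F₀ hF₀ U hU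
    exact ⟨U', hU', fun s hs => hm s (hle hs)⟩

/-- The restriction to `F₀.fixingSubgroup` of a module discrete for `levelsS S` is discrete for
`galFamilyOver F₀`. -/
theorem isDiscrete_res_galFamilyOver {k : Type} [CommRing k]
    {M : Rep.{0} k Γℚ} (hM : (levelsS S).IsDiscrete M) :
    (galFamilyOver F₀ hF₀).IsDiscrete (Rep.res (F₀.fixingSubgroup).subtype M) := by
  intro m
  obtain ⟨_, ⟨F, hF, rfl⟩, hm⟩ := hM m
  refine ⟨_, ⟨GalLevel.ofUnram (F₀ ⊔ F) (hF₀.sup hF),
    le_sup_left.trans (GalLevel.le_ofUnram _ _), rfl⟩, ?_⟩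
  intro s hs
  have h1 : (GalLevel.ofUnram (F₀ ⊔ F) (hF₀.sup hF)).V ≤ F.fixingSubgroup :=
    IntermediateField.fixingSubgroup_antitone (le_sup_right.trans (GalLevel.le_ofUnram _ _))
  exact hm s.1 (h1 hs)

/-- The index of a level of `galFamilyOver F₀` is the relative index. -/
theorem index_subgroupOf_V (L : GalLevel S) :
    ((L.V).subgroupOf F₀.fixingSubgroup).index = (L.V).relIndex F₀.fixingSubgroup := rfl

end Over

/-! ### Special case: the base is itself a Galois level -/

/-- The Galois level family over the base level `L₀`, on the group `L₀.V`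
(`= galFamilyOver L₀.F L₀.unram`). -/
abbrev galFamilyAt (L₀ : GalLevel S) : LevelFamily ↥L₀.V := galFamilyOver L₀.F L₀.unram

theorem mem_galFamilyAt_levels {L₀ : GalLevel S} {U : Subgroup ↥L₀.V} :
    U ∈ (galFamilyAt L₀).levels ↔
      ∃ L : GalLevel S, L₀.F ≤ L.F ∧ U = (L.V).subgroupOf L₀.V := Iff.rfl

theorem subgroupOf_mem_galFamilyAt {L₀ L : GalLevel S} (h : L₀.F ≤ L.F) :
    (L.V).subgroupOf L₀.V ∈ (galFamilyAt L₀).levels := ⟨L, h, rfl⟩

/-- Every level of `galFamilyAt L₀` is normal. -/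
theorem galFamilyAt_normal {L₀ : GalLevel S} {U : Subgroup ↥L₀.V}
    (hU : U ∈ (galFamilyAt L₀).levels) : U.Normal := galFamilyOver_normal hU

theorem isCompatible_galFamilyAt_restrict (L₀ : GalLevel S) :
    IsCompatible (galFamilyAt L₀) (restrict (levelsS S) L₀.V) (MonoidHom.id ↥L₀.V) :=
  isCompatible_galFamilyOver_restrict L₀.F L₀.unram

theorem isCompatible_restrict_galFamilyAt (L₀ : GalLevel S) :
    IsCompatible (restrict (levelsS S) L₀.V) (galFamilyAt L₀) (MonoidHom.id ↥L₀.V) :=
  isCompatible_restrict_galFamilyOver L₀.F L₀.unram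

/-- Level cohomology of `L₀.V` over the Galois levels above `L₀` agrees with level cohomology over
the restriction of `levelsS S`. -/
def galFamilyAtIso {k : Type} [CommRing k] (L₀ : GalLevel S) (M : Rep.{0} k ↥L₀.V) (n : ℕ) :
    (galFamilyAt L₀).levelCohomology M n ≅ (restrict (levelsS S) L₀.V).levelCohomology M n :=
  galFamilyOverIso L₀.F L₀.unram M n

theorem isDiscrete_galFamilyAt_iff {k : Type} [CommRing k] (L₀ : GalLevel S)
    (M : Rep.{0} k ↥L₀.V) :
    (galFamilyAt L₀).IsDiscrete M ↔ (restrict (levelsS S) L₀.V).IsDiscrete M :=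
  isDiscrete_galFamilyOver_iff L₀.F L₀.unram M

/-- The restriction to `L₀.V` of a module discrete for `levelsS S` is discrete for
`galFamilyAt L₀`. -/
theorem isDiscrete_res_galFamilyAt {k : Type} [CommRing k] (L₀ : GalLevel S)
    {M : Rep.{0} k Γℚ} (hM : (levelsS S).IsDiscrete M) :
    (galFamilyAt L₀).IsDiscrete (Rep.res (L₀.V).subtype M) :=
  isDiscrete_res_galFamilyOver L₀.F L₀.unram hM

end Fermat.Agent.Lib.CFT.Global.SVersion
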