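import Mathlib
import Fermat.Agent.Lib.CFT.Global.SVersion.Divisible
import Fermat.Agent.Lib.CFT.Profinite.BridgeLevels

/-!
# The cyclotomic `p`-tower inside `ℚ_S` (helper45, P-CFT Global/S-version, task 219)

If `p ∈ S` then `ℚ(ζ_{p^k})` is unramified outside `S` for every `k`.  Consequently every level
`U` of the level family `levelsS S` contains a normal level `U'` whose index is divisible by
`p ^ N * [Γℚ : U]`, for every `N`: the supernatural order of `Gal(ℚ_S/F)` is divisible by `p^∞`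
for every level field `F`.  This is the input making `H²(V, C_S)` `p`-divisible (blueprint
note 304 (4)(ii), (6)).
-/

namespace Fermat.Agent.Lib.CFT.Global.SVersion.CycloTower

open Fermat.Agent.Lib.CFT.Profinite Fermat.Agent.Lib.CFT.Profinite.Bridge
open Fermat.Agent.Lib.CFT.Global.SVersion IntermediateField

local notation "Qbar" => AlgebraicClosure ℚ
local notation "Γℚ" => (AlgebraicClosure ℚ ≃ₐ[ℚ] AlgebraicClosure ℚ)

local instance isAlgebraicQbar_ct : Algebra.IsAlgebraic ℚ (AlgebraicClosure ℚ) :=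
  AlgebraicClosure.isAlgebraic ℚ
local instance isAlgClosureQbar_ct : IsAlgClosure ℚ (AlgebraicClosure ℚ) :=
  ⟨inferInstance, inferInstance⟩
local instance normalQbar_ct : Normal ℚ (AlgebraicClosure ℚ) :=
  IsAlgClosure.normal ℚ (AlgebraicClosure ℚ)
local instance isGaloisQbar_ct : IsGalois ℚ (AlgebraicClosure ℚ) := ⟨⟩

variable {S : Finset Nat.Primes}

/-- A root of unity is a unit at every valuation subring. -/
theorem valuation_eq_one_of_pow_eq_one {L : Type*} [Field L] (A : ValuationSubring L) {x : L}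
    {n : ℕ} (hn : n ≠ 0) (hx : x ^ n = 1) : A.valuation x = 1 := by
  have h1 : A.valuation x ^ n = 1 := by rw [← map_pow, hx, map_one]
  exact (pow_eq_one_iff_of_nonneg zero_le hn).1 h1

/-- The field generated by an `n`-th root of unity is unramified outside `S` as soon as all prime
factors of `n` lie in `S`. -/
theorem isUnramifiedOutside_adjoin_rootOfUnity {n : ℕ} (hn0 : n ≠ 0)
    (hn : ∀ q : Nat.Primes, (q : ℕ) ∣ n → q ∈ S) {ζ : Qbar} (hζ : ζ ^ n = 1) :
    (ℚ⟮ζ⟯ : IntermediateField ℚ Qbar).IsUnramifiedOutside S := by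
  have h := isUnramifiedOutside_sup_adjoin_of_pow_mem_of_unit (S := S) hn
    (IntermediateField.isUnramifiedOutside_bot S) (x := ζ)
    (by rw [hζ]; exact one_mem _)
    (fun q _ A _ => valuation_eq_one_of_pow_eq_one A hn0 hζ)
  rwa [bot_sup_eq] at h

/-- The fixing subgroup of the field generated by a primitive root of unity is normal. -/
theorem normal_fixingSubgroup_adjoin_primitiveRoot {n : ℕ} (hn0 : n ≠ 0) {ζ : Qbar}
    (hζ : IsPrimitiveRoot ζ n) : (ℚ⟮ζ⟯ : IntermediateField ℚ Qbar).fixingSubgroup.Normal := by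
  have : NeZero n := ⟨hn0⟩
  refine ⟨fun τ hτ g => ?_⟩
  apply mem_fixingSubgroup_adjoin_simple
  have h1 : (g⁻¹ ζ) ^ n = 1 := by rw [← map_pow, hζ.pow_eq_one, map_one]
  obtain ⟨j, _, hj⟩ := hζ.eq_pow_of_pow_eq_one h1
  have h2 : g⁻¹ ζ ∈ (ℚ⟮ζ⟯ : IntermediateField ℚ Qbar) := by
    rw [← hj]
    exact pow_mem (IntermediateField.mem_adjoin_simple_self ℚ ζ) j
  have h3 : τ (g⁻¹ ζ) = g⁻¹ ζ := (IntermediateField.mem_fixingSubgroup_iff _ τ).1 hτ _ h2
  change g (τ (g⁻¹ ζ)) = ζ
  rw [h3]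
  change (g * g⁻¹) ζ = ζ
  rw [mul_inv_cancel]
  rfl

/-- Main statement, field form: every level field `F` lies in a level field `F'`, Galois over `ℚ`,
with `p ^ N * [F : ℚ] ∣ [F' : ℚ]`. -/
theorem exists_isUnramifiedOutside_pow_mul_finrank_dvd {p : Nat.Primes} (hp : p ∈ S)
    {F : IntermediateField ℚ Qbar} (hF : F.IsUnramifiedOutside S) (N : ℕ) :
    ∃ F' : IntermediateField ℚ Qbar, F'.IsUnramifiedOutside S ∧ F ≤ F' ∧
      F'.fixingSubgroup.Normal ∧
      (p : ℕ) ^ N * Module.finrank ℚ F ∣ Module.finrank ℚ F' := by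
  have hFfin : FiniteDimensional ℚ F := hF.1
  have hpp : (p : ℕ).Prime := p.2
  set d := Module.finrank ℚ F with hd
  have hd0 : d ≠ 0 := (Module.finrank_pos).ne'
  obtain ⟨a, m, hm, hdm⟩ := Nat.exists_eq_pow_mul_and_not_dvd hd0 (p : ℕ) hpp.ne_one
  set k := N + a + 1 with hk
  set n := (p : ℕ) ^ k with hn
  have hn0 : n ≠ 0 := pow_ne_zero _ hpp.ne_zero
  have : NeZero n := ⟨hn0⟩
  obtain ⟨ζ, hζ⟩ := HasEnoughRootsOfUnity.exists_primitiveRoot Qbar n
  set C : IntermediateField ℚ Qbar := ℚ⟮ζ⟯ with hC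
  have hCun : C.IsUnramifiedOutside S := by
    refine isUnramifiedOutside_adjoin_rootOfUnity hn0 (fun q hq => ?_) hζ.pow_eq_one
    have h1 : (q : ℕ) ∣ (p : ℕ) := q.2.dvd_of_dvd_pow hq
    have h2 : (q : ℕ) = (p : ℕ) := (Nat.prime_dvd_prime_iff_eq q.2 hpp).1 h1
    have h3 : q = p := Subtype.ext h2
    rw [h3]; exact hp
  have hCcyc : IsCyclotomicExtension {n} ℚ C :=
    hζ.intermediateField_adjoin_isCyclotomicExtension ℚ
  have hCdeg : Module.finrank ℚ C = n.totient :=
    IsCyclotomicExtension.finrank (n := n) C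
      (Polynomial.cyclotomic.irreducible_rat (Nat.pos_of_ne_zero hn0))
  have hCnor : C.fixingSubgroup.Normal := normal_fixingSubgroup_adjoin_primitiveRoot hn0 hζ
  set F1 : IntermediateField ℚ Qbar := IntermediateField.normalClosure ℚ F Qbar with hF1
  have hF1un : F1.IsUnramifiedOutside S := isUnramifiedOutside_normalClosure hF
  have hF1nor : F1.fixingSubgroup.Normal := normal_fixingSubgroup_normalClosure F
  refine ⟨F1 ⊔ C, hF1un.sup hCun, le_trans F.le_normalClosure le_sup_left, ?_, ?_⟩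
  · rw [IntermediateField.fixingSubgroup_sup]
    exact Subgroup.normal_inf_normal _ _
  set F' : IntermediateField ℚ Qbar := F1 ⊔ C with hF'
  have hF'fin : FiniteDimensional ℚ F' := (hF1un.sup hCun).1
  have hFF' : F ≤ F' := le_trans F.le_normalClosure le_sup_left
  have hCF' : C ≤ F' := le_sup_right
  -- tower law for `F ≤ F'` and `C ≤ F'`
  have htower : ∀ {E : IntermediateField ℚ Qbar}, E ≤ F' →
      Module.finrank ℚ E ∣ Module.finrank ℚ F' := by
    intro E hE
    let _ : Algebra E F' := (IntermediateField.inclusion hE).toRingHom.toAlgebra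
    have : IsScalarTower ℚ E F' := IsScalarTower.of_algebraMap_eq (fun _ => rfl)
    exact ⟨Module.finrank E F', (Module.finrank_mul_finrank ℚ E F').symm⟩
  obtain ⟨e, he⟩ := htower hFF'
  have h2 : (p : ℕ) ^ (N + a) ∣ Module.finrank ℚ F' := by
    refine dvd_trans ?_ (htower hCF')
    rw [hCdeg, hn, hk, Nat.totient_prime_pow_succ hpp]
    exact dvd_mul_right _ _
  -- `p ^ (N + a) ∣ p ^ a * m * e` with `p ∤ m`
  rw [he, ← hd, hdm] at h2 ⊢
  have h3 : (p : ℕ) ^ N * (p : ℕ) ^ a ∣ (p : ℕ) ^ a * (m * e) := by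
    rw [← pow_add]
    convert h2 using 1
    ring
  have h4 : (p : ℕ) ^ N ∣ m * e := by
    rw [mul_comm ((p : ℕ) ^ N)] at h3
    exact (Nat.mul_dvd_mul_iff_left (pow_pos hpp.pos a)).1 h3
  have hcop : Nat.Coprime ((p : ℕ) ^ N) m :=
    Nat.Coprime.pow_left N ((Nat.Prime.coprime_iff_not_dvd hpp).2 hm)
  have h5 : (p : ℕ) ^ N ∣ e := hcop.dvd_of_dvd_mul_left h4
  obtain ⟨e', rfl⟩ := h5
  exact ⟨e', by ring⟩

/-- Main statement, level form: every level `U` of `levelsS S` contains a normal level `U'` with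
`p ^ N * [Γℚ : U] ∣ [Γℚ : U']`. -/
theorem exists_level_pow_mul_index_dvd {p : Nat.Primes} (hp : p ∈ S) {U : Subgroup Γℚ}
    (hU : U ∈ (levelsS S).levels) (N : ℕ) :
    ∃ U' ∈ (levelsS S).levels, U' ≤ U ∧ U'.Normal ∧ (p : ℕ) ^ N * U.index ∣ U'.index := by
  obtain ⟨F, hF, rfl⟩ := hU
  obtain ⟨F', hF', hle, hnor, hdvd⟩ := exists_isUnramifiedOutside_pow_mul_finrank_dvd hp hF N
  refine ⟨F'.fixingSubgroup, ⟨F', hF', rfl⟩, IntermediateField.fixingSubgroup_antitone hle, hnor,
    ?_⟩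
  · rw [← IntermediateField.finrank_eq_fixingSubgroup_index Qbar F,
      ← IntermediateField.finrank_eq_fixingSubgroup_index Qbar F']
    exact hdvd

end Fermat.Agent.Lib.CFT.Global.SVersion.CycloTower
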