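import Mathlib
import Fermat.Agent.Lib.CFT.Global.SVersion.CycloTower
import Fermat.Agent.Lib.CFT.Profinite.BridgePlaces

/-!
# `p^∞` divides the local degrees of `ℚ_S` at the places over `S`
(helper77, P-CFT Global/S-version, task 219)

Let `p, q ∈ S` (`q = p` allowed).  For every level `U` of `levelsS S`, every `g : Γℚ` and every `N`
there is a normal level `U' ≤ U` such that `p ^ N` divides the index
`[D ∩ U : D ∩ U']`, where `D` is the decomposition group `g⁻¹ φ_q(G_q) g`; in terms of the local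
Galois group `G_q`: `p ^ N ∣ (U'.comap (conjLoc q g)).relIndex (U.comap (conjLoc q g))`.

Proof: the field `ℚ(β)`, `β ^ (p ^ k) = q`, is unramified outside `S` (Kummer criterion of
`Divisible.lean`), and `X ^ (p ^ k) - q` is an Eisenstein polynomial over `ℤ_q`, so the stabiliser in
`G_q` of any of its roots has index `p ^ k`.
-/

set_option autoImplicit false

namespace Fermat.Agent.Lib.CFT.Global.SVersion.LocalDegree

open Fermat.Agent.Lib.CFT.Profinite Fermat.Agent.Lib.CFT.Profinite.Bridge Polynomial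

/-! ### Group-theoretic bookkeeping -/

section Group

variable {G : Type*} [Group G]

/-- If `A' ≤ A ⊓ B` then `[G : B]` divides `[G : A] * [A : A']`. -/
theorem index_dvd_index_mul_relIndex {A A' B : Subgroup G} (hA' : A' ≤ A ⊓ B) :
    B.index ∣ A.index * A'.relIndex A := by
  have h1 : A'.relIndex A * A.index = A'.index :=
    Subgroup.relIndex_mul_index (hA'.trans inf_le_left)
  have h2 : B.index ∣ A'.index := Subgroup.index_dvd_of_le (hA'.trans inf_le_right)
  rw [mul_comm, h1]
  exact h2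

/-- A crude extraction of the `p`-part. -/
theorem pow_dvd_of_pow_add_dvd_mul {p : ℕ} (hp : p.Prime) {N m r : ℕ} (hm : m ≠ 0)
    (h : p ^ (N + m) ∣ m * r) : p ^ N ∣ r := by
  obtain ⟨a, m', hm', rfl⟩ := Nat.exists_eq_pow_mul_and_not_dvd hm p hp.ne_one
  have ha : a ≤ p ^ a * m' := by
    have h1 : a < p ^ a := Nat.lt_pow_self hp.one_lt
    have h2 : 0 < m' := Nat.pos_of_ne_zero (by rintro rfl; simp at hm)
    exact le_trans h1.le (Nat.le_mul_of_pos_right _ h2)
  have h3 : p ^ a * p ^ N ∣ p ^ a * (m' * r) := by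
    rw [← pow_add, ← mul_assoc]
    exact (pow_dvd_pow p (by omega)).trans h
  have h4 : p ^ N ∣ m' * r := (Nat.mul_dvd_mul_iff_left (pow_pos hp.pos a)).1 h3
  have hcop : Nat.Coprime (p ^ N) m' :=
    Nat.Coprime.pow_left N ((Nat.Prime.coprime_iff_not_dvd hp).2 hm')
  exact hcop.dvd_of_dvd_mul_left h4

theorem pow_dvd_relIndex_of_pow_dvd_index {A A' B : Subgroup G} [hA : A.FiniteIndex]
    (hA' : A' ≤ A ⊓ B) {p : ℕ} (hp : p.Prime) {N : ℕ} (h : p ^ (N + A.index) ∣ B.index) :
    p ^ N ∣ A'.relIndex A :=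
  pow_dvd_of_pow_add_dvd_mul hp hA.index_ne_zero (h.trans (index_dvd_index_mul_relIndex hA'))

end Group

section Local

variable (q : ℕ) [Fact q.Prime]

local notation "Ωq" => PadicAlgCl q
local notation "Gq" => (PadicAlgCl q ≃ₐ[ℚ_[q]] PadicAlgCl q)

local instance isAlgClosureΩq_ld : IsAlgClosure ℚ_[q] (PadicAlgCl q) :=
  ⟨inferInstance, inferInstance⟩
local instance normalΩq_ld : Normal ℚ_[q] (PadicAlgCl q) :=
  IsAlgClosure.normal ℚ_[q] (PadicAlgCl q)

/-- The index of the stabiliser of `x` in the local Galois group is the degree of `x`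
over `ℚ_q`. -/
theorem index_stabilizer_eq_natDegree_minpoly (x : Ωq) :
    (MulAction.stabilizer Gq x).index = (minpoly ℚ_[q] x).natDegree := by
  classical
  have hint : IsIntegral ℚ_[q] x := Algebra.IsIntegral.isIntegral x
  have hirr : Irreducible (minpoly ℚ_[q] x) := minpoly.irreducible hint
  have horb : MulAction.orbit Gq x = (minpoly ℚ_[q] x).rootSet Ωq := by
    ext y
    rw [← Normal.minpoly_eq_iff_mem_orbit (F := ℚ_[q]) (E := Ωq),
      Polynomial.mem_rootSet_of_ne (minpoly.ne_zero hint)]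
    constructor
    · intro h
      rw [← h]
      exact minpoly.aeval _ _
    · intro h
      exact (minpoly.eq_of_irreducible_of_monic hirr h (minpoly.monic hint)).symm
  rw [MulAction.index_stabilizer, horb, ← _root_.Nat.card_coe_set_eq, Nat.card_eq_fintype_card,
    Polynomial.card_rootSet_eq_natDegree hirr.separable (IsAlgClosed.splits _)]

/-- `X ^ n - q` is irreducible over `ℚ_q` (Eisenstein). -/
theorem irreducible_X_pow_sub_C {n : ℕ} (hn : 0 < n) :
    Irreducible (X ^ n - C (q : ℚ_[q]) : ℚ_[q][X]) := by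
  have hq : (q : ℕ).Prime := Fact.out
  have hmonic : (X ^ n - C (q : ℤ_[q]) : ℤ_[q][X]).Monic := monic_X_pow_sub_C _ hn.ne'
  have hdeg : (X ^ n - C (q : ℤ_[q]) : ℤ_[q][X]).natDegree = n := natDegree_X_pow_sub_C
  have hprime : (Ideal.span {(q : ℤ_[q])}).IsPrime :=
    (Ideal.span_singleton_prime (by exact_mod_cast hq.ne_zero)).mpr PadicInt.prime_p
  have hE : (X ^ n - C (q : ℤ_[q]) : ℤ_[q][X]).IsEisensteinAt (Ideal.span {(q : ℤ_[q])}) := by
    refine hmonic.isEisensteinAt_of_mem_of_notMem hprime.ne_top ?_ ?_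
    · intro i hi
      rw [hdeg] at hi
      rw [coeff_sub, coeff_X_pow, coeff_C, if_neg hi.ne]
      by_cases h0 : i = 0
      · rw [if_pos h0, zero_sub, neg_mem_iff]
        exact Ideal.mem_span_singleton_self _
      · rw [if_neg h0, sub_zero]
        exact zero_mem _
    · rw [coeff_sub, coeff_X_pow, coeff_C, if_neg hn.ne, if_pos rfl, zero_sub, neg_mem_iff,
        Ideal.span_singleton_pow, Ideal.mem_span_singleton]
      intro h
      obtain ⟨c, hc⟩ := h
      have h1 : (q : ℤ_[q]) * (1 - (q : ℤ_[q]) * c) = 0 := by rw [mul_sub, mul_one, ← mul_assoc, ← pow_two, ← hc, sub_self]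
      have h2 : (q : ℤ_[q]) ≠ 0 := by exact_mod_cast hq.ne_zero
      have h3 : (1 : ℤ_[q]) - (q : ℤ_[q]) * c = 0 := (mul_eq_zero.mp h1).resolve_left h2
      have h4 : IsUnit (q : ℤ_[q]) := .of_mul_eq_one c (sub_eq_zero.mp h3).symm
      exact PadicInt.prime_p.not_isUnit h4
  have hirr : Irreducible (X ^ n - C (q : ℤ_[q]) : ℤ_[q][X]) :=
    hE.irreducible hprime hmonic.isPrimitive (by rw [hdeg]; exact hn)
  have := (hmonic.irreducible_iff_irreducible_map_fraction_map (K := ℚ_[q])).mp hirr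
  simpa using this

/-- The stabiliser of an `n`-th root of `q` in the local Galois group has index `n`. -/
theorem index_stabilizer_of_pow_eq {n : ℕ} (hn : 0 < n) {y : Ωq} (hy : y ^ n = (q : Ωq)) :
    (MulAction.stabilizer Gq y).index = n := by
  rw [index_stabilizer_eq_natDegree_minpoly]
  have hirr := irreducible_X_pow_sub_C q hn
  have hroot : aeval y (X ^ n - C (q : ℚ_[q]) : ℚ_[q][X]) = 0 := by
    simp [hy]
  rw [← minpoly.eq_of_irreducible_of_monic hirr hroot (monic_X_pow_sub_C _ hn.ne'),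
    natDegree_X_pow_sub_C]

end Local

section Glue

open IntermediateField

local notation "Qbar" => AlgebraicClosure ℚ
local notation "Γℚ" => (AlgebraicClosure ℚ ≃ₐ[ℚ] AlgebraicClosure ℚ)

variable (q : ℕ) [Fact q.Prime]

local notation "Ωq" => PadicAlgCl q
local notation "Gq" => (PadicAlgCl q ≃ₐ[ℚ_[q]] PadicAlgCl q)

/-- The local-to-global map twisted by conjugation: `h ↦ g⁻¹ * φ_q(h) * g`.  Its image is the
decomposition group of the place of `Qbar` attached to `g`. -/
noncomputable def conjLoc (g : Γℚ) : Gq →* Γℚ :=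
  (MulAut.conj g⁻¹).toMonoidHom.comp (localGaloisToGlobal q)

theorem conjLoc_apply (g : Γℚ) (h : Gq) :
    conjLoc q g h = g⁻¹ * localGaloisToGlobal q h * g := by
  simp [conjLoc]

/-- If `g⁻¹ φ_q(h) g` fixes `β` then `h` fixes the image of `g β` in `PadicAlgCl q`. -/
theorem comap_conjLoc_fixingSubgroup_adjoin_le (β : Qbar) (g : Γℚ) :
    (ℚ⟮β⟯ : IntermediateField ℚ Qbar).fixingSubgroup.comap (conjLoc q g) ≤
      MulAction.stabilizer Gq (padicEmbedding q (g β)) := by
  intro h hh
  rw [Subgroup.mem_comap, conjLoc_apply, IntermediateField.mem_fixingSubgroup_iff] at hh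
  have h1 := hh β (IntermediateField.mem_adjoin_simple_self ℚ β)
  have h2 : localGaloisToGlobal q h (g β) = g β := by
    have h3 : g ((g⁻¹ * localGaloisToGlobal q h * g) β) = g β := by rw [h1]
    have h4 : g ((g⁻¹ * localGaloisToGlobal q h * g) β) = localGaloisToGlobal q h (g β) := by
      show (g * (g⁻¹ * localGaloisToGlobal q h * g)) β = _
      rw [← mul_assoc, ← mul_assoc, mul_inv_cancel, one_mul]
      rfl
    rw [← h4, h3]
  rw [MulAction.mem_stabilizer_iff]
  show h (padicEmbedding q (g β)) = padicEmbedding q (g β)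
  rw [← padicEmbedding_localGaloisToGlobal, h2]

variable {S : Finset Nat.Primes}

/-- The field generated by an `n`-th root of the prime `q ∈ S` is unramified outside `S` as soon
as the prime factors of `n` lie in `S`. -/
theorem isUnramifiedOutside_adjoin_root_prime {n : ℕ} (hn0 : n ≠ 0)
    (hn : ∀ r : Nat.Primes, (r : ℕ) ∣ n → r ∈ S) {l : Nat.Primes} (hl : l ∈ S) {β : Qbar}
    (hβ : β ^ n = ((l : ℕ) : Qbar)) :
    (ℚ⟮β⟯ : IntermediateField ℚ Qbar).IsUnramifiedOutside S := by
  have h := isUnramifiedOutside_sup_adjoin_of_pow_mem_of_unit (S := S) hn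
    (IntermediateField.isUnramifiedOutside_bot S) (x := β)
    (by rw [hβ]; exact _root_.natCast_mem _ _)
    (fun r hr A hA => by
      have hne : ¬ (r : ℕ) ∣ (l : ℕ) := by
        intro hdvd
        have h2 : (r : ℕ) = (l : ℕ) := (Nat.prime_dvd_prime_iff_eq r.2 l.2).1 hdvd
        exact hr (by rw [Subtype.ext h2]; exact hl)
      have h1 : A.valuation β ^ n = 1 := by
        rw [← map_pow, hβ]
        exact valuation_natCast_eq_one hA r.2 hne
      exact (pow_eq_one_iff_of_nonneg zero_le hn0).1 h1)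
  rwa [bot_sup_eq] at h

/-- **Main theorem.**  Let `p ∈ S` and let `q ∈ S` be a prime (possibly `q = p`).  For every level
`U` of `levelsS S`, every `g : Γℚ` and every `N` there is a normal level `U' ≤ U` such that `p ^ N`
divides the index of `U' ∩ D` in `U ∩ D`, `D` the decomposition group `g⁻¹ φ_q(G_q) g`, computed
in the local Galois group `G_q`. -/
theorem exists_level_pow_dvd_relIndex {p : Nat.Primes} (hp : p ∈ S)
    (hq : (⟨q, Fact.out⟩ : Nat.Primes) ∈ S) {U : Subgroup Γℚ}
    (hU : U ∈ (levelsS S).levels) (g : Γℚ) (N : ℕ) :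
    ∃ U' ∈ (levelsS S).levels, U' ≤ U ∧ U'.Normal ∧
      (p : ℕ) ^ N ∣ (U'.comap (conjLoc q g)).relIndex (U.comap (conjLoc q g)) := by
  have hpp : (p : ℕ).Prime := p.2
  have hUfin : U.FiniteIndex := (levelsS S).finiteIndex U hU
  have hAfin : (U.comap (conjLoc q g)).FiniteIndex := finiteIndex_comap _ U
  set k := N + (U.comap (conjLoc q g)).index with hk
  set n := (p : ℕ) ^ k with hn
  have hn0 : n ≠ 0 := pow_ne_zero _ hpp.ne_zero
  obtain ⟨β, hβ⟩ := IsAlgClosed.exists_pow_nat_eq ((q : ℕ) : Qbar) (Nat.pos_of_ne_zero hn0)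
  have hCun : (ℚ⟮β⟯ : IntermediateField ℚ Qbar).IsUnramifiedOutside S := by
    refine isUnramifiedOutside_adjoin_root_prime hn0 (fun r hr => ?_) hq hβ
    have h1 : (r : ℕ) ∣ (p : ℕ) := r.2.dvd_of_dvd_pow hr
    have h2 : (r : ℕ) = (p : ℕ) := (Nat.prime_dvd_prime_iff_eq r.2 hpp).1 h1
    rw [Subtype.ext h2]; exact hp
  have hUk : (ℚ⟮β⟯ : IntermediateField ℚ Qbar).fixingSubgroup ∈ (levelsS S).levels :=
    ⟨_, hCun, rfl⟩
  obtain ⟨U', hU', h1, h2, hnor⟩ := (levelsS S).exists_normal_le_inf hU hUk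
  refine ⟨U', hU', h1, hnor, ?_⟩
  have hy : (padicEmbedding q (g β)) ^ n = ((q : ℕ) : Ωq) := by
    rw [← map_pow, ← map_pow, hβ, map_natCast, map_natCast]
  have hB : (MulAction.stabilizer Gq (padicEmbedding q (g β))).index = n :=
    index_stabilizer_of_pow_eq q (Nat.pos_of_ne_zero hn0) hy
  refine pow_dvd_relIndex_of_pow_dvd_index (A := U.comap (conjLoc q g))
    (B := MulAction.stabilizer Gq (padicEmbedding q (g β))) ?_ hpp ?_
  · exact le_inf (Subgroup.comap_mono h1)
      ((Subgroup.comap_mono h2).trans (comap_conjLoc_fixingSubgroup_adjoin_le q β g))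
  · rw [hB]

end Glue

/-- The main theorem for `q : Nat.Primes` and the Prelude's `ExtCitation.primeLocalToGlobal`. -/
theorem exists_level_pow_dvd_relIndex_prime {S : Finset Nat.Primes} {p q : Nat.Primes}
    (hp : p ∈ S) (hq : q ∈ S)
    {U : Subgroup (AlgebraicClosure ℚ ≃ₐ[ℚ] AlgebraicClosure ℚ)} (hU : U ∈ (levelsS S).levels)
    (g : AlgebraicClosure ℚ ≃ₐ[ℚ] AlgebraicClosure ℚ) (N : ℕ) :
    ∃ U' ∈ (levelsS S).levels, U' ≤ U ∧ U'.Normal ∧
      (p : ℕ) ^ N ∣
        (U'.comap ((MulAut.conj g⁻¹).toMonoidHom.comp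
          (ExtCitation.primeLocalToGlobal q))).relIndex
        (U.comap ((MulAut.conj g⁻¹).toMonoidHom.comp (ExtCitation.primeLocalToGlobal q))) := by
  have : Fact (q : ℕ).Prime := ⟨q.2⟩
  exact exists_level_pow_dvd_relIndex (q : ℕ) hp hq hU g N

end Fermat.Agent.Lib.CFT.Global.SVersion.LocalDegree
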