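import Mathlib
import Fermat.Agent.Lib.CFT.Global.SVersion.LocalDegree
import Fermat.Agent.Lib.CFT.Global.SVersion.LevelFamilyAt
import Fermat.Agent.Lib.CFT.Duality.LocDatum
import Fermat.Agent.Lib.CFT.Profinite.Shapiro

/-!
# Open subgroups of `G_S` are fixing subgroups of level fields
(helper77, P-CFT Global/S-version, for helper11/helper87)

* (O1) `exists_levelField_of_isOpenSubgroup`: a subgroup `W` of `Γℚ` containing a level of
  `levelsS S` is the fixing subgroup of a finite extension `F₀` of `ℚ` unramified outside `S`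
  (`F₀` the fixed field of `W`).
* (O2) For `g : Γℚ` the subgroup `S_g = W.comap (conjLoc q g) = {h | g⁻¹ φ_q(h) g ∈ W}` of the local
  Galois group `G_q` is the fixing subgroup of the local field `ℚ_q(ι(g F₀))`
  (`comap_conjLoc_fixingSubgroup`), it is open (`isOpenSubgroup_comap_conjLoc`), and for a normal
  subgroup `N` of `Γℚ` (e.g. `L.V` for a Galois level `L`) the map `conjLoc q g` induces an injective
  homomorphism `S_g ⧸ (S_g ⊓ φ_q⁻¹ N) → W ⧸ (W ⊓ N)` (`quotComapMap`, `quotComapMap_injective`).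
-/

set_option autoImplicit false

namespace Fermat.Agent.Lib.CFT.Global.SVersion.OpenLevelField

open Fermat.Agent.Lib.CFT.Profinite Fermat.Agent.Lib.CFT.Profinite.Bridge
open Fermat.Agent.Lib.CFT.Profinite.LES Fermat.Agent.Lib.CFT.Global.SVersion.LocalDegree

/-! ### The group-theoretic skeleton -/

section Group

variable {H G : Type*} [Group H] [Group G] (f : H →* G) (W N : Subgroup G) [N.Normal]

/-- The homomorphism `f⁻¹ W ⧸ (f⁻¹ W ⊓ f⁻¹ N) → W ⧸ (W ⊓ N)` induced by `f`. -/
def quotComapMap :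
    ↥(W.comap f) ⧸ (N.comap f).subgroupOf (W.comap f) →* ↥W ⧸ N.subgroupOf W :=
  QuotientGroup.map _ _ (f.subgroupComap W) (fun _ hx => hx)

@[simp]
theorem quotComapMap_mk (x : W.comap f) :
    quotComapMap f W N (x : ↥(W.comap f) ⧸ (N.comap f).subgroupOf (W.comap f)) =
      ((f.subgroupComap W x : W) : ↥W ⧸ N.subgroupOf W) := rfl

theorem quotComapMap_injective : Function.Injective (quotComapMap f W N) := by
  rw [injective_iff_map_eq_one]
  intro x hx
  induction x using QuotientGroup.induction_on with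
  | H x =>
    rw [quotComapMap_mk, QuotientGroup.eq_one_iff] at hx
    rw [QuotientGroup.eq_one_iff]
    exact hx

/-- The comap of a normal subgroup is insensitive to conjugation. -/
theorem comap_conj_comp_eq (g : G) :
    N.comap ((MulAut.conj g).toMonoidHom.comp f) = N.comap f := by
  ext h
  simp only [Subgroup.mem_comap, MonoidHom.coe_comp, Function.comp_apply,
    MulEquiv.coe_toMonoidHom, MulAut.conj_apply]
  constructor
  · intro hh
    have := ‹N.Normal›.conj_mem _ hh g⁻¹
    simpa [mul_assoc] using this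
  · intro hh
    exact ‹N.Normal›.conj_mem _ hh g

end Group

local notation "Qbar" => AlgebraicClosure ℚ
local notation "Γℚ" => (AlgebraicClosure ℚ ≃ₐ[ℚ] AlgebraicClosure ℚ)

local instance isAlgebraicQbar_olf : Algebra.IsAlgebraic ℚ (AlgebraicClosure ℚ) :=
  AlgebraicClosure.isAlgebraic ℚ
local instance isAlgClosureQbar_olf : IsAlgClosure ℚ (AlgebraicClosure ℚ) :=
  ⟨inferInstance, inferInstance⟩
local instance normalQbar_olf : Normal ℚ (AlgebraicClosure ℚ) :=
  IsAlgClosure.normal ℚ (AlgebraicClosure ℚ)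
local instance isGaloisQbar_olf : IsGalois ℚ (AlgebraicClosure ℚ) := ⟨⟩

/-! ### (O1) Open subgroups are fixing subgroups of level fields -/

section O1

variable {S : Finset Nat.Primes}

/-- A subgroup of `Γℚ` containing the fixing subgroup of a finite extension is closed. -/
theorem isClosed_of_fixingSubgroup_le {W : Subgroup Γℚ} {F : IntermediateField ℚ Qbar}
    [FiniteDimensional ℚ F] (hle : F.fixingSubgroup ≤ W) : IsClosed (W : Set Γℚ) :=
  W.isClosed_of_isOpen (Subgroup.isOpen_mono hle F.fixingSubgroup_isOpen)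

/-- A subgroup of `Γℚ` containing the fixing subgroup of a finite extension `F` is the fixing
subgroup of its fixed field, which is contained in `F`. -/
theorem eq_fixingSubgroup_fixedField {W : Subgroup Γℚ} {F : IntermediateField ℚ Qbar}
    [FiniteDimensional ℚ F] (hle : F.fixingSubgroup ≤ W) :
    W = (IntermediateField.fixedField W).fixingSubgroup :=
  (InfiniteGalois.fixingSubgroup_fixedField ⟨W, isClosed_of_fixingSubgroup_le hle⟩).symm

theorem fixedField_le_of_fixingSubgroup_le {W : Subgroup Γℚ} {F : IntermediateField ℚ Qbar}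
    (hle : F.fixingSubgroup ≤ W) : IntermediateField.fixedField W ≤ F := by
  have h := IntermediateField.fixedField_antitone hle
  rwa [InfiniteGalois.fixedField_fixingSubgroup] at h

/-- **(O1)** An open subgroup of `Γℚ` for the level family `levelsS S` is the fixing subgroup of a
finite extension of `ℚ` unramified outside `S` (namely of its fixed field). -/
theorem isUnramifiedOutside_fixedField (W : Subgroup Γℚ)
    (hW : IsOpenSubgroup (levelsS S) W) :
    (IntermediateField.fixedField W).IsUnramifiedOutside S := by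
  obtain ⟨U, ⟨F, hF, rfl⟩, hle⟩ := hW
  exact IntermediateField.IsUnramifiedOutside.of_le (fixedField_le_of_fixingSubgroup_le hle) hF

theorem eq_fixingSubgroup_fixedField_of_isOpenSubgroup (W : Subgroup Γℚ)
    (hW : IsOpenSubgroup (levelsS S) W) :
    W = (IntermediateField.fixedField W).fixingSubgroup := by
  obtain ⟨U, ⟨F, hF, rfl⟩, hle⟩ := hW
  have := hF.1
  exact eq_fixingSubgroup_fixedField hle

theorem exists_levelField_of_isOpenSubgroup (W : Subgroup Γℚ)
    (hW : IsOpenSubgroup (levelsS S) W) :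
    ∃ F₀ : IntermediateField ℚ Qbar, F₀.IsUnramifiedOutside S ∧ W = F₀.fixingSubgroup :=
  ⟨IntermediateField.fixedField W, isUnramifiedOutside_fixedField W hW,
    eq_fixingSubgroup_fixedField_of_isOpenSubgroup W hW⟩

/-- Open subgroups for `levelsS S` are exactly the levels. -/
theorem isOpenSubgroup_iff_mem_levels (W : Subgroup Γℚ) :
    IsOpenSubgroup (levelsS S) W ↔ W ∈ (levelsS S).levels :=
  ⟨fun hW => by
    obtain ⟨F₀, hF₀, h⟩ := exists_levelField_of_isOpenSubgroup W hW
    exact ⟨F₀, hF₀, h⟩, fun hW => ⟨W, hW, le_rfl⟩⟩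

end O1

/-! ### (O2) The decomposition subgroups of an open subgroup -/

section O2

variable (q : ℕ) [Fact q.Prime]

local notation "Ωq" => PadicAlgCl q
local notation "Gq" => (PadicAlgCl q ≃ₐ[ℚ_[q]] PadicAlgCl q)

/-- `S_g = {h | g⁻¹ φ_q(h) g ∈ Gal(Qbar/F)}` is the fixing subgroup of the local field
`ℚ_q(ι(g F))`. -/
theorem comap_conjLoc_fixingSubgroup (F : IntermediateField ℚ Qbar) (g : Γℚ) :
    F.fixingSubgroup.comap (conjLoc q g) =
      (localFieldOf q (F.map (g : Qbar →ₐ[ℚ] Qbar))).fixingSubgroup := by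
  ext h
  rw [Subgroup.mem_comap, conjLoc_apply]
  exact stabilizer_left_coset q F g h

/-- `S_g` is a level of the local Galois group. -/
theorem comap_conjLoc_fixingSubgroup_mem_localLevels (F : IntermediateField ℚ Qbar)
    [FiniteDimensional ℚ F] (g : Γℚ) :
    F.fixingSubgroup.comap (conjLoc q g) ∈ (localLevels q).levels := by
  have : FiniteDimensional ℚ (F.map (g : Qbar →ₐ[ℚ] Qbar)) :=
    LinearEquiv.finiteDimensional (F.equivMap (g : Qbar →ₐ[ℚ] Qbar)).toLinearEquiv
  exact ⟨localFieldOf q (F.map (g : Qbar →ₐ[ℚ] Qbar)), inferInstance,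
    comap_conjLoc_fixingSubgroup q F g⟩

variable {S : Finset Nat.Primes}

/-- **(O2)** For an open subgroup `W` of `Γℚ` the subgroup `S_g = W.comap (conjLoc q g)` of the
local Galois group is open. -/
theorem isOpenSubgroup_comap_conjLoc {W : Subgroup Γℚ} (hW : IsOpenSubgroup (levelsS S) W)
    (g : Γℚ) : IsOpenSubgroup (localLevels q) (W.comap (conjLoc q g)) := by
  obtain ⟨U, ⟨F, hF, rfl⟩, hle⟩ := hW
  have := hF.1
  exact ⟨_, comap_conjLoc_fixingSubgroup_mem_localLevels q F g, Subgroup.comap_mono hle⟩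

/-- For a normal subgroup `N` of `Γℚ`, `N.comap (conjLoc q g) = N.comap φ_q`. -/
theorem comap_conjLoc_of_normal (N : Subgroup Γℚ) [N.Normal] (g : Γℚ) :
    N.comap (conjLoc q g) = N.comap (localGaloisToGlobal q) :=
  comap_conj_comp_eq (localGaloisToGlobal q) N g⁻¹

/-- For a Galois level `L`: `(L.V).comap (conjLoc q g)` is the fixing subgroup of `ℚ_q(ι L.F)`. -/
theorem comap_conjLoc_V (L : GalLevel S) (g : Γℚ) :
    (L.V).comap (conjLoc q g) = (localFieldOf q L.F).fixingSubgroup := by
  rw [comap_conjLoc_of_normal]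
  exact comap_fixingSubgroup_eq_localFieldOf q L.F

/-- For a Galois level `L` with `F₀ ≤ L.F`, the subgroup `φ_q⁻¹ (L.V)` is contained in
`S_g = (Gal(Qbar/F₀)).comap (conjLoc q g)`; so `S_g ⊓ φ_q⁻¹ (L.V) = φ_q⁻¹ (L.V)`. -/
theorem comap_V_le_comap_conjLoc {F₀ : IntermediateField ℚ Qbar} (L : GalLevel S)
    (hL : F₀ ≤ L.F) (g : Γℚ) :
    (L.V).comap (localGaloisToGlobal q) ≤ F₀.fixingSubgroup.comap (conjLoc q g) := by
  rw [← comap_conjLoc_of_normal q L.V g]
  exact Subgroup.comap_mono (IntermediateField.fixingSubgroup_antitone hL)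

theorem comap_conjLoc_inf_comap_V {F₀ : IntermediateField ℚ Qbar} (L : GalLevel S)
    (hL : F₀ ≤ L.F) (g : Γℚ) :
    F₀.fixingSubgroup.comap (conjLoc q g) ⊓ (L.V).comap (localGaloisToGlobal q) =
      (localFieldOf q L.F).fixingSubgroup := by
  rw [inf_eq_right.2 (comap_V_le_comap_conjLoc q L hL g)]
  exact comap_fixingSubgroup_eq_localFieldOf q L.F

/-- The local field `ℚ_q(ι(g F₀))` is contained in `ℚ_q(ι L.F)` for a Galois level `L ≥ F₀`. -/
theorem localFieldOf_map_le {F₀ : IntermediateField ℚ Qbar} (L : GalLevel S)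
    (hL : F₀ ≤ L.F) (g : Γℚ) :
    localFieldOf q (F₀.map (g : Qbar →ₐ[ℚ] Qbar)) ≤ localFieldOf q L.F := by
  have h := comap_V_le_comap_conjLoc q L hL g
  rw [comap_conjLoc_fixingSubgroup, comap_fixingSubgroup_eq_localFieldOf] at h
  have h2 := IntermediateField.fixedField_antitone h
  rwa [InfiniteGalois.fixedField_fixingSubgroup, InfiniteGalois.fixedField_fixingSubgroup] at h2

/-- **(O2)** The injective homomorphism `S_g ⧸ (S_g ⊓ φ_q⁻¹ N) → W ⧸ (W ⊓ N)` induced by
`h ↦ g⁻¹ φ_q(h) g`, for a normal subgroup `N` of `Γℚ` (e.g. `N = L.V`). -/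
noncomputable def decompQuotMap (W N : Subgroup Γℚ) [N.Normal] (g : Γℚ) :
    ↥(W.comap (conjLoc q g)) ⧸ (N.comap (conjLoc q g)).subgroupOf (W.comap (conjLoc q g)) →*
      ↥W ⧸ N.subgroupOf W :=
  quotComapMap (conjLoc q g) W N

theorem decompQuotMap_injective (W N : Subgroup Γℚ) [N.Normal] (g : Γℚ) :
    Function.Injective (decompQuotMap q W N g) :=
  quotComapMap_injective (conjLoc q g) W N

@[simp]
theorem decompQuotMap_mk (W N : Subgroup Γℚ) [N.Normal] (g : Γℚ) (x : W.comap (conjLoc q g)) :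
    decompQuotMap q W N g
      (x : ↥(W.comap (conjLoc q g)) ⧸ (N.comap (conjLoc q g)).subgroupOf (W.comap (conjLoc q g))) =
      (((conjLoc q g).subgroupComap W x : W) : ↥W ⧸ N.subgroupOf W) := rfl

/-- The subgroup `S_g ⊓ φ_q⁻¹ N` in the form `S_g ⊓ N.comap φ_q`. -/
theorem comap_conjLoc_subgroupOf_eq (W N : Subgroup Γℚ) [N.Normal] (g : Γℚ) :
    (N.comap (conjLoc q g)).subgroupOf (W.comap (conjLoc q g)) =
      (N.comap (localGaloisToGlobal q)).subgroupOf (W.comap (conjLoc q g)) := by
  rw [comap_conjLoc_of_normal q N g]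

end O2

/-! ### The versions for `q : Nat.Primes` -/

section Prime

variable {S : Finset Nat.Primes}

/-- **(O2)** for `q : Nat.Primes`, the Prelude's `ExtCitation.primeLocalToGlobal` and
`primeLocalLevels`. -/
theorem isOpenSubgroup_comap_conjLoc_prime (q : Nat.Primes) {W : Subgroup Γℚ}
    (hW : IsOpenSubgroup (levelsS S) W) (g : Γℚ) :
    IsOpenSubgroup (Fermat.Agent.Lib.CFT.Duality.primeLocalLevels q)
      (W.comap ((MulAut.conj g⁻¹).toMonoidHom.comp (ExtCitation.primeLocalToGlobal q))) := by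
  have : Fact (q : ℕ).Prime := ⟨q.2⟩
  exact isOpenSubgroup_comap_conjLoc (q : ℕ) hW g

end Prime

end Fermat.Agent.Lib.CFT.Global.SVersion.OpenLevelField
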