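import Mathlib

/-!
# P-CFT, Global/SVersion, helper25: compatible generators of a direct system of cyclic groups

For a direct system of finite cyclic groups `H i` over a directed preorder with injective
transition maps `f : H i →+ H j` (`i ≤ j`) there are generators `u i` of the `H i` with
`f (u i) = (|H j| / |H i|) • u j` for all `i ≤ j` (compactness: an inverse system of nonempty
finite sets has a compatible family).
-/

set_option autoImplicit false

open CategoryTheory Opposite

namespace Fermat.Agent.Lib.CFT.Global.SVersion.CompatGenerators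

universe u v

theorem div_mul_div_of_dvd {a b c : ℕ} (ha : 0 < a) (hb : 0 < b) (hab : a ∣ b) (hbc : b ∣ c) :
    (b / a) * (c / b) = c / a := by
  obtain ⟨m, rfl⟩ := hab
  obtain ⟨n, rfl⟩ := hbc
  rw [Nat.mul_div_cancel_left _ ha, Nat.mul_div_cancel_left _ hb, mul_assoc,
    Nat.mul_div_cancel_left _ ha]

section Cyclic

variable {A B : Type*} [AddCommGroup A] [AddCommGroup B] [Finite A] [Finite B]

/-- An element of additive order `|A|` generates `A`. -/
theorem exists_zsmul_eq_of_addOrderOf_eq_card {u : A} (hu : addOrderOf u = Nat.card A) (x : A) :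
    ∃ m : ℤ, x = m • u := by
  have h1 : AddSubgroup.zmultiples u = ⊤ :=
    AddSubgroup.eq_top_of_card_eq _ (by rw [Nat.card_zmultiples, hu])
  have h2 : x ∈ AddSubgroup.zmultiples u := by rw [h1]; exact AddSubgroup.mem_top x
  obtain ⟨m, hm⟩ := AddSubgroup.mem_zmultiples_iff.mp h2
  exact ⟨m, hm.symm⟩

/-- A cyclic group has an element of order `|A|`. -/
theorem exists_addOrderOf_eq_card [IsAddCyclic A] : ∃ u : A, addOrderOf u = Nat.card A := by
  obtain ⟨g, hg⟩ := IsAddCyclic.exists_generator (α := A)
  exact ⟨g, addOrderOf_eq_card_of_forall_mem_zmultiples hg⟩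

/-- In a finite cyclic group `B`, the image of an injective homomorphism from a group of order `n`
is the `n`-torsion of `B`. -/
theorem mem_range_of_nsmul_eq_zero [IsAddCyclic B] (f : A →+ B) (hf : Function.Injective f)
    {y : B} (hy : Nat.card A • y = 0) : y ∈ Set.range f := by
  classical
  have := Fintype.ofFinite A
  have := Fintype.ofFinite B
  have hpos : 0 < Nat.card A := Nat.card_pos
  have hle : (Finset.univ.filter fun b : B => Nat.card A • b = 0).card ≤ Nat.card A :=
    IsAddCyclic.card_nsmul_eq_zero_le hpos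
  have hsub : Finset.univ.image f ⊆ Finset.univ.filter fun b : B => Nat.card A • b = 0 := by
    intro b hb
    obtain ⟨a, -, rfl⟩ := Finset.mem_image.mp hb
    rw [Finset.mem_filter]
    refine ⟨Finset.mem_univ _, ?_⟩
    rw [← map_nsmul]
    have h0 : Nat.card A • a = 0 := by
      have := card_nsmul_eq_zero' (G := A) (x := a)
      exact this
    rw [h0, map_zero]
  have hcard : (Finset.univ.image f).card = Nat.card A := by
    rw [Finset.card_image_of_injective _ hf, Finset.card_univ, Nat.card_eq_fintype_card]
  have heq : Finset.univ.image f = Finset.univ.filter fun b : B => Nat.card A • b = 0 :=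
    Finset.eq_of_subset_of_card_le hsub (by rw [hcard]; exact hle)
  have hy' : y ∈ Finset.univ.filter fun b : B => Nat.card A • b = 0 := by
    rw [Finset.mem_filter]
    exact ⟨Finset.mem_univ _, hy⟩
  rw [← heq] at hy'
  obtain ⟨a, -, ha⟩ := Finset.mem_image.mp hy'
  exact ⟨a, ha⟩

/-- **Transition of generators.** If `f : A →+ B` is injective, `B` is cyclic and `v` has order
`|B|`, then `(|B| / |A|) • v = f w` for a unique `w`, and `w` has order `|A|`. -/
theorem exists_unique_preimage [IsAddCyclic B] (f : A →+ B) (hf : Function.Injective f)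
    {v : B} (hv : addOrderOf v = Nat.card B) :
    ∃! w : A, f w = (Nat.card B / Nat.card A) • v ∧ addOrderOf w = Nat.card A := by
  have hdvd : Nat.card A ∣ Nat.card B := AddSubgroup.card_dvd_of_injective f hf
  have hposA : 0 < Nat.card A := Nat.card_pos
  have hposB : 0 < Nat.card B := Nat.card_pos
  have hmul : Nat.card A * (Nat.card B / Nat.card A) = Nat.card B := Nat.mul_div_cancel' hdvd
  have hy : Nat.card A • ((Nat.card B / Nat.card A) • v) = 0 := by
    rw [← mul_nsmul', hmul, ← hv, addOrderOf_nsmul_eq_zero]
  obtain ⟨w, hw⟩ := mem_range_of_nsmul_eq_zero f hf hy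
  have hord : addOrderOf w = Nat.card A := by
    rw [← addOrderOf_injective f hf w, hw, addOrderOf_nsmul, hv]
    have hk : (Nat.card B).gcd (Nat.card B / Nat.card A) = Nat.card B / Nat.card A :=
      Nat.gcd_eq_right (Nat.div_dvd_of_dvd hdvd)
    rw [hk]
    exact Nat.div_div_self hdvd hposB.ne'
  refine ⟨w, ⟨hw, hord⟩, fun w' hw' => hf (hw'.1.trans hw.symm)⟩

end Cyclic

section System

variable {I : Type u} [Preorder I] [IsDirected I (· ≤ ·)] [Nonempty I]
  (H : I → Type v) [∀ i, AddCommGroup (H i)] [∀ i, Finite (H i)]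
  (hcyc : ∀ i, IsAddCyclic (H i))
  (f : ∀ {i j : I}, i ≤ j → (H i →+ H j))
  (hinj : ∀ (i j : I) (h : i ≤ j), Function.Injective (f h))
  (hid : ∀ (i : I) (x : H i), f (le_refl i) x = x)
  (hcomp : ∀ (i j k : I) (h : i ≤ j) (h' : j ≤ k) (x : H i), f h' (f h x) = f (h.trans h') x)

/-- The generators (elements of maximal order) of `H i`. -/
def Gen (i : I) : Type v := {u : H i // addOrderOf u = Nat.card (H i)}

instance (i : I) : Finite (Gen H i) := Subtype.finite

include hcyc in
theorem nonempty_gen (i : I) : Nonempty (Gen H i) := by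
  have := hcyc i
  obtain ⟨u, hu⟩ := exists_addOrderOf_eq_card (A := H i)
  exact ⟨⟨u, hu⟩⟩

include hcyc hinj in
theorem exists_unique_gen {i j : I} (h : i ≤ j) (v : Gen H j) :
    ∃! w : H i, f h w = (Nat.card (H j) / Nat.card (H i)) • v.1 ∧
      addOrderOf w = Nat.card (H i) := by
  have := hcyc j
  exact exists_unique_preimage (f h) (hinj i j h) v.2

/-- The transition map on generators. -/
noncomputable def trans {i j : I} (h : i ≤ j) (v : Gen H j) : Gen H i :=
  ⟨(exists_unique_gen H hcyc f hinj h v).exists.choose,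
    (exists_unique_gen H hcyc f hinj h v).exists.choose_spec.2⟩

theorem f_trans {i j : I} (h : i ≤ j) (v : Gen H j) :
    f h (trans H hcyc f hinj h v).1 = (Nat.card (H j) / Nat.card (H i)) • v.1 :=
  (exists_unique_gen H hcyc f hinj h v).exists.choose_spec.1

theorem trans_eq_of {i j : I} (h : i ≤ j) (v : Gen H j) (w : Gen H i)
    (hw : f h w.1 = (Nat.card (H j) / Nat.card (H i)) • v.1) : trans H hcyc f hinj h v = w :=
  Subtype.ext (hinj i j h ((f_trans H hcyc f hinj h v).trans hw.symm))

include hid in
theorem trans_refl (i : I) (v : Gen H i) : trans H hcyc f hinj (le_refl i) v = v := by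
  apply trans_eq_of
  rw [hid, Nat.div_self Nat.card_pos, one_nsmul]

include hcomp in
theorem trans_trans {i j k : I} (h : i ≤ j) (h' : j ≤ k) (v : Gen H k) :
    trans H hcyc f hinj h (trans H hcyc f hinj h' v) = trans H hcyc f hinj (h.trans h') v := by
  symm
  apply trans_eq_of
  rw [← hcomp i j k h h', f_trans, map_nsmul, f_trans, ← mul_nsmul']
  congr 1
  have h1 : Nat.card (H i) ∣ Nat.card (H j) := AddSubgroup.card_dvd_of_injective _ (hinj i j h)
  have h2 : Nat.card (H j) ∣ Nat.card (H k) := AddSubgroup.card_dvd_of_injective _ (hinj j k h')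
  exact div_mul_div_of_dvd Nat.card_pos Nat.card_pos h1 h2

/-- The inverse system of the sets of generators. -/
noncomputable def genFunctor : Iᵒᵖ ⥤ Type v where
  obj i := Gen H (unop i)
  map {i j} φ := ↾(trans H hcyc f hinj (leOfHom φ.unop))
  map_id i := by
    ext v
    exact trans_refl H hcyc f hinj hid (unop i) v
  map_comp {i j k} φ ψ := by
    ext v
    exact (trans_trans H hcyc f hinj hcomp (leOfHom ψ.unop) (leOfHom φ.unop) v).symm

include hcyc hinj hid hcomp in
/-- **Compatible generators** of a direct system of finite cyclic groups with injective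
transition maps. -/
theorem exists_compatible_generators :
    ∃ u : ∀ i, H i, (∀ i, ∀ x : H i, ∃ m : ℤ, x = m • u i) ∧
      ∀ (i j : I) (h : i ≤ j), f h (u i) = (Nat.card (H j) / Nat.card (H i)) • u j := by
  have hfin : ∀ j : Iᵒᵖ, Finite ((genFunctor H hcyc f hinj hid hcomp).obj j) := fun j =>
    inferInstanceAs (Finite (Gen H (unop j)))
  have hne : ∀ j : Iᵒᵖ, Nonempty ((genFunctor H hcyc f hinj hid hcomp).obj j) := fun j =>
    nonempty_gen H hcyc (unop j)
  obtain ⟨s, hs⟩ := nonempty_sections_of_finite_inverse_system (genFunctor H hcyc f hinj hid hcomp)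
  refine ⟨fun i => (s (op i)).1, fun i x => ?_, fun i j h => ?_⟩
  · exact exists_zsmul_eq_of_addOrderOf_eq_card (s (op i)).2 x
  · have h2 : trans H hcyc f hinj h (s (op j)) = s (op i) := hs (homOfLE h).op
    have h3 := f_trans H hcyc f hinj h (s (op j))
    rw [h2] at h3
    exact h3

end System

end Fermat.Agent.Lib.CFT.Global.SVersion.CompatGenerators
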