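/-
Injectivity of the inflation maps between finite levels, `Hⁿ(G ⧸ U, M^U) → Hⁿ(G ⧸ U', M^{U'})`
for normal subgroups `U' ≤ U`, from the vanishing of `Hⁱ(U ⧸ U', M^{U'})` for `0 < i < n`
(inflation-restriction for the normal subgroup `U ⧸ U'` of `G ⧸ U'` and the third isomorphism
theorem).  This discharges hypothesis `h1` of `SVersion/Limit.lean`.
-/
import Fermat.Agent.Lib.CFT.Global.SVersion.Limit
import Fermat.Agent.Lib.CFT.Coh.InfRes
import Fermat.Agent.Lib.CFT.Coh.MapBijective

set_option autoImplicit false

namespace Fermat.Agent.Lib.CFT.Global.SVersion.LimitInfl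

open CategoryTheory groupCohomology Rep
open Fermat.Agent.Lib.CFT.Profinite Fermat.Agent.Lib.CFT.Global.SVersion.Limit
open Fermat.Agent.Lib.CFT.Coh

universe u

variable {k G : Type u} [CommRing k] [Group G] (M : Rep.{u} k G) (U U' : Subgroup G) [U.Normal]
  [U'.Normal] (h : U' ≤ U)

/-- The projection `G ⧸ U' → G ⧸ U`. -/
abbrev proj : G ⧸ U' →* G ⧸ U := QuotientGroup.map U' U (MonoidHom.id G) h

/-- The subgroup `U ⧸ U'` of `G ⧸ U'`, as the kernel of the projection to `G ⧸ U`. -/
abbrev relKer : Subgroup (G ⧸ U') := (proj U U' h).ker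

theorem mk_mem_relKer_iff (g : G) : (g : G ⧸ U') ∈ relKer U U' h ↔ g ∈ U := by
  rw [MonoidHom.mem_ker]
  change ((g : G) : G ⧸ U) = 1 ↔ g ∈ U
  exact QuotientGroup.eq_one_iff g

theorem map_mk'_eq_relKer : U.map (QuotientGroup.mk' U') = relKer U U' h := by
  ext x
  induction x using QuotientGroup.induction_on with
  | H g =>
    rw [mk_mem_relKer_iff]
    constructor
    · rintro ⟨g', hg', hgg'⟩
      have h1 : g'⁻¹ * g ∈ U' := QuotientGroup.eq.1 hgg'
      have h2 : g = g' * (g'⁻¹ * g) := by group
      rw [h2]
      exact U.mul_mem hg' (h h1)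
    · intro hg
      exact ⟨g, hg, rfl⟩

theorem proj_surjective : Function.Surjective (proj U U' h) := by
  intro x
  induction x using QuotientGroup.induction_on with
  | H g => exact ⟨(g : G ⧸ U'), rfl⟩

/-- The isomorphism `(G ⧸ U') ⧸ (U ⧸ U') → G ⧸ U` (as a homomorphism). -/
abbrev thirdIso : (G ⧸ U') ⧸ relKer U U' h →* G ⧸ U := QuotientGroup.kerLift (proj U U' h)

theorem thirdIso_bijective : Function.Bijective (thirdIso U U' h) :=
  ⟨QuotientGroup.kerLift_injective _, fun x => by
    obtain ⟨y, rfl⟩ := proj_surjective U U' h x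
    exact ⟨(y : (G ⧸ U') ⧸ relKer U U' h), rfl⟩⟩

/-- The identification `M^U = (M^{U'})^{U ⧸ U'}` as a morphism of representations along
`thirdIso`. -/
noncomputable def invIso :
    res (thirdIso U U' h) (M.quotientToInvariants U) ⟶
      (M.quotientToInvariants U').quotientToInvariants (relKer U U' h) :=
  Rep.ofHom ⟨LinearMap.codRestrict _
      (LinearMap.codRestrict _ (Submodule.subtype _) (fun x s => x.2 ⟨s.1, h s.2⟩))
      (fun x s => by
        obtain ⟨s, hs⟩ := s
        induction s using QuotientGroup.induction_on with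
        | H g =>
          apply Subtype.ext
          exact x.2 ⟨g, (mk_mem_relKer_iff U U' h g).1 hs⟩),
    fun q => by
      induction q using QuotientGroup.induction_on with
      | H q =>
        induction q using QuotientGroup.induction_on with
        | H g =>
          ext x
          rfl⟩

theorem invIso_apply_coe (x : M.quotientToInvariants U) : ((invIso M U U' h).hom x).1.1 = x.1 := rfl

theorem invIso_bijective : Function.Bijective (invIso M U U' h).hom := by
  constructor
  · intro x y hxy
    apply Subtype.ext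
    have := congrArg (fun z => z.1.1) hxy
    exact this
  · intro a
    refine ⟨⟨a.1.1, fun s => ?_⟩, ?_⟩
    · obtain ⟨s, hs⟩ := s
      have h1 := a.2 ⟨(s : G ⧸ U'), (mk_mem_relKer_iff U U' h s).2 hs⟩
      exact congrArg (fun z => z.1) h1
    · apply Subtype.ext
      apply Subtype.ext
      rfl

/-- The inflation between finite levels factors through the inflation of `InfRes` for the normal
subgroup `U ⧸ U'` of `G ⧸ U'`. -/
theorem finInfl_eq (n : ℕ) :
    finInfl M h n =
      groupCohomology.map (thirdIso U U' h) (invIso M U U' h) n ≫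
        InfRes.infl (M.quotientToInvariants U') (relKer U U' h) n := by
  rw [← groupCohomology.map_comp]
  refine groupCohomology.map_congr ?_ ?_ n
  · ext x
    rfl
  · ext x
    rfl

/-- If `Hⁱ(U ⧸ U', M^{U'}) = 0` for `0 < i < n`, then the inflation
`Hⁿ(G ⧸ U, M^U) → Hⁿ(G ⧸ U', M^{U'})` is injective. -/
theorem finInfl_injective (n : ℕ) (hn : 0 < n)
    (hz : ∀ i, 0 < i → i < n → Limits.IsZero
      (groupCohomology (res (relKer U U' h).subtype (M.quotientToInvariants U')) i)) :
    Function.Injective (finInfl M h n) := by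
  rw [finInfl_eq]
  have h1 := (MapBijective.map_bijective (thirdIso U U' h) (invIso M U U' h)
    (thirdIso_bijective U U' h) (invIso_bijective M U U' h) n).1
  have h2 := InfRes.infl_injective (M.quotientToInvariants U') (relKer U U' h) n hn hz
  intro x y hxy
  exact h1 (h2 hxy)

/-- Degree two: if `H¹(U ⧸ U', M^{U'}) = 0` then `H²(G ⧸ U, M^U) → H²(G ⧸ U', M^{U'})` is
injective. -/
theorem finInfl_two_injective
    (hz : Limits.IsZero
      (groupCohomology (res (relKer U U' h).subtype (M.quotientToInvariants U')) 1)) :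
    Function.Injective (finInfl M h 2) :=
  finInfl_injective M U U' h 2 (by norm_num) (fun i hi hi' => by
    obtain rfl : i = 1 := by omega
    exact hz)

end Fermat.Agent.Lib.CFT.Global.SVersion.LimitInfl
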