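/-
Passage to the limit for maps of level cohomology (P-CFT Global/S-version, abstract piece (P2)(a)):
a map `Hⁿ(𝒰, M) → Π i, Hⁿ(𝒰' i, M' i)` induced by finitely many pairs `(f i, φ i)` is
injective / bijective as soon as it is so at a cofinal system of finite levels
`Hⁿ(G ⧸ U, M^U) → Π i, Hⁿ(G' i ⧸ (f i)⁻¹ U, (M' i)^{(f i)⁻¹ U})`.
-/
import Fermat.Agent.Lib.CFT.Global.SVersion.Limit
import Fermat.Agent.Lib.CFT.Profinite.LES

set_option autoImplicit false

namespace Fermat.Agent.Lib.CFT.Global.SVersion.LimitMap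

open CategoryTheory groupCohomology Rep
open Fermat.Agent.Lib.CFT.Profinite Fermat.Agent.Lib.CFT.Profinite.LevelFamily
open Fermat.Agent.Lib.CFT.Global.SVersion.Limit

universe u

/-! ### One pair `(f, φ)` -/

section One

variable {k G G' : Type u} [CommRing k] [Group G] [Group G'] {M : Rep.{u} k G} {M' : Rep.{u} k G'}
  (f : G' →* G) (φ : Rep.res f M ⟶ M')

/-- The map of finite quotients `G' ⧸ f⁻¹U → G ⧸ U`. -/
abbrev quotMap (U : Subgroup G) [U.Normal] : G' ⧸ U.comap f →* G ⧸ U :=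
  QuotientGroup.map (U.comap f) U f le_rfl

theorem map_mem_invariants (U : Subgroup G) [U.Normal] (x : M.quotientToInvariants U)
    (s : U.comap f) : M'.ρ (s : G') (φ.hom x.1) = φ.hom x.1 := by
  have h1 := Rep.hom_comm_apply φ (s : G') x.1
  have h2 : (Rep.res f M).ρ (s : G') x.1 = x.1 := x.2 ⟨f s.1, s.2⟩
  rw [h2] at h1
  exact h1.symm

/-- The map induced by `φ` on invariants, `M^U → M'^{f⁻¹U}`, as a morphism of representations
along `G' ⧸ f⁻¹U → G ⧸ U`. -/
noncomputable def invMap (U : Subgroup G) [U.Normal] :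
    Rep.res (quotMap f U) (M.quotientToInvariants U) ⟶ M'.quotientToInvariants (U.comap f) :=
  Rep.ofHom ⟨LinearMap.codRestrict _ (φ.hom.toLinearMap ∘ₗ Submodule.subtype _)
      (fun x s => map_mem_invariants f φ U x s),
    fun q => by
      induction q using QuotientGroup.induction_on with
      | H g =>
        ext x
        exact Rep.hom_comm_apply φ g x.1⟩

theorem invMap_apply_coe (U : Subgroup G) [U.Normal] (x : M.quotientToInvariants U) :
    ((invMap f φ U).hom x).1 = φ.hom x.1 := rfl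

/-- The map between the cohomology of finite levels induced by `(f, φ)`. -/
noncomputable abbrev finMap (U : Subgroup G) [U.Normal] (n : ℕ) :
    FinH M U n ⟶ FinH M' (U.comap f) n :=
  groupCohomology.map (quotMap f U) (invMap f φ U) n

end One

/-! ### Compatibility with inflation -/

section Squares

variable {k G G' : Type u} [CommRing k] [Group G] [Group G'] {M : Rep.{u} k G} {M' : Rep.{u} k G'}
  (f : G' →* G) (φ : Rep.res f M ⟶ M')

/-- Cochain level: inflation between finite levels commutes with the maps induced by `(f, φ)`. -/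
theorem inflLevels_comp_cochainsMap {U U₂ : Subgroup G} [U.Normal] [U₂.Normal] (h : U₂ ≤ U) :
    inflLevels M U U₂ h ≫ cochainsMap (quotMap f U₂) (invMap f φ U₂) =
      cochainsMap (quotMap f U) (invMap f φ U) ≫
        inflLevels M' (U.comap f) (U₂.comap f) (Subgroup.comap_mono h) := by
  show cochainsMap (QuotientGroup.map U₂ U (MonoidHom.id G) h) (invariantsInclusion M U U₂ h) ≫
      cochainsMap (quotMap f U₂) (invMap f φ U₂) =
    cochainsMap (quotMap f U) (invMap f φ U) ≫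
      cochainsMap (QuotientGroup.map (U₂.comap f) (U.comap f) (MonoidHom.id G')
        (Subgroup.comap_mono h)) (invariantsInclusion M' (U.comap f) (U₂.comap f)
        (Subgroup.comap_mono h))
  rw [← cochainsMap_comp, ← cochainsMap_comp]
  refine cochainsMap_congr ?_ ?_
  · ext x
    rfl
  · ext x
    rfl

/-- Inflation between finite levels commutes with the maps induced by `(f, φ)`. -/
theorem finInfl_comp_finMap {U U₂ : Subgroup G} [U.Normal] [U₂.Normal] (h : U₂ ≤ U) (n : ℕ) :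
    finInfl M h n ≫ finMap f φ U₂ n =
      finMap f φ U n ≫ finInfl M' (Subgroup.comap_mono h : U₂.comap f ≤ U.comap f) n := by
  have h1 := HomologicalComplex.homologyMap_comp (inflLevels M U U₂ h)
    (cochainsMap (quotMap f U₂) (invMap f φ U₂)) n
  have h2 := HomologicalComplex.homologyMap_comp (cochainsMap (quotMap f U) (invMap f φ U))
    (inflLevels M' (U.comap f) (U₂.comap f) (Subgroup.comap_mono h)) n
  rw [inflLevels_comp_cochainsMap f φ h] at h1
  exact h1.symm.trans h2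

theorem finMap_finInfl {U U₂ : Subgroup G} [U.Normal] [U₂.Normal] (h : U₂ ≤ U) (n : ℕ)
    (y : FinH M U n) :
    (finMap f φ U₂ n).hom ((finInfl M h n).hom y) =
      (finInfl M' (Subgroup.comap_mono h : U₂.comap f ≤ U.comap f) n).hom
        ((finMap f φ U n).hom y) :=
  congr($(finInfl_comp_finMap f φ h n) y)

variable {𝒰 : LevelFamily G} {𝒰' : LevelFamily G'} (hf : IsCompatible 𝒰' 𝒰 f)

/-- Cochain level: inflation to the level complex commutes with the maps induced by `(f, φ)`. -/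
theorem levelInfl_comp_levelCochainsMap (U : Subgroup G) [U.Normal] (hU : U ∈ 𝒰.levels)
    (hU' : U.comap f ∈ 𝒰'.levels) :
    𝒰.levelInfl M U hU ≫ levelCochainsMap f hf φ =
      cochainsMap (quotMap f U) (invMap f φ U) ≫ 𝒰'.levelInfl M' (U.comap f) hU' := by
  ext n c : 3
  rfl

/-- Inflation to level cohomology commutes with the maps induced by `(f, φ)`. -/
theorem inflH_comp_map (U : Subgroup G) [U.Normal] (hU : U ∈ 𝒰.levels)
    (hU' : U.comap f ∈ 𝒰'.levels) (n : ℕ) :
    𝒰.inflH M U hU n ≫ LES.map f hf φ n =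
      finMap f φ U n ≫ 𝒰'.inflH M' (U.comap f) hU' n := by
  have h1 := HomologicalComplex.homologyMap_comp (𝒰.levelInfl M U hU) (levelCochainsMap f hf φ) n
  have h2 := HomologicalComplex.homologyMap_comp (cochainsMap (quotMap f U) (invMap f φ U))
    (𝒰'.levelInfl M' (U.comap f) hU') n
  rw [levelInfl_comp_levelCochainsMap f φ hf U hU hU'] at h1
  exact h1.symm.trans h2

theorem map_inflH (U : Subgroup G) [U.Normal] (hU : U ∈ 𝒰.levels)
    (hU' : U.comap f ∈ 𝒰'.levels) (n : ℕ) (y : FinH M U n) :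
    (LES.map f hf φ n).hom ((𝒰.inflH M U hU n).hom y) =
      (𝒰'.inflH M' (U.comap f) hU' n).hom ((finMap f φ U n).hom y) :=
  congr($(inflH_comp_map f φ hf U hU hU' n) y)

end Squares

/-! ### Transitivity of inflation between finite levels -/

section Trans

variable {k G : Type u} [CommRing k] [Group G] (M : Rep.{u} k G)

theorem inflLevels_comp_inflLevels {U V W : Subgroup G} [U.Normal] [V.Normal] [W.Normal]
    (h₁ : V ≤ U) (h₂ : W ≤ V) :
    inflLevels M U V h₁ ≫ inflLevels M V W h₂ = inflLevels M U W (h₂.trans h₁) := by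
  show cochainsMap (QuotientGroup.map V U (MonoidHom.id G) h₁) (invariantsInclusion M U V h₁) ≫
      cochainsMap (QuotientGroup.map W V (MonoidHom.id G) h₂) (invariantsInclusion M V W h₂) =
    cochainsMap (QuotientGroup.map W U (MonoidHom.id G) (h₂.trans h₁))
      (invariantsInclusion M U W (h₂.trans h₁))
  rw [← cochainsMap_comp]
  refine cochainsMap_congr ?_ ?_
  · ext x
    rfl
  · ext x
    rfl

theorem finInfl_finInfl {U V W : Subgroup G} [U.Normal] [V.Normal] [W.Normal]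
    (h₁ : V ≤ U) (h₂ : W ≤ V) (n : ℕ) (y : FinH M U n) :
    (finInfl M h₂ n).hom ((finInfl M h₁ n).hom y) = (finInfl M (h₂.trans h₁) n).hom y := by
  have h := HomologicalComplex.homologyMap_comp (inflLevels M U V h₁) (inflLevels M V W h₂) n
  rw [inflLevels_comp_inflLevels M h₁ h₂] at h
  exact congr($(h.symm) y)

end Trans

/-! ### Finitely many pairs: passage to the limit -/

section Main

variable {k G : Type u} [CommRing k] [Group G] (𝒰 : LevelFamily G) (M : Rep.{u} k G)
  {ι : Type*} {G' : ι → Type u} [∀ i, Group (G' i)]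
  (𝒰' : ∀ i, LevelFamily (G' i)) (M' : ∀ i, Rep.{u} k (G' i))
  (f : ∀ i, G' i →* G) (hf : ∀ i, IsCompatible (𝒰' i) 𝒰 (f i))
  (φ : ∀ i, Rep.res (f i) M ⟶ M' i)

/-- The map `Hⁿ(𝒰, M) → Π i, Hⁿ(𝒰' i, M' i)` induced by the pairs `(f i, φ i)`. -/
noncomputable def limMap (n : ℕ) :
    𝒰.levelCohomology M n →ₗ[k] ∀ i, (𝒰' i).levelCohomology (M' i) n :=
  LinearMap.pi (fun i => (LES.map (f i) (hf i) (φ i) n).hom)

@[simp]
theorem limMap_apply (n : ℕ) (x : 𝒰.levelCohomology M n) (i : ι) :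
    limMap 𝒰 M 𝒰' M' f hf φ n x i = (LES.map (f i) (hf i) (φ i) n).hom x := rfl

/-- The map of finite levels `Hⁿ(G ⧸ U, M^U) → Π i, Hⁿ(G' i ⧸ (f i)⁻¹U, (M' i)^{(f i)⁻¹U})`. -/
noncomputable def finLimMap (U : Subgroup G) [U.Normal] (n : ℕ) :
    FinH M U n →ₗ[k] ∀ i, FinH (M' i) (U.comap (f i)) n :=
  LinearMap.pi (fun i => (finMap (f i) (φ i) U n).hom)

@[simp]
theorem finLimMap_apply (U : Subgroup G) [U.Normal] (n : ℕ) (y : FinH M U n) (i : ι) :
    finLimMap M M' f φ U n y i = (finMap (f i) (φ i) U n).hom y := rfl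

variable (hlev : ∀ i, ∀ U ∈ 𝒰.levels, U.comap (f i) ∈ (𝒰' i).levels)
  (hcof : ∀ i, ∀ V ∈ (𝒰' i).levels, ∃ U ∈ 𝒰.levels, U.comap (f i) ≤ V)

include hlev in
theorem limMap_inflH (U : Subgroup G) [U.Normal] (hU : U ∈ 𝒰.levels) (n : ℕ) (y : FinH M U n)
    (i : ι) :
    limMap 𝒰 M 𝒰' M' f hf φ n ((𝒰.inflH M U hU n).hom y) i =
      ((𝒰' i).inflH (M' i) (U.comap (f i)) (hlev i U hU) n).hom (finLimMap M M' f φ U n y i) :=
  map_inflH (f i) (φ i) (hf i) U hU (hlev i U hU) n y

variable [Finite ι]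

include hlev hcof in
/-- **Injectivity passes to the limit**: if the maps of finite levels are injective for a cofinal
system of normal levels, then the map of level cohomologies is injective. -/
theorem limMap_injective (n : ℕ)
    (hinj : ∀ U ∈ 𝒰.levels, ∃ U₂ ∈ 𝒰.levels, ∃ (_ : U₂.Normal), U₂ ≤ U ∧
      Function.Injective (finLimMap M M' f φ U₂ n)) :
    Function.Injective (limMap 𝒰 M 𝒰' M' f hf φ n) := by
  rw [injective_iff_map_eq_zero]
  intro x hx
  obtain ⟨U₀, hU₀⟩ := 𝒰.nonempty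
  obtain ⟨V, hV, hVn, -, y, rfl⟩ := exists_inflH_eq n x hU₀
  -- each component dies at a finite level
  have h1 : ∀ i, ∃ (W : Subgroup (G' i)) (_ : W ∈ (𝒰' i).levels) (_ : W.Normal)
      (hWV : W ≤ V.comap (f i)), (finInfl (M' i) hWV n).hom (finLimMap M M' f φ V n y i) = 0 := by
    intro i
    have h0 : ((𝒰' i).inflH (M' i) (V.comap (f i)) (hlev i V hV) n).hom
        (finLimMap M M' f φ V n y i) = 0 := by
      rw [← limMap_inflH 𝒰 M 𝒰' M' f hf φ hlev V hV n y i, hx]
      rfl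
    exact exists_inflLevels_eq_zero n (hlev i V hV) _ h0
  choose W hW hWn hWV hW0 using h1
  have h2 : ∀ i, ∃ U ∈ 𝒰.levels, U.comap (f i) ≤ W i := fun i => hcof i (W i) (hW i)
  choose U hU hUW using h2
  obtain ⟨X, hX, -, hXU⟩ := 𝒰.exists_normal_le_of_finite U hU
  obtain ⟨X', hX', hX'X, hX'V, -⟩ := 𝒰.exists_normal_le_inf hX hV
  obtain ⟨U₂, hU₂, hU₂n, hU₂X', hU₂inj⟩ := hinj X' hX'
  have hle : U₂ ≤ V := hU₂X'.trans hX'V
  have h3 : finInfl M hle n y = 0 := by
    apply hU₂inj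
    rw [map_zero]
    funext i
    have hiW : U₂.comap (f i) ≤ W i :=
      (Subgroup.comap_mono ((hU₂X'.trans hX'X).trans (hXU i))).trans (hUW i)
    have := hWn i
    have h4 := finMap_finInfl (f i) (φ i) hle n y
    have h5 := finInfl_finInfl (M' i) (hWV i) hiW n ((finMap (f i) (φ i) V n).hom y)
    rw [finLimMap_apply]
    refine h4.trans (h5.symm.trans ?_)
    have h6 : (finInfl (M' i) (hWV i) n).hom ((finMap (f i) (φ i) V n).hom y) = 0 := hW0 i
    rw [h6, map_zero]
    rfl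
  have h7 := inflH_finInfl (𝒰 := 𝒰) (M := M) hV hU₂ hle n y
  rw [h3, map_zero] at h7
  exact h7.symm

include hlev hcof in
/-- **Surjectivity passes to the limit**: if the maps of finite levels are surjective for a
cofinal system of normal levels, then the map of level cohomologies is surjective. -/
theorem limMap_surjective (n : ℕ)
    (hsurj : ∀ U ∈ 𝒰.levels, ∃ U₂ ∈ 𝒰.levels, ∃ (_ : U₂.Normal), U₂ ≤ U ∧
      Function.Surjective (finLimMap M M' f φ U₂ n)) :
    Function.Surjective (limMap 𝒰 M 𝒰' M' f hf φ n) := by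
  intro z
  have h1 : ∀ i, ∃ (V : Subgroup (G' i)) (hV : V ∈ (𝒰' i).levels) (_ : V.Normal),
      ∃ w : FinH (M' i) V n, ((𝒰' i).inflH (M' i) V hV n).hom w = z i := by
    intro i
    obtain ⟨V₀, hV₀⟩ := (𝒰' i).nonempty
    obtain ⟨V, hV, hVn, -, w, hw⟩ := exists_inflH_eq n (z i) hV₀
    exact ⟨V, hV, hVn, w, hw⟩
  choose V hV hVn w hw using h1
  have h2 : ∀ i, ∃ U ∈ 𝒰.levels, U.comap (f i) ≤ V i := fun i => hcof i (V i) (hV i)
  choose U hU hUV using h2
  obtain ⟨X, hX, -, hXU⟩ := 𝒰.exists_normal_le_of_finite U hU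
  obtain ⟨U₂, hU₂, hU₂n, hU₂X, hU₂surj⟩ := hsurj X hX
  have hiV : ∀ i, U₂.comap (f i) ≤ V i := fun i =>
    (Subgroup.comap_mono (hU₂X.trans (hXU i))).trans (hUV i)
  obtain ⟨y, hy⟩ := hU₂surj (fun i => haveI := hVn i; (finInfl (M' i) (hiV i) n).hom (w i))
  refine ⟨(𝒰.inflH M U₂ hU₂ n).hom y, ?_⟩
  funext i
  have := hVn i
  rw [limMap_inflH 𝒰 M 𝒰' M' f hf φ hlev U₂ hU₂ n y i, hy, ← hw i]
  exact inflH_finInfl (𝒰 := 𝒰' i) (M := M' i) (hV i) (hlev i U₂ hU₂) (hiV i) n (w i)

include hlev hcof in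
/-- **Bijectivity passes to the limit.** -/
theorem limMap_bijective (n : ℕ)
    (hbij : ∀ U ∈ 𝒰.levels, ∃ U₂ ∈ 𝒰.levels, ∃ (_ : U₂.Normal), U₂ ≤ U ∧
      Function.Bijective (finLimMap M M' f φ U₂ n)) :
    Function.Bijective (limMap 𝒰 M 𝒰' M' f hf φ n) :=
  ⟨limMap_injective 𝒰 M 𝒰' M' f hf φ hlev hcof n (fun U hU => by
      obtain ⟨U₂, hU₂, hn, hle, hb⟩ := hbij U hU
      exact ⟨U₂, hU₂, hn, hle, hb.1⟩),
    limMap_surjective 𝒰 M 𝒰' M' f hf φ hlev hcof n (fun U hU => by
      obtain ⟨U₂, hU₂, hn, hle, hb⟩ := hbij U hU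
      exact ⟨U₂, hU₂, hn, hle, hb.2⟩)⟩

end Main

/-! ### The case of pulled-back level families -/

section Comap

variable {k G : Type u} [CommRing k] [Group G] (𝒰 : LevelFamily G) (M : Rep.{u} k G)
  {ι : Type*} [Finite ι] {G' : ι → Type u} [∀ i, Group (G' i)]
  (M' : ∀ i, Rep.{u} k (G' i)) (f : ∀ i, G' i →* G) (φ : ∀ i, Rep.res (f i) M ⟶ M' i)

/-- The map `Hⁿ(𝒰, M) → Π i, Hⁿ((f i)⁻¹𝒰, M' i)`. -/
noncomputable abbrev comapLimMap (n : ℕ) :
    𝒰.levelCohomology M n →ₗ[k] ∀ i, (LES.comap 𝒰 (f i)).levelCohomology (M' i) n :=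
  limMap 𝒰 M (fun i => LES.comap 𝒰 (f i)) M' f (fun i => LES.isCompatible_comap 𝒰 (f i)) φ n

omit [Finite ι] in
theorem coe_comapLimMap (n : ℕ) :
    ⇑(comapLimMap 𝒰 M M' f φ n) = fun x i =>
      (levelCohomologyMapOfHom (f i) (LES.isCompatible_comap 𝒰 (f i)) (φ i) n).hom x := rfl

omit [Finite ι] in
theorem coe_finLimMap (U : Subgroup G) [U.Normal] (n : ℕ) :
    ⇑(finLimMap M M' f φ U n) = fun x i => (finMap (f i) (φ i) U n).hom x := rfl

/-- If the maps of finite levels are injective at all normal levels, the map of level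
cohomologies (with the pulled-back families on the targets) is injective. -/
theorem comapLimMap_injective (n : ℕ)
    (hinj : ∀ (U : Subgroup G) [U.Normal], U ∈ 𝒰.levels →
      Function.Injective (finLimMap M M' f φ U n)) :
    Function.Injective (comapLimMap 𝒰 M M' f φ n) :=
  limMap_injective 𝒰 M _ M' f _ φ (fun i _ hU => LES.comap_mem_comap_levels (f i) hU)
    (fun i V hV => by
      obtain ⟨U, hU, rfl⟩ := hV
      exact ⟨U, hU, le_rfl⟩) n
    (fun U hU => by
      obtain ⟨U₂, hU₂, hle, hn⟩ := 𝒰.normal_le U hU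
      exact ⟨U₂, hU₂, hn, hle, hinj U₂ hU₂⟩)

/-- If the maps of finite levels are surjective at all normal levels, the map of level
cohomologies (with the pulled-back families on the targets) is surjective. -/
theorem comapLimMap_surjective (n : ℕ)
    (hsurj : ∀ (U : Subgroup G) [U.Normal], U ∈ 𝒰.levels →
      Function.Surjective (finLimMap M M' f φ U n)) :
    Function.Surjective (comapLimMap 𝒰 M M' f φ n) :=
  limMap_surjective 𝒰 M _ M' f _ φ (fun i _ hU => LES.comap_mem_comap_levels (f i) hU)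
    (fun i V hV => by
      obtain ⟨U, hU, rfl⟩ := hV
      exact ⟨U, hU, le_rfl⟩) n
    (fun U hU => by
      obtain ⟨U₂, hU₂, hle, hn⟩ := 𝒰.normal_le U hU
      exact ⟨U₂, hU₂, hn, hle, hsurj U₂ hU₂⟩)

/-- **(P2)(a)** If the maps of finite levels
`Hⁿ(G ⧸ U, M^U) → Π i, Hⁿ(G' i ⧸ (f i)⁻¹U, (M' i)^{(f i)⁻¹U})` are bijective at all normal levels
`U`, then `Hⁿ(𝒰, M) → Π i, Hⁿ((f i)⁻¹𝒰, M' i)` is bijective. -/
theorem comapLimMap_bijective (n : ℕ)
    (hbij : ∀ (U : Subgroup G) [U.Normal], U ∈ 𝒰.levels →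
      Function.Bijective (finLimMap M M' f φ U n)) :
    Function.Bijective (comapLimMap 𝒰 M M' f φ n) :=
  ⟨comapLimMap_injective 𝒰 M M' f φ n (fun U _ hU => (hbij U hU).1),
    comapLimMap_surjective 𝒰 M M' f φ n (fun U _ hU => (hbij U hU).2)⟩

/-- Function form of `comapLimMap_bijective`. -/
theorem comap_bijective (n : ℕ)
    (hbij : ∀ (U : Subgroup G) [U.Normal], U ∈ 𝒰.levels →
      Function.Bijective (fun (x : FinH M U n) i => (finMap (f i) (φ i) U n).hom x)) :
    Function.Bijective (fun (x : 𝒰.levelCohomology M n) i =>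
      (levelCohomologyMapOfHom (f i) (LES.isCompatible_comap 𝒰 (f i)) (φ i) n).hom x) :=
  comapLimMap_bijective 𝒰 M M' f φ n hbij

/-- Function form of `comapLimMap_injective`. -/
theorem comap_injective (n : ℕ)
    (hinj : ∀ (U : Subgroup G) [U.Normal], U ∈ 𝒰.levels →
      Function.Injective (fun (x : FinH M U n) i => (finMap (f i) (φ i) U n).hom x)) :
    Function.Injective (fun (x : 𝒰.levelCohomology M n) i =>
      (levelCohomologyMapOfHom (f i) (LES.isCompatible_comap 𝒰 (f i)) (φ i) n).hom x) :=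
  comapLimMap_injective 𝒰 M M' f φ n hinj

end Comap

end Fermat.Agent.Lib.CFT.Global.SVersion.LimitMap
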