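/-
Construction of a class formation from cardinality data at the finite layers (P-CFT
Global/S-version, abstract part of `SVersion/Formation`):
if for every normal level `U` of `(Γ, 𝒰)` and every subgroup `H ≤ Γ ⧸ U` one has
`H¹(H, C^U) = 0`, `|H²(H, C^U)| ∣ |H|`, and `H²(Γ ⧸ U, C^U)` is cyclic of order `[Γ : U]`, then
there are fundamental cocycles `u_U`, compatible with inflation, making `(𝒰, C, u)` a class
formation all of whose layers are class layers (Tate).  The compatible generators come from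
compactness (`CompatGenerators`).
-/
import Fermat.Agent.Lib.CFT.Coh.ClassFormation.Formation
import Fermat.Agent.Lib.CFT.Coh.TateThm.Criterion
import Fermat.Agent.Lib.CFT.Global.SVersion.LimitInfl
import Fermat.Agent.Lib.CFT.Global.SVersion.LimitMap
import Fermat.Agent.Lib.CFT.Global.SVersion.CompatGenerators

set_option autoImplicit false

namespace Fermat.Agent.Lib.CFT.Global.SVersion.FormationOfLayers

open CategoryTheory groupCohomology
open Fermat.Agent.Lib.CFT.Profinite Fermat.Agent.Lib.CFT.Profinite.LevelFamily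
open Fermat.Agent.Lib.CFT.Global.SVersion.Limit
open Fermat.Agent.Lib.CFT.Coh.ClassFormation Fermat.Agent.Lib.CFT.Coh.TateThm

universe u

/-! ### Inflation along the identity -/

section Refl

variable {k G : Type u} [CommRing k] [Group G] (M : Rep.{u} k G)

theorem finInfl_refl (U : Subgroup G) [U.Normal] (n : ℕ) :
    finInfl M (le_refl U) n = 𝟙 (FinH M U n) := by
  show groupCohomology.map (QuotientGroup.map U U (MonoidHom.id G) (le_refl U))
    (invariantsInclusion M U U (le_refl U)) n = _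
  rw [← groupCohomology.map_id]
  refine groupCohomology.map_congr ?_ ?_ n
  · ext x
    rfl
  · ext x
    rfl

theorem finInfl_refl_apply (U : Subgroup G) [U.Normal] (n : ℕ) (y : FinH M U n) :
    (finInfl M (le_refl U) n).hom y = y := by
  rw [finInfl_refl]
  rfl

end Refl

/-! ### Inflation of cocycles (generic coefficients) -/

section InflGeneric

variable {k G : Type u} [CommRing k] [Group G] (M : Rep.{u} k G)

/-- If the inflation of the class of `x` is `d` times the class of `y`, then the inflated cocycle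
is `d • y` up to a coboundary. -/
theorem exists_infCoc_eq {U U' : Subgroup G} [U.Normal] [U'.Normal] (hle : U' ≤ U)
    (x : cocycles₂ (M.quotientToInvariants U)) (y : cocycles₂ (M.quotientToInvariants U'))
    (d : ℕ) (h : (finInfl M hle 2).hom (H2π _ x) = d • H2π (M.quotientToInvariants U') y) :
    ∃ c : G ⧸ U' → M.quotientToInvariants U',
      infCoc (levelMap U U' hle)
        ((invariantsInclusion M U U' hle).hom.toLinearMap :
          M.quotientToInvariants U →+ M.quotientToInvariants U') x.1 =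
      ((d : ℤ) : k) • y.1 + dOne (M.quotientToInvariants U').ρ c := by
  have e1 : (finInfl M hle 2).hom (H2π _ x) =
      H2π (M.quotientToInvariants U')
        (mapCocycles₂ (levelMap U U' hle) (invariantsInclusion M U U' hle) x) :=
    H2π_comp_map_apply (levelMap U U' hle) (invariantsInclusion M U U' hle) x
  rw [e1, ← map_nsmul, H2π_eq_iff, mem_coboundaries₂_iff] at h
  obtain ⟨c, hc⟩ := h
  refine ⟨c, ?_⟩
  rw [← hc, Int.cast_natCast, Nat.cast_smul_eq_nsmul]
  funext p
  change _ = d • y.1 p + (_ - (d • y).1 p)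
  have h1 : (d • y).1 p = d • y.1 p := rfl
  rw [h1]
  abel_nf
  rfl

end InflGeneric

/-! ### The direct system of the `H²` of the finite layers -/

section System

variable {Γ : Type} [Group Γ] (𝒰 : LevelFamily Γ) (C : Rep.{0} ℤ Γ)

/-- Cardinality data at the finite layers: for every normal level `U` and every subgroup
`H ≤ Γ ⧸ U`: `H¹(H, C^U) = 0` and `|H²(H, C^U)|` divides `|H|`; moreover `H²(Γ ⧸ U, C^U)` is cyclic
of order `[Γ : U]`. -/
structure LayerData : Prop where
  h1 : ∀ (U : Subgroup Γ) [U.Normal], U ∈ 𝒰.levels → ∀ H : Subgroup (Γ ⧸ U),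
    Limits.IsZero (groupCohomology.H1 (Rep.res H.subtype (C.quotientToInvariants U)))
  h2 : ∀ (U : Subgroup Γ) [U.Normal], U ∈ 𝒰.levels → ∀ H : Subgroup (Γ ⧸ U),
    Nat.card (groupCohomology.H2 (Rep.res H.subtype (C.quotientToInvariants U))) ∣ Nat.card H
  cyc : ∀ (U : Subgroup Γ) [U.Normal], U ∈ 𝒰.levels →
    IsAddCyclic (groupCohomology.H2 (C.quotientToInvariants U))
  card : ∀ (U : Subgroup Γ) [U.Normal], U ∈ 𝒰.levels →
    Nat.card (groupCohomology.H2 (C.quotientToInvariants U)) = U.index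

/-- The normal levels, ordered by reverse inclusion. -/
structure NLevel where
  /-- the subgroup -/
  U : Subgroup Γ
  normal : U.Normal
  mem : U ∈ 𝒰.levels

instance (a : NLevel 𝒰) : a.U.Normal := a.normal

instance : Preorder (NLevel 𝒰) where
  le a b := b.U ≤ a.U
  le_refl _ := le_rfl
  le_trans _ _ _ h h' := h'.trans h

theorem NLevel.le_def (a b : NLevel 𝒰) : a ≤ b ↔ b.U ≤ a.U := Iff.rfl

instance : IsDirected (NLevel 𝒰) (· ≤ ·) :=
  ⟨fun a b => by
    obtain ⟨W, hW, h1, h2, hn⟩ := 𝒰.exists_normal_le_inf a.mem b.mem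
    exact ⟨⟨W, hn, hW⟩, h1, h2⟩⟩

instance : Nonempty (NLevel 𝒰) := by
  obtain ⟨V, hV, hn⟩ := 𝒰.exists_normal
  exact ⟨⟨V, hn, hV⟩⟩

/-- The group `H²(Γ ⧸ U, C^U)`. -/
abbrev HH (a : NLevel 𝒰) : Type := groupCohomology.H2 (C.quotientToInvariants a.U)

/-- The transition maps (inflation). -/
noncomputable def trans {a b : NLevel 𝒰} (h : a ≤ b) : HH 𝒰 C a →+ HH 𝒰 C b :=
  (finInfl C ((NLevel.le_def 𝒰 a b).1 h) 2).hom.toAddMonoidHom

theorem trans_apply {a b : NLevel 𝒰} (h : a ≤ b) (x : HH 𝒰 C a) :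
    trans 𝒰 C h x = (finInfl C ((NLevel.le_def 𝒰 a b).1 h) 2).hom x := rfl

variable {𝒰 C} (hdata : LayerData 𝒰 C)

include hdata in
theorem finite_HH (a : NLevel 𝒰) : Finite (HH 𝒰 C a) := by
  have hfi := 𝒰.finiteIndex a.U a.mem
  apply Nat.finite_of_card_ne_zero
  rw [hdata.card a.U a.mem]
  exact Subgroup.FiniteIndex.index_ne_zero

include hdata in
theorem trans_injective {a b : NLevel 𝒰} (h : a ≤ b) : Function.Injective (trans 𝒰 C h) :=
  LimitInfl.finInfl_two_injective C a.U b.U ((NLevel.le_def 𝒰 a b).1 h)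
    (hdata.h1 b.U b.mem (LimitInfl.relKer a.U b.U ((NLevel.le_def 𝒰 a b).1 h)))

theorem trans_refl (a : NLevel 𝒰) (x : HH 𝒰 C a) : trans 𝒰 C (le_refl a) x = x :=
  finInfl_refl_apply C a.U 2 x

theorem trans_trans {a b c : NLevel 𝒰} (h : a ≤ b) (h' : b ≤ c) (x : HH 𝒰 C a) :
    trans 𝒰 C h' (trans 𝒰 C h x) = trans 𝒰 C (h.trans h') x :=
  LimitMap.finInfl_finInfl C ((NLevel.le_def 𝒰 a b).1 h) ((NLevel.le_def 𝒰 b c).1 h') 2 x

include hdata in
/-- Compatible generators of the `H²(Γ ⧸ U, C^U)`. -/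
theorem exists_generators :
    ∃ g : ∀ a : NLevel 𝒰, HH 𝒰 C a, (∀ a, ∀ x : HH 𝒰 C a, ∃ m : ℤ, x = m • g a) ∧
      ∀ (a b : NLevel 𝒰) (h : a ≤ b),
        trans 𝒰 C h (g a) = (Nat.card (HH 𝒰 C b) / Nat.card (HH 𝒰 C a)) • g b := by
  have hfin : ∀ a : NLevel 𝒰, Finite (HH 𝒰 C a) := finite_HH hdata
  exact CompatGenerators.exists_compatible_generators (HH 𝒰 C)
    (fun a => hdata.cyc a.U a.mem) (fun {a b} h => trans 𝒰 C h)
    (fun a b h => trans_injective hdata h) (fun a x => trans_refl a x)
    (fun a b c h h' x => trans_trans h h' x)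

end System

/-! ### Fundamental cocycles -/

section Cocycles

variable {Γ : Type} [Group Γ] {𝒰 : LevelFamily Γ} {C : Rep.{0} ℤ Γ} (hdata : LayerData 𝒰 C)

/-- A compatible system of generators (chosen once and for all). -/
noncomputable def gen (a : NLevel 𝒰) : HH 𝒰 C a := Classical.choose (exists_generators hdata) a

theorem exists_zsmul_gen (a : NLevel 𝒰) (x : HH 𝒰 C a) : ∃ m : ℤ, x = m • gen hdata a :=
  (Classical.choose_spec (exists_generators hdata)).1 a x

theorem trans_gen {a b : NLevel 𝒰} (h : a ≤ b) :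
    trans 𝒰 C h (gen hdata a) = (Nat.card (HH 𝒰 C b) / Nat.card (HH 𝒰 C a)) • gen hdata b :=
  (Classical.choose_spec (exists_generators hdata)).2 a b h

/-- Cocycles representing the generators. -/
noncomputable def cocycleRep (a : NLevel 𝒰) : cocycles₂ (C.quotientToInvariants a.U) :=
  Classical.choose (H2π_surjective (C.quotientToInvariants a.U) (gen hdata a))

theorem H2π_cocycleRep (a : NLevel 𝒰) :
    H2π (C.quotientToInvariants a.U) (cocycleRep hdata a) = gen hdata a :=
  Classical.choose_spec (H2π_surjective (C.quotientToInvariants a.U) (gen hdata a))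

theorem addOrderOf_gen (a : NLevel 𝒰) : addOrderOf (gen hdata a) = Nat.card (HH 𝒰 C a) :=
  addOrderOf_eq_card_of_forall_mem_zmultiples (fun x => by
    obtain ⟨m, hm⟩ := exists_zsmul_gen hdata a x
    exact ⟨m, hm.symm⟩)

include hdata in
theorem card_HH (a : NLevel 𝒰) : Nat.card (HH 𝒰 C a) = Nat.card (Γ ⧸ a.U) := by
  rw [hdata.card a.U a.mem, Subgroup.index_eq_card]

/-- The chosen cocycles are fundamental classes: every layer is a class layer. -/
theorem isClassLayer_cocycleRep (a : NLevel 𝒰) :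
    IsClassLayer (C.quotientToInvariants a.U) (cocycleRep hdata a).1 := by
  have hfi := 𝒰.finiteIndex a.U a.mem
  have : Finite (Γ ⧸ a.U) := Subgroup.finite_quotient_of_finiteIndex
  refine isClassLayer_of_card (C.quotientToInvariants a.U) (cocycleRep hdata a).1
    (cocycleRep hdata a).2 (hdata.h1 a.U a.mem) (hdata.h2 a.U a.mem) ?_
  intro m hm
  have h1 : m • gen hdata a = 0 := by
    rw [← H2π_cocycleRep hdata a]
    exact hm
  rw [← card_HH hdata a, ← addOrderOf_gen hdata a]
  exact (addOrderOf_dvd_iff_zsmul_eq_zero).2 h1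

end Cocycles

/-! ### Compatibility with inflation and the formation -/

section Infl

variable {Γ : Type} [Group Γ] {𝒰 : LevelFamily Γ} {C : Rep.{0} ℤ Γ} (hdata : LayerData 𝒰 C)

include hdata in
theorem card_ker_levelMap {a b : NLevel 𝒰} (h : a ≤ b) :
    Nat.card (levelMap a.U b.U ((NLevel.le_def 𝒰 a b).1 h)).ker =
      Nat.card (HH 𝒰 C b) / Nat.card (HH 𝒰 C a) := by
  have hfa := 𝒰.finiteIndex a.U a.mem
  have hfb := 𝒰.finiteIndex b.U b.mem
  let _ : Fintype (Γ ⧸ a.U) := Fintype.ofFinite _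
  let _ : Fintype (Γ ⧸ b.U) := Fintype.ofFinite _
  have h1 : Fintype.card (Γ ⧸ b.U) =
      Nat.card (levelMap a.U b.U ((NLevel.le_def 𝒰 a b).1 h)).ker * Fintype.card (Γ ⧸ a.U) :=
    card_eq_card_ker_mul (levelMap a.U b.U ((NLevel.le_def 𝒰 a b).1 h))
      (levelMap_surjective a.U b.U ((NLevel.le_def 𝒰 a b).1 h))
  rw [card_HH hdata a, card_HH hdata b, Nat.card_eq_fintype_card (α := Γ ⧸ a.U),
    Nat.card_eq_fintype_card (α := Γ ⧸ b.U), h1]
  exact (Nat.mul_div_cancel _ Fintype.card_pos).symm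

theorem finInfl_H2π_cocycleRep {a b : NLevel 𝒰} (h : a ≤ b) :
    (finInfl C ((NLevel.le_def 𝒰 a b).1 h) 2).hom (H2π _ (cocycleRep hdata a)) =
      Nat.card (levelMap a.U b.U ((NLevel.le_def 𝒰 a b).1 h)).ker •
        H2π (C.quotientToInvariants b.U) (cocycleRep hdata b) := by
  have e2 := trans_gen hdata h
  rw [trans_apply, ← H2π_cocycleRep hdata a, ← H2π_cocycleRep hdata b,
    ← card_ker_levelMap hdata h] at e2
  exact e2

/-- **The class formation attached to cardinality data at the finite layers.** -/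
noncomputable def formationOfLayers (hd : 𝒰.IsDiscrete C) : Formation ℤ Γ where
  𝒰 := 𝒰
  C := C
  discrete := hd
  u U _ hU := (cocycleRep hdata ⟨U, inferInstance, hU⟩).1
  isLayer U _ hU :=
    letI := levelFintype 𝒰 U hU
    (isClassLayer_cocycleRep hdata ⟨U, inferInstance, hU⟩).isRecLayer
  infl U U' _ _ hU hU' hle :=
    exists_infCoc_eq C hle (cocycleRep hdata ⟨U, inferInstance, hU⟩)
      (cocycleRep hdata ⟨U', inferInstance, hU'⟩) _
      (finInfl_H2π_cocycleRep hdata (a := ⟨U, inferInstance, hU⟩) (b := ⟨U', inferInstance, hU'⟩)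
        hle)

@[simp] theorem formationOfLayers_𝒰 (hd : 𝒰.IsDiscrete C) :
    (formationOfLayers hdata hd).𝒰 = 𝒰 := rfl

@[simp] theorem formationOfLayers_C (hd : 𝒰.IsDiscrete C) :
    (formationOfLayers hdata hd).C = C := rfl

/-- Every layer of `formationOfLayers` is a class layer (Tate's hypothesis for all subgroups). -/
theorem isClassLayer_formationOfLayers (hd : 𝒰.IsDiscrete C) (U : Subgroup Γ) [U.Normal]
    (hU : U ∈ 𝒰.levels) :
    IsClassLayer ((formationOfLayers hdata hd).C.quotientToInvariants U)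
      ((formationOfLayers hdata hd).u U hU) :=
  isClassLayer_cocycleRep hdata ⟨U, inferInstance, hU⟩

end Infl

end Fermat.Agent.Lib.CFT.Global.SVersion.FormationOfLayers
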