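/-
The `S`-class formation (P-CFT Global/S-version, file (6)): the class formation
`formationQ S` on `Γℚ` with level family `galFamily S` and module `C_S`, its restrictions
`formationOver S F₀ hF₀` to the open subgroups `F₀.fixingSubgroup` (level family
`galFamilyOver F₀ hF₀`, module `res C_S`, both definitionally), and the cohomological corollaries
(G2): `H¹ = H³ = 0`, `H²[p]` of order `p`, `H²` `p`-divisible.
-/
import Fermat.Agent.Lib.CFT.Global.SVersion.FormationOfLayers
import Fermat.Agent.Lib.CFT.Global.SVersion.FormationSub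
import Fermat.Agent.Lib.CFT.Global.SVersion.LevelFamilyAt
import Fermat.Agent.Lib.CFT.Global.SVersion.CycloTower
import Fermat.Agent.Lib.CFT.Coh.ClassFormation.RestrictFormation

set_option autoImplicit false

namespace Fermat.Agent.Lib.CFT.Global.SVersion.Formation

open CategoryTheory groupCohomology
open Fermat.Agent.Lib.CFT.Profinite Fermat.Agent.Lib.CFT.Profinite.LevelFamily
open Fermat.Agent.Lib.CFT.Profinite.Bridge
open Fermat.Agent.Lib.CFT.Coh.ClassFormation Fermat.Agent.Lib.CFT.Coh.TateThm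
open Fermat.Agent.Lib.CFT.Global.SVersion
open Fermat.Agent.Lib.CFT.Global.SVersion.FormationOfLayers

/-! ### Abstract: the class formation attached to cardinality data -/

section Abstract

variable {Γ : Type} [Group Γ] {𝒰 : LevelFamily Γ} {C : Rep.{0} ℤ Γ}

/-- The class formation (in the sense of `ClassFormation`: all layers are class layers) attached
to cardinality data at the finite layers. -/
noncomputable def classFormationOfLayers (hdata : LayerData 𝒰 C) (hd : 𝒰.IsDiscrete C) :
    ClassFormation Γ where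
  𝒰 := 𝒰
  C := C
  discrete := hd
  u U _ hU := (cocycleRep hdata ⟨U, inferInstance, hU⟩).1
  isClassLayer U _ hU := isClassLayer_cocycleRep hdata ⟨U, inferInstance, hU⟩
  infl := (formationOfLayers hdata hd).infl

@[simp] theorem classFormationOfLayers_𝒰 (hdata : LayerData 𝒰 C) (hd : 𝒰.IsDiscrete C) :
    (classFormationOfLayers hdata hd).𝒰 = 𝒰 := rfl

@[simp] theorem classFormationOfLayers_C (hdata : LayerData 𝒰 C) (hd : 𝒰.IsDiscrete C) :
    (classFormationOfLayers hdata hd).C = C := rfl

theorem classFormationOfLayers_toFormation (hdata : LayerData 𝒰 C) (hd : 𝒰.IsDiscrete C) :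
    (classFormationOfLayers hdata hd).toFormation = formationOfLayers hdata hd := rfl

end Abstract

/-! ### Cohomological corollaries for a class formation -/

namespace ClassFormationCor

variable {Γ : Type} [Group Γ] (F : ClassFormation Γ)

/-- `H¹(𝒰, C) = 0` for a class formation. -/
theorem subsingleton_H1 : Subsingleton (F.𝒰.levelCohomology F.C 1) :=
  (FormationSub.subsingleton_one_three F.𝒰 F.toFormation (fun _ h => h)
    (fun U _ hU => F.isClassLayer U hU)).1

/-- `H³(𝒰, C) = 0` for a class formation. -/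
theorem subsingleton_H3 : Subsingleton (F.𝒰.levelCohomology F.C 3) :=
  (FormationSub.subsingleton_one_three F.𝒰 F.toFormation (fun _ h => h)
    (fun U _ hU => F.isClassLayer U hU)).2

/-- The `p`-torsion of `H²(𝒰, C)` has `p` elements as soon as `p` divides the index of a normal
level. -/
theorem card_torsion_H2 {p : ℕ} (U : Subgroup Γ) [U.Normal] (hU : U ∈ F.𝒰.levels)
    (hpU : p ∣ U.index) : Nat.card {x : F.𝒰.levelCohomology F.C 2 // p • x = 0} = p :=
  FormationSub.card_torsion F.toFormation U hU hpU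

/-- `H²(𝒰, C)` is `p`-divisible if the indices of the normal levels are cofinally multiplied by
`p`. -/
theorem exists_nsmul_eq_H2 {p : ℕ}
    (hp : ∀ (U : Subgroup Γ) (_ : U.Normal), U ∈ F.𝒰.levels →
      ∃ (U' : Subgroup Γ) (_ : U'.Normal), U' ∈ F.𝒰.levels ∧ U' ≤ U ∧ p * U.index ∣ U'.index)
    (x : F.𝒰.levelCohomology F.C 2) : ∃ y : F.𝒰.levelCohomology F.C 2, p • y = x :=
  FormationSub.exists_nsmul_eq_sub F.toFormation F.𝒰 (fun _ h => h) hp x

end ClassFormationCor

/-! ### Vanishing of `H¹` and `H³` at the finite layers -/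

namespace ClassFormationCor

variable {Γ : Type} [Group Γ] (F : ClassFormation Γ)

/-- `H¹(Γ ⧸ U, C^U) = 0` at every normal level of a class formation. -/
theorem subsingleton_H1_layer (U : Subgroup Γ) [U.Normal] (hU : U ∈ F.𝒰.levels) :
    Subsingleton (groupCohomology (F.C.quotientToInvariants U) 1) := by
  have := F.𝒰.finiteIndex U hU
  let _ : Fintype (Γ ⧸ U) := Fintype.ofFinite _
  exact (ModuleCat.isZero_iff_subsingleton).1
    (FormationSub.isZero_H1_of_isClassLayer (F.isClassLayer U hU))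

/-- `H³(Γ ⧸ U, C^U) = 0` at every normal level of a class formation. -/
theorem subsingleton_H3_layer (U : Subgroup Γ) [U.Normal] (hU : U ∈ F.𝒰.levels) :
    Subsingleton (groupCohomology (F.C.quotientToInvariants U) 3) := by
  have := F.𝒰.finiteIndex U hU
  let _ : Fintype (Γ ⧸ U) := Fintype.ofFinite _
  exact (ModuleCat.isZero_iff_subsingleton).1
    (FormationSub.isZero_H3_of_isClassLayer (F.isClassLayer U hU))

end ClassFormationCor

/-! ### The `S`-class formation over `ℚ` and over a level field -/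

section Arithmetic

local notation "Qbar" => AlgebraicClosure ℚ
local notation "Γℚ" => (AlgebraicClosure ℚ ≃ₐ[ℚ] AlgebraicClosure ℚ)

variable (S : Finset Nat.Primes)

/-- A module discrete for `levelsS S` is discrete for the Galois levels. -/
theorem isDiscrete_galFamily {k : Type} [CommRing k] {M : Rep.{0} k Γℚ}
    (hM : (levelsS S).IsDiscrete M) : (galFamily S).IsDiscrete M := by
  intro m
  obtain ⟨U, hU, hm⟩ := hM m
  obtain ⟨U', hU', hle⟩ := isCompatible_galFamily_levelsS S U hU
  exact ⟨U', hU', fun s hs => hm s (hle hs)⟩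

variable {S}

theorem isSubFamily_galFamilyOver (F₀ : IntermediateField ℚ Qbar)
    (hF₀ : F₀.IsUnramifiedOutside S) :
    IsSubFamily (galFamily S) F₀.fixingSubgroup (galFamilyOver F₀ hF₀) := by
  rintro _ ⟨L, hL, rfl⟩
  exact ⟨L.V, ⟨L, rfl⟩, inferInstance, IntermediateField.fixingSubgroup_antitone hL, rfl⟩

theorem isCofinalSub_galFamilyOver (F₀ : IntermediateField ℚ Qbar)
    (hF₀ : F₀.IsUnramifiedOutside S) :
    IsCofinalSub (galFamily S) F₀.fixingSubgroup (galFamilyOver F₀ hF₀) := by
  rintro _ ⟨L, rfl⟩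
  refine ⟨_, ⟨L.sup (GalLevel.ofUnram F₀ hF₀),
    (GalLevel.le_ofUnram F₀ hF₀).trans (GalLevel.le_sup_right L _), rfl⟩, ?_⟩
  rintro _ ⟨x, hx, rfl⟩
  exact GalLevel.V_le_of_le (GalLevel.le_sup_left L (GalLevel.ofUnram F₀ hF₀)) hx

variable (S) (hdata : LayerData (galFamily S) (CS S))

/-- The `S`-class formation over `ℚ`: group `Γℚ`, level family `galFamily S`, module `C_S`
(from cardinality data at the finite layers). -/
noncomputable def formationQOf : ClassFormation Γℚ :=
  classFormationOfLayers hdata (isDiscrete_galFamily S (isDiscrete_CS S))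

@[simp] theorem formationQOf_𝒰 : (formationQOf S hdata).𝒰 = galFamily S := rfl

@[simp] theorem formationQOf_C : (formationQOf S hdata).C = CS S := rfl

variable {S}

/-- The `S`-class formation over the level field `F₀`: group `F₀.fixingSubgroup`, level family
`galFamilyOver F₀ hF₀`, module `res C_S`; the restriction of `formationQOf`. -/
noncomputable def formationOverOf (F₀ : IntermediateField ℚ Qbar)
    (hF₀ : F₀.IsUnramifiedOutside S) : ClassFormation ↥F₀.fixingSubgroup :=
  (formationQOf S hdata).restrictOn F₀.fixingSubgroup (galFamilyOver F₀ hF₀)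
    (isSubFamily_galFamilyOver F₀ hF₀) (isCofinalSub_galFamilyOver F₀ hF₀)

@[simp] theorem formationOverOf_𝒰 (F₀ : IntermediateField ℚ Qbar)
    (hF₀ : F₀.IsUnramifiedOutside S) :
    (formationOverOf hdata F₀ hF₀).𝒰 = galFamilyOver F₀ hF₀ := rfl

@[simp] theorem formationOverOf_C (F₀ : IntermediateField ℚ Qbar)
    (hF₀ : F₀.IsUnramifiedOutside S) :
    (formationOverOf hdata F₀ hF₀).C = Rep.res (F₀.fixingSubgroup).subtype (CS S) := rfl

end Arithmetic

/-! ### The cyclotomic tower: indices of Galois levels are cofinally multiplied by `p ∈ S` -/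

section Tower

local notation "Qbar" => AlgebraicClosure ℚ
local notation "Γℚ" => (AlgebraicClosure ℚ ≃ₐ[ℚ] AlgebraicClosure ℚ)

variable {S : Finset Nat.Primes}

theorem exists_galLevel_mul_index_dvd {p : Nat.Primes} (hp : p ∈ S) (L : GalLevel S) :
    ∃ L' : GalLevel S, L.F ≤ L'.F ∧ (p : ℕ) * (L.V).index ∣ (L'.V).index := by
  obtain ⟨_, ⟨F', hF', rfl⟩, -, -, hdvd⟩ :=
    CycloTower.exists_level_pow_mul_index_dvd hp L.fixingSubgroup_mem_levels 1
  rw [pow_one] at hdvd
  refine ⟨(GalLevel.ofUnram F' hF').sup L, GalLevel.le_sup_right _ L, hdvd.trans ?_⟩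
  apply Subgroup.index_dvd_of_le
  exact IntermediateField.fixingSubgroup_antitone
    ((GalLevel.le_ofUnram F' hF').trans (GalLevel.le_sup_left _ L))

theorem galFamily_tower {p : Nat.Primes} (hp : p ∈ S) :
    ∀ (U : Subgroup Γℚ) (_ : U.Normal), U ∈ (galFamily S).levels →
      ∃ (U' : Subgroup Γℚ) (_ : U'.Normal), U' ∈ (galFamily S).levels ∧ U' ≤ U ∧
        (p : ℕ) * U.index ∣ U'.index := by
  rintro _ _ ⟨L, rfl⟩
  obtain ⟨L', hle, hdvd⟩ := exists_galLevel_mul_index_dvd hp L
  exact ⟨L'.V, inferInstance, ⟨L', rfl⟩, GalLevel.V_le_of_le hle, hdvd⟩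

theorem galFamilyOver_tower {p : Nat.Primes} (hp : p ∈ S) (F₀ : IntermediateField ℚ Qbar)
    (hF₀ : F₀.IsUnramifiedOutside S) :
    ∀ (U : Subgroup ↥F₀.fixingSubgroup) (_ : U.Normal), U ∈ (galFamilyOver F₀ hF₀).levels →
      ∃ (U' : Subgroup ↥F₀.fixingSubgroup) (_ : U'.Normal),
        U' ∈ (galFamilyOver F₀ hF₀).levels ∧ U' ≤ U ∧ (p : ℕ) * U.index ∣ U'.index := by
  rintro _ _ ⟨L, hL, rfl⟩
  obtain ⟨L', hle, hdvd⟩ := exists_galLevel_mul_index_dvd hp L
  have hW : (F₀.fixingSubgroup).FiniteIndex := (levelsS S).finiteIndex _ ⟨F₀, hF₀, rfl⟩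
  have hLW : L.V ≤ F₀.fixingSubgroup := IntermediateField.fixingSubgroup_antitone hL
  have hL'W : L'.V ≤ F₀.fixingSubgroup := IntermediateField.fixingSubgroup_antitone (hL.trans hle)
  refine ⟨(L'.V).subgroupOf F₀.fixingSubgroup, inferInstance, ⟨L', hL.trans hle, rfl⟩, ?_, ?_⟩
  · intro x hx
    exact GalLevel.V_le_of_le hle hx
  · show (p : ℕ) * (L.V).relIndex F₀.fixingSubgroup ∣ (L'.V).relIndex F₀.fixingSubgroup
    rw [← Subgroup.relIndex_mul_index hLW, ← Subgroup.relIndex_mul_index hL'W, ← mul_assoc] at hdvd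
    exact Nat.dvd_of_mul_dvd_mul_right (Nat.pos_of_ne_zero Subgroup.FiniteIndex.index_ne_zero) hdvd

end Tower

/-! ### (G2): cohomology of `C_S` over `ℚ` and over every level field -/

section G2

local notation "Qbar" => AlgebraicClosure ℚ
local notation "Γℚ" => (AlgebraicClosure ℚ ≃ₐ[ℚ] AlgebraicClosure ℚ)

variable {S : Finset Nat.Primes} (hdata : LayerData (galFamily S) (CS S))

include hdata

/-- `H¹(Γℚ, C_S) = 0` (Galois levels). -/
theorem subsingleton_H1_Q_of : Subsingleton ((galFamily S).levelCohomology (CS S) 1) :=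
  ClassFormationCor.subsingleton_H1 (formationQOf S hdata)

/-- `H³(Γℚ, C_S) = 0` (Galois levels). -/
theorem subsingleton_H3_Q_of : Subsingleton ((galFamily S).levelCohomology (CS S) 3) :=
  ClassFormationCor.subsingleton_H3 (formationQOf S hdata)

/-- `H²(Γℚ, C_S)[p]` has `p` elements for `p ∈ S`. -/
theorem card_torsion_H2_Q_of {p : Nat.Primes} (hp : p ∈ S) :
    Nat.card {x : (galFamily S).levelCohomology (CS S) 2 // (p : ℕ) • x = 0} = p := by
  obtain ⟨L', -, hdvd⟩ := exists_galLevel_mul_index_dvd hp (GalLevel.bot S)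
  exact ClassFormationCor.card_torsion_H2 (formationQOf S hdata) L'.V ⟨L', rfl⟩
    (dvd_of_mul_right_dvd hdvd)

/-- `H²(Γℚ, C_S)` is `p`-divisible for `p ∈ S`. -/
theorem exists_nsmul_eq_H2_Q_of {p : Nat.Primes} (hp : p ∈ S)
    (x : (galFamily S).levelCohomology (CS S) 2) :
    ∃ y : (galFamily S).levelCohomology (CS S) 2, (p : ℕ) • y = x :=
  ClassFormationCor.exists_nsmul_eq_H2 (formationQOf S hdata) (galFamily_tower hp) x

variable (F₀ : IntermediateField ℚ Qbar) (hF₀ : F₀.IsUnramifiedOutside S)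

/-- `H¹(V_{F₀}, C_S) = 0` (Galois levels above `F₀`). -/
theorem subsingleton_H1_over_of :
    Subsingleton ((galFamilyOver F₀ hF₀).levelCohomology
      (Rep.res (F₀.fixingSubgroup).subtype (CS S)) 1) :=
  ClassFormationCor.subsingleton_H1 (formationOverOf hdata F₀ hF₀)

/-- `H³(V_{F₀}, C_S) = 0` (Galois levels above `F₀`). -/
theorem subsingleton_H3_over_of :
    Subsingleton ((galFamilyOver F₀ hF₀).levelCohomology
      (Rep.res (F₀.fixingSubgroup).subtype (CS S)) 3) :=
  ClassFormationCor.subsingleton_H3 (formationOverOf hdata F₀ hF₀)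

/-- `H²(V_{F₀}, C_S)[p]` has `p` elements for `p ∈ S`. -/
theorem card_torsion_H2_over_of {p : Nat.Primes} (hp : p ∈ S) :
    Nat.card {x : (galFamilyOver F₀ hF₀).levelCohomology
      (Rep.res (F₀.fixingSubgroup).subtype (CS S)) 2 // (p : ℕ) • x = 0} = p := by
  obtain ⟨U, hU⟩ := (galFamilyOver F₀ hF₀).nonempty
  have hn : U.Normal := galFamilyOver_normal hU
  obtain ⟨U', hn', hU', -, hdvd⟩ := galFamilyOver_tower hp F₀ hF₀ U hn hU
  exact ClassFormationCor.card_torsion_H2 (formationOverOf hdata F₀ hF₀) U' hU'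
    (dvd_of_mul_right_dvd hdvd)

/-- `H²(V_{F₀}, C_S)` is `p`-divisible for `p ∈ S`. -/
theorem exists_nsmul_eq_H2_over_of {p : Nat.Primes} (hp : p ∈ S)
    (x : (galFamilyOver F₀ hF₀).levelCohomology (Rep.res (F₀.fixingSubgroup).subtype (CS S)) 2) :
    ∃ y : (galFamilyOver F₀ hF₀).levelCohomology
      (Rep.res (F₀.fixingSubgroup).subtype (CS S)) 2, (p : ℕ) • y = x :=
  ClassFormationCor.exists_nsmul_eq_H2 (formationOverOf hdata F₀ hF₀)
    (galFamilyOver_tower hp F₀ hF₀) x

end G2

end Fermat.Agent.Lib.CFT.Global.SVersion.Formation
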