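import Fermat.Agent.Lib.CFT.Global.SVersion.Modules
import Fermat.Agent.Lib.CFT.Global.IdeleInvariants
import Fermat.Agent.Lib.CFT.Global.IdeleClassInvariants

/-!
# Descent for the `S`-version modules (helper45, P-CFT Global/S-version, task 219, file (3))

`L ≤ L'` Galois levels (finite Galois subextensions of `Qbar / ℚ` unramified outside `S`).

* Galois: `exists_units_of_fixed`, `exists_levelMap_eq_of_fixed` (an idele of `L'.F` fixed by the
  fixing subgroup of `L.F` is the image of an idele of `L.F`).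
* (D1) saturation at finite level: `levelMap_mem_unitsOut_iff`, `levelMap_mem_sIdeleGroup_iff`,
  `levelMap_mem_ideleAtS_iff`, `levelMap_mem_range_principal_iff`,
  `levelMap_mem_range_sup_unitsOut_iff`.
* (D2) `IsSaturated`, `toAmb_mem_union_iff` and its instances `toAmb_mem_prinS_iff`,
  `toAmb_mem_unitsOutS_iff`, `toAmb_mem_ideleSS_iff`, `toAmb_mem_prinUnitsS_iff`.
  (The family `Fˣ U_{F,S} J_S(F)` is NOT saturated: ideal classes capitulate.)
* (D3) the injective equivariant maps `levelToIS`, `levelToCS`, `levelToJS`, `levelToES` from the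
  finite-level objects into `⋃ Idele F`, `C_S`, `J_S`, `E_S`.
* (D4) invariants under `V = L.F.fixingSubgroup`: `mem_range_toAmb_of_fixed`,
  `mem_range_levelToIS_of_fixed`, `mem_range_levelToJS_of_fixed`, `mem_range_levelToES_of_fixed`,
  and `mem_range_levelToCS_of_fixed` under the hypothesis `LiftHyp S`
  (`H¹(Gal(F'/F), F'ˣ × U_{F',S}) = 0`).
-/

open scoped TensorProduct NumberField

noncomputable section

namespace Fermat.Agent.Lib.CFT.Global.SVersion.Descent

open Fermat.Agent.Lib.CFT.Global Fermat.Agent.Lib.CFT.Global.SVersion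
open Fermat.Agent.Lib.CFT.Profinite Fermat.Agent.Lib.CFT.Profinite.Bridge RepMul
open scoped Fermat.Agent.Lib.CFT.Global.SVersion

local notation "Qbar" => AlgebraicClosure ℚ
local notation "Γℚ" => (AlgebraicClosure ℚ ≃ₐ[ℚ] AlgebraicClosure ℚ)

local instance isAlgebraicQbar_ds : Algebra.IsAlgebraic ℚ (AlgebraicClosure ℚ) :=
  AlgebraicClosure.isAlgebraic ℚ
local instance isAlgClosureQbar_ds : IsAlgClosure ℚ (AlgebraicClosure ℚ) :=
  ⟨inferInstance, inferInstance⟩
local instance normalQbar_ds : Normal ℚ (AlgebraicClosure ℚ) :=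
  IsAlgClosure.normal ℚ (AlgebraicClosure ℚ)
local instance isGaloisQbar_ds : IsGalois ℚ (AlgebraicClosure ℚ) := ⟨⟩

section Galois

variable {K M : IntermediateField ℚ Qbar}

/-- An element of `Qbar` fixed by the fixing subgroup of `K` lies in `K`. -/
lemma mem_of_forall_fixingSubgroup {x : Qbar} (hx : ∀ σ ∈ K.fixingSubgroup, σ x = x) : x ∈ K := by
  have h := InfiniteGalois.fixedField_fixingSubgroup K
  rw [← h, IntermediateField.mem_fixedField_iff]
  exact hx

/-- A unit of `M` fixed by the fixing subgroup of `K ≤ M` comes from `K`. -/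
lemma exists_units_of_fixed (h : K ≤ M) (y : Mˣ)
    (hy : ∀ σ ∈ K.fixingSubgroup, σ ((y : M) : Qbar) = ((y : M) : Qbar)) :
    ∃ x : Kˣ, Units.map (((IntermediateField.inclusion h : K →ₐ[ℚ] M) : K →+* M) : K →* M) x = y := by
  have hmem : ((y : M) : Qbar) ∈ K := mem_of_forall_fixingSubgroup hy
  have h0 : (⟨((y : M) : Qbar), hmem⟩ : K) ≠ 0 := by
    intro h0
    have : ((y : M) : Qbar) = 0 := congrArg Subtype.val h0
    exact y.ne_zero (Subtype.ext this)
  refine ⟨Units.mk0 ⟨((y : M) : Qbar), hmem⟩ h0, ?_⟩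
  apply Units.ext
  apply Subtype.ext
  rfl

/-- An idele of `M` fixed by the fixing subgroup of `K ≤ M` comes from `K`
(`K`, `M` finite over `ℚ`, `M` normal). -/
theorem exists_levelMap_eq_of_fixed [FiniteDimensional ℚ K] [FiniteDimensional ℚ M] [Normal ℚ M]
    (h : K ≤ M) (b : Idele M) (hb : ∀ σ ∈ K.fixingSubgroup, σ • b = b) :
    ∃ b₀ : Idele K, levelMap h b₀ = b := by
  letI : Algebra K M := ((IntermediateField.inclusion h : K →ₐ[ℚ] M) : K →+* M).toAlgebra
  have hst : IsScalarTower ℚ K M := IsScalarTower.of_algebraMap_eq (fun r => by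
    apply Subtype.ext
    rfl)
  have hsep : Algebra.IsSeparable ℚ M := Algebra.isSeparable_tower_bot_of_isSeparable ℚ M Qbar
  have hgalQ : IsGalois ℚ M := ⟨⟩
  have hgal : IsGalois K M := IsGalois.tower_top_of_isGalois ℚ K M
  obtain ⟨b₀, hb₀⟩ := exists_ideleMap_eq_of_fixed K M b (fun g => by
    -- lift `g` to an element of the fixing subgroup of `K`
    let σ : Γℚ := (g.restrictScalars ℚ).liftNormal Qbar
    have hσ : ∀ x : M, σ (x : Qbar) = ((g x : M) : Qbar) := fun x =>
      AlgEquiv.liftNormal_commutes (g.restrictScalars ℚ) Qbar x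
    have hσK : σ ∈ K.fixingSubgroup := by
      rw [IntermediateField.mem_fixingSubgroup_iff]
      intro x hx
      have h1 := hσ (IntermediateField.inclusion h ⟨x, hx⟩)
      have h2 : g (IntermediateField.inclusion h ⟨x, hx⟩) = IntermediateField.inclusion h ⟨x, hx⟩ :=
        g.commutes ⟨x, hx⟩
      rw [h2] at h1
      exact h1
    rw [smul_idele_congr M g σ (fun x => by
      apply Subtype.ext
      rw [coe_galAction_smul, hσ]
      rfl) b]
    exact hb σ hσK)
  exact ⟨b₀, hb₀⟩

end Galois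

section Saturation

variable {S : Finset Nat.Primes} {L L' : GalLevel S} (h : L.F ≤ L'.F)

/-- The image of an idele of `L.F` in a bigger level is fixed by the fixing subgroup of `L.F`. -/
lemma smul_levelMap_of_mem_fixingSubgroup {σ : Γℚ} (hσ : σ ∈ L.F.fixingSubgroup) (b : Idele L.F) :
    σ • levelMap h b = levelMap h b := by
  apply toAmb_injective L'.F
  rw [toAmb_smul, toAmb_levelMap, smul_toAmb_of_mem_fixingSubgroup L.F hσ]

/-- (D1a) `U_{F,S}` is saturated. -/
theorem levelMap_mem_unitsOut_iff (b : Idele L.F) :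
    levelMap h b ∈ unitsOut S L'.F ↔ b ∈ unitsOut S L.F := by
  refine ⟨fun hb => ⟨fun q hq => ?_, ?_, fun q hq => ?_⟩, fun hb => ideleMap_mem_unitsOut S _ hb⟩
  · apply locUnitsMap_injective ((IntermediateField.inclusion h : L.F →ₐ[ℚ] L'.F) : L.F →+* L'.F) q
    rw [map_one]
    exact hb.1 q hq
  · apply archUnitsMap_injective ((IntermediateField.inclusion h : L.F →ₐ[ℚ] L'.F) : L.F →+* L'.F)
    rw [map_one]
    exact hb.2.1
  · exact (locUnitsMap_mem_locIntUnits_iff
      ((IntermediateField.inclusion h : L.F →ₐ[ℚ] L'.F) : L.F →+* L'.F) q _).1 (hb.2.2 q hq)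

/-- (D1a') `J_S(F) × U_{F,S}` is saturated. -/
theorem levelMap_mem_sIdeleGroup_iff (b : Idele L.F) :
    levelMap h b ∈ sIdeleGroup S L'.F ↔ b ∈ sIdeleGroup S L.F := by
  refine ⟨fun hb q hq => ?_, fun hb => ideleMap_mem_sIdeleGroup S _ hb⟩
  exact (locUnitsMap_mem_locIntUnits_iff
    ((IntermediateField.inclusion h : L.F →ₐ[ℚ] L'.F) : L.F →+* L'.F) q _).1 (hb q hq)

/-- `J_S(F)` is saturated. -/
theorem levelMap_mem_ideleAtS_iff (b : Idele L.F) :
    levelMap h b ∈ ideleAtS S L'.F ↔ b ∈ ideleAtS S L.F :=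
  ideleMap_mem_ideleAtS_iff S _ b

/-- A principal idele of `L'.F` fixed by the fixing subgroup of `L.F` comes from `L.F`. -/
lemma exists_principal_of_fixed (y : L'.Fˣ)
    (hy : ∀ σ ∈ L.F.fixingSubgroup, σ • principal L'.F y = principal L'.F y) :
    ∃ x : L.Fˣ, levelMap h (principal L.F x) = principal L'.F y := by
  have hy' : ∀ σ ∈ L.F.fixingSubgroup, σ ((y : L'.F) : Qbar) = ((y : L'.F) : Qbar) := by
    intro σ hσ
    have h1 := hy σ hσ
    rw [← principal_smul L'.F Γℚ σ y] at h1
    have h2 : σ • y = y := principal_injective L'.F h1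
    have h3 : ((σ • y : L'.Fˣ) : L'.F) = (y : L'.F) := congrArg Units.val h2
    have h4 : ((σ • (y : L'.F) : L'.F) : Qbar) = ((y : L'.F) : Qbar) := congrArg Subtype.val h3
    rwa [coe_galAction_smul] at h4
  obtain ⟨x, hx⟩ := exists_units_of_fixed h y hy'
  refine ⟨x, ?_⟩
  rw [levelMap, ideleMap_principal, hx]

/-- (D1b) the principal ideles are saturated. -/
theorem levelMap_mem_range_principal_iff (b : Idele L.F) :
    levelMap h b ∈ (principal L'.F).range ↔ b ∈ (principal L.F).range := by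
  constructor
  · rintro ⟨y, hy⟩
    obtain ⟨x, hx⟩ := exists_principal_of_fixed h y (fun σ hσ => by
      rw [hy]
      exact smul_levelMap_of_mem_fixingSubgroup h hσ b)
    exact ⟨x, levelMap_injective h (hx.trans hy)⟩
  · rintro ⟨x, rfl⟩
    exact ⟨_, (ideleMap_principal _ x).symm⟩

/-- (D1c) `Fˣ · U_{F,S}` is saturated. -/
theorem levelMap_mem_range_sup_unitsOut_iff (b : Idele L.F) :
    levelMap h b ∈ (principal L'.F).range ⊔ unitsOut S L'.F ↔
      b ∈ (principal L.F).range ⊔ unitsOut S L.F := by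
  constructor
  · intro hb
    obtain ⟨_, ⟨y, rfl⟩, u, hu, hyu⟩ := Subgroup.mem_sup.1 hb
    -- both factors are fixed by the fixing subgroup of `L.F`
    have hfix : ∀ σ ∈ L.F.fixingSubgroup,
        σ • principal L'.F y = principal L'.F y ∧ σ • u = u := by
      intro σ hσ
      have h1 : σ • (principal L'.F y * u) = principal L'.F y * u := by
        rw [hyu]
        exact smul_levelMap_of_mem_fixingSubgroup h hσ b
      rw [smul_mul'] at h1
      have h2 : (σ • principal L'.F y) / principal L'.F y = u / (σ • u) := by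
        rw [div_eq_div_iff_mul_eq_mul, h1, mul_comm]
      have h3 : (σ • principal L'.F y) / principal L'.F y ∈
          (principal L'.F).range ⊓ unitsOut S L'.F := by
        refine Subgroup.mem_inf.2 ⟨Subgroup.div_mem _
          (smul_mem_range_principal L'.F Γℚ σ ⟨y, rfl⟩) ⟨y, rfl⟩, ?_⟩
        rw [h2]
        exact Subgroup.div_mem _ hu (smul_mem_unitsOut S L'.F Γℚ σ hu)
      rw [range_principal_inf_unitsOut, Subgroup.mem_bot] at h3
      have h4 : σ • principal L'.F y = principal L'.F y := div_eq_one.1 h3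
      refine ⟨h4, ?_⟩
      rw [h4] at h1
      exact mul_left_cancel h1
    obtain ⟨x, hx⟩ := exists_principal_of_fixed h y (fun σ hσ => (hfix σ hσ).1)
    obtain ⟨u₀, hu₀⟩ := exists_levelMap_eq_of_fixed h u (fun σ hσ => (hfix σ hσ).2)
    have hu₀' : u₀ ∈ unitsOut S L.F := (levelMap_mem_unitsOut_iff h u₀).1 (by rw [hu₀]; exact hu)
    have hb' : b = principal L.F x * u₀ := by
      apply levelMap_injective h
      rw [map_mul, hx, hu₀, hyu]
    rw [hb']
    exact Subgroup.mem_sup.2 ⟨_, ⟨x, rfl⟩, _, hu₀', rfl⟩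
  · intro hb
    obtain ⟨_, ⟨x, rfl⟩, u, hu, rfl⟩ := Subgroup.mem_sup.1 hb
    rw [map_mul]
    exact Subgroup.mem_sup.2 ⟨_, ⟨_, (ideleMap_principal _ x).symm⟩, _,
      ideleMap_mem_unitsOut S _ hu, rfl⟩

end Saturation

section Unions

variable {S : Finset Nat.Primes}

/-- A family of level subgroups is saturated if membership can be tested after enlarging the
level. -/
def IsSaturated (𝒩 : LevelSubgroups S) : Prop :=
  ∀ {L L' : GalLevel S} (h : L.F ≤ L'.F) (b : Idele L.F), levelMap h b ∈ 𝒩.N L' → b ∈ 𝒩.N L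

/-- (D2) For a saturated family, membership in the union is tested at any level. -/
theorem toAmb_mem_union_iff {𝒩 : LevelSubgroups S} (hsat : IsSaturated 𝒩) (L : GalLevel S)
    (b : Idele L.F) : toAmb L.F b ∈ 𝒩.union ↔ b ∈ 𝒩.N L := by
  constructor
  · rintro ⟨L', b', hb', hbb'⟩
    have h1 : levelMap (L.le_sup_left L') b = levelMap (L.le_sup_right L') b' := by
      apply toAmb_injective (L.sup L').F
      rw [toAmb_levelMap, toAmb_levelMap, hbb']
    exact hsat (L.le_sup_left L') b (by rw [h1]; exact 𝒩.mono _ b' hb')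
  · exact fun hb => 𝒩.toAmb_mem_union L hb

lemma isSaturated_prinFam : IsSaturated (prinFam S) :=
  fun h b hb => (levelMap_mem_range_principal_iff h b).1 hb

lemma isSaturated_unitsOutFam : IsSaturated (unitsOutFam S) :=
  fun h b hb => (levelMap_mem_unitsOut_iff h b).1 hb

lemma isSaturated_atSFam : IsSaturated (atSFam S) :=
  fun h b hb => (levelMap_mem_ideleAtS_iff h b).1 hb

lemma isSaturated_prinUnitsFam : IsSaturated ((prinFam S).sup (unitsOutFam S)) :=
  fun h b hb => (levelMap_mem_range_sup_unitsOut_iff h b).1 hb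

variable (S)

theorem toAmb_mem_prinS_iff (L : GalLevel S) (b : Idele L.F) :
    toAmb L.F b ∈ prinS S ↔ b ∈ (principal L.F).range :=
  toAmb_mem_union_iff isSaturated_prinFam L b

theorem toAmb_mem_unitsOutS_iff (L : GalLevel S) (b : Idele L.F) :
    toAmb L.F b ∈ unitsOutS S ↔ b ∈ unitsOut S L.F :=
  toAmb_mem_union_iff isSaturated_unitsOutFam L b

theorem toAmb_mem_ideleSS_iff (L : GalLevel S) (b : Idele L.F) :
    toAmb L.F b ∈ ideleSS S ↔ b ∈ ideleAtS S L.F :=
  toAmb_mem_union_iff isSaturated_atSFam L b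

theorem toAmb_mem_prinUnitsS_iff (L : GalLevel S) (b : Idele L.F) :
    toAmb L.F b ∈ prinUnitsS S ↔ b ∈ (principal L.F).range ⊔ unitsOut S L.F :=
  toAmb_mem_union_iff isSaturated_prinUnitsFam L b

end Unions

section LevelMaps

variable (S : Finset Nat.Primes) (L : GalLevel S)

/-- The map `Idele F → ⋃_F Idele F`. -/
def levelToIS : Idele L.F →* ISgrp S :=
  (toAmb L.F).codRestrict (ideleS S) (toAmb_mem_ideleS S L)

@[simp] lemma coe_levelToIS (b : Idele L.F) : (levelToIS S L b : AmbJ) = toAmb L.F b := rfl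

lemma levelToIS_injective : Function.Injective (levelToIS S L) := by
  intro b b' hbb'
  exact toAmb_injective L.F (congrArg Subtype.val hbb')

lemma levelToIS_smul (σ : Γℚ) (b : Idele L.F) : levelToIS S L (σ • b) = σ • levelToIS S L b :=
  Subtype.ext (toAmb_smul L.F σ b)

lemma levelToIS_mem_prinUnitsSub_iff (b : Idele L.F) :
    levelToIS S L b ∈ prinUnitsSub S ↔ b ∈ (principal L.F).range ⊔ unitsOut S L.F :=
  toAmb_mem_prinUnitsS_iff S L b

lemma isSMulStable_range_sup_unitsOut :
    IsSMulStable Γℚ ((principal L.F).range ⊔ unitsOut S L.F) :=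
  IsSMulStable.sup (fun σ _ hb => smul_mem_range_principal L.F Γℚ σ hb)
    (fun σ _ hb => smul_mem_unitsOut S L.F Γℚ σ hb)

/-- The action of `Γℚ` on `C_S(F) = Idele F ⧸ Fˣ U_{F,S}` for a Galois level `F`. -/
@[reducible] def csLevelAction : MulDistribMulAction Γℚ (CSLevel S L.F) :=
  quotientAction _ (isSMulStable_range_sup_unitsOut S L)

/-- (D3) The map `C_S(F) → C_S`. -/
def levelToCS : CSLevel S L.F →* CSgrp S :=
  QuotientGroup.map _ (prinUnitsSub S) (levelToIS S L)
    (fun b hb => (levelToIS_mem_prinUnitsSub_iff S L b).2 hb)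

@[simp] lemma levelToCS_mk (b : Idele L.F) :
    levelToCS S L (QuotientGroup.mk b) = QuotientGroup.mk (levelToIS S L b) := rfl

theorem levelToCS_injective : Function.Injective (levelToCS S L) := by
  rw [injective_iff_map_eq_one]
  intro c hc
  induction c using QuotientGroup.induction_on with
  | H b =>
    rw [levelToCS_mk, QuotientGroup.eq_one_iff] at hc
    rw [QuotientGroup.eq_one_iff]
    exact (levelToIS_mem_prinUnitsSub_iff S L b).1 hc

theorem levelToCS_smul (σ : Γℚ) (c : CSLevel S L.F) :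
    letI := csLevelAction S L
    levelToCS S L (σ • c) = σ • levelToCS S L c := by
  induction c using QuotientGroup.induction_on with
  | H b =>
    change levelToCS S L (QuotientGroup.mk (σ • b)) = σ • levelToCS S L (QuotientGroup.mk b)
    rw [levelToCS_mk, levelToCS_mk, smul_mk_CSgrp, levelToIS_smul]

/-- Compatibility of the maps `C_S(F) → C_S` with the transition maps. -/
lemma levelToIS_levelMap {L L' : GalLevel S} (h : L.F ≤ L'.F) (b : Idele L.F) :
    levelToIS S L' (levelMap h b) = levelToIS S L b :=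
  Subtype.ext (toAmb_levelMap h b)

/-- The action of `Γℚ` on `J_S(F)` for a Galois level `F`. -/
@[reducible] def atSLevelAction : MulDistribMulAction Γℚ (ideleAtS S L.F) :=
  subgroupAction _ (fun σ _ hb => smul_mem_ideleAtS S L.F Γℚ σ hb)

/-- (D3) The map `J_S(F) → J_S`. -/
def levelToJS : ideleAtS S L.F →* JSgrp S :=
  ((toAmb L.F).comp (ideleAtS S L.F).subtype).codRestrict (ideleSS S)
    (fun b => (toAmb_mem_ideleSS_iff S L b).2 b.2)

@[simp] lemma coe_levelToJS (b : ideleAtS S L.F) : (levelToJS S L b : AmbJ) = toAmb L.F b := rfl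

theorem levelToJS_injective : Function.Injective (levelToJS S L) := by
  intro b b' hbb'
  exact Subtype.ext (toAmb_injective L.F (congrArg Subtype.val hbb'))

theorem levelToJS_smul (σ : Γℚ) (b : ideleAtS S L.F) :
    letI := atSLevelAction S L
    levelToJS S L (σ • b) = σ • levelToJS S L b :=
  Subtype.ext (toAmb_smul L.F σ b)

/-- The action of `Γℚ` on `E_S(F)` for a Galois level `F`. -/
@[reducible] def sUnitsLevelAction : MulDistribMulAction Γℚ (sUnitsS S L.F) :=
  subgroupAction _ (fun σ _ hy => smul_mem_sUnitsS S L.F Γℚ σ hy)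

/-- (D3) The map `E_S(F) → E_S`. -/
def levelToES : sUnitsS S L.F →* ESgrp S :=
  ((Units.map (incl L.F : L.F →* Qbar)).comp (sUnitsS S L.F).subtype).codRestrict (unitsS S)
    (fun y => ⟨L, y, y.2, rfl⟩)

@[simp] lemma coe_levelToES (y : sUnitsS S L.F) :
    (levelToES S L y : Qbarˣ) = Units.map (incl L.F : L.F →* Qbar) y := rfl

theorem levelToES_injective : Function.Injective (levelToES S L) := by
  intro y y' hyy'
  apply Subtype.ext
  apply Units.ext
  apply Subtype.ext
  exact congrArg (fun x : ESgrp S => ((x : Qbarˣ) : Qbar)) hyy'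

theorem levelToES_smul (σ : Γℚ) (y : sUnitsS S L.F) :
    letI := sUnitsLevelAction S L
    levelToES S L (σ • y) = σ • levelToES S L y :=
  Subtype.ext (units_map_incl_smul L.F σ y)

end LevelMaps

section Invariants

variable (S : Finset Nat.Primes) (L : GalLevel S)

/-- (D4a) An element of `⋃_F Idele F` fixed by the fixing subgroup of a Galois level `F` is an idele
of `F`. -/
theorem mem_range_toAmb_of_fixed {a : AmbJ} (ha : a ∈ ideleS S)
    (hfix : ∀ σ ∈ L.F.fixingSubgroup, σ • a = a) : a ∈ (toAmb L.F).range := by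
  obtain ⟨L', hle, b, -, rfl⟩ := LevelSubgroups.exists_rep_of_le ha L
  obtain ⟨b₀, hb₀⟩ := exists_levelMap_eq_of_fixed hle b (fun σ hσ => by
    apply toAmb_injective L'.F
    rw [toAmb_smul]
    exact hfix σ hσ)
  exact ⟨b₀, by rw [← hb₀, toAmb_levelMap]⟩

/-- (D4a) in `ISgrp`. -/
theorem mem_range_levelToIS_of_fixed (a : ISgrp S)
    (hfix : ∀ σ ∈ L.F.fixingSubgroup, σ • a = a) : a ∈ (levelToIS S L).range := by
  obtain ⟨b, hb⟩ := mem_range_toAmb_of_fixed S L a.2
    (fun σ hσ => congrArg Subtype.val (hfix σ hσ))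
  exact ⟨b, Subtype.ext hb⟩

/-- (D4b) `(J_S)^{V_F} = J_S(F)`. -/
theorem mem_range_levelToJS_of_fixed (a : JSgrp S)
    (hfix : ∀ σ ∈ L.F.fixingSubgroup, σ • a = a) : a ∈ (levelToJS S L).range := by
  obtain ⟨b, hb⟩ := mem_range_toAmb_of_fixed S L (ideleSS_le_ideleS S a.2)
    (fun σ hσ => congrArg Subtype.val (hfix σ hσ))
  have hb' : b ∈ ideleAtS S L.F := (toAmb_mem_ideleSS_iff S L b).1 (by rw [hb]; exact a.2)
  exact ⟨⟨b, hb'⟩, Subtype.ext hb⟩

/-- `(E_S)^{V_F} = E_S(F)`. -/
theorem mem_range_levelToES_of_fixed (x : ESgrp S)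
    (hfix : ∀ σ ∈ L.F.fixingSubgroup, σ • x = x) : x ∈ (levelToES S L).range := by
  obtain ⟨L', y, hy, hyx⟩ := x.2
  -- move to a level containing `L`
  set L'' := L.sup L' with hL''
  set y' : L''.Fˣ := Units.map (((IntermediateField.inclusion (L.le_sup_right L') :
    L'.F →ₐ[ℚ] L''.F) : L'.F →+* L''.F) : L'.F →* L''.F) y with hy'
  have hy'S : y' ∈ sUnitsS S L''.F := map_mem_sUnitsS S _ hy
  have hy'x : Units.map (incl L''.F : L''.F →* Qbar) y' = (x : Qbarˣ) := by
    rw [hy', units_map_incl_inclusion, hyx]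
  have hfix' : ∀ σ ∈ L.F.fixingSubgroup, σ ((y' : L''.F) : Qbar) = ((y' : L''.F) : Qbar) := by
    intro σ hσ
    have h1 : ((σ • x : ESgrp S) : Qbarˣ) = (x : Qbarˣ) := congrArg Subtype.val (hfix σ hσ)
    have h2 : σ (((x : Qbarˣ) : Qbar)) = ((x : Qbarˣ) : Qbar) := congrArg Units.val h1
    have h3 : ((y' : L''.F) : Qbar) = ((x : Qbarˣ) : Qbar) := congrArg Units.val hy'x
    rw [h3, h2]
  obtain ⟨x₀, hx₀⟩ := exists_units_of_fixed (L.le_sup_left L') y' hfix'
  have hx₀S : x₀ ∈ sUnitsS S L.F := by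
    change principal L.F x₀ ∈ sIdeleGroup S L.F
    rw [← levelMap_mem_sIdeleGroup_iff (L.le_sup_left L')]
    rw [levelMap, ideleMap_principal, hx₀]
    exact hy'S
  refine ⟨⟨x₀, hx₀S⟩, ?_⟩
  apply Subtype.ext
  rw [coe_levelToES, ← hy'x, ← hx₀, units_map_incl_inclusion]

/-- The hypothesis `H¹(Gal(F'/F), F'ˣ × U_{F',S}) = 0` in instance-free form. -/
def LiftHyp : Prop :=
  ∀ (L L' : GalLevel S) (h : L.F ≤ L'.F) (b : Idele L'.F),
    (∀ σ ∈ L.F.fixingSubgroup, σ • b / b ∈ (principal L'.F).range ⊔ unitsOut S L'.F) →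
      ∃ b₀ : Idele L.F, levelMap h b₀ / b ∈ (principal L'.F).range ⊔ unitsOut S L'.F

/-- (D4c) `(C_S)^{V_F} = C_S(F)`, under `LiftHyp`. -/
theorem mem_range_levelToCS_of_fixed (hLift : LiftHyp S) (c : CSgrp S)
    (hfix : ∀ σ ∈ L.F.fixingSubgroup, σ • c = c) : c ∈ (levelToCS S L).range := by
  induction c using QuotientGroup.induction_on with
  | H a =>
    obtain ⟨L', hle, b, -, hba⟩ := LevelSubgroups.exists_rep_of_le a.2 L
    have hba' : levelToIS S L' b = a := Subtype.ext hba
    have hcond : ∀ σ ∈ L.F.fixingSubgroup,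
        σ • b / b ∈ (principal L'.F).range ⊔ unitsOut S L'.F := by
      intro σ hσ
      rw [← levelToIS_mem_prinUnitsSub_iff, map_div, levelToIS_smul, hba']
      have h1 := hfix σ hσ
      rw [smul_mk_CSgrp, QuotientGroup.eq] at h1
      have h2 := (prinUnitsSub S).inv_mem h1
      rwa [mul_inv_rev, inv_inv, mul_comm, ← div_eq_mul_inv] at h2
    obtain ⟨b₀, hb₀⟩ := hLift L L' hle b hcond
    refine ⟨QuotientGroup.mk b₀, ?_⟩
    rw [levelToCS_mk, QuotientGroup.eq, ← hba', ← levelToIS_levelMap S hle b₀, ← map_inv,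
      ← map_mul, levelToIS_mem_prinUnitsSub_iff]
    have h3 := Subgroup.inv_mem _ hb₀
    rwa [inv_div, div_eq_mul_inv, mul_comm] at h3

end Invariants

end Fermat.Agent.Lib.CFT.Global.SVersion.Descent
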