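import Mathlib
import Fermat.Agent.Lib.CFT.Global.SVersion.Level
import Fermat.Agent.Lib.CFT.Global.SVersion.RepMul
import Fermat.Agent.Lib.CFT.Coh.RestrictedProd
import Fermat.Agent.Lib.CFT.Coh.ProductVanish
import Fermat.Agent.Lib.CFT.Global.EtaleAlgHilbert90

/-!
# Cohomology of the unit group `U_{F,S}` outside `S`

`F` a number field, `S` a finite set of rational primes, `G` a group acting on `F`.
`unitsOut S F = ∏_{q ∉ S} locIntUnits F q` is a full product of `G`-modules, so its cohomology
vanishes as soon as the cohomology of each factor does (`isZero_groupCohomology_unitsOut`).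
Elementary cocycle forms (`H1TrivialOn`, `H2TrivialOn`) and the abstract lifting lemma used for
the descent of `C_S` are included.
-/

set_option linter.unusedSectionVars false

open scoped NumberField

noncomputable section

namespace Fermat.Agent.Lib.CFT.Global.SVersion.UnitsOutCoh

open Fermat.Agent.Lib.CFT.Global Fermat.Agent.Lib.CFT.Global.SVersion
  Fermat.Agent.Lib.CFT.Global.SVersion.RepMul Fermat.Agent.Lib.CFT.Coh.RestrictedProd
  CategoryTheory CategoryTheory.Limits groupCohomology

/-! ### Abstract lemmas -/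

section Abstract

variable {G J : Type} [Group G] [CommGroup J] [MulDistribMulAction G J]

/-- If `H¹` of the stable subgroup `U` vanishes then `U`-valued `1`-cocycles are coboundaries of
elements of `U`. -/
theorem h1TrivialOn_of_isZero (U : Subgroup J) (hU : IsSMulStable G U)
    (h : letI := subgroupAction U hU
      IsZero (groupCohomology (Rep.ofMulDistribMulAction G U) 1)) : H1TrivialOn G U := by
  let _ := subgroupAction U hU
  intro f hf hfU
  let f' : G → U := fun g => ⟨f g, hfU g⟩
  have hf' : IsMulCocycle₁ f' := fun g k => Subtype.ext (hf g k)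
  have := (ModuleCat.isZero_iff_subsingleton).mp h
  have h0 : H1π (Rep.ofMulDistribMulAction G U) (cocyclesOfIsMulCocycle₁ hf') = 0 :=
    Subsingleton.elim _ _
  obtain ⟨x, hx⟩ := isMulCoboundary₁_of_mem_coboundaries₁ _ ((H1π_eq_zero_iff _).mp h0)
  exact ⟨x.1, x.2, fun g => congrArg Subtype.val (hx g)⟩

/-- If `H²` of the stable subgroup `U` vanishes then `U`-valued `2`-cocycles are coboundaries of
`U`-valued cochains. -/
theorem h2TrivialOn_of_isZero (U : Subgroup J) (hU : IsSMulStable G U)
    (h : letI := subgroupAction U hU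
      IsZero (groupCohomology (Rep.ofMulDistribMulAction G U) 2)) : H2TrivialOn G U := by
  let _ := subgroupAction U hU
  intro f hf hfU
  let f' : G × G → U := fun g => ⟨f g, hfU g.1 g.2⟩
  have hf' : IsMulCocycle₂ f' := fun g k j => Subtype.ext (hf g k j)
  have := (ModuleCat.isZero_iff_subsingleton).mp h
  have h0 : H2π (Rep.ofMulDistribMulAction G U) (cocyclesOfIsMulCocycle₂ hf') = 0 :=
    Subsingleton.elim _ _
  obtain ⟨x, hx⟩ := isMulCoboundary₂_of_mem_coboundaries₂ _ ((H2π_eq_zero_iff _).mp h0)
  exact ⟨fun g => (x g).1, fun g => (x g).2, fun g k => congrArg Subtype.val (hx g k)⟩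

/-- **Lifting lemma.**  If `P`, `U` are stable subgroups with `P ⊓ U = ⊥` and trivial `H¹` (in
the elementary form), then every `b` whose class modulo `P ⊔ U` is fixed by `G` is congruent
modulo `P ⊔ U` to a `G`-fixed element. -/
theorem exists_fixed_div_mem_sup (P U : Subgroup J) (hP : IsSMulStable G P)
    (hU : IsSMulStable G U) (hPU : P ⊓ U = ⊥) (h1P : H1TrivialOn G P) (h1U : H1TrivialOn G U)
    (b : J) (hb : ∀ g : G, g • b / b ∈ P ⊔ U) :
    ∃ b' : J, (∀ g : G, g • b' = b') ∧ b' / b ∈ P ⊔ U := by
  have hdec : ∀ g : G, ∃ x ∈ P, ∃ y ∈ U, x * y = g • b / b := fun g => Subgroup.mem_sup.1 (hb g)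
  choose x hx y hy hxy using hdec
  have huniq : ∀ {x₁ x₂ y₁ y₂ : J}, x₁ ∈ P → x₂ ∈ P → y₁ ∈ U → y₂ ∈ U → x₁ * y₁ = x₂ * y₂ →
      x₁ = x₂ ∧ y₁ = y₂ := by
    intro x₁ x₂ y₁ y₂ hx₁ hx₂ hy₁ hy₂ h
    have h1 : x₂⁻¹ * x₁ = y₂ * y₁⁻¹ := by
      rw [inv_mul_eq_iff_eq_mul, ← mul_assoc, eq_mul_inv_iff_mul_eq]
      exact h
    have hmem : x₂⁻¹ * x₁ ∈ P ⊓ U :=
      ⟨P.mul_mem (P.inv_mem hx₂) hx₁, h1 ▸ U.mul_mem hy₂ (U.inv_mem hy₁)⟩
    rw [hPU, Subgroup.mem_bot] at hmem
    have hx12 : x₁ = x₂ := by
      rw [inv_mul_eq_one] at hmem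
      exact hmem.symm
    refine ⟨hx12, ?_⟩
    subst hx12
    exact mul_left_cancel h
  have hcoc : ∀ g k : G, x (g * k) * y (g * k) = (g • x k * x g) * (g • y k * y g) := by
    intro g k
    rw [hxy, mul_smul]
    have : g • k • b / b = g • (k • b / b) * (g • b / b) := by
      rw [smul_div', div_mul_div_cancel]
    rw [this, ← hxy k, ← hxy g, smul_mul']
    exact mul_mul_mul_comm _ _ _ _
  have hxc : IsMulCocycle₁ x := fun g k =>
    (huniq (hx _) (P.mul_mem (hP g _ (hx k)) (hx g)) (hy _) (U.mul_mem (hU g _ (hy k)) (hy g))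
      (hcoc g k)).1
  have hyc : IsMulCocycle₁ y := fun g k =>
    (huniq (hx _) (P.mul_mem (hP g _ (hx k)) (hx g)) (hy _) (U.mul_mem (hU g _ (hy k)) (hy g))
      (hcoc g k)).2
  obtain ⟨c, hc, hcx⟩ := h1P x hxc hx
  obtain ⟨u, hu, huy⟩ := h1U y hyc hy
  refine ⟨b / (c * u), fun g => ?_, ?_⟩
  · have h1 : g • b = (x g * y g) * b := by rw [hxy, div_mul_cancel]
    have h2 : g • c = x g * c := by rw [← hcx, div_mul_cancel]
    have h3 : g • u = y g * u := by rw [← huy, div_mul_cancel]
    rw [smul_div', smul_mul', h1, h2, h3]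
    rw [div_eq_div_iff_mul_eq_mul]
    simp only [mul_comm, mul_left_comm]
  · have : b / (c * u) / b = (c * u)⁻¹ := by
      rw [div_div, mul_comm, ← div_div, div_self', one_div]
    rw [this]
    exact (P ⊔ U).inv_mem
      (Subgroup.mul_mem_sup hc hu)

end Abstract

/-! ### `unitsOut` as a full product -/

section Product

variable (S : Finset Nat.Primes) (F : Type) [Field F] [NumberField F]
variable (G : Type) [Group G] [MulSemiringAction G F]

theorem isSMulStable_unitsOut : IsSMulStable G (unitsOut S F) :=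
  fun g _ hb => smul_mem_unitsOut S F G g hb

theorem isSMulStable_locIntUnits (q : Nat.Primes) : IsSMulStable G (locIntUnits F q) :=
  fun g _ hu => smul_mem_locIntUnits F G q g hu

/-- The action of `G` on `U_{F,S}`. -/
@[reducible] def unitsOutAction : MulDistribMulAction G (unitsOut S F) :=
  subgroupAction (unitsOut S F) (isSMulStable_unitsOut S F G)

/-- The action of `G` on the integral local units at `q`. -/
@[reducible] def locIntUnitsAction (q : Nat.Primes) : MulDistribMulAction G (locIntUnits F q) :=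
  subgroupAction (locIntUnits F q) (isSMulStable_locIntUnits F G q)

/-- The component at a prime `q ∉ S` of an element of `U_{F,S}`. -/
def unitsOutProj (q : {q : Nat.Primes // q ∉ S}) : unitsOut S F →* locIntUnits F q.1 where
  toFun b := ⟨((b : Idele F) : IdeleProd F).1 q.1, b.2.2.2 q.1 q.2⟩
  map_one' := rfl
  map_mul' _ _ := rfl

@[simp] lemma coe_unitsOutProj (q : {q : Nat.Primes // q ∉ S}) (b : unitsOut S F) :
    (unitsOutProj S F q b : (LocAlg F q.1)ˣ) = ((b : Idele F) : IdeleProd F).1 q.1 := rfl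

lemma unitsOutProj_smul (q : {q : Nat.Primes // q ∉ S}) (g : G) (b : unitsOut S F) :
    letI := unitsOutAction S F G
    letI := locIntUnitsAction F G q.1
    unitsOutProj S F q (g • b) = g • unitsOutProj S F q b := rfl

lemma unitsOutProj_jointly_injective {b b' : unitsOut S F}
    (h : ∀ q, unitsOutProj S F q b = unitsOutProj S F q b') : b = b' := by
  apply Subtype.ext
  apply Subtype.ext
  ext : 1
  · funext q
    by_cases hq : q ∈ S
    · rw [b.2.1 q hq, b'.2.1 q hq]
    · exact congrArg Subtype.val (h ⟨q, hq⟩)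
  · rw [b.2.2.1, b'.2.2.1]

open Classical in
lemma unitsOutProj_jointly_surjective (m : ∀ q : {q : Nat.Primes // q ∉ S}, locIntUnits F q.1) :
    ∃ b : unitsOut S F, ∀ q, unitsOutProj S F q b = m q := by
  let x : IdeleProd F :=
    (fun q => if hq : q ∈ S then 1 else ((m ⟨q, hq⟩ : locIntUnits F q) : (LocAlg F q)ˣ), 1)
  have hx1 : ∀ q ∈ S, x.1 q = 1 := fun q hq => dif_pos hq
  have hx2 : ∀ q (hq : q ∉ S), x.1 q = (m ⟨q, hq⟩ : (LocAlg F q)ˣ) := fun q hq => dif_neg hq
  have hx3 : ∀ q, x.1 q ∈ locIntUnits F q := by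
    intro q
    by_cases hq : q ∈ S
    · rw [hx1 q hq]; exact one_mem _
    · rw [hx2 q hq]; exact (m ⟨q, hq⟩).2
  have hx : x ∈ ideleSubgroup F := by
    rw [mem_ideleSubgroup]
    have : {q : Nat.Primes | x.1 q ∉ locIntUnits F q} = ∅ := by
      ext q
      simp [hx3 q]
    rw [this]
    exact Set.finite_empty
  refine ⟨⟨⟨x, hx⟩, hx1, rfl, fun q _ => hx3 q⟩, fun q => ?_⟩
  apply Subtype.ext
  exact hx2 q.1 q.2

/-- **`Hⁿ(G, U_{F,S})` vanishes if `Hⁿ(G, locIntUnits F q)` does for all `q ∉ S`.** -/
theorem isZero_groupCohomology_unitsOut (n : ℕ)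
    (h : ∀ q : Nat.Primes, q ∉ S → letI := locIntUnitsAction F G q
      IsZero (groupCohomology (Rep.ofMulDistribMulAction G (locIntUnits F q)) n)) :
    letI := unitsOutAction S F G
    IsZero (groupCohomology (Rep.ofMulDistribMulAction G (unitsOut S F)) n) := by
  let _ := unitsOutAction S F G
  let _ := fun q : Nat.Primes => locIntUnitsAction F G q
  refine Coh.ProductVanish.isZero_groupCohomology_of_forall
    (Rep.ofMulDistribMulAction G (unitsOut S F))
    (fun q : {q : Nat.Primes // q ∉ S} => Rep.ofMulDistribMulAction G (locIntUnits F q.1))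
    (fun q => repHom (unitsOutProj S F q) (fun g b => unitsOutProj_smul S F G q g b))
    ?_ ?_ n (fun q => h q.1 q.2)
  · intro a b hab
    have : a.toMul = b.toMul := unitsOutProj_jointly_injective S F fun q =>
      congrArg Additive.toMul (hab q)
    exact this
  · intro m
    obtain ⟨b, hb⟩ := unitsOutProj_jointly_surjective S F fun q => (m q).toMul
    exact ⟨Additive.ofMul b, fun q => congrArg Additive.ofMul (hb q)⟩

/-- Elementary form in degree one. -/
theorem h1TrivialOn_unitsOut
    (h : ∀ q : Nat.Primes, q ∉ S → letI := locIntUnitsAction F G q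
      IsZero (groupCohomology (Rep.ofMulDistribMulAction G (locIntUnits F q)) 1)) :
    H1TrivialOn G (unitsOut S F) :=
  h1TrivialOn_of_isZero (unitsOut S F) (isSMulStable_unitsOut S F G)
    (isZero_groupCohomology_unitsOut S F G 1 h)

/-- Elementary form in degree two. -/
theorem h2TrivialOn_unitsOut
    (h : ∀ q : Nat.Primes, q ∉ S → letI := locIntUnitsAction F G q
      IsZero (groupCohomology (Rep.ofMulDistribMulAction G (locIntUnits F q)) 2)) :
    H2TrivialOn G (unitsOut S F) :=
  h2TrivialOn_of_isZero (unitsOut S F) (isSMulStable_unitsOut S F G)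
    (isZero_groupCohomology_unitsOut S F G 2 h)

end Product

/-! ### Hilbert 90 for principal ideles and the lifting statement -/

section Lift

variable (S : Finset Nat.Primes) (F : Type) [Field F] [NumberField F]
variable (G : Type) [Group G] [MulSemiringAction G F]

theorem isSMulStable_range_principal : IsSMulStable G (principal F).range :=
  fun g _ hb => smul_mem_range_principal F G g hb

/-- Hilbert 90 for the subgroup of principal ideles. -/
theorem h1TrivialOn_range_principal [Finite G] [FaithfulSMul G F] :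
    H1TrivialOn G (principal F).range := by
  intro f hf hfP
  choose f₀ hf₀ using hfP
  have hinj : Function.Injective (principal F) := principal_injective F
  have hc : IsMulCocycle₁ f₀ := by
    intro g k
    apply hinj
    rw [map_mul, principal_smul, hf₀, hf₀, hf₀]
    exact hf g k
  obtain ⟨y, hy⟩ := EtaleAlg.isMulCoboundary₁_of_faithful f₀ hc
  refine ⟨principal F y, ⟨y, rfl⟩, fun g => ?_⟩
  rw [← hf₀ g, ← hy g, map_div, principal_smul]

/-- **Lifting**: an idele whose class modulo `Fˣ · U_{F,S}` is `G`-fixed is congruent modulo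
`Fˣ · U_{F,S}` to a `G`-fixed idele, provided `H¹(G, U_{F,S}) = 0` (elementary form). -/
theorem exists_fixed_div_mem [Finite G] [FaithfulSMul G F] (h1U : H1TrivialOn G (unitsOut S F))
    (b : Idele F) (hb : ∀ g : G, g • b / b ∈ (principal F).range ⊔ unitsOut S F) :
    ∃ b' : Idele F, (∀ g : G, g • b' = b') ∧ b' / b ∈ (principal F).range ⊔ unitsOut S F :=
  exists_fixed_div_mem_sup (principal F).range (unitsOut S F) (isSMulStable_range_principal F G)
    (isSMulStable_unitsOut S F G) (range_principal_inf_unitsOut S F)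
    (h1TrivialOn_range_principal F G) h1U b hb

end Lift

end Fermat.Agent.Lib.CFT.Global.SVersion.UnitsOutCoh
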