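import Mathlib
import Fermat.Agent.Lib.CFT.Global.Places.UnramLocalInt
import Fermat.Agent.Lib.CFT.Global.EtaleAlgHilbert90
import Fermat.Agent.Lib.CFT.Global.EtaleAlgSubUnitsTriv
import Fermat.Agent.Lib.CFT.Global.SVersion.UnitsOutCoh

/-!
# Cohomology of the integral local units at an unramified prime

`F` a number field, `G` a finite group acting on `F`, `q` a rational prime such that all the
inertia groups of `G` at the primes of `F` above `q` are trivial.  Then
`Hⁿ(G, locIntUnits F q) = 0` for all `n ≥ 1` (semi-local Shapiro lemma of `EtaleAlg*` plus the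
local vanishing of `Places/UnramLocalInt`).
-/

set_option linter.unusedSectionVars false

open scoped NumberField Pointwise

noncomputable section

namespace Fermat.Agent.Lib.CFT.Global.SVersion.UnitsOutCoh

open Fermat.Agent.Lib.CFT.Global Fermat.Agent.Lib.CFT.Global.Places
  Fermat.Agent.Lib.CFT.Global.EtaleAlg
  CategoryTheory CategoryTheory.Limits groupCohomology

attribute [local instance] Units.mulDistribMulActionRight

/-- The maximal spectrum of `ℚ_q ⊗ F`, with the instance path of the generic `EtaleAlg`
library. -/
abbrev MSpec (F : Type) [Field F] [NumberField F] (q : Nat.Primes) : Type :=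
  @MaximalSpectrum (LocAlg F q) CommRing.toCommSemiring

section RedW

variable (F : Type) [Field F] [NumberField F] (q : Nat.Primes)
variable (G : Type) [Group G] [MulSemiringAction G F]

/-- The image of the integral local units in the units of the residue field at `m`. -/
def redW (m : MSpec F q) : Submodule ℤ (Additive (LocAlg F q ⧸ m.asIdeal)ˣ) :=
  AddSubgroup.toIntSubmodule (Subgroup.toAddSubgroup ((locIntUnits F q).map (redUnits m)))

variable {F q}

lemma mem_redW (m : MSpec F q) (x : Additive (LocAlg F q ⧸ m.asIdeal)ˣ) :
    x ∈ redW F q m ↔ ∃ u ∈ locIntUnits F q, redUnits m u = x.toMul := Iff.rfl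

variable {G}

lemma redW_stable (m : MSpec F q) (s : MulAction.stabilizer G m) :
    redW F q m ≤ (redW F q m).comap
      (Representation.ofMulDistribMulAction (MulAction.stabilizer G m)
        (LocAlg F q ⧸ m.asIdeal)ˣ s) := by
  intro x hx
  obtain ⟨u, hu, hux⟩ := (mem_redW m x).1 hx
  refine (mem_redW m _).2 ⟨(s : G) • u, smul_mem_locIntUnits F G q (s : G) hu, ?_⟩
  rw [redUnits_stab_smul, hux]
  rfl

end RedW

section MemIff

variable {F : Type} [Field F] [NumberField F] {q : Nat.Primes}
variable {G : Type} [Group G] [MulSemiringAction G F]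

/-- The integral local units are the units of `ℚ_q ⊗ F` all of whose conjugates reduce into the
images `redW` at a covering family of maximal ideals. -/
theorem mem_locIntUnits_iff_mem_unitsSubmodule {ι : Type} (r : ι → MSpec F q)
    (hcov : ∀ m : MSpec F q, ∃ i, ∃ g : G, g • m = r i) (u : (LocAlg F q)ˣ) :
    u ∈ locIntUnits F q ↔
      Additive.ofMul u ∈ unitsSubmodule (G := G) r (fun i => redW F q (r i)) := by
  constructor
  · intro hu i g
    exact (mem_redW (r i) _).2 ⟨g • u, smul_mem_locIntUnits F G q g hu, rfl⟩
  · intro h
    rw [mem_locIntUnits_iff_forall_mem]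
    intro v
    obtain ⟨i, g, hg⟩ := hcov (primesEquivMaximalSpectrum F q v)
    obtain ⟨u', hu', hred⟩ := (mem_redW (r i) _).1 (h i g)
    have hu'' : g⁻¹ • u' ∈ locIntUnits F q := smul_mem_locIntUnits F G q g⁻¹ hu'
    have hcomp : locAlgUnitsEquivPi F q u v = locAlgUnitsEquivPi F q (g⁻¹ • u') v := by
      apply Units.ext
      rw [locAlgUnitsEquivPi_apply, locAlgUnitsEquivPi_apply, Ideal.Quotient.eq]
      have h1 : ((u' : LocAlg F q)) - ((g • u : (LocAlg F q)ˣ) : LocAlg F q) ∈ (r i).asIdeal := by
        rw [← Ideal.Quotient.eq]
        exact congrArg Units.val hred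
      rw [← hg, mem_smul_asIdeal_iff, smul_sub] at h1
      have h2 : g⁻¹ • ((g • u : (LocAlg F q)ˣ) : LocAlg F q) = (u : LocAlg F q) := by
        rw [Units.coe_smul, inv_smul_smul]
      rw [h2] at h1
      have h3 : (u : LocAlg F q) - ((g⁻¹ • u' : (LocAlg F q)ˣ) : LocAlg F q) =
          -(g⁻¹ • (u' : LocAlg F q) - (u : LocAlg F q)) := by
        rw [Units.coe_smul]; ring
      rw [h3]
      exact (Ideal.neg_mem_iff _).2 h1
    rw [hcomp]
    exact (mem_locIntUnits_iff_forall_mem _).1 hu'' v

end MemIff

section LocalPiece

variable {F : Type} [Field F] [NumberField F] {q : Nat.Primes}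
variable {G : Type} [Group G] [MulSemiringAction G F]

/-- The maximal ideal of `ℚ_q ⊗ F` attached to the prime `w`. -/
abbrev mOf (w : PrimesOver F q) : MSpec F q := primesEquivMaximalSpectrum F q w

lemma redUnits_mOf (w : PrimesOver F q) (u : (LocAlg F q)ˣ) :
    redUnits (mOf w) u = locAlgUnitsEquivPi F q u w := Units.ext rfl

open Classical in
/-- The image of the integral local units in the units of the local field at `w` is the unit
group of the valuation ring. -/
theorem map_redUnits_locIntUnits (w : PrimesOver F q) :
    (locIntUnits F q).map (redUnits (mOf w)) = localIntUnits F q w := by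
  ext x
  constructor
  · rintro ⟨u, hu, rfl⟩
    rw [redUnits_mOf]
    exact (mem_locIntUnits_iff_forall_mem u).1 hu w
  · intro hx
    let x' : (localField F q w)ˣ := x
    let y : ∀ v : PrimesOver F q, (localField F q v)ˣ :=
      Pi.mulSingle (M := fun v : PrimesOver F q => (localField F q v)ˣ) w x'
    have hyw : y w = x' := Pi.mulSingle_eq_same (M := fun v : PrimesOver F q => (localField F q v)ˣ) w x'
    have hy : ∀ v, y v ∈ localIntUnits F q v := by
      intro v
      by_cases hv : v = w
      · subst hv
        rw [hyw]
        exact hx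
      · have : y v = 1 :=
          Pi.mulSingle_eq_of_ne (M := fun v : PrimesOver F q => (localField F q v)ˣ) hv x'
        rw [this]
        exact one_mem _
    refine ⟨(locAlgUnitsEquivPi F q).symm y, ?_, ?_⟩
    · rw [SetLike.mem_coe, mem_locIntUnits_iff_forall_mem]
      intro v
      rw [MulEquiv.apply_symm_apply]
      exact hy v
    · rw [redUnits_mOf, MulEquiv.apply_symm_apply]
      exact hyw

lemma mem_redW_mOf (w : PrimesOver F q) (x : Additive (LocAlg F q ⧸ (mOf w).asIdeal)ˣ) :
    x ∈ redW F q (mOf w) ↔ x.toMul ∈ localIntUnits F q w := by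
  rw [← map_redUnits_locIntUnits w]
  rfl

/-- The two descriptions of the decomposition group. -/
def stabEquiv (w : PrimesOver F q) :
    MulAction.stabilizer G w.1.asIdeal ≃* MulAction.stabilizer G (mOf w) :=
  MulEquiv.subgroupCongr (Galois.stabilizer_primesEquiv q w).symm

@[simp] lemma coe_stabEquiv (w : PrimesOver F q) (d : MulAction.stabilizer G w.1.asIdeal) :
    ((stabEquiv w d : MulAction.stabilizer G (mOf w)) : G) = d := rfl

/-- The unit group of the valuation ring at `w`, as the module `redW` at the maximal ideal
attached to `w`. -/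
def unitsEquivRedW (w : PrimesOver F q) :
    Additive (localInt F q w)ˣ ≃ₗ[ℤ] redW F q (mOf w) :=
  AddEquiv.toIntLinearEquiv
    { toFun := fun a =>
        ⟨Additive.ofMul ((localIntUnitsEquiv F q w a.toMul : localIntUnits F q w) :
            (localField F q w)ˣ),
          (mem_redW_mOf w _).2 (localIntUnitsEquiv F q w a.toMul).2⟩
      invFun := fun x => Additive.ofMul
        ((localIntUnitsEquiv F q w).symm ⟨x.1.toMul, (mem_redW_mOf w _).1 x.2⟩)
      left_inv := fun a => by
        change Additive.ofMul ((localIntUnitsEquiv F q w).symm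
          ⟨((localIntUnitsEquiv F q w a.toMul : localIntUnits F q w) : (localField F q w)ˣ), _⟩) = a
        rw [Subtype.coe_eta, MulEquiv.symm_apply_apply]
        rfl
      right_inv := fun x => by
        apply Subtype.ext
        change Additive.ofMul (((localIntUnitsEquiv F q w)
          ((localIntUnitsEquiv F q w).symm ⟨x.1.toMul, _⟩) : localIntUnits F q w) :
            (localField F q w)ˣ) = x.1
        rw [MulEquiv.apply_symm_apply]
        rfl
      map_add' := fun a b => by
        apply Subtype.ext
        change Additive.ofMul (((localIntUnitsEquiv F q w) (a.toMul * b.toMul) :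
          localIntUnits F q w) : (localField F q w)ˣ) = _
        rw [map_mul]
        rfl }

lemma coe_unitsEquivRedW (w : PrimesOver F q) (a : Additive (localInt F q w)ˣ) :
    (((unitsEquivRedW w a : redW F q (mOf w)) :
      Additive (LocAlg F q ⧸ (mOf w).asIdeal)ˣ).toMul : LocAlg F q ⧸ (mOf w).asIdeal) =
      toLocalField F q w (a.toMul : localInt F q w) := rfl

set_option synthInstance.maxHeartbeats 400000 in
lemma unitsEquivRedW_equivariant (w : PrimesOver F q)
    (d : MulAction.stabilizer G w.1.asIdeal) (a : Additive (localInt F q w)ˣ) :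
    unitsEquivRedW w
        (Representation.ofMulDistribMulAction (MulAction.stabilizer G w.1.asIdeal)
          (localInt F q w)ˣ d a) =
      (Representation.ofMulDistribMulAction (MulAction.stabilizer G (mOf w))
        (LocAlg F q ⧸ (mOf w).asIdeal)ˣ).subrepresentation (redW F q (mOf w))
          (redW_stable (mOf w)) (stabEquiv w d) (unitsEquivRedW w a) := by
  apply Subtype.ext
  apply congrArg Additive.ofMul
  apply Units.ext
  let x : LocAlg F q ⧸ (mOf w).asIdeal := toLocalField F q w (a.toMul : localInt F q w)
  change toLocalField F q w ((d • a.toMul : (localInt F q w)ˣ) : localInt F q w) =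
    (stabEquiv w d) • x
  rw [Units.coe_smul, ← Galois.stab_smul_toLocalField]
  rfl

/-- **Local vanishing**: at a maximal ideal of `ℚ_q ⊗ F` whose prime has trivial inertia, the
module `redW` has trivial cohomology in positive degrees. -/
theorem isZero_groupCohomology_redW [Finite G]
    (hq : ∀ w : PrimesOver F q, Ideal.inertia G w.1.asIdeal = ⊥) (m : MSpec F q) (n : ℕ)
    [NeZero n] :
    IsZero (groupCohomology (Rep.of
      ((Representation.ofMulDistribMulAction (MulAction.stabilizer G m)
        (LocAlg F q ⧸ m.asIdeal)ˣ).subrepresentation (redW F q m) (redW_stable m))) n) := by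
  obtain ⟨w, rfl⟩ := (primesEquivMaximalSpectrum F q).surjective m
  have hB := Galois.isZero_groupCohomology_units_localInt w (hq w) n
  refine hB.of_iso (groupCohomology.mapIso (stabEquiv w) (unitsEquivRedW w) ?_ n).symm
  intro d
  apply LinearMap.ext
  intro a
  exact unitsEquivRedW_equivariant w d a

end LocalPiece

section Main

variable (F : Type) [Field F] [NumberField F] (q : Nat.Primes)
variable (G : Type) [Group G] [MulSemiringAction G F]

/-- The integral local units as the submodule `unitsSubmodule` of the generic library. -/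
def locIntUnitsEquivSub {ι : Type} (r : ι → MSpec F q)
    (hcov : ∀ m : MSpec F q, ∃ i, ∃ g : G, g • m = r i) :
    Additive (locIntUnits F q) ≃ₗ[ℤ] unitsSubmodule (G := G) r (fun i => redW F q (r i)) :=
  AddEquiv.toIntLinearEquiv
    { toFun := fun u => ⟨Additive.ofMul ((u.toMul : locIntUnits F q) : (LocAlg F q)ˣ),
        (mem_locIntUnits_iff_mem_unitsSubmodule r hcov _).1 u.toMul.2⟩
      invFun := fun x => Additive.ofMul (⟨x.1.toMul,
        (mem_locIntUnits_iff_mem_unitsSubmodule r hcov _).2 x.2⟩ : locIntUnits F q)
      left_inv := fun _ => rfl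
      right_inv := fun _ => rfl
      map_add' := fun _ _ => rfl }

/-- **`Hⁿ(G, locIntUnits F q) = 0` for `n ≥ 1`** when all inertia groups above `q` are trivial. -/
theorem isZero_groupCohomology_locIntUnits [Finite G]
    (hq : ∀ w : PrimesOver F q, Ideal.inertia G w.1.asIdeal = ⊥) (n : ℕ) [NeZero n] :
    letI := locIntUnitsAction F G q
    IsZero (groupCohomology (Rep.ofMulDistribMulAction G (locIntUnits F q)) n) := by
  classical
  let _ := locIntUnitsAction F G q
  have : Fintype (MulAction.orbitRel.Quotient G (MSpec F q)) := Fintype.ofFinite _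
  have hsub := isZero_groupCohomology_subUnits_of_forall G (orbitRep G (LocAlg F q))
    (fun i => redW F q (orbitRep G (LocAlg F q) i))
    (fun i => redW_stable (orbitRep G (LocAlg F q) i))
    (orbitRep_cov G (LocAlg F q)) (orbitRep_sep G (LocAlg F q)) n
    (fun i => isZero_groupCohomology_redW hq (orbitRep G (LocAlg F q) i) n)
  refine hsub.of_iso (groupCohomology.mapIso (MulEquiv.refl G)
    (locIntUnitsEquivSub F q G (orbitRep G (LocAlg F q)) (orbitRep_cov G (LocAlg F q))) ?_ n)
  intro g
  apply LinearMap.ext
  intro u
  rfl

/-- `H¹`-triviality of the integral local units at an unramified prime, elementary form. -/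
theorem h1TrivialOn_locIntUnits [Finite G]
    (hq : ∀ w : PrimesOver F q, Ideal.inertia G w.1.asIdeal = ⊥) :
    Coh.RestrictedProd.H1TrivialOn G (locIntUnits F q) :=
  h1TrivialOn_of_isZero (locIntUnits F q) (isSMulStable_locIntUnits F G q)
    (isZero_groupCohomology_locIntUnits F q G hq 1)

/-- `H²`-triviality of the integral local units at an unramified prime, elementary form. -/
theorem h2TrivialOn_locIntUnits [Finite G]
    (hq : ∀ w : PrimesOver F q, Ideal.inertia G w.1.asIdeal = ⊥) :
    Coh.RestrictedProd.H2TrivialOn G (locIntUnits F q) :=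
  h2TrivialOn_of_isZero (locIntUnits F q) (isSMulStable_locIntUnits F G q)
    (isZero_groupCohomology_locIntUnits F q G hq 2)

/-- Herbrand-triviality of the integral local units at an unramified prime, for a finite cyclic
group `G = ⟨s⟩`: fixed integral units are norms and norm-one integral units are twists. -/
theorem herbrandTrivialOn_locIntUnits [Fintype G]
    (hq : ∀ w : PrimesOver F q, Ideal.inertia G w.1.asIdeal = ⊥) (s : G)
    (hs : ∀ x, x ∈ Subgroup.zpowers s) :
    Coh.RestrictedProd.HerbrandTrivialOn G s (locIntUnits F q) := by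
  classical
  have : Fintype (MulAction.orbitRel.Quotient G (MSpec F q)) := Fintype.ofFinite _
  exact EtaleAlgSubUnitsTriv.herbrandTrivialOn_subUnits G (orbitRep G (LocAlg F q))
    (fun i => redW F q (orbitRep G (LocAlg F q) i))
    (fun i => redW_stable (orbitRep G (LocAlg F q) i))
    (orbitRep_cov G (LocAlg F q)) (orbitRep_sep G (LocAlg F q)) (locIntUnits F q)
    (fun x => mem_locIntUnits_iff_mem_unitsSubmodule _ (orbitRep_cov G (LocAlg F q)) x) s hs
    (fun i => isZero_groupCohomology_redW hq (orbitRep G (LocAlg F q) i) 1)
    (fun i => isZero_groupCohomology_redW hq (orbitRep G (LocAlg F q) i) 2)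

end Main

end Fermat.Agent.Lib.CFT.Global.SVersion.UnitsOutCoh
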