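import Mathlib
import Fermat.Agent.Lib.CFT.Global.SVersion.UnitsOutCoh
import Fermat.Agent.Lib.CFT.Global.SVersion.Descent
import Fermat.Agent.Lib.CFT.Profinite.BridgeRamification
import Fermat.Agent.Lib.CFT.Global.SVersion.LocIntUnitsCoh

/-!
# The lifting hypothesis of the descent of `C_S`

For Galois levels `L ≤ L'` (finite normal subextensions of `Qbar` unramified outside `S`) and
`G = Gal(L'.F / L.F)`: every prime of `L'.F` outside `S` has trivial inertia group in `G`, and the
lifting statement `Descent.LiftHyp S` follows from the vanishing of `H¹(G, locIntUnits L'.F q)`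
at the primes `q ∉ S`.
-/

set_option linter.unusedSectionVars false

open scoped NumberField

noncomputable section

namespace Fermat.Agent.Lib.CFT.Global.SVersion.UnitsOutCoh

open Fermat.Agent.Lib.CFT.Global Fermat.Agent.Lib.CFT.Global.SVersion
  Fermat.Agent.Lib.CFT.Global.SVersion.RepMul Fermat.Agent.Lib.CFT.Coh.RestrictedProd
  Fermat.Agent.Lib.CFT.Profinite.Bridge
  CategoryTheory CategoryTheory.Limits groupCohomology
open scoped Fermat.Agent.Lib.CFT.Global.SVersion

local notation "Qbar" => AlgebraicClosure ℚ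
local notation "Γℚ" => (AlgebraicClosure ℚ ≃ₐ[ℚ] AlgebraicClosure ℚ)

local instance isAlgebraicQbar_uol : Algebra.IsAlgebraic ℚ (AlgebraicClosure ℚ) :=
  AlgebraicClosure.isAlgebraic ℚ
local instance isAlgClosureQbar_uol : IsAlgClosure ℚ (AlgebraicClosure ℚ) :=
  ⟨inferInstance, inferInstance⟩
local instance normalQbar_uol : Normal ℚ (AlgebraicClosure ℚ) :=
  IsAlgClosure.normal ℚ (AlgebraicClosure ℚ)

section Inertia

/-- A prime with ramification index one has trivial inertia group. -/
theorem inertia_eq_bot_of_ramificationIdx_eq_one {K L : Type} [Field K] [NumberField K] [Field L]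
    [NumberField L] [Algebra K L] {G : Type} [Group G] [Finite G] [MulSemiringAction G L]
    [IsGaloisGroup G K L] (P : Ideal (𝓞 L)) [P.IsPrime] (hP : P ≠ ⊥)
    (h : P.ramificationIdx (𝓞 K) = 1) : Ideal.inertia G P = ⊥ := by
  have : IsGaloisGroup G (𝓞 K) (𝓞 L) := IsGaloisGroup.of_isFractionRing G (𝓞 K) (𝓞 L) K L
  set p := P.under (𝓞 K) with hp
  have hp0 : p ≠ ⊥ := Ideal.under_ne_bot (𝓞 K) hP
  have : p.IsMaximal := Ideal.IsPrime.isMaximal inferInstance hp0
  have h1 : Nat.card (P.inertia G) = p.ramificationIdxIn (𝓞 L) :=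
    Ideal.card_inertia_eq_ramificationIdxIn p P
  rw [Ideal.ramificationIdxIn_eq_ramificationIdx p P G, h] at h1
  exact Subgroup.card_eq_one.mp h1

end Inertia

section Levels

variable {S : Finset Nat.Primes}

/-- The inertia groups in `Gal(L'.F / L.F)` at the primes outside `S` are trivial. -/
theorem inertia_eq_bot_of_galLevel {L L' : GalLevel S} (h : L.F ≤ L'.F) {q : Nat.Primes}
    (hq : q ∉ S) (P' : Ideal (𝓞 L'.F)) [P'.IsPrime] (hqP' : ((q : ℕ) : 𝓞 L'.F) ∈ P') :
    letI := algebraOfLE h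
    Ideal.inertia (L'.F ≃ₐ[L.F] L'.F) P' = ⊥ := by
  let _ := algebraOfLE h
  have hst : IsScalarTower ℚ L.F L'.F := IsScalarTower.of_algebraMap_eq (fun r => by
    apply Subtype.ext
    rfl)
  have hgalQ : IsGalois ℚ L'.F := ⟨⟩
  have hgal : IsGalois L.F L'.F := IsGalois.tower_top_of_isGalois ℚ L.F L'.F
  have hne : P' ≠ ⊥ := by
    intro h0
    rw [h0, Ideal.mem_bot] at hqP'
    exact (Nat.cast_ne_zero.mpr q.2.ne_zero) hqP'
  exact inertia_eq_bot_of_ramificationIdx_eq_one (K := L.F) P' hne
    (ramificationIdx_eq_one_of_le h L'.unram hq P' hqP')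

/-- Trivial inertia outside `S` for any Galois group of `L'.F / L.F`. -/
theorem inertia_eq_bot_of_isGaloisGroup {L L' : GalLevel S} (h : L.F ≤ L'.F)
    (G : Type) [Group G] [Finite G] [MulSemiringAction G L'.F]
    (hG : letI := algebraOfLE h
      IsGaloisGroup G L.F L'.F) {q : Nat.Primes} (hq : q ∉ S)
    (w : Places.PrimesOver L'.F q) : Ideal.inertia G w.1.asIdeal = ⊥ := by
  let _ := algebraOfLE h
  have := hG
  exact inertia_eq_bot_of_ramificationIdx_eq_one (K := L.F) w.1.asIdeal w.1.ne_bot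
    (ramificationIdx_eq_one_of_le h L'.unram hq w.1.asIdeal w.2)

/-- **(U2)** `Hⁿ(G, U_{F',S}) = 0` for `n ≥ 1`, `G` any Galois group of `L'.F / L.F`. -/
theorem isZero_groupCohomology_unitsOut_galLevel {L L' : GalLevel S} (h : L.F ≤ L'.F)
    (G : Type) [Group G] [Finite G] [MulSemiringAction G L'.F]
    (hG : letI := algebraOfLE h
      IsGaloisGroup G L.F L'.F) (n : ℕ) [NeZero n] :
    letI := unitsOutAction S L'.F G
    IsZero (groupCohomology (Rep.ofMulDistribMulAction G (unitsOut S L'.F)) n) :=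
  isZero_groupCohomology_unitsOut S L'.F G n fun q hq =>
    isZero_groupCohomology_locIntUnits L'.F q G
      (fun w => inertia_eq_bot_of_isGaloisGroup h G hG hq w) n

/-- **(U1)** elementary form in degree one. -/
theorem h1TrivialOn_unitsOut_galLevel {L L' : GalLevel S} (h : L.F ≤ L'.F)
    (G : Type) [Group G] [Finite G] [MulSemiringAction G L'.F]
    (hG : letI := algebraOfLE h
      IsGaloisGroup G L.F L'.F) : H1TrivialOn G (unitsOut S L'.F) :=
  h1TrivialOn_of_isZero (unitsOut S L'.F) (isSMulStable_unitsOut S L'.F G)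
    (isZero_groupCohomology_unitsOut_galLevel h G hG 1)

/-- **(U1)** elementary form in degree two. -/
theorem h2TrivialOn_unitsOut_galLevel {L L' : GalLevel S} (h : L.F ≤ L'.F)
    (G : Type) [Group G] [Finite G] [MulSemiringAction G L'.F]
    (hG : letI := algebraOfLE h
      IsGaloisGroup G L.F L'.F) : H2TrivialOn G (unitsOut S L'.F) :=
  h2TrivialOn_of_isZero (unitsOut S L'.F) (isSMulStable_unitsOut S L'.F G)
    (isZero_groupCohomology_unitsOut_galLevel h G hG 2)

/-- **The lifting hypothesis** of `Descent`, from the local vanishing of `H¹` of the integral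
local units at the primes outside `S`. -/
theorem liftHyp_of_forall
    (hloc : ∀ (L L' : GalLevel S) (h : L.F ≤ L'.F) (q : Nat.Primes), q ∉ S →
      letI := algebraOfLE h
      letI := locIntUnitsAction L'.F (L'.F ≃ₐ[L.F] L'.F) q
      IsZero (groupCohomology
        (Rep.ofMulDistribMulAction (L'.F ≃ₐ[L.F] L'.F) (locIntUnits L'.F q)) 1)) :
    Descent.LiftHyp S := by
  intro L L' h b hb
  let _ := algebraOfLE h
  have hst : IsScalarTower ℚ L.F L'.F := IsScalarTower.of_algebraMap_eq (fun r => by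
    apply Subtype.ext
    rfl)
  have hgalQ : IsGalois ℚ L'.F := ⟨⟩
  have hgal : IsGalois L.F L'.F := IsGalois.tower_top_of_isGalois ℚ L.F L'.F
  have hbG : ∀ g : L'.F ≃ₐ[L.F] L'.F,
      g • b / b ∈ (principal L'.F).range ⊔ unitsOut S L'.F := by
    intro g
    let σ : Γℚ := (g.restrictScalars ℚ).liftNormal Qbar
    have hσ : ∀ x : L'.F, σ (x : Qbar) = ((g x : L'.F) : Qbar) := fun x =>
      AlgEquiv.liftNormal_commutes (g.restrictScalars ℚ) Qbar x
    have hσK : σ ∈ L.F.fixingSubgroup := by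
      rw [IntermediateField.mem_fixingSubgroup_iff]
      intro x hx
      have h1 := hσ (IntermediateField.inclusion h ⟨x, hx⟩)
      have h2 : g (IntermediateField.inclusion h ⟨x, hx⟩) =
          IntermediateField.inclusion h ⟨x, hx⟩ := g.commutes ⟨x, hx⟩
      rw [h2] at h1
      exact h1
    rw [smul_idele_congr L'.F g σ (fun x => by
      apply Subtype.ext
      rw [coe_galAction_smul, hσ]
      rfl) b]
    exact hb σ hσK
  have h1U : H1TrivialOn (L'.F ≃ₐ[L.F] L'.F) (unitsOut S L'.F) :=
    h1TrivialOn_unitsOut S L'.F (L'.F ≃ₐ[L.F] L'.F) (fun q hq => hloc L L' h q hq)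
  obtain ⟨b', hfix, hb'⟩ := exists_fixed_div_mem S L'.F (L'.F ≃ₐ[L.F] L'.F) h1U b hbG
  obtain ⟨b₀, hb₀⟩ := exists_ideleMap_eq_of_fixed L.F L'.F b' hfix
  refine ⟨b₀, ?_⟩
  have : levelMap h b₀ = b' := hb₀
  rw [this]
  exact hb'

/-- **(U3)** The lifting hypothesis of `Descent` holds. -/
theorem liftHyp (S : Finset Nat.Primes) : Descent.LiftHyp S := by
  refine liftHyp_of_forall fun L L' h q hq => ?_
  let _ := algebraOfLE h
  have hst : IsScalarTower ℚ L.F L'.F := IsScalarTower.of_algebraMap_eq (fun r => by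
    apply Subtype.ext
    rfl)
  have hgalQ : IsGalois ℚ L'.F := ⟨⟩
  have hgal : IsGalois L.F L'.F := IsGalois.tower_top_of_isGalois ℚ L.F L'.F
  exact isZero_groupCohomology_locIntUnits L'.F q (L'.F ≃ₐ[L.F] L'.F)
    (fun w => inertia_eq_bot_of_galLevel h hq w.1.asIdeal w.2) 1

end Levels

end Fermat.Agent.Lib.CFT.Global.SVersion.UnitsOutCoh
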