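import Fermat.Agent.Lib.CFT.Global.SVersion.Descent
import Fermat.Agent.Lib.CFT.Global.SVersion.UnitsOutLift

/-!
# Descent for an arbitrary base level field (helper45, P-CFT Global/S-version)

`Descent.lean` identifies the `V_F`-invariants of `C_S`, `J_S`, `E_S` for a GALOIS level `F`.  Here
the base `K` is an arbitrary finite subextension of `Qbar / ℚ` unramified outside `S` (not
necessarily normal over `ℚ`): only the auxiliary top level has to be Galois.

* saturation: for `h : K ≤ L'.F`, membership in `U_{·,S}`, `J_S(·)`, principal ideles and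
  `(·)ˣ U_{·,S}` can be tested after applying `levelMap h`;
* `toAmb_mem_*_iff`: membership of `toAmb K b` in the union subgroups of `AmbJ`;
* `levelToISOver`, `levelToCSOver`, `levelToJSOver`: the maps `Idele K → ⋃ Idele`,
  `C_S(K) → C_S`, `J_S(K) → J_S`, injective, with image fixed by `K.fixingSubgroup`;
* `liftHypOver`: the lifting statement (`H¹(Gal(L'.F/K), L'.Fˣ U_{L'.F,S}) = 0`) for the base `K`;
* `mem_range_levelTo{IS,JS,CS}Over_of_fixed`: the invariants of `K.fixingSubgroup` are exactly the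
  images (unconditional).
-/

set_option autoImplicit false

open scoped TensorProduct NumberField

noncomputable section

namespace Fermat.Agent.Lib.CFT.Global.SVersion.DescentOver

open Fermat.Agent.Lib.CFT.Global Fermat.Agent.Lib.CFT.Global.SVersion
open Fermat.Agent.Lib.CFT.Global.SVersion.Descent
open Fermat.Agent.Lib.CFT.Profinite Fermat.Agent.Lib.CFT.Profinite.Bridge RepMul
open scoped Fermat.Agent.Lib.CFT.Global.SVersion

local notation "Qbar" => AlgebraicClosure ℚ
local notation "Γℚ" => (AlgebraicClosure ℚ ≃ₐ[ℚ] AlgebraicClosure ℚ)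

local instance isAlgebraicQbar_dov : Algebra.IsAlgebraic ℚ (AlgebraicClosure ℚ) :=
  AlgebraicClosure.isAlgebraic ℚ
local instance isAlgClosureQbar_dov : IsAlgClosure ℚ (AlgebraicClosure ℚ) :=
  ⟨inferInstance, inferInstance⟩
local instance normalQbar_dov : Normal ℚ (AlgebraicClosure ℚ) :=
  IsAlgClosure.normal ℚ (AlgebraicClosure ℚ)
local instance isGaloisQbar_dov : IsGalois ℚ (AlgebraicClosure ℚ) := ⟨⟩

section Saturation

variable {S : Finset Nat.Primes} {K : IntermediateField ℚ Qbar} [FiniteDimensional ℚ K]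
  {L' : GalLevel S} (h : K ≤ L'.F)

/-- The image of an idele of `K` in a bigger Galois level is fixed by the fixing subgroup of `K`. -/
lemma smul_levelMap_of_mem_fixingSubgroup {σ : Γℚ} (hσ : σ ∈ K.fixingSubgroup) (b : Idele K) :
    σ • levelMap h b = levelMap h b := by
  apply toAmb_injective L'.F
  rw [toAmb_smul, toAmb_levelMap, smul_toAmb_of_mem_fixingSubgroup K hσ]

/-- `U_{F,S}` is saturated. -/
theorem levelMap_mem_unitsOut_iff (b : Idele K) :
    levelMap h b ∈ unitsOut S L'.F ↔ b ∈ unitsOut S K := by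
  refine ⟨fun hb => ⟨fun q hq => ?_, ?_, fun q hq => ?_⟩, fun hb => ideleMap_mem_unitsOut S _ hb⟩
  · apply locUnitsMap_injective ((IntermediateField.inclusion h : K →ₐ[ℚ] L'.F) : K →+* L'.F) q
    rw [map_one]
    exact hb.1 q hq
  · apply archUnitsMap_injective ((IntermediateField.inclusion h : K →ₐ[ℚ] L'.F) : K →+* L'.F)
    rw [map_one]
    exact hb.2.1
  · exact (locUnitsMap_mem_locIntUnits_iff
      ((IntermediateField.inclusion h : K →ₐ[ℚ] L'.F) : K →+* L'.F) q _).1 (hb.2.2 q hq)

/-- `J_S(F) × U_{F,S}` is saturated. -/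
theorem levelMap_mem_sIdeleGroup_iff (b : Idele K) :
    levelMap h b ∈ sIdeleGroup S L'.F ↔ b ∈ sIdeleGroup S K := by
  refine ⟨fun hb q hq => ?_, fun hb => ideleMap_mem_sIdeleGroup S _ hb⟩
  exact (locUnitsMap_mem_locIntUnits_iff
    ((IntermediateField.inclusion h : K →ₐ[ℚ] L'.F) : K →+* L'.F) q _).1 (hb q hq)

/-- `J_S(F)` is saturated. -/
theorem levelMap_mem_ideleAtS_iff (b : Idele K) :
    levelMap h b ∈ ideleAtS S L'.F ↔ b ∈ ideleAtS S K :=
  ideleMap_mem_ideleAtS_iff S _ b

/-- A principal idele of `L'.F` fixed by the fixing subgroup of `K` comes from `K`. -/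
lemma exists_principal_of_fixed (y : L'.Fˣ)
    (hy : ∀ σ ∈ K.fixingSubgroup, σ • principal L'.F y = principal L'.F y) :
    ∃ x : Kˣ, levelMap h (principal K x) = principal L'.F y := by
  have hy' : ∀ σ ∈ K.fixingSubgroup, σ ((y : L'.F) : Qbar) = ((y : L'.F) : Qbar) := by
    intro σ hσ
    have h1 := hy σ hσ
    rw [← principal_smul L'.F Γℚ σ y] at h1
    have h2 : σ • y = y := principal_injective L'.F h1
    have h3 : ((σ • y : L'.Fˣ) : L'.F) = (y : L'.F) := congrArg Units.val h2
    have h4 : ((σ • (y : L'.F) : L'.F) : Qbar) = ((y : L'.F) : Qbar) := congrArg Subtype.val h3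
    rwa [coe_galAction_smul] at h4
  obtain ⟨x, hx⟩ := exists_units_of_fixed h y hy'
  refine ⟨x, ?_⟩
  rw [levelMap, ideleMap_principal, hx]

/-- The principal ideles are saturated. -/
theorem levelMap_mem_range_principal_iff (b : Idele K) :
    levelMap h b ∈ (principal L'.F).range ↔ b ∈ (principal K).range := by
  constructor
  · rintro ⟨y, hy⟩
    obtain ⟨x, hx⟩ := exists_principal_of_fixed h y (fun σ hσ => by
      rw [hy]
      exact smul_levelMap_of_mem_fixingSubgroup h hσ b)
    exact ⟨x, levelMap_injective h (hx.trans hy)⟩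
  · rintro ⟨x, rfl⟩
    exact ⟨_, (ideleMap_principal _ x).symm⟩

/-- `Fˣ · U_{F,S}` is saturated. -/
theorem levelMap_mem_range_sup_unitsOut_iff (b : Idele K) :
    levelMap h b ∈ (principal L'.F).range ⊔ unitsOut S L'.F ↔
      b ∈ (principal K).range ⊔ unitsOut S K := by
  constructor
  · intro hb
    obtain ⟨_, ⟨y, rfl⟩, u, hu, hyu⟩ := Subgroup.mem_sup.1 hb
    have hfix : ∀ σ ∈ K.fixingSubgroup,
        σ • principal L'.F y = principal L'.F y ∧ σ • u = u := by
      intro σ hσ
      have h1 : σ • (principal L'.F y * u) = principal L'.F y * u := by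
        rw [hyu]
        exact smul_levelMap_of_mem_fixingSubgroup h hσ b
      rw [smul_mul'] at h1
      have h2 : (σ • principal L'.F y) / principal L'.F y = u / (σ • u) := by
        rw [div_eq_div_iff_mul_eq_mul, h1, mul_comm]
      have h3 : (σ • principal L'.F y) / principal L'.F y ∈
          (principal L'.F).range ⊓ unitsOut S L'.F := by
        refine Subgroup.mem_inf.2 ⟨Subgroup.div_mem _
          (smul_mem_range_principal L'.F Γℚ σ ⟨y, rfl⟩) ⟨y, rfl⟩, ?_⟩
        rw [h2]
        exact Subgroup.div_mem _ hu (smul_mem_unitsOut S L'.F Γℚ σ hu)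
      rw [range_principal_inf_unitsOut, Subgroup.mem_bot] at h3
      have h4 : σ • principal L'.F y = principal L'.F y := div_eq_one.1 h3
      refine ⟨h4, ?_⟩
      rw [h4] at h1
      exact mul_left_cancel h1
    obtain ⟨x, hx⟩ := exists_principal_of_fixed h y (fun σ hσ => (hfix σ hσ).1)
    obtain ⟨u₀, hu₀⟩ := exists_levelMap_eq_of_fixed h u (fun σ hσ => (hfix σ hσ).2)
    have hu₀' : u₀ ∈ unitsOut S K := (levelMap_mem_unitsOut_iff h u₀).1 (by rw [hu₀]; exact hu)
    have hb' : b = principal K x * u₀ := by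
      apply levelMap_injective h
      rw [map_mul, hx, hu₀, hyu]
    rw [hb']
    exact Subgroup.mem_sup.2 ⟨_, ⟨x, rfl⟩, _, hu₀', rfl⟩
  · intro hb
    obtain ⟨_, ⟨x, rfl⟩, u, hu, rfl⟩ := Subgroup.mem_sup.1 hb
    rw [map_mul]
    exact Subgroup.mem_sup.2 ⟨_, ⟨_, (ideleMap_principal _ x).symm⟩, _,
      ideleMap_mem_unitsOut S _ hu, rfl⟩

/-! Membership of `toAmb K b` in the union subgroups. -/

include h in
theorem toAmb_mem_prinS_iff (b : Idele K) :
    toAmb K b ∈ prinS S ↔ b ∈ (principal K).range := by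
  rw [← toAmb_levelMap h b, Descent.toAmb_mem_prinS_iff S L', levelMap_mem_range_principal_iff h]

include h in
theorem toAmb_mem_unitsOutS_iff (b : Idele K) :
    toAmb K b ∈ unitsOutS S ↔ b ∈ unitsOut S K := by
  rw [← toAmb_levelMap h b, Descent.toAmb_mem_unitsOutS_iff S L', levelMap_mem_unitsOut_iff h]

include h in
theorem toAmb_mem_ideleSS_iff (b : Idele K) :
    toAmb K b ∈ ideleSS S ↔ b ∈ ideleAtS S K := by
  rw [← toAmb_levelMap h b, Descent.toAmb_mem_ideleSS_iff S L', levelMap_mem_ideleAtS_iff h]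

include h in
theorem toAmb_mem_prinUnitsS_iff (b : Idele K) :
    toAmb K b ∈ prinUnitsS S ↔ b ∈ (principal K).range ⊔ unitsOut S K := by
  rw [← toAmb_levelMap h b, Descent.toAmb_mem_prinUnitsS_iff S L',
    levelMap_mem_range_sup_unitsOut_iff h]

include h in
theorem toAmb_mem_ideleS (b : Idele K) : toAmb K b ∈ ideleS S := by
  rw [← toAmb_levelMap h b]
  exact SVersion.toAmb_mem_ideleS S L' _

end Saturation

section LevelMaps

variable (S : Finset Nat.Primes) (K : IntermediateField ℚ Qbar) [FiniteDimensional ℚ K]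
  (hK : K.IsUnramifiedOutside S)

/-- The map `Idele K → ⋃_F Idele F` for an arbitrary level field `K`. -/
def levelToISOver : Idele K →* ISgrp S :=
  (toAmb K).codRestrict (ideleS S) (toAmb_mem_ideleS (GalLevel.le_ofUnram K hK))

@[simp] lemma coe_levelToISOver (b : Idele K) :
    (levelToISOver S K hK b : AmbJ) = toAmb K b := rfl

lemma levelToISOver_injective : Function.Injective (levelToISOver S K hK) := by
  intro b b' hbb'
  exact toAmb_injective K (congrArg Subtype.val hbb')

/-- The image of `Idele K` is fixed by the fixing subgroup of `K`. -/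
lemma smul_levelToISOver {σ : Γℚ} (hσ : σ ∈ K.fixingSubgroup) (b : Idele K) :
    σ • levelToISOver S K hK b = levelToISOver S K hK b :=
  Subtype.ext (smul_toAmb_of_mem_fixingSubgroup K hσ b)

lemma levelToISOver_mem_prinUnitsSub_iff (b : Idele K) :
    levelToISOver S K hK b ∈ prinUnitsSub S ↔ b ∈ (principal K).range ⊔ unitsOut S K :=
  toAmb_mem_prinUnitsS_iff (GalLevel.le_ofUnram K hK) b

/-- Compatibility with the transition maps. -/
lemma levelToIS_levelMap_over {L' : GalLevel S} (h : K ≤ L'.F) (b : Idele K) :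
    levelToIS S L' (levelMap h b) = levelToISOver S K hK b :=
  Subtype.ext (toAmb_levelMap h b)

/-- For a Galois level the two constructions agree. -/
lemma levelToISOver_eq (L : GalLevel S) : levelToISOver S L.F L.unram = levelToIS S L := rfl

/-- The map `C_S(K) → C_S` for an arbitrary level field `K`. -/
def levelToCSOver : CSLevel S K →* CSgrp S :=
  QuotientGroup.map _ (prinUnitsSub S) (levelToISOver S K hK)
    (fun b hb => (levelToISOver_mem_prinUnitsSub_iff S K hK b).2 hb)

@[simp] lemma levelToCSOver_mk (b : Idele K) :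
    levelToCSOver S K hK (QuotientGroup.mk b) = QuotientGroup.mk (levelToISOver S K hK b) := rfl

theorem levelToCSOver_injective : Function.Injective (levelToCSOver S K hK) := by
  rw [injective_iff_map_eq_one]
  intro c hc
  induction c using QuotientGroup.induction_on with
  | H b =>
    rw [levelToCSOver_mk, QuotientGroup.eq_one_iff] at hc
    rw [QuotientGroup.eq_one_iff]
    exact (levelToISOver_mem_prinUnitsSub_iff S K hK b).1 hc

/-- The image of `C_S(K)` is fixed by the fixing subgroup of `K`. -/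
theorem smul_levelToCSOver {σ : Γℚ} (hσ : σ ∈ K.fixingSubgroup) (c : CSLevel S K) :
    σ • levelToCSOver S K hK c = levelToCSOver S K hK c := by
  induction c using QuotientGroup.induction_on with
  | H b => rw [levelToCSOver_mk, smul_mk_CSgrp, smul_levelToISOver S K hK hσ]

/-- Compatibility with the transition maps. -/
lemma levelToCS_mk_levelMap_over {L' : GalLevel S} (h : K ≤ L'.F) (b : Idele K) :
    levelToCS S L' (QuotientGroup.mk (levelMap h b)) =
      levelToCSOver S K hK (QuotientGroup.mk b) := by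
  rw [levelToCS_mk, levelToCSOver_mk, levelToIS_levelMap_over S K hK h]

/-- For a Galois level the two constructions agree. -/
lemma levelToCSOver_eq (L : GalLevel S) : levelToCSOver S L.F L.unram = levelToCS S L := rfl

/-- The map `J_S(K) → J_S` for an arbitrary level field `K`. -/
def levelToJSOver : ideleAtS S K →* JSgrp S :=
  ((toAmb K).comp (ideleAtS S K).subtype).codRestrict (ideleSS S)
    (fun b => (toAmb_mem_ideleSS_iff (GalLevel.le_ofUnram K hK) (b : Idele K)).2 b.2)

@[simp] lemma coe_levelToJSOver (b : ideleAtS S K) :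
    (levelToJSOver S K hK b : AmbJ) = toAmb K b := rfl

theorem levelToJSOver_injective : Function.Injective (levelToJSOver S K hK) := by
  intro b b' hbb'
  exact Subtype.ext (toAmb_injective K (congrArg Subtype.val hbb'))

theorem smul_levelToJSOver {σ : Γℚ} (hσ : σ ∈ K.fixingSubgroup) (b : ideleAtS S K) :
    σ • levelToJSOver S K hK b = levelToJSOver S K hK b :=
  Subtype.ext (smul_toAmb_of_mem_fixingSubgroup K hσ (b : Idele K))

end LevelMaps

section Lift

open Fermat.Agent.Lib.CFT.Global.SVersion.UnitsOutCoh Fermat.Agent.Lib.CFT.Coh.RestrictedProd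
  CategoryTheory groupCohomology

variable {S : Finset Nat.Primes} {K : IntermediateField ℚ Qbar} [FiniteDimensional ℚ K]
  {L' : GalLevel S} (h : K ≤ L'.F)

/-- The inertia groups in `Gal(L'.F / K)` at the primes outside `S` are trivial. -/
theorem inertia_eq_bot_over {q : Nat.Primes}
    (hq : q ∉ S) (P' : Ideal (𝓞 L'.F)) [P'.IsPrime] (hqP' : ((q : ℕ) : 𝓞 L'.F) ∈ P') :
    letI := algebraOfLE h
    Ideal.inertia (L'.F ≃ₐ[K] L'.F) P' = ⊥ := by
  let _ := algebraOfLE h
  have hst : IsScalarTower ℚ K L'.F := IsScalarTower.of_algebraMap_eq (fun r => by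
    apply Subtype.ext
    rfl)
  have hgalQ : IsGalois ℚ L'.F := ⟨⟩
  have hgal : IsGalois K L'.F := IsGalois.tower_top_of_isGalois ℚ K L'.F
  have hne : P' ≠ ⊥ := by
    intro h0
    rw [h0, Ideal.mem_bot] at hqP'
    exact (Nat.cast_ne_zero.mpr q.2.ne_zero) hqP'
  exact inertia_eq_bot_of_ramificationIdx_eq_one (K := K) P' hne
    (ramificationIdx_eq_one_of_le h L'.unram hq P' hqP')

/-- **The lifting statement over an arbitrary base `K ≤ L'.F`**: an idele of `L'.F` whose class
modulo `L'.Fˣ U_{L'.F,S}` is fixed by the fixing subgroup of `K` is congruent to an idele of `K`. -/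
theorem liftHypOver (b : Idele L'.F)
    (hb : ∀ σ ∈ K.fixingSubgroup, σ • b / b ∈ (principal L'.F).range ⊔ unitsOut S L'.F) :
    ∃ b₀ : Idele K, levelMap h b₀ / b ∈ (principal L'.F).range ⊔ unitsOut S L'.F := by
  let _ := algebraOfLE h
  have hst : IsScalarTower ℚ K L'.F := IsScalarTower.of_algebraMap_eq (fun r => by
    apply Subtype.ext
    rfl)
  have hgalQ : IsGalois ℚ L'.F := ⟨⟩
  have hgal : IsGalois K L'.F := IsGalois.tower_top_of_isGalois ℚ K L'.F
  have hbG : ∀ g : L'.F ≃ₐ[K] L'.F,
      g • b / b ∈ (principal L'.F).range ⊔ unitsOut S L'.F := by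
    intro g
    let σ : Γℚ := (g.restrictScalars ℚ).liftNormal Qbar
    have hσ : ∀ x : L'.F, σ (x : Qbar) = ((g x : L'.F) : Qbar) := fun x =>
      AlgEquiv.liftNormal_commutes (g.restrictScalars ℚ) Qbar x
    have hσK : σ ∈ K.fixingSubgroup := by
      rw [IntermediateField.mem_fixingSubgroup_iff]
      intro x hx
      have h1 := hσ (IntermediateField.inclusion h ⟨x, hx⟩)
      have h2 : g (IntermediateField.inclusion h ⟨x, hx⟩) =
          IntermediateField.inclusion h ⟨x, hx⟩ := g.commutes ⟨x, hx⟩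
      rw [h2] at h1
      exact h1
    rw [smul_idele_congr L'.F g σ (fun x => by
      apply Subtype.ext
      rw [coe_galAction_smul, hσ]
      rfl) b]
    exact hb σ hσK
  have h1U : H1TrivialOn (L'.F ≃ₐ[K] L'.F) (unitsOut S L'.F) :=
    h1TrivialOn_unitsOut S L'.F (L'.F ≃ₐ[K] L'.F) (fun q hq =>
      isZero_groupCohomology_locIntUnits L'.F q (L'.F ≃ₐ[K] L'.F)
        (fun w => inertia_eq_bot_over h hq w.1.asIdeal w.2) 1)
  obtain ⟨b', hfix, hb'⟩ := exists_fixed_div_mem S L'.F (L'.F ≃ₐ[K] L'.F) h1U b hbG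
  obtain ⟨b₀, hb₀⟩ := exists_ideleMap_eq_of_fixed K L'.F b' hfix
  refine ⟨b₀, ?_⟩
  have : levelMap h b₀ = b' := hb₀
  rw [this]
  exact hb'

end Lift

section Invariants

variable (S : Finset Nat.Primes) (K : IntermediateField ℚ Qbar) [FiniteDimensional ℚ K]
  (hK : K.IsUnramifiedOutside S)

include hK in
/-- An element of `⋃_F Idele F` fixed by the fixing subgroup of `K` is an idele of `K`. -/
theorem mem_range_toAmb_of_fixed {a : AmbJ} (ha : a ∈ ideleS S)
    (hfix : ∀ σ ∈ K.fixingSubgroup, σ • a = a) : a ∈ (toAmb K).range := by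
  obtain ⟨L', hle, b, -, rfl⟩ := LevelSubgroups.exists_rep_of_le ha (GalLevel.ofUnram K hK)
  have hle' : K ≤ L'.F := (GalLevel.le_ofUnram K hK).trans hle
  obtain ⟨b₀, hb₀⟩ := exists_levelMap_eq_of_fixed hle' b (fun σ hσ => by
    apply toAmb_injective L'.F
    rw [toAmb_smul]
    exact hfix σ hσ)
  exact ⟨b₀, by rw [← hb₀, toAmb_levelMap]⟩

/-- `(⋃_F Idele F)^{V_K} = Idele K`. -/
theorem mem_range_levelToISOver_of_fixed (a : ISgrp S)
    (hfix : ∀ σ ∈ K.fixingSubgroup, σ • a = a) : a ∈ (levelToISOver S K hK).range := by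
  obtain ⟨b, hb⟩ := mem_range_toAmb_of_fixed S K hK a.2
    (fun σ hσ => congrArg Subtype.val (hfix σ hσ))
  exact ⟨b, Subtype.ext hb⟩

/-- `(J_S)^{V_K} = J_S(K)`. -/
theorem mem_range_levelToJSOver_of_fixed (a : JSgrp S)
    (hfix : ∀ σ ∈ K.fixingSubgroup, σ • a = a) : a ∈ (levelToJSOver S K hK).range := by
  obtain ⟨b, hb⟩ := mem_range_toAmb_of_fixed S K hK (ideleSS_le_ideleS S a.2)
    (fun σ hσ => congrArg Subtype.val (hfix σ hσ))
  have hb' : b ∈ ideleAtS S K :=
    (toAmb_mem_ideleSS_iff (GalLevel.le_ofUnram K hK) b).1 (by rw [hb]; exact a.2)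
  exact ⟨⟨b, hb'⟩, Subtype.ext hb⟩

/-- **`(C_S)^{V_K} = C_S(K)`** for an arbitrary level field `K` (unconditional). -/
theorem mem_range_levelToCSOver_of_fixed (c : CSgrp S)
    (hfix : ∀ σ ∈ K.fixingSubgroup, σ • c = c) : c ∈ (levelToCSOver S K hK).range := by
  induction c using QuotientGroup.induction_on with
  | H a =>
    obtain ⟨L', hle, b, -, hba⟩ :=
      LevelSubgroups.exists_rep_of_le a.2 (GalLevel.ofUnram K hK)
    have hle' : K ≤ L'.F := (GalLevel.le_ofUnram K hK).trans hle
    have hba' : levelToIS S L' b = a := Subtype.ext hba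
    have hcond : ∀ σ ∈ K.fixingSubgroup,
        σ • b / b ∈ (principal L'.F).range ⊔ unitsOut S L'.F := by
      intro σ hσ
      rw [← levelToIS_mem_prinUnitsSub_iff, map_div, levelToIS_smul, hba']
      have h1 := hfix σ hσ
      rw [smul_mk_CSgrp, QuotientGroup.eq] at h1
      have h2 := (prinUnitsSub S).inv_mem h1
      rwa [mul_inv_rev, inv_inv, mul_comm, ← div_eq_mul_inv] at h2
    obtain ⟨b₀, hb₀⟩ := liftHypOver hle' b hcond
    refine ⟨QuotientGroup.mk b₀, ?_⟩
    rw [levelToCSOver_mk, QuotientGroup.eq, ← hba', ← levelToIS_levelMap_over S K hK hle' b₀,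
      ← map_inv, ← map_mul, levelToIS_mem_prinUnitsSub_iff]
    have h3 := Subgroup.inv_mem _ hb₀
    rwa [inv_div, div_eq_mul_inv, mul_comm] at h3

/-- The range of `C_S(K) → C_S` is exactly the subgroup of `V_K`-invariants. -/
theorem mem_range_levelToCSOver_iff (c : CSgrp S) :
    c ∈ (levelToCSOver S K hK).range ↔ ∀ σ ∈ K.fixingSubgroup, σ • c = c := by
  constructor
  · rintro ⟨c₀, rfl⟩ σ hσ
    exact smul_levelToCSOver S K hK hσ c₀
  · exact mem_range_levelToCSOver_of_fixed S K hK c

/-- The range of `J_S(K) → J_S` is exactly the subgroup of `V_K`-invariants. -/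
theorem mem_range_levelToJSOver_iff (a : JSgrp S) :
    a ∈ (levelToJSOver S K hK).range ↔ ∀ σ ∈ K.fixingSubgroup, σ • a = a := by
  constructor
  · rintro ⟨b, rfl⟩ σ hσ
    exact smul_levelToJSOver S K hK hσ b
  · exact mem_range_levelToJSOver_of_fixed S K hK a

/-- The range of `Idele K → ⋃_F Idele F` is exactly the subgroup of `V_K`-invariants. -/
theorem mem_range_levelToISOver_iff (a : ISgrp S) :
    a ∈ (levelToISOver S K hK).range ↔ ∀ σ ∈ K.fixingSubgroup, σ • a = a := by
  constructor
  · rintro ⟨b, rfl⟩ σ hσ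
    exact smul_levelToISOver S K hK hσ b
  · exact mem_range_levelToISOver_of_fixed S K hK a

end Invariants

end Fermat.Agent.Lib.CFT.Global.SVersion.DescentOver
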