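import Fermat.Agent.Lib.CFT.Global.ExistenceDict
import Fermat.Agent.Lib.CFT.Global.SVersion.DescentOver

/-!
# The lifting statement over an arbitrary base level field, in the `ExistenceDict` form
(helper45, for helper78)

`ExistenceDict.LiftHypOver S K` holds unconditionally: it is `DescentOver.liftHypOver`.
-/

set_option autoImplicit false

noncomputable section

namespace Fermat.Agent.Lib.CFT.Global.SVersion.DescentOver

open Fermat.Agent.Lib.CFT.Global Fermat.Agent.Lib.CFT.Global.SVersion

/-- **The lifting hypothesis of `ExistenceDict` holds** for every finite subextension `K` of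
`AlgebraicClosure ℚ / ℚ`. -/
theorem liftHypOver_dict (S : Finset Nat.Primes)
    (K : IntermediateField ℚ (AlgebraicClosure ℚ)) [FiniteDimensional ℚ K] :
    ExistenceDict.LiftHypOver S K :=
  fun _ h b hb => liftHypOver h b hb

end Fermat.Agent.Lib.CFT.Global.SVersion.DescentOver
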