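/-
Quotients by cohomologically trivial submodules (P-CFT Global/S-version, abstract part (A)):
for a short exact sequence `0 → U → C → C/U → 0` of `G`-modules with `Hⁿ(G, U) = Hⁿ⁺¹(G, U) = 0`
the map `Hⁿ(G, C) → Hⁿ(G, C/U)` is bijective, and if `H¹(G, U) = 0` the invariants of `C/U` are the
images of the invariants of `C`.
-/
import Fermat.Agent.Lib.CFT.Coh.InfRes
import Fermat.Agent.Lib.CFT.Global.SVersion.RepMul

set_option autoImplicit false

namespace Fermat.Agent.Lib.CFT.Global.SVersion.CohTrivQuot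

open CategoryTheory groupCohomology
open Fermat.Agent.Lib.CFT.Coh.InfRes

universe u

section General

variable {k G : Type u} [CommRing k] [Group G] {X : ShortComplex (Rep.{u} k G)}
  (hX : X.ShortExact)

include hX in
/-- (A1) If `Hⁿ(G, X₁) = 0` then `Hⁿ(G, X₂) → Hⁿ(G, X₃)` is injective. -/
theorem map_g_injective (n : ℕ) (h0 : Subsingleton (groupCohomology X.X₁ n)) :
    Function.Injective (groupCohomology.map (MonoidHom.id G) X.g n) := by
  rw [injective_iff_map_eq_zero]
  intro x hx
  have hex := mapShortComplex₂_exact hX n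
  rw [ShortComplex.moduleCat_exact_iff] at hex
  obtain ⟨y, rfl⟩ := hex x hx
  have hy : y = 0 := h0.elim (y : groupCohomology X.X₁ n) 0
  rw [hy]
  exact map_zero _

include hX in
/-- (A1) If `Hⁿ⁺¹(G, X₁) = 0` then `Hⁿ(G, X₂) → Hⁿ(G, X₃)` is surjective. -/
theorem map_g_surjective (n : ℕ) (h1 : Subsingleton (groupCohomology X.X₁ (n + 1))) :
    Function.Surjective (groupCohomology.map (MonoidHom.id G) X.g n) := by
  intro z
  have hex := mapShortComplex₃_exact hX (rfl : n + 1 = n + 1)
  rw [ShortComplex.moduleCat_exact_iff] at hex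
  exact hex z (h1.elim (α := groupCohomology X.X₁ (n + 1)) _ _)

include hX in
/-- (A1) If `Hⁿ(G, X₁) = Hⁿ⁺¹(G, X₁) = 0` then `Hⁿ(G, X₂) → Hⁿ(G, X₃)` is bijective. -/
theorem map_g_bijective (n : ℕ) (h0 : Subsingleton (groupCohomology X.X₁ n))
    (h1 : Subsingleton (groupCohomology X.X₁ (n + 1))) :
    Function.Bijective (groupCohomology.map (MonoidHom.id G) X.g n) :=
  ⟨map_g_injective hX n h0, map_g_surjective hX n h1⟩

/-- (A1) as a linear equivalence. -/
noncomputable def mapGEquiv (n : ℕ) (h0 : Subsingleton (groupCohomology X.X₁ n))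
    (h1 : Subsingleton (groupCohomology X.X₁ (n + 1))) :
    groupCohomology X.X₂ n ≃ₗ[k] groupCohomology X.X₃ n :=
  LinearEquiv.ofBijective (groupCohomology.map (MonoidHom.id G) X.g n).hom
    (map_g_bijective hX n h0 h1)

@[simp] theorem mapGEquiv_apply (n : ℕ) (h0 : Subsingleton (groupCohomology X.X₁ n))
    (h1 : Subsingleton (groupCohomology X.X₁ (n + 1))) (x : groupCohomology X.X₂ n) :
    mapGEquiv hX n h0 h1 x = groupCohomology.map (MonoidHom.id G) X.g n x := rfl

include hX in
/-- (A1) as an `IsIso` statement. -/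
theorem isIso_map_g (n : ℕ) (h0 : Subsingleton (groupCohomology X.X₁ n))
    (h1 : Subsingleton (groupCohomology X.X₁ (n + 1))) :
    IsIso (groupCohomology.map (MonoidHom.id G) X.g n) :=
  (ConcreteCategory.isIso_iff_bijective _).2 (map_g_bijective hX n h0 h1)

/-- (A1) as an isomorphism in `ModuleCat`. -/
noncomputable def mapGIso (n : ℕ) (h0 : Subsingleton (groupCohomology X.X₁ n))
    (h1 : Subsingleton (groupCohomology X.X₁ (n + 1))) :
    groupCohomology X.X₂ n ≅ groupCohomology X.X₃ n :=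
  haveI := isIso_map_g hX n h0 h1
  asIso (groupCohomology.map (MonoidHom.id G) X.g n)

@[simp] theorem mapGIso_hom (n : ℕ) (h0 : Subsingleton (groupCohomology X.X₁ n))
    (h1 : Subsingleton (groupCohomology X.X₁ (n + 1))) :
    (mapGIso hX n h0 h1).hom = groupCohomology.map (MonoidHom.id G) X.g n := rfl

include hX in
/-- If `Hⁿ⁺¹(G, X₁) = 0` and `Hⁿ(G, X₂) = 0` then `Hⁿ(G, X₃) = 0`. -/
theorem subsingleton_X₃ (n : ℕ) (h1 : Subsingleton (groupCohomology X.X₁ (n + 1)))
    (h2 : Subsingleton (groupCohomology X.X₂ n)) : Subsingleton (groupCohomology X.X₃ n) :=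
  (map_g_surjective hX n h1).subsingleton

include hX in
/-- (A2) If `H¹(G, X₁) = 0`, every invariant of `X₃` lifts to an invariant of `X₂`. -/
theorem exists_invariant_lift (h1 : Subsingleton (H1 X.X₁)) (c : X.X₃)
    (hc : ∀ g : G, X.X₃.ρ g c = c) :
    ∃ b : X.X₂, (∀ g : G, X.X₂.ρ g b = b) ∧ X.g.hom b = c := by
  obtain ⟨b₀, hb₀⟩ := shortExact_surjective hX c
  -- the cocycle `σ ↦ a_σ` with `f a_σ = σ b₀ - b₀`
  have ha : ∀ g : G, ∃ a : X.X₁, X.f.hom a = X.X₂.ρ g b₀ - b₀ := by
    intro g
    apply shortExact_exists_of_g_eq_zero hX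
    rw [map_sub, Rep.hom_comm_apply, hb₀, hc g, sub_self]
  choose a ha using ha
  have hcoc : a ∈ cocycles₁ X.X₁ := by
    rw [mem_cocycles₁_iff]
    intro g h
    apply shortExact_injective hX
    rw [map_add, Rep.hom_comm_apply, ha, ha, ha, map_mul, Module.End.mul_apply, map_sub]
    abel
  have hzero : H1π X.X₁ ⟨a, hcoc⟩ = 0 := Subsingleton.elim _ _
  rw [H1π_eq_zero_iff] at hzero
  obtain ⟨a₀, ha₀⟩ := hzero
  refine ⟨b₀ - X.f.hom a₀, fun g => ?_, ?_⟩
  · have h3 : X.f.hom (X.X₁.ρ g a₀ - a₀) = X.X₂.ρ g b₀ - b₀ := by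
      rw [← ha g]
      congr 1
      have := congrFun ha₀ g
      rw [d₀₁_hom_apply] at this
      exact this
    rw [map_sub, ← Rep.hom_comm_apply, sub_eq_iff_eq_add]
    rw [map_sub] at h3
    rw [eq_sub_iff_add_eq] at h3
    rw [← h3]
    abel
  · rw [map_sub, hb₀, shortExact_g_f hX, sub_zero]

end General

section Mul

open Fermat.Agent.Lib.CFT.Global.SVersion.RepMul

variable {G : Type} [Group G] {A : Type} [CommGroup A] [MulDistribMulAction G A]

/-- (A3) Multiplicative form: if `N ≤ A` is a `G`-stable subgroup with `H¹(G, N) = 0`, then every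
`G`-invariant element of `A ⧸ N` is the image of a `G`-invariant element of `A`. -/
theorem exists_invariant_lift_mul (N : Subgroup A) (hN : IsSMulStable G N)
    (h1 : letI := subgroupAction N hN
      Subsingleton (H1 (Rep.ofMulDistribMulAction G N)))
    (c : A ⧸ N)
    (hc : letI := quotientAction N hN
      ∀ g : G, g • c = c) :
    ∃ a : A, (∀ g : G, g • a = a) ∧ (QuotientGroup.mk a : A ⧸ N) = c := by
  let _ := subgroupAction N hN
  let _ := quotientAction N hN
  have hX := shortExact_of_mul (G := G) N.subtype (fun _ _ => rfl) (QuotientGroup.mk' N)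
    (fun _ _ => rfl) N.subtype_injective (QuotientGroup.mk'_surjective N) (fun b => by
      rw [QuotientGroup.mk'_apply, QuotientGroup.eq_one_iff, Subgroup.range_subtype])
  obtain ⟨b, hb, hbc⟩ := exists_invariant_lift hX h1 (Additive.ofMul c)
    (fun g => congrArg Additive.ofMul (hc g))
  refine ⟨Additive.toMul (α := A) b, fun g => ?_, ?_⟩
  · exact congrArg (Additive.toMul (α := A)) (hb g)
  · exact congrArg (Additive.toMul (α := A ⧸ N)) hbc

end Mul

end Fermat.Agent.Lib.CFT.Global.SVersion.CohTrivQuot
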