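/-
Abstract lemmas for the `S`-version class formation (P-CFT Global/S-version, file (6) support):
* (F1) a class layer passes to the quotient by a submodule which is cohomologically trivial
  (degrees 2, 3) on every subgroup;
* (F2) transport of class layers along an isomorphism of pairs (group, module).
-/
import Fermat.Agent.Lib.CFT.Coh.TateThm.Main
import Fermat.Agent.Lib.CFT.Coh.MapBijective
import Fermat.Agent.Lib.CFT.Global.SVersion.CohTrivQuot

set_option autoImplicit false

namespace Fermat.Agent.Lib.CFT.Global.SVersion.FormationAbstract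

open CategoryTheory groupCohomology
open Fermat.Agent.Lib.CFT.Coh.TateThm Fermat.Agent.Lib.CFT.Global.SVersion.CohTrivQuot

section Quotient

variable {G : Type} [Group G] {X : ShortComplex (Rep.{0} ℤ G)} (hX : X.ShortExact)

/-- The image of a 2-cocycle under a morphism of representations is a 2-cocycle. -/
theorem comp_mem_cocycles₂ {A B : Rep.{0} ℤ G} (f : A ⟶ B) {u : G × G → A}
    (hu : u ∈ cocycles₂ A) : (fun p => f.hom (u p)) ∈ cocycles₂ B := by
  rw [mem_cocycles₂_iff] at hu ⊢
  intro g h j
  have := congrArg f.hom (hu g h j)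
  rw [map_add, map_add, Rep.hom_comm_apply] at this
  exact this

include hX in
/-- The restricted short exact sequence. -/
theorem shortExact_res (H : Subgroup G) : (X.map (Rep.resFunctor H.subtype)).ShortExact :=
  (Rep.shortExact_res H.subtype).2 hX

/-- The map induced by a morphism `f : A ⟶ B` on `H²(H, -)` sends the restriction of `[u]` to the
restriction of `[f ∘ u]`. -/
theorem map_H2π_resCocycle {A B : Rep.{0} ℤ G} (f : A ⟶ B) (H : Subgroup G) {u : G × G → A}
    (hu : u ∈ cocycles₂ A) :
    groupCohomology.map (MonoidHom.id H) (Rep.resMap H.subtype f) 2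
        (H2π (Rep.res H.subtype A) ⟨resCocycle u H.subtype, resCocycle_mem hu H.subtype⟩) =
      H2π (Rep.res H.subtype B) ⟨resCocycle (fun p => f.hom (u p)) H.subtype,
        resCocycle_mem (comp_mem_cocycles₂ f hu) H.subtype⟩ := by
  rw [H2π_comp_map_apply]
  congr 1

include hX in
theorem res_map_g_injective (H : Subgroup G)
    (h2 : Subsingleton (groupCohomology (Rep.res H.subtype X.X₁) 2)) :
    Function.Injective
      (groupCohomology.map (A := Rep.res H.subtype X.X₂) (B := Rep.res H.subtype X.X₃)
        (MonoidHom.id H) (Rep.resMap H.subtype X.g) 2) :=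
  map_g_injective (shortExact_res hX H) 2 h2

include hX in
theorem res_map_g_surjective (H : Subgroup G)
    (h3 : Subsingleton (groupCohomology (Rep.res H.subtype X.X₁) 3)) :
    Function.Surjective
      (groupCohomology.map (A := Rep.res H.subtype X.X₂) (B := Rep.res H.subtype X.X₃)
        (MonoidHom.id H) (Rep.resMap H.subtype X.g) 2) :=
  map_g_surjective (shortExact_res hX H) 2 h3

include hX in
theorem res_subsingleton_H1 (H : Subgroup G)
    (h2 : Subsingleton (groupCohomology (Rep.res H.subtype X.X₁) 2))
    (h1 : Subsingleton (groupCohomology (Rep.res H.subtype X.X₂) 1)) :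
    Subsingleton (groupCohomology (Rep.res H.subtype X.X₃) 1) :=
  subsingleton_X₃ (shortExact_res hX H) 1 h2 h1

include hX in
/-- **(F1)** A class layer passes to the quotient by a submodule whose `H²` and `H³` vanish on
every subgroup. -/
theorem isClassLayer_quotient
    (h2 : ∀ H : Subgroup G, Subsingleton (groupCohomology (Rep.res H.subtype X.X₁) 2))
    (h3 : ∀ H : Subgroup G, Subsingleton (groupCohomology (Rep.res H.subtype X.X₁) 3))
    {u : G × G → X.X₂} (hu : IsClassLayer X.X₂ u) :
    IsClassLayer X.X₃ (fun p => X.g.hom (u p)) where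
  cocycle := comp_mem_cocycles₂ X.g hu.cocycle
  h1 H := (ModuleCat.isZero_iff_subsingleton).2
    (res_subsingleton_H1 hX H (h2 H) ((ModuleCat.isZero_iff_subsingleton).1 (hu.h1 H)))
  h2_gen H x := by
    obtain ⟨y, rfl⟩ := res_map_g_surjective hX H (h3 H) x
    obtain ⟨m, hm⟩ := hu.h2_gen H y
    refine ⟨m, ?_⟩
    rw [hm, map_zsmul, map_H2π_resCocycle X.g H hu.cocycle]
  h2_ord H m hm := by
    apply hu.h2_ord H m
    apply res_map_g_injective hX H (h2 H)
    rw [map_zsmul, map_H2π_resCocycle X.g H hu.cocycle, map_zero]
    exact hm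

end Quotient

section Transport

variable {G G' : Type} [Group G] [Group G'] (φ : G ≃* G') {A : Rep.{0} ℤ G'} {A' : Rep.{0} ℤ G}
  (e : A' ≅ Rep.res φ.toMonoidHom A)

/-- The transported 2-cochain. -/
def transportCocycle (u : G' × G' → A) : G × G → A' :=
  fun p => e.inv.hom (u (φ p.1, φ p.2))

theorem transportCocycle_mem {u : G' × G' → A} (hu : u ∈ cocycles₂ A) :
    transportCocycle φ e u ∈ cocycles₂ A' :=
  comp_mem_cocycles₂ e.inv (resCocycle_mem hu φ.toMonoidHom)

theorem inv_hom_bijective : Function.Bijective e.inv.hom := by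
  refine Function.bijective_iff_has_inverse.2 ⟨e.hom.hom, fun x => ?_, fun x => ?_⟩
  · exact congr(($(e.inv_hom_id)).hom x)
  · exact congr(($(e.hom_inv_id)).hom x)

/-- The comparison morphism of representations along `H ≃* φ(H)`. -/
noncomputable def transportHom (H : Subgroup G) :
    Rep.res (φ.subgroupMap H).toMonoidHom (Rep.res (H.map (φ : G →* G')).subtype A) ⟶
      Rep.res H.subtype A' :=
  Rep.resMap H.subtype e.inv

theorem transportHom_apply (H : Subgroup G) (x : A) :
    (transportHom φ e H).hom x = e.inv.hom x := rfl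

theorem transport_map_bijective (H : Subgroup G) (n : ℕ) :
    Function.Bijective
      (groupCohomology.map (A := Rep.res (H.map (φ : G →* G')).subtype A)
        (B := Rep.res H.subtype A') (φ.subgroupMap H).toMonoidHom (transportHom φ e H) n) :=
  Fermat.Agent.Lib.CFT.Coh.MapBijective.map_bijective
    (A := Rep.res (H.map (φ : G →* G')).subtype A) (B := Rep.res H.subtype A')
    (φ.subgroupMap H).toMonoidHom (transportHom φ e H) (φ.subgroupMap H).bijective
    (inv_hom_bijective φ e) n

theorem transport_map_H2π (H : Subgroup G) {u : G' × G' → A} (hu : u ∈ cocycles₂ A) :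
    groupCohomology.map (A := Rep.res (H.map (φ : G →* G')).subtype A)
        (B := Rep.res H.subtype A') (φ.subgroupMap H).toMonoidHom (transportHom φ e H) 2
        (H2π (Rep.res (H.map (φ : G →* G')).subtype A)
          ⟨resCocycle u (H.map (φ : G →* G')).subtype,
            resCocycle_mem hu (H.map (φ : G →* G')).subtype⟩) =
      H2π (Rep.res H.subtype A') ⟨resCocycle (transportCocycle φ e u) H.subtype,
        resCocycle_mem (transportCocycle_mem φ e hu) H.subtype⟩ := by
  rw [H2π_comp_map_apply]
  congr 1

/-- **(F2)** Transport of a class layer along an isomorphism of pairs `(G, A') ≅ (G', A)`. -/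
theorem isClassLayer_transport {u : G' × G' → A} (hu : IsClassLayer A u) :
    IsClassLayer A' (transportCocycle φ e u) where
  cocycle := transportCocycle_mem φ e hu.cocycle
  h1 H := by
    have hs : Subsingleton (groupCohomology (Rep.res (H.map (φ : G →* G')).subtype A) 1) :=
      (ModuleCat.isZero_iff_subsingleton).1 (hu.h1 (H.map (φ : G →* G')))
    exact (ModuleCat.isZero_iff_subsingleton).2
      ((transport_map_bijective φ e H 1).2.subsingleton)
  h2_gen H x := by
    obtain ⟨y, rfl⟩ := (transport_map_bijective φ e H 2).2 x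
    obtain ⟨m, hm⟩ := hu.h2_gen (H.map (φ : G →* G')) y
    refine ⟨m, ?_⟩
    rw [hm, map_zsmul, transport_map_H2π φ e H hu.cocycle]
  h2_ord H m hm := by
    have hcard : Nat.card H = Nat.card (H.map (φ : G →* G')) :=
      Nat.card_congr (φ.subgroupMap H).toEquiv
    rw [hcard]
    apply hu.h2_ord (H.map (φ : G →* G')) m
    apply (transport_map_bijective φ e H 2).1
    rw [map_zsmul, transport_map_H2π φ e H hu.cocycle, map_zero]
    exact hm

end Transport

end Fermat.Agent.Lib.CFT.Global.SVersion.FormationAbstract
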