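import Fermat.Agent.Lib.CFT.Global.SVersion.Descent
import Fermat.Agent.Lib.CFT.Global.SVersion.Reps
import Fermat.Agent.Lib.CFT.Global.SVersion.LevelFamilyAt

/-!
# Galois descent for the `S`-version modules, as isomorphisms of representations
(helper45, P-CFT Global/S-version, item (3) of the block plan)

Let `L'` be a Galois level (finite Galois `L'.F / ℚ` inside `Qbar`, unramified outside `S`),
`V' = L'.V = Gal(Qbar / L'.F)`.  Let `G` be a group with a homomorphism `ι : G →* Γℚ` whose image
contains `V'` (in practice `ι = W.subtype` for a subgroup `V' ≤ W ≤ Γℚ`, e.g. the fixing subgroup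
of a subfield `F₀ ≤ L'.F`, or `ι = id`).  Put `N = ι⁻¹ V'` (`NSub`), `Q = G ⧸ N` (`QGrp`).

* `qAction`, `faithful_qAction`, `finite_QGrp`: the finite group `Q` acts faithfully on the number
  field `L'.F` (action form of `Gal(L'.F / F₀)`), hence on `Idele L'.F`, `IdeleClass L'.F`;
  `mk_smul`, `mk_smul_idele`, `mk_smul_ideleClass`: `mk g` acts as `ι g`.
* for ANY group `G` acting on a number field `F` (scoped instances): `unitsOutAction`, `atSAction`,
  `sUnitsAction`, `csAction` on `U_{F,S}`, `J_S(F)`, `E_S(F)`, `C_S(F)`; the representations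
  `unitsOutRep`, `atSRep`, `sUnitsRep`, `csRep`; the finite-level short exact sequence
  `levelSeq S F G : 0 → U_{F,S} → C_F → C_S(F) → 0` (`shortExact_levelSeq`,
  middle term `ideleClassRep F G` by `rfl`).
* `descentIsoRes`: abstract descent along `ι`.
* `csDescentIso` (under `LiftHyp`), `jsDescentIso`, `esDescentIso`, `isDescentIso`: isomorphisms of
  `Rep ℤ Q` between the finite-level module and `(Rep.res ι X).quotientToInvariants N`,
  `X = CS S, JS S, ES S`, ideles.
* `...Top`: the case `G = Γℚ`, `Q = Γℚ ⧸ L.V` (`QTop`), target `(X S).quotientToInvariants L.V`.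
* `...Over`: the case `G = ↥W`, `Q = ↥W ⧸ (L'.V).subgroupOf W` (`QOver`), target
  `(Rep.res W.subtype (X S)).quotientToInvariants ((L'.V).subgroupOf W)` (the levels of
  `galFamilyOver`).
-/

set_option autoImplicit false

open scoped TensorProduct NumberField
open CategoryTheory

noncomputable section

namespace Fermat.Agent.Lib.CFT.Global.SVersion.RepDescent

open Fermat.Agent.Lib.CFT.Global Fermat.Agent.Lib.CFT.Global.SVersion
open Fermat.Agent.Lib.CFT.Global.SVersion.Descent
open Fermat.Agent.Lib.CFT.Profinite Fermat.Agent.Lib.CFT.Profinite.Bridge RepMul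
open scoped Fermat.Agent.Lib.CFT.Global.SVersion

local notation "Qbar" => AlgebraicClosure ℚ
local notation "Γℚ" => (AlgebraicClosure ℚ ≃ₐ[ℚ] AlgebraicClosure ℚ)

local instance isAlgebraicQbar_rd : Algebra.IsAlgebraic ℚ (AlgebraicClosure ℚ) :=
  AlgebraicClosure.isAlgebraic ℚ
local instance isAlgClosureQbar_rd : IsAlgClosure ℚ (AlgebraicClosure ℚ) :=
  ⟨inferInstance, inferInstance⟩
local instance normalQbar_rd : Normal ℚ (AlgebraicClosure ℚ) :=
  IsAlgClosure.normal ℚ (AlgebraicClosure ℚ)
local instance isGaloisQbar_rd : IsGalois ℚ (AlgebraicClosure ℚ) := ⟨⟩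

/-! ### Abstract descent along a group homomorphism -/

section AbstractDescent

variable {Γ G : Type} [Group Γ] [Group G] (ι : G →* Γ) (N : Subgroup G) [N.Normal]
variable {A B : Type} [CommGroup A] [CommGroup B] [MulDistribMulAction (G ⧸ N) A]
  [MulDistribMulAction Γ B]

/-- The restriction along `ι` of the representation attached to a `Γ`-module `B`. -/
abbrev resRepn (B : Type) [CommGroup B] [MulDistribMulAction Γ B] :
    Representation ℤ G (Additive B) :=
  (Representation.ofMulDistribMulAction Γ B).comp ι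

/-- Abstract descent: `B` a `Γ`-module, `ι : G →* Γ`, `N ⊴ G`, `A` a `G ⧸ N`-module and
`f : A →* B` injective, equivariant, with image the `ι N`-invariants.  Then `A` is the
`G ⧸ N`-representation on the `N`-invariants of `B` restricted along `ι`. -/
def descentEquivRes (f : A →* B) (hinj : Function.Injective f)
    (hequiv : ∀ (g : G) (a : A), f ((g : G ⧸ N) • a) = ι g • f a)
    (hsurj : ∀ b : B, (∀ n : N, ι (n : G) • b = b) → ∃ a, f a = b) :
    (Representation.ofMulDistribMulAction (G ⧸ N) A).Equiv
      ((resRepn ι B).quotientToInvariants N) := by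
  have hmem : ∀ a : Additive A, (MonoidHom.toAdditive f).toIntLinearMap a ∈
      Representation.invariants ((resRepn ι B).comp N.subtype) := by
    intro a n
    change Additive.ofMul (ι (n : G) • f a.toMul) = Additive.ofMul (f a.toMul)
    rw [← hequiv]
    have h1 : ((n : G) : G ⧸ N) = 1 := (QuotientGroup.eq_one_iff _).2 n.2
    rw [h1, one_smul]
  let φ : Additive A →ₗ[ℤ]
      Representation.invariants ((resRepn ι B).comp N.subtype) :=
    LinearMap.codRestrict _ (MonoidHom.toAdditive f).toIntLinearMap hmem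
  have hφ : Function.Bijective φ := by
    constructor
    · intro a b hab
      have h1 := congrArg Subtype.val hab
      exact congrArg Additive.ofMul (hinj (congrArg Additive.toMul h1))
    · rintro ⟨b, hb⟩
      obtain ⟨a, ha⟩ := hsurj b.toMul (fun n => congrArg Additive.toMul (hb n))
      exact ⟨Additive.ofMul a, Subtype.ext (congrArg Additive.ofMul ha)⟩
  refine Representation.Equiv.mk (LinearEquiv.ofBijective φ hφ) ?_
  intro q
  induction q using QuotientGroup.induction_on with
  | H g =>
    ext a
    exact hequiv g a.toMul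

lemma descentEquivRes_apply (f : A →* B) (hinj : Function.Injective f)
    (hequiv : ∀ (g : G) (a : A), f ((g : G ⧸ N) • a) = ι g • f a)
    (hsurj : ∀ b : B, (∀ n : N, ι (n : G) • b = b) → ∃ a, f a = b) (a : Additive A) :
    ((descentEquivRes ι N f hinj hequiv hsurj a : Representation.invariants
      ((resRepn ι B).comp N.subtype)) : Additive B) =
      Additive.ofMul (f a.toMul) := rfl

/-- The abstract descent isomorphism in `Rep ℤ (G ⧸ N)`. -/
def descentIsoRes (f : A →* B) (hinj : Function.Injective f)
    (hequiv : ∀ (g : G) (a : A), f ((g : G ⧸ N) • a) = ι g • f a)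
    (hsurj : ∀ b : B, (∀ n : N, ι (n : G) • b = b) → ∃ a, f a = b) :
    Rep.ofMulDistribMulAction (G ⧸ N) A ≅
      (Rep.res ι (Rep.ofMulDistribMulAction Γ B)).quotientToInvariants N :=
  Rep.mkIso (descentEquivRes ι N f hinj hequiv hsurj)

lemma descentIsoRes_hom_apply (f : A →* B) (hinj : Function.Injective f)
    (hequiv : ∀ (g : G) (a : A), f ((g : G ⧸ N) • a) = ι g • f a)
    (hsurj : ∀ b : B, (∀ n : N, ι (n : G) • b = b) → ∃ a, f a = b) (a : Additive A) :
    (((descentIsoRes ι N f hinj hequiv hsurj).hom.hom a :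
      (Rep.res ι (Rep.ofMulDistribMulAction Γ B)).quotientToInvariants N).1 : Additive B) =
      Additive.ofMul (f a.toMul) := rfl

end AbstractDescent

/-! ### The finite quotient acting on a Galois level -/

section Group

variable {S : Finset Nat.Primes} {G : Type} [Group G] (ι : G →* Γℚ) (L' : GalLevel S)

/-- The normal subgroup `N = ι⁻¹ Gal(Qbar / L'.F)` of `G`.  For `ι = V.subtype` this is
`(L'.V).subgroupOf V` (by `rfl`). -/
def NSub : Subgroup G := (L'.V).comap ι

lemma mem_NSub {g : G} : g ∈ NSub ι L' ↔ ι g ∈ L'.V := Iff.rfl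

lemma NSub_subtype (V : Subgroup Γℚ) : NSub V.subtype L' = (L'.V).subgroupOf V := rfl

instance normal_NSub : (NSub ι L').Normal := by
  unfold NSub
  infer_instance

instance finiteIndex_NSub : (NSub ι L').FiniteIndex := by
  have h1 : (L'.V).FiniteIndex := L'.finiteIndex_V
  refine ⟨?_⟩
  unfold NSub
  rw [Subgroup.index_comap]
  exact (inferInstance : ((L'.V).subgroupOf ι.range).FiniteIndex).index_ne_zero

/-- The finite quotient `Q = G ⧸ N` (`≃ Gal(L'.F / F₀)` when `G = Gal(Qbar / F₀)`, `F₀ ≤ L'.F`). -/
abbrev QGrp : Type := G ⧸ NSub ι L'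

instance finite_QGrp : Finite (QGrp ι L') := Subgroup.finite_quotient_of_finiteIndex

/-- `G` acts on `L'.F` through `ι` and the Galois action of `Γℚ` on the normal field `L'.F`. -/
def gToRingAut : G →* RingAut L'.F :=
  (MulSemiringAction.toRingAut Γℚ L'.F).comp ι

lemma gToRingAut_apply (g : G) (x : L'.F) : gToRingAut ι L' g x = ι g • x := rfl

lemma NSub_le_ker : NSub ι L' ≤ (gToRingAut ι L').ker := by
  intro n hn
  rw [MonoidHom.mem_ker]
  ext x
  rw [gToRingAut_apply, coe_galAction_smul]
  exact (IntermediateField.mem_fixingSubgroup_iff L'.F (ι n)).1 hn _ x.2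

/-- `Q = G ⧸ N` acts on `L'.F` by ring automorphisms. -/
def qToRingAut : QGrp ι L' →* RingAut L'.F :=
  QuotientGroup.lift (NSub ι L') (gToRingAut ι L') (NSub_le_ker ι L')

/-- The action of `Q = G ⧸ N` on the field `L'.F`. -/
instance qAction : MulSemiringAction (QGrp ι L') L'.F :=
  MulSemiringAction.compHom L'.F (qToRingAut ι L')

lemma mk_smul (g : G) (x : L'.F) :
    ((QuotientGroup.mk g : QGrp ι L') • x : L'.F) = ι g • x := rfl

lemma coe_mk_smul (g : G) (x : L'.F) :
    (((QuotientGroup.mk g : QGrp ι L') • x : L'.F) : Qbar) = ι g (x : Qbar) := by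
  rw [mk_smul, coe_galAction_smul]

instance faithful_qAction : FaithfulSMul (QGrp ι L') L'.F := by
  refine ⟨fun {q q'} hqq' => ?_⟩
  induction q using QuotientGroup.induction_on with
  | H σ =>
    induction q' using QuotientGroup.induction_on with
    | H τ =>
      rw [QuotientGroup.eq]
      change ι (σ⁻¹ * τ) ∈ L'.F.fixingSubgroup
      rw [IntermediateField.mem_fixingSubgroup_iff]
      intro x hx
      have h1 := congrArg (fun y : L'.F => (y : Qbar)) (hqq' ⟨x, hx⟩)
      simp only [coe_mk_smul] at h1
      rw [map_mul, map_inv]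
      change (ι σ)⁻¹ ((ι τ) x) = x
      rw [← h1]
      change ((ι σ)⁻¹ * (ι σ)) x = x
      rw [inv_mul_cancel]
      rfl

/-- The action of `Q` on the ideles of `L'.F` is induced by the action of `Γℚ`. -/
lemma mk_smul_idele (g : G) (b : Idele L'.F) :
    (QuotientGroup.mk g : QGrp ι L') • b = ι g • b :=
  smul_idele_congr L'.F (QuotientGroup.mk g : QGrp ι L') (ι g) (fun x => mk_smul ι L' g x) b

lemma mk_smul_ideleClass (g : G) (c : IdeleClass L'.F) :
    (QuotientGroup.mk g : QGrp ι L') • c = ι g • c :=
  smul_ideleClass_congr L'.F (QuotientGroup.mk g : QGrp ι L') (ι g)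
    (fun x => mk_smul ι L' g x) c

end Group

/-! ### The finite-level modules for an arbitrary group acting on a number field -/

section LevelModules

variable (S : Finset Nat.Primes) (F : Type) [Field F] [NumberField F]
variable (G : Type) [Group G] [MulSemiringAction G F]

lemma isSMulStable_unitsOut : IsSMulStable G (unitsOut S F) :=
  fun g _ hb => smul_mem_unitsOut S F G g hb

lemma isSMulStable_ideleAtS : IsSMulStable G (ideleAtS S F) :=
  fun g _ hb => smul_mem_ideleAtS S F G g hb

lemma isSMulStable_range_principal : IsSMulStable G (principal F).range :=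
  fun g _ hb => smul_mem_range_principal F G g hb

lemma isSMulStable_prinUnitsOut : IsSMulStable G ((principal F).range ⊔ unitsOut S F) :=
  IsSMulStable.sup (isSMulStable_range_principal F G) (isSMulStable_unitsOut S F G)

lemma isSMulStable_sUnitsS : IsSMulStable G (sUnitsS S F) :=
  fun g _ hx => smul_mem_sUnitsS S F G g hx

/-- The action of `G` on `U_{F,S}`. -/
scoped instance unitsOutAction : MulDistribMulAction G (unitsOut S F) :=
  subgroupAction _ (isSMulStable_unitsOut S F G)

/-- The action of `G` on `J_S(F)`. -/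
scoped instance atSAction : MulDistribMulAction G (ideleAtS S F) :=
  subgroupAction _ (isSMulStable_ideleAtS S F G)

/-- The action of `G` on `E_S(F)`. -/
scoped instance sUnitsAction : MulDistribMulAction G (sUnitsS S F) :=
  subgroupAction _ (isSMulStable_sUnitsS S F G)

/-- The action of `G` on `C_S(F) = J_F ⧸ Fˣ U_{F,S}`. -/
scoped instance csAction : MulDistribMulAction G (CSLevel S F) :=
  quotientAction _ (isSMulStable_prinUnitsOut S F G)

@[simp] lemma coe_smul_unitsOut (g : G) (b : unitsOut S F) :
    ((g • b : unitsOut S F) : Idele F) = g • (b : Idele F) := rfl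

@[simp] lemma coe_smul_atS (g : G) (b : ideleAtS S F) :
    ((g • b : ideleAtS S F) : Idele F) = g • (b : Idele F) := rfl

@[simp] lemma coe_smul_sUnits (g : G) (x : sUnitsS S F) :
    ((g • x : sUnitsS S F) : Fˣ) = g • (x : Fˣ) := rfl

lemma smul_mk_cs (g : G) (b : Idele F) :
    g • (QuotientGroup.mk b : CSLevel S F) = QuotientGroup.mk (g • b) := rfl

/-- `U_{F,S}`, `J_S(F)`, `E_S(F)`, `C_S(F)` as representations of `G`. -/
abbrev unitsOutRep : Rep ℤ G := Rep.ofMulDistribMulAction G (unitsOut S F)

/-- `J_S(F)` as a representation of `G`. -/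
abbrev atSRep : Rep ℤ G := Rep.ofMulDistribMulAction G (ideleAtS S F)

/-- `E_S(F)` as a representation of `G`. -/
abbrev sUnitsRep : Rep ℤ G := Rep.ofMulDistribMulAction G (sUnitsS S F)

/-- `C_S(F)` as a representation of `G`. -/
abbrev csRep : Rep ℤ G := Rep.ofMulDistribMulAction G (CSLevel S F)

/-- The map `U_{F,S} → C_F`. -/
def unitsOutToClass : unitsOut S F →* IdeleClass F :=
  (QuotientGroup.mk' (principal F).range).comp (unitsOut S F).subtype

@[simp] lemma unitsOutToClass_apply (b : unitsOut S F) :
    unitsOutToClass S F b = QuotientGroup.mk (b : Idele F) := rfl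

/-- The map `C_F → C_S(F)`. -/
def classToCS : IdeleClass F →* CSLevel S F :=
  QuotientGroup.map (principal F).range ((principal F).range ⊔ unitsOut S F) (MonoidHom.id _)
    (fun _ hx => le_sup_left (a := (principal F).range) (b := unitsOut S F) hx)

@[simp] lemma classToCS_mk (b : Idele F) :
    classToCS S F (QuotientGroup.mk b) = QuotientGroup.mk b := rfl

lemma unitsOutToClass_injective : Function.Injective (unitsOutToClass S F) := by
  rw [injective_iff_map_eq_one]
  intro b hb
  rw [unitsOutToClass_apply, QuotientGroup.eq_one_iff] at hb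
  have h1 : (b : Idele F) ∈ (principal F).range ⊓ unitsOut S F := ⟨hb, b.2⟩
  rw [range_principal_inf_unitsOut] at h1
  exact Subtype.ext ((Subgroup.mem_bot).1 h1)

lemma classToCS_surjective : Function.Surjective (classToCS S F) := by
  intro c
  induction c using QuotientGroup.induction_on with
  | H b => exact ⟨QuotientGroup.mk b, rfl⟩

lemma classToCS_eq_one_iff (c : IdeleClass F) :
    classToCS S F c = 1 ↔ c ∈ (unitsOutToClass S F).range := by
  induction c using QuotientGroup.induction_on with
  | H b =>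
    rw [classToCS_mk, QuotientGroup.eq_one_iff]
    constructor
    · intro hb
      obtain ⟨x, hx, u, hu, rfl⟩ := Subgroup.mem_sup.1 hb
      refine ⟨⟨u, hu⟩, ?_⟩
      rw [unitsOutToClass_apply]
      symm
      rw [QuotientGroup.eq]
      have : (x * u)⁻¹ * u = x⁻¹ := by
        rw [mul_inv_rev, mul_comm u⁻¹, mul_assoc, inv_mul_cancel, mul_one]
      change (x * u)⁻¹ * u ∈ (principal F).range
      rw [this]
      exact Subgroup.inv_mem _ hx
    · rintro ⟨u, hu⟩
      rw [unitsOutToClass_apply] at hu
      have h1 := QuotientGroup.eq.1 hu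
      have h2 : b = (u : Idele F) * ((u : Idele F)⁻¹ * b) := by
        rw [mul_inv_cancel_left]
      rw [h2, mul_comm]
      exact Subgroup.mul_mem_sup h1 u.2

lemma unitsOutToClass_smul (g : G) (b : unitsOut S F) :
    unitsOutToClass S F (g • b) = g • unitsOutToClass S F b := rfl

lemma classToCS_smul (g : G) (c : IdeleClass F) :
    classToCS S F (g • c) = g • classToCS S F c := by
  induction c using QuotientGroup.induction_on with
  | H b => rfl

lemma classToCS_unitsOutToClass (a : unitsOut S F) :
    classToCS S F (unitsOutToClass S F a) = 1 :=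
  (classToCS_eq_one_iff S F _).2 ⟨a, rfl⟩

/-- The finite-level sequence `0 → U_{F,S} → C_F → C_S(F) → 0` of representations of `G`. -/
def levelSeq : ShortComplex (Rep.{0} ℤ G) :=
  shortComplex (G := G) (A := unitsOut S F) (B := IdeleClass F) (C := CSLevel S F)
    (unitsOutToClass S F) (unitsOutToClass_smul S F G) (classToCS S F)
    (classToCS_smul S F G) (classToCS_unitsOutToClass S F)

lemma levelSeq_X₁ : (levelSeq S F G).X₁ = unitsOutRep S F G := rfl
lemma levelSeq_X₂ : (levelSeq S F G).X₂ = ideleClassRep F G := rfl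
lemma levelSeq_X₃ : (levelSeq S F G).X₃ = csRep S F G := rfl

theorem shortExact_levelSeq : (levelSeq S F G).ShortExact := by
  have h := shortExact_of_mul (G := G) (A := unitsOut S F) (B := IdeleClass F) (C := CSLevel S F)
    (unitsOutToClass S F) (unitsOutToClass_smul S F G) (classToCS S F)
    (classToCS_smul S F G) (unitsOutToClass_injective S F) (classToCS_surjective S F)
    (classToCS_eq_one_iff S F)
  exact h

end LevelModules

/-! ### The descent isomorphisms -/

section Isos

variable (S : Finset Nat.Primes) {G : Type} [Group G] (ι : G →* Γℚ) (L' : GalLevel S)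

lemma mk_smul_cs (g : G) (c : CSLevel S L'.F) :
    (QuotientGroup.mk g : QGrp ι L') • c = ι g • c := by
  induction c using QuotientGroup.induction_on with
  | H b => rw [smul_mk_cs, smul_mk_cs, mk_smul_idele]

lemma mk_smul_atS (g : G) (b : ideleAtS S L'.F) :
    (QuotientGroup.mk g : QGrp ι L') • b = ι g • b :=
  Subtype.ext (mk_smul_idele ι L' g b)

lemma mk_smul_unitsOut (g : G) (b : unitsOut S L'.F) :
    (QuotientGroup.mk g : QGrp ι L') • b = ι g • b :=
  Subtype.ext (mk_smul_idele ι L' g b)

lemma mk_smul_sUnits (g : G) (x : sUnitsS S L'.F) :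
    (QuotientGroup.mk g : QGrp ι L') • x = ι g • x :=
  Subtype.ext (Units.ext (mk_smul ι L' g ((x : L'.Fˣ) : L'.F)))

variable {S ι L'}

/-- Invariance under `N = ι⁻¹ V'` is invariance under `V'` when `V' ≤ range ι`. -/
lemma fixed_of_fixed_NSub {B : Type} [SMul Γℚ B]
    (hι : L'.V ≤ ι.range) {b : B} (hb : ∀ n : NSub ι L', ι (n : G) • b = b) :
    ∀ σ ∈ L'.F.fixingSubgroup, σ • b = b := by
  intro σ hσ
  obtain ⟨g, rfl⟩ := hι hσ
  exact hb ⟨g, hσ⟩

variable (S ι L')

/-- **Descent for `C_S`** (under `LiftHyp`): `C_S(L'.F)` with its `Q = G ⧸ N`-action is the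
`Q`-representation on the `N`-invariants of `C_S` restricted along `ι`. -/
def csDescentIso (hLift : LiftHyp S) (hι : L'.V ≤ ι.range) :
    csRep S L'.F (QGrp ι L') ≅ (Rep.res ι (CS S)).quotientToInvariants (NSub ι L') :=
  descentIsoRes ι (NSub ι L') (levelToCS S L') (levelToCS_injective S L')
    (fun g c => by rw [mk_smul_cs]; exact levelToCS_smul S L' (ι g) c)
    (fun c hc => MonoidHom.mem_range.1
      (mem_range_levelToCS_of_fixed S L' hLift c (fixed_of_fixed_NSub hι hc)))

/-- **Descent for `J_S`**. -/
def jsDescentIso (hι : L'.V ≤ ι.range) :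
    atSRep S L'.F (QGrp ι L') ≅ (Rep.res ι (JS S)).quotientToInvariants (NSub ι L') :=
  descentIsoRes ι (NSub ι L') (levelToJS S L') (levelToJS_injective S L')
    (fun g b => by rw [mk_smul_atS]; exact levelToJS_smul S L' (ι g) b)
    (fun a ha => MonoidHom.mem_range.1
      (mem_range_levelToJS_of_fixed S L' a (fixed_of_fixed_NSub hι ha)))

/-- **Descent for `E_S`**. -/
def esDescentIso (hι : L'.V ≤ ι.range) :
    sUnitsRep S L'.F (QGrp ι L') ≅ (Rep.res ι (ES S)).quotientToInvariants (NSub ι L') :=
  descentIsoRes ι (NSub ι L') (levelToES S L') (levelToES_injective S L')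
    (fun g x => by rw [mk_smul_sUnits]; exact levelToES_smul S L' (ι g) x)
    (fun a ha => MonoidHom.mem_range.1
      (mem_range_levelToES_of_fixed S L' a (fixed_of_fixed_NSub hι ha)))

/-- **Descent for the ideles**. -/
def isDescentIso (hι : L'.V ≤ ι.range) :
    ideleRep L'.F (QGrp ι L') ≅
      (Rep.res ι (Rep.ofMulDistribMulAction Γℚ (ISgrp S))).quotientToInvariants (NSub ι L') :=
  descentIsoRes ι (NSub ι L') (levelToIS S L') (levelToIS_injective S L')
    (fun g b => by rw [mk_smul_idele]; exact levelToIS_smul S L' (ι g) b)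
    (fun a ha => MonoidHom.mem_range.1
      (mem_range_levelToIS_of_fixed S L' a (fixed_of_fixed_NSub hι ha)))

lemma csDescentIso_hom_apply (hLift : LiftHyp S) (hι : L'.V ≤ ι.range)
    (c : Additive (CSLevel S L'.F)) :
    (((csDescentIso S ι L' hLift hι).hom.hom c).1 : Additive (CSgrp S)) =
      Additive.ofMul (levelToCS S L' c.toMul) := rfl

lemma jsDescentIso_hom_apply (hι : L'.V ≤ ι.range) (b : Additive (ideleAtS S L'.F)) :
    (((jsDescentIso S ι L' hι).hom.hom b).1 : Additive (JSgrp S)) =
      Additive.ofMul (levelToJS S L' b.toMul) := rfl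

lemma esDescentIso_hom_apply (hι : L'.V ≤ ι.range) (x : Additive (sUnitsS S L'.F)) :
    (((esDescentIso S ι L' hι).hom.hom x).1 : Additive (ESgrp S)) =
      Additive.ofMul (levelToES S L' x.toMul) := rfl

lemma isDescentIso_hom_apply (hι : L'.V ≤ ι.range) (b : Additive (Idele L'.F)) :
    (((isDescentIso S ι L' hι).hom.hom b).1 : Additive (ISgrp S)) =
      Additive.ofMul (levelToIS S L' b.toMul) := rfl

/-- The hypothesis `hι` for `ι` the inclusion of the fixing subgroup of a subfield of `L'.F`. -/
lemma V_le_range_subtype {F₀ : IntermediateField ℚ Qbar} (h : F₀ ≤ L'.F) :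
    L'.V ≤ (F₀.fixingSubgroup).subtype.range := by
  rw [Subgroup.range_subtype]
  exact IntermediateField.fixingSubgroup_antitone h

/-- The hypothesis `hι` for `ι` the identity. -/
lemma V_le_range_id : L'.V ≤ (MonoidHom.id Γℚ).range := by
  intro σ _
  exact ⟨σ, rfl⟩

lemma card_QGrp : Nat.card (QGrp ι L') = (NSub ι L').index := rfl

end Isos

/-! ### The case of the full group `Γℚ` -/

section Top

variable {S : Finset Nat.Primes} (L : GalLevel S)

example : NSub (MonoidHom.id Γℚ) L = L.V := rfl

/-- The finite quotient `Γℚ ⧸ L.V ≃ Gal(L.F / ℚ)`. -/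
abbrev QTop : Type := Γℚ ⧸ L.V

/-- The action of `Γℚ ⧸ L.V` on `L.F`. -/
instance qTopAction : MulSemiringAction (QTop L) L.F :=
  (qAction (MonoidHom.id Γℚ) L : MulSemiringAction (QGrp (MonoidHom.id Γℚ) L) L.F)

instance faithful_qTopAction : FaithfulSMul (QTop L) L.F :=
  (faithful_qAction (MonoidHom.id Γℚ) L : FaithfulSMul (QGrp (MonoidHom.id Γℚ) L) L.F)

instance finite_QTop : Finite (QTop L) :=
  (finite_QGrp (MonoidHom.id Γℚ) L : Finite (QGrp (MonoidHom.id Γℚ) L))

lemma mk_smul_top (σ : Γℚ) (x : L.F) : ((QuotientGroup.mk σ : QTop L) • x : L.F) = σ • x := rfl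

/-- **Descent for `C_S` over `ℚ`.** -/
def csDescentIsoTop (hLift : LiftHyp S) :
    csRep S L.F (QTop L) ≅ (CS S).quotientToInvariants L.V :=
  csDescentIso S (MonoidHom.id Γℚ) L hLift (V_le_range_id S L)

/-- **Descent for `J_S` over `ℚ`.** -/
def jsDescentIsoTop : atSRep S L.F (QTop L) ≅ (JS S).quotientToInvariants L.V :=
  jsDescentIso S (MonoidHom.id Γℚ) L (V_le_range_id S L)

/-- **Descent for `E_S` over `ℚ`.** -/
def esDescentIsoTop : sUnitsRep S L.F (QTop L) ≅ (ES S).quotientToInvariants L.V :=
  esDescentIso S (MonoidHom.id Γℚ) L (V_le_range_id S L)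

lemma csDescentIsoTop_hom_apply (hLift : LiftHyp S) (c : Additive (CSLevel S L.F)) :
    (((csDescentIsoTop L hLift).hom.hom c).1 : Additive (CSgrp S)) =
      Additive.ofMul (levelToCS S L c.toMul) := rfl

lemma jsDescentIsoTop_hom_apply (b : Additive (ideleAtS S L.F)) :
    (((jsDescentIsoTop L).hom.hom b).1 : Additive (JSgrp S)) =
      Additive.ofMul (levelToJS S L b.toMul) := rfl

lemma esDescentIsoTop_hom_apply (x : Additive (sUnitsS S L.F)) :
    (((esDescentIsoTop L).hom.hom x).1 : Additive (ESgrp S)) =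
      Additive.ofMul (levelToES S L x.toMul) := rfl

lemma card_QTop : Nat.card (QTop L) = (L.V).index := rfl

end Top

/-! ### The case of a subgroup `W ≤ Γℚ` (e.g. `W = F₀.fixingSubgroup`) -/

section Over

variable {S : Finset Nat.Primes} (W : Subgroup Γℚ) (L' : GalLevel S)

/-- The finite quotient `W ⧸ (L'.V ⊓ W) ≃ Gal(L'.F / F₀)` (for `W = F₀.fixingSubgroup`,
`F₀ ≤ L'.F`), in the form used by `galFamilyOver`. -/
abbrev QOver : Type := ↥W ⧸ (L'.V).subgroupOf W

/-- The action of `W ⧸ (L'.V).subgroupOf W` on `L'.F`. -/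
instance qOverAction : MulSemiringAction (QOver W L') L'.F :=
  (qAction W.subtype L' : MulSemiringAction (QGrp W.subtype L') L'.F)

instance faithful_qOverAction : FaithfulSMul (QOver W L') L'.F :=
  (faithful_qAction W.subtype L' : FaithfulSMul (QGrp W.subtype L') L'.F)

instance finite_QOver : Finite (QOver W L') :=
  (finite_QGrp W.subtype L' : Finite (QGrp W.subtype L'))

lemma mk_smul_over (σ : W) (x : L'.F) :
    ((QuotientGroup.mk σ : QOver W L') • x : L'.F) = (σ : Γℚ) • x := rfl

lemma V_le_range_subtype' (hW : L'.V ≤ W) : L'.V ≤ W.subtype.range := by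
  rw [Subgroup.range_subtype]
  exact hW

/-- **Descent for `C_S` over `W`.** -/
def csDescentIsoOver (hLift : LiftHyp S) (hW : L'.V ≤ W) :
    csRep S L'.F (QOver W L') ≅
      (Rep.res W.subtype (CS S)).quotientToInvariants ((L'.V).subgroupOf W) :=
  csDescentIso S W.subtype L' hLift (V_le_range_subtype' W L' hW)

/-- **Descent for `J_S` over `W`.** -/
def jsDescentIsoOver (hW : L'.V ≤ W) :
    atSRep S L'.F (QOver W L') ≅
      (Rep.res W.subtype (JS S)).quotientToInvariants ((L'.V).subgroupOf W) :=
  jsDescentIso S W.subtype L' (V_le_range_subtype' W L' hW)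

/-- **Descent for `E_S` over `W`.** -/
def esDescentIsoOver (hW : L'.V ≤ W) :
    sUnitsRep S L'.F (QOver W L') ≅
      (Rep.res W.subtype (ES S)).quotientToInvariants ((L'.V).subgroupOf W) :=
  esDescentIso S W.subtype L' (V_le_range_subtype' W L' hW)

lemma csDescentIsoOver_hom_apply (hLift : LiftHyp S) (hW : L'.V ≤ W)
    (c : Additive (CSLevel S L'.F)) :
    (((csDescentIsoOver W L' hLift hW).hom.hom c).1 : Additive (CSgrp S)) =
      Additive.ofMul (levelToCS S L' c.toMul) := rfl

lemma jsDescentIsoOver_hom_apply (hW : L'.V ≤ W) (b : Additive (ideleAtS S L'.F)) :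
    (((jsDescentIsoOver W L' hW).hom.hom b).1 : Additive (JSgrp S)) =
      Additive.ofMul (levelToJS S L' b.toMul) := rfl

lemma esDescentIsoOver_hom_apply (hW : L'.V ≤ W) (x : Additive (sUnitsS S L'.F)) :
    (((esDescentIsoOver W L' hW).hom.hom x).1 : Additive (ESgrp S)) =
      Additive.ofMul (levelToES S L' x.toMul) := rfl

lemma card_QOver : Nat.card (QOver W L') = ((L'.V).subgroupOf W).index := rfl

end Over

end Fermat.Agent.Lib.CFT.Global.SVersion.RepDescent
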