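import Mathlib
import Fermat.Agent.Lib.CFT.Global.SVersion.UnitsOutLift
import Fermat.Agent.Lib.CFT.Global.SVersion.FormationAbstract
import Fermat.Agent.Lib.CFT.Global.SVersion.RepDescent

/-!
# Cohomology of the finite-level sequence `1 → U_{F,S} → C_F → C_S(F) → 1`

`F` a number field, `S` a finite set of rational primes, `G` a finite group acting on `F` whose
inertia groups at the primes outside `S` are trivial (`IsUnramOut S F G`).  Then `U_{F,S}` is
cohomologically trivial on every subgroup of `G`, so for the sequence `RepDescent.levelSeq S F G`: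

* `Hⁿ(H, C_F) → Hⁿ(H, C_S(F))` is bijective for every subgroup `H ≤ G` and `n ≥ 1`;
* vanishing of `H¹`, cardinality and cyclicity of `H²` pass from `C_F` to `C_S(F)`;
* a class layer for `C_F` passes to a class layer for `C_S(F)`.

The hypothesis holds for every finite group acting faithfully on a Galois level of `S`
(`isUnramOut_galLevel`).
-/

set_option linter.unusedSectionVars false

open scoped NumberField

noncomputable section

namespace Fermat.Agent.Lib.CFT.Global.SVersion.CSLevelLayer

open Fermat.Agent.Lib.CFT.Global Fermat.Agent.Lib.CFT.Global.SVersion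
  Fermat.Agent.Lib.CFT.Global.SVersion.RepMul Fermat.Agent.Lib.CFT.Global.SVersion.UnitsOutCoh
  Fermat.Agent.Lib.CFT.Global.SVersion.RepDescent
  Fermat.Agent.Lib.CFT.Global.Places
  Fermat.Agent.Lib.CFT.Coh.TateThm Fermat.Agent.Lib.CFT.Global.SVersion.CohTrivQuot
  Fermat.Agent.Lib.CFT.Global.SVersion.FormationAbstract
  CategoryTheory CategoryTheory.Limits groupCohomology
open scoped Fermat.Agent.Lib.CFT.Global.SVersion.RepDescent

/-! ### The hypothesis -/

section Hyp

variable (S : Finset Nat.Primes) (F : Type) [Field F] [NumberField F]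
variable (G : Type) [Group G] [MulSemiringAction G F]

/-- All inertia groups of `G` at the primes of `F` over the rational primes outside `S` are
trivial. -/
def IsUnramOut : Prop :=
  ∀ q : Nat.Primes, q ∉ S → ∀ w : PrimesOver F q, Ideal.inertia G w.1.asIdeal = ⊥

/-- The inertia group of a subgroup is trivial if the inertia group of the group is. -/
theorem inertia_subgroup_eq_bot (H : Subgroup G) (P : Ideal (𝓞 F))
    (h : Ideal.inertia G P = ⊥) : Ideal.inertia H P = ⊥ := by
  rw [eq_bot_iff]
  intro σ hσ
  rw [Subgroup.mem_bot]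
  apply Subtype.ext
  have h1 : (σ : G) ∈ Ideal.inertia G P := fun x => hσ x
  rw [h, Subgroup.mem_bot] at h1
  exact h1

variable {S F G} in
theorem IsUnramOut.subgroup (h : IsUnramOut S F G) (H : Subgroup G) : IsUnramOut S F H :=
  fun q hq w => inertia_subgroup_eq_bot F G H _ (h q hq w)

end Hyp

/-! ### Vanishing on subgroups -/

section Subgroups

variable (S : Finset Nat.Primes) (F : Type) [Field F] [NumberField F]
variable (G : Type) [Group G] [MulSemiringAction G F] [Finite G]
variable (hin : IsUnramOut S F G)

include hin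

/-- **`Hⁿ(G, U_{F,S}) = 0`** for `n ≥ 1`. -/
theorem isZero_unitsOutRep (n : ℕ) [NeZero n] :
    IsZero (groupCohomology (unitsOutRep S F G) n) :=
  isZero_groupCohomology_unitsOut S F G n fun q hq =>
    isZero_groupCohomology_locIntUnits F q G (hin q hq) n

/-- **`Hⁿ(H, U_{F,S}) = 0`** for every subgroup `H ≤ G` and `n ≥ 1`. -/
theorem isZero_res_unitsOutRep (H : Subgroup G) (n : ℕ) [NeZero n] :
    IsZero (groupCohomology (Rep.res H.subtype (unitsOutRep S F G)) n) :=
  isZero_unitsOutRep S F H (hin.subgroup H) n

theorem subsingleton_res_levelSeq_X₁ (H : Subgroup G) (n : ℕ) [NeZero n] :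
    Subsingleton (groupCohomology (Rep.res H.subtype (levelSeq S F G).X₁) n) :=
  ModuleCat.isZero_iff_subsingleton.1 (isZero_res_unitsOutRep S F G hin H n)

theorem subsingleton_levelSeq_X₁ (n : ℕ) [NeZero n] :
    Subsingleton (groupCohomology (levelSeq S F G).X₁ n) :=
  ModuleCat.isZero_iff_subsingleton.1 (isZero_unitsOutRep S F G hin n)

end Subgroups

/-! ### Comparison of cohomology and class layers -/

section Layer

variable (S : Finset Nat.Primes) (F : Type) [Field F] [NumberField F]
variable (G : Type) [Group G] [MulSemiringAction G F] [Finite G]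

/-- The class map `C_F → C_S(F)` as a morphism of `G`-modules. -/
def classToCSRep : ideleClassRep F G ⟶ csRep S F G := (levelSeq S F G).g

lemma classToCSRep_apply (c : Additive (IdeleClass F)) :
    (classToCSRep S F G).hom c = Additive.ofMul (classToCS S F c.toMul) := rfl

variable (hin : IsUnramOut S F G)

include hin

/-- `Hⁿ(G, C_F) → Hⁿ(G, C_S(F))` is bijective for `n ≥ 1`. -/
theorem map_classToCSRep_bijective (n : ℕ) [NeZero n] :
    Function.Bijective (groupCohomology.map (A := ideleClassRep F G) (B := csRep S F G)
      (MonoidHom.id G) (classToCSRep S F G) n) :=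
  map_g_bijective (shortExact_levelSeq S F G) n (subsingleton_levelSeq_X₁ S F G hin n)
    (subsingleton_levelSeq_X₁ S F G hin (n + 1))

/-- `Hⁿ(H, C_F) → Hⁿ(H, C_S(F))` is bijective for every subgroup `H ≤ G` and `n ≥ 1`. -/
theorem map_res_classToCSRep_bijective (H : Subgroup G) (n : ℕ) [NeZero n] :
    Function.Bijective
      (groupCohomology.map (A := Rep.res H.subtype (ideleClassRep F G))
        (B := Rep.res H.subtype (csRep S F G))
        (MonoidHom.id H) (Rep.resMap H.subtype (classToCSRep S F G)) n) :=
  map_g_bijective (shortExact_res (shortExact_levelSeq S F G) H) n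
    (subsingleton_res_levelSeq_X₁ S F G hin H n)
    (subsingleton_res_levelSeq_X₁ S F G hin H (n + 1))

/-- The comparison `Hⁿ(H, C_F) ≃ Hⁿ(H, C_S(F))`, `n ≥ 1`, with `H` acting on `F` by restriction
(source in the form of `GlobalCFInput`). -/
def resCohEquiv (H : Subgroup G) (n : ℕ) [NeZero n] :
    groupCohomology (ideleClassRep F H) n ≃ₗ[ℤ]
      groupCohomology (Rep.res H.subtype (csRep S F G)) n :=
  LinearEquiv.ofBijective
    (groupCohomology.map (A := Rep.res H.subtype (ideleClassRep F G))
        (B := Rep.res H.subtype (csRep S F G))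
        (MonoidHom.id H) (Rep.resMap H.subtype (classToCSRep S F G)) n).hom
    (map_res_classToCSRep_bijective S F G hin H n)

/-- The comparison `Hⁿ(G, C_F) ≃ Hⁿ(G, C_S(F))`, `n ≥ 1`. -/
def cohEquiv (n : ℕ) [NeZero n] :
    groupCohomology (ideleClassRep F G) n ≃ₗ[ℤ] groupCohomology (csRep S F G) n :=
  LinearEquiv.ofBijective
    (groupCohomology.map (A := ideleClassRep F G) (B := csRep S F G)
      (MonoidHom.id G) (classToCSRep S F G) n).hom
    (map_classToCSRep_bijective S F G hin n)

/-- `H¹(H, C_F) = 0 → H¹(H, C_S(F)) = 0`. -/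
theorem isZero_H1_res_csRep (H : Subgroup G)
    (h : IsZero (groupCohomology (ideleClassRep F H) 1)) :
    IsZero (groupCohomology.H1 (Rep.res H.subtype (csRep S F G))) := by
  rw [ModuleCat.isZero_iff_subsingleton] at h ⊢
  exact (resCohEquiv S F G hin H 1).symm.injective.subsingleton

theorem card_H2_res_csRep (H : Subgroup G) :
    Nat.card (groupCohomology.H2 (Rep.res H.subtype (csRep S F G))) =
      Nat.card (groupCohomology (ideleClassRep F H) 2) :=
  (Nat.card_congr (resCohEquiv S F G hin H 2).toEquiv).symm

theorem isZero_H1_csRep (h : IsZero (groupCohomology (ideleClassRep F G) 1)) :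
    IsZero (groupCohomology.H1 (csRep S F G)) := by
  rw [ModuleCat.isZero_iff_subsingleton] at h ⊢
  exact (cohEquiv S F G hin 1).symm.injective.subsingleton

theorem card_H2_csRep :
    Nat.card (groupCohomology.H2 (csRep S F G)) =
      Nat.card (groupCohomology (ideleClassRep F G) 2) :=
  (Nat.card_congr (cohEquiv S F G hin 2).toEquiv).symm

theorem isAddCyclic_H2_csRep (h : IsAddCyclic (groupCohomology (ideleClassRep F G) 2)) :
    IsAddCyclic (groupCohomology.H2 (csRep S F G)) :=
  isAddCyclic_of_surjective (cohEquiv S F G hin 2).toAddMonoidHom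
    (cohEquiv S F G hin 2).surjective

theorem isAddCyclic_H2_res_csRep (H : Subgroup G)
    (h : IsAddCyclic (groupCohomology (ideleClassRep F H) 2)) :
    IsAddCyclic (groupCohomology.H2 (Rep.res H.subtype (csRep S F G))) :=
  isAddCyclic_of_surjective (resCohEquiv S F G hin H 2).toAddMonoidHom
    (resCohEquiv S F G hin H 2).surjective

/-- The invariants of `C_S(F)` are the images of the invariants of `C_F`. -/
theorem exists_invariant_lift_cs (c : CSLevel S F) (hc : ∀ g : G, g • c = c) :
    ∃ a : IdeleClass F, (∀ g : G, g • a = a) ∧ classToCS S F a = c := by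
  have h1 : Subsingleton (H1 (levelSeq S F G).X₁) := subsingleton_levelSeq_X₁ S F G hin 1
  obtain ⟨b, hb, hbc⟩ := exists_invariant_lift (shortExact_levelSeq S F G) h1
    (Additive.ofMul c) (fun g => congrArg Additive.ofMul (hc g))
  refine ⟨Additive.toMul (α := IdeleClass F) b, fun g => ?_, ?_⟩
  · exact congrArg (Additive.toMul (α := IdeleClass F)) (hb g)
  · exact congrArg (Additive.toMul (α := CSLevel S F)) hbc

/-- **A class layer for `C_F` gives a class layer for `C_S(F)`.** -/
theorem isClassLayer_csRep {u : G × G → ideleClassRep F G}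
    (hu : IsClassLayer (ideleClassRep F G) u) :
    IsClassLayer (csRep S F G) (fun p => (classToCSRep S F G).hom (u p)) :=
  isClassLayer_quotient (shortExact_levelSeq S F G)
    (fun H => subsingleton_res_levelSeq_X₁ S F G hin H 2)
    (fun H => subsingleton_res_levelSeq_X₁ S F G hin H 3) hu

/-- The finite-level cardinality data for `C_S(F)` from the data for `C_F` (the latter in the
shape of the card form of the global input: `H` acting on `F` by restriction). -/
theorem layerData_csRep
    (hcf : ∀ H : Subgroup G, IsZero (groupCohomology (ideleClassRep F H) 1) ∧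
      IsAddCyclic (groupCohomology (ideleClassRep F H) 2) ∧
      Nat.card (groupCohomology (ideleClassRep F H) 2) = Nat.card H) :
    (∀ H : Subgroup G, IsZero (groupCohomology.H1 (Rep.res H.subtype (csRep S F G)))) ∧
    (∀ H : Subgroup G, IsAddCyclic (groupCohomology.H2 (Rep.res H.subtype (csRep S F G)))) ∧
    (∀ H : Subgroup G,
      Nat.card (groupCohomology.H2 (Rep.res H.subtype (csRep S F G))) = Nat.card H) :=
  ⟨fun H => isZero_H1_res_csRep S F G hin H (hcf H).1,
    fun H => isAddCyclic_H2_res_csRep S F G hin H (hcf H).2.1,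
    fun H => (card_H2_res_csRep S F G hin H).trans (hcf H).2.2⟩

end Layer

/-! ### The hypothesis at the Galois levels -/

section Levels

open Fermat.Agent.Lib.CFT.Profinite Fermat.Agent.Lib.CFT.Profinite.Bridge

variable {S : Finset Nat.Primes}

/-- A finite group acting faithfully on a number field `F ⊆ Qbar` unramified outside `S` has
trivial inertia groups outside `S`. -/
theorem isUnramOut_of_isUnramifiedOutside (F : IntermediateField ℚ (AlgebraicClosure ℚ))
    [FiniteDimensional ℚ F] (hF : F.IsUnramifiedOutside S) (G : Type) [Group G] [Finite G]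
    [MulSemiringAction G F] [FaithfulSMul G F] : IsUnramOut S F G := by
  intro q hq w
  exact inertia_eq_bot_of_ramificationIdx_eq_one (K := FixedPoints.subfield G F) w.1.asIdeal
    w.1.ne_bot
    (ramificationIdx_eq_one_of_isUnramifiedOutside hF hq (𝓞 (FixedPoints.subfield G F))
      w.1.asIdeal w.2)

/-- Every finite group acting faithfully on a Galois level of `S` is unramified outside `S`
(e.g. `RepDescent.QTop L`, `RepDescent.QOver W L`, `RepDescent.QGrp ι L`). -/
theorem isUnramOut_galLevel (L : GalLevel S) (G : Type) [Group G] [Finite G]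
    [MulSemiringAction G L.F] [FaithfulSMul G L.F] : IsUnramOut S L.F G :=
  isUnramOut_of_isUnramifiedOutside L.F L.unram G

end Levels

end Fermat.Agent.Lib.CFT.Global.SVersion.CSLevelLayer
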