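/-
The `S`-class formation, UNCONDITIONALLY (P-CFT Global/S-version, file (6), final part).

* `layerData_CS S : FormationOfLayers.LayerData (galFamily S) (CS S)`: the cardinality data of
  `C_S` at the layers `Γℚ ⧸ L.V` (`H¹ = 0`, `H²` cyclic of order the index, on all subgroups),
  from the global input `ClassFormation.globalCFInput` for the idele class groups, the comparison
  `CSLevelLayer.layerData_csRep` (`C_F → C_S(F)` is a cohomology isomorphism in degrees `≥ 1`)
  and the descent isomorphism `RepDescent.csDescentIsoTop` (`C_S(L.F) ≅ (C_S)^{L.V}`).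
* `formationQ S : ClassFormation Γℚ`, `formationOver S F₀ hF₀ : ClassFormation ↥F₀.fixingSubgroup`:
  the unconditional instances of `Formation.formationQOf`, `Formation.formationOverOf`.
* (G2), unconditional: `H¹ = H³ = 0`, `H²[p]` of order `p`, `H²` is `p`-divisible (`p ∈ S`), over
  `ℚ` and over every level field `F₀`.
-/
import Mathlib
import Fermat.Agent.Lib.CFT.Global.SVersion.Formation
import Fermat.Agent.Lib.CFT.Global.SVersion.CSLevelLayer
import Fermat.Agent.Lib.CFT.Global.ClassFormation.AllLayers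

set_option autoImplicit false
set_option linter.unusedSectionVars false

open scoped NumberField

noncomputable section

namespace Fermat.Agent.Lib.CFT.Global.SVersion.FormationMain

open Fermat.Agent.Lib.CFT.Global Fermat.Agent.Lib.CFT.Global.SVersion
  Fermat.Agent.Lib.CFT.Global.SVersion.RepMul Fermat.Agent.Lib.CFT.Global.SVersion.UnitsOutCoh
  Fermat.Agent.Lib.CFT.Global.SVersion.RepDescent
  Fermat.Agent.Lib.CFT.Global.SVersion.CSLevelLayer
  Fermat.Agent.Lib.CFT.Global.SVersion.FormationOfLayers
  Fermat.Agent.Lib.CFT.Global.SVersion.Formation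
  Fermat.Agent.Lib.CFT.Global.Places
  Fermat.Agent.Lib.CFT.Profinite Fermat.Agent.Lib.CFT.Profinite.LevelFamily
  Fermat.Agent.Lib.CFT.Profinite.Bridge
  Fermat.Agent.Lib.CFT.Coh.ClassFormation Fermat.Agent.Lib.CFT.Coh.TateThm
  CategoryTheory CategoryTheory.Limits groupCohomology
open scoped Fermat.Agent.Lib.CFT.Global.SVersion.RepDescent
open scoped Fermat.Agent.Lib.CFT.Global.SVersion

local notation "Qbar" => AlgebraicClosure ℚ
local notation "Γℚ" => (AlgebraicClosure ℚ ≃ₐ[ℚ] AlgebraicClosure ℚ)

variable (S : Finset Nat.Primes)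

/-! ### The cardinality data at the Galois layers -/

/-- Transport of cohomology along an isomorphism of representations, restricted to a subgroup. -/
def resCohIso {G : Type} [Group G] {A B : Rep.{0} ℤ G} (e : A ≅ B) (H : Subgroup G) (n : ℕ) :
    groupCohomology (Rep.res H.subtype A) n ≅ groupCohomology (Rep.res H.subtype B) n :=
  (groupCohomology.functor ℤ H n).mapIso ((Rep.resFunctor H.subtype).mapIso e)

/-- The cohomology of `(C_S)^{L.V}` on all subgroups of `Γℚ ⧸ L.V`. -/
theorem layerData_level (L : GalLevel S) :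
    (∀ H : Subgroup (Γℚ ⧸ L.V),
      IsZero (groupCohomology.H1 (Rep.res H.subtype ((CS S).quotientToInvariants L.V)))) ∧
    (∀ H : Subgroup (Γℚ ⧸ L.V),
      IsAddCyclic (groupCohomology.H2 (Rep.res H.subtype ((CS S).quotientToInvariants L.V)))) ∧
    (∀ H : Subgroup (Γℚ ⧸ L.V),
      Nat.card (groupCohomology.H2 (Rep.res H.subtype ((CS S).quotientToInvariants L.V))) =
        Nat.card H) := by
  have hin := isUnramOut_galLevel L (QTop L)
  obtain ⟨h1, h2, h3⟩ := layerData_csRep S L.F (QTop L) hin
    (fun H => ClassFormation.globalCFInput L.F H)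
  let e := csDescentIsoTop L (UnitsOutCoh.liftHyp S)
  refine ⟨fun H => ?_, fun H => ?_, fun H => ?_⟩
  · exact (h1 H).of_iso (resCohIso e H 1).symm
  · have := h2 H
    let f := (resCohIso e H 2).toLinearEquiv.toAddEquiv
    exact isAddCyclic_of_surjective f f.surjective
  · rw [← h3 H]
    exact (Nat.card_congr (resCohIso e H 2).toLinearEquiv.toEquiv).symm

/-- The cohomology of `(C_S)^{L.V}` on `Γℚ ⧸ L.V`: `H²` is cyclic of order the index. -/
theorem layerData_level_top (L : GalLevel S) :
    IsAddCyclic (groupCohomology.H2 ((CS S).quotientToInvariants L.V)) ∧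
      Nat.card (groupCohomology.H2 ((CS S).quotientToInvariants L.V)) = (L.V).index := by
  have hin := isUnramOut_galLevel L (QTop L)
  obtain ⟨-, hc, hn⟩ := ClassFormation.globalCFInput L.F (QTop L)
  have h2 := isAddCyclic_H2_csRep S L.F (QTop L) hin hc
  have h3 := (card_H2_csRep S L.F (QTop L) hin).trans hn
  let e := (groupCohomology.functor ℤ (QTop L) 2).mapIso
    (csDescentIsoTop L (UnitsOutCoh.liftHyp S))
  refine ⟨?_, ?_⟩
  · let f := e.toLinearEquiv.toAddEquiv
    have : IsAddCyclic ((groupCohomology.functor ℤ (QTop L) 2).obj (csRep S L.F (QTop L))) := h2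
    exact isAddCyclic_of_surjective f f.surjective
  · rw [← card_QTop L, ← h3]
    exact (Nat.card_congr e.toLinearEquiv.toEquiv).symm

/-- **The cardinality data of the `S`-class formation** at the Galois levels: the only input of
`Formation.formationQOf`, `Formation.formationOverOf`. -/
theorem layerData_CS : LayerData (galFamily S) (CS S) where
  h1 := by
    rintro _ _ ⟨L, rfl⟩ H
    exact (layerData_level S L).1 H
  h2 := by
    rintro _ _ ⟨L, rfl⟩ H
    exact ((layerData_level S L).2.2 H).dvd
  cyc := by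
    rintro _ _ ⟨L, rfl⟩
    exact (layerData_level_top S L).1
  card := by
    rintro _ _ ⟨L, rfl⟩
    exact (layerData_level_top S L).2

/-! ### The `S`-class formations -/

/-- **The `S`-class formation over `ℚ`**: group `Γℚ`, level family `galFamily S`, module `C_S`. -/
def formationQ : ClassFormation Γℚ := formationQOf S (layerData_CS S)

@[simp] theorem formationQ_𝒰 : (formationQ S).𝒰 = galFamily S := rfl

@[simp] theorem formationQ_C : (formationQ S).C = CS S := rfl

theorem formationQ_eq : formationQ S = formationQOf S (layerData_CS S) := rfl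

variable {S}

/-- **The `S`-class formation over a level field `F₀`**: group `F₀.fixingSubgroup`, level family
`galFamilyOver F₀ hF₀`, module `res C_S`; the restriction (`ClassFormation.restrictOn`) of
`formationQ S`. -/
def formationOver (F₀ : IntermediateField ℚ Qbar) (hF₀ : F₀.IsUnramifiedOutside S) :
    ClassFormation ↥F₀.fixingSubgroup :=
  formationOverOf (layerData_CS S) F₀ hF₀

@[simp] theorem formationOver_𝒰 (F₀ : IntermediateField ℚ Qbar)
    (hF₀ : F₀.IsUnramifiedOutside S) :
    (formationOver F₀ hF₀).𝒰 = galFamilyOver F₀ hF₀ := rfl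

@[simp] theorem formationOver_C (F₀ : IntermediateField ℚ Qbar)
    (hF₀ : F₀.IsUnramifiedOutside S) :
    (formationOver F₀ hF₀).C = Rep.res (F₀.fixingSubgroup).subtype (CS S) := rfl

theorem formationOver_eq (F₀ : IntermediateField ℚ Qbar) (hF₀ : F₀.IsUnramifiedOutside S) :
    formationOver F₀ hF₀ = formationOverOf (layerData_CS S) F₀ hF₀ := rfl

theorem formationOver_eq_restrictOn (F₀ : IntermediateField ℚ Qbar)
    (hF₀ : F₀.IsUnramifiedOutside S) :
    formationOver F₀ hF₀ = (formationQ S).restrictOn F₀.fixingSubgroup (galFamilyOver F₀ hF₀)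
      (isSubFamily_galFamilyOver F₀ hF₀) (isCofinalSub_galFamilyOver F₀ hF₀) := rfl

/-! ### (G2), unconditionally -/

variable (S)

/-- `H¹(Γℚ, C_S) = 0` (Galois levels). -/
theorem subsingleton_H1_Q : Subsingleton ((galFamily S).levelCohomology (CS S) 1) :=
  subsingleton_H1_Q_of (layerData_CS S)

/-- `H³(Γℚ, C_S) = 0` (Galois levels). -/
theorem subsingleton_H3_Q : Subsingleton ((galFamily S).levelCohomology (CS S) 3) :=
  subsingleton_H3_Q_of (layerData_CS S)

variable {S}

/-- `H²(Γℚ, C_S)[p]` has `p` elements for `p ∈ S`. -/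
theorem card_torsion_H2_Q {p : Nat.Primes} (hp : p ∈ S) :
    Nat.card {x : (galFamily S).levelCohomology (CS S) 2 // (p : ℕ) • x = 0} = p :=
  card_torsion_H2_Q_of (layerData_CS S) hp

/-- `H²(Γℚ, C_S)` is `p`-divisible for `p ∈ S`. -/
theorem exists_nsmul_eq_H2_Q {p : Nat.Primes} (hp : p ∈ S)
    (x : (galFamily S).levelCohomology (CS S) 2) :
    ∃ y : (galFamily S).levelCohomology (CS S) 2, (p : ℕ) • y = x :=
  exists_nsmul_eq_H2_Q_of (layerData_CS S) hp x

variable (F₀ : IntermediateField ℚ Qbar) (hF₀ : F₀.IsUnramifiedOutside S)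

/-- `H¹(V_{F₀}, C_S) = 0` (Galois levels above `F₀`). -/
theorem subsingleton_H1_over :
    Subsingleton ((galFamilyOver F₀ hF₀).levelCohomology
      (Rep.res (F₀.fixingSubgroup).subtype (CS S)) 1) :=
  subsingleton_H1_over_of (layerData_CS S) F₀ hF₀

/-- `H³(V_{F₀}, C_S) = 0` (Galois levels above `F₀`). -/
theorem subsingleton_H3_over :
    Subsingleton ((galFamilyOver F₀ hF₀).levelCohomology
      (Rep.res (F₀.fixingSubgroup).subtype (CS S)) 3) :=
  subsingleton_H3_over_of (layerData_CS S) F₀ hF₀

/-- `H²(V_{F₀}, C_S)[p]` has `p` elements for `p ∈ S`. -/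
theorem card_torsion_H2_over {p : Nat.Primes} (hp : p ∈ S) :
    Nat.card {x : (galFamilyOver F₀ hF₀).levelCohomology
      (Rep.res (F₀.fixingSubgroup).subtype (CS S)) 2 // (p : ℕ) • x = 0} = p :=
  card_torsion_H2_over_of (layerData_CS S) F₀ hF₀ hp

/-- `H²(V_{F₀}, C_S)` is `p`-divisible for `p ∈ S`. -/
theorem exists_nsmul_eq_H2_over {p : Nat.Primes} (hp : p ∈ S)
    (x : (galFamilyOver F₀ hF₀).levelCohomology (Rep.res (F₀.fixingSubgroup).subtype (CS S)) 2) :
    ∃ y : (galFamilyOver F₀ hF₀).levelCohomology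
      (Rep.res (F₀.fixingSubgroup).subtype (CS S)) 2, (p : ℕ) • y = x :=
  exists_nsmul_eq_H2_over_of (layerData_CS S) F₀ hF₀ hp x

end Fermat.Agent.Lib.CFT.Global.SVersion.FormationMain
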