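import Fermat.Agent.Lib.CFT.Global.SVersion.Reps
import Fermat.Agent.Lib.CFT.Global.SVersion.Descent
import Fermat.Agent.Lib.CFT.Coh.ShapiroExplicit

/-!
# The semi-local decomposition of `J_S` (helper65, P-CFT Global/S-version, part (S-d) 1)

`J_S = ⋃_F J_S(F)` (ideles of the level fields which are `1` outside `S`) is the direct product of
its local components

* `JSqGrp S q = ⋃_F (ℚ_q ⊗ F)ˣ ⊆ (ℚ_q ⊗ Qbar)ˣ` for `q ∈ S`, and
* `JSarchGrp S = ⋃_F (ℝ ⊗ F)ˣ ⊆ (ℝ ⊗ Qbar)ˣ`,

as `Γℚ`-modules (`F` runs through the Galois levels, i.e. the finite Galois subextensions of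
`Qbar / ℚ` unramified outside `S`).

* (SL1) `jsFac S : Option ↥S → Rep ℤ Γℚ` (`none ↦ JSarch S`, `some q ↦ JSq S q`), the projections
  `jsProj S i : JS S ⟶ jsFac S i`, inclusions `jsIncl S i`, the bicone `jsBicone S` with
  `jsBicone_total`, and the multiplicative equivalence `jsMulEquiv`.
-/

open scoped TensorProduct NumberField
open CategoryTheory

noncomputable section

namespace Fermat.Agent.Lib.CFT.Global.SVersion

open Fermat.Agent.Lib.CFT.Global Fermat.Agent.Lib.CFT.Profinite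
open Fermat.Agent.Lib.CFT.Profinite.Bridge RepMul

local notation "Qbar" => AlgebraicClosure ℚ
local notation "Γℚ" => (AlgebraicClosure ℚ ≃ₐ[ℚ] AlgebraicClosure ℚ)

variable (S : Finset Nat.Primes)

/-! ### The local unit groups of `ℚ_S` -/

section Components

lemma locToAmb_inclusion {F F' : IntermediateField ℚ Qbar} (h : F ≤ F') (q : Nat.Primes)
    (u : (LocAlg F q)ˣ) :
    locToAmb F' q (Units.map ((locMap ((IntermediateField.inclusion h : F →ₐ[ℚ] F') : F →+* F') q :
      LocAlg F q →ₐ[ℚ_[pv q]] LocAlg F' q) : LocAlg F q →* LocAlg F' q) u) = locToAmb F q u := by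
  apply Units.ext
  change locMap (incl F') q (locMap _ q _) = locMap (incl F) q _
  rw [← locMap_comp, incl_comp_inclusion h]

lemma archToAmb_inclusion {F F' : IntermediateField ℚ Qbar} (h : F ≤ F')
    (u : (ArchAlg F)ˣ) :
    archToAmb F' (Units.map ((archMap ((IntermediateField.inclusion h : F →ₐ[ℚ] F') : F →+* F') :
      ArchAlg F →ₐ[ℝ] ArchAlg F') : ArchAlg F →* ArchAlg F') u) = archToAmb F u := by
  apply Units.ext
  change archMap (incl F') (archMap _ _) = archMap (incl F) _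
  rw [← archMap_comp, incl_comp_inclusion h]

lemma range_locToAmb_mono {F F' : IntermediateField ℚ Qbar} (h : F ≤ F') (q : Nat.Primes) :
    (locToAmb F q).range ≤ (locToAmb F' q).range := by
  rintro _ ⟨u, rfl⟩
  exact ⟨_, locToAmb_inclusion h q u⟩

lemma range_archToAmb_mono {F F' : IntermediateField ℚ Qbar} (h : F ≤ F') :
    (archToAmb F).range ≤ (archToAmb F').range := by
  rintro _ ⟨u, rfl⟩
  exact ⟨_, archToAmb_inclusion h u⟩

/-- `⋃_F (ℚ_q ⊗ F)ˣ ⊆ (ℚ_q ⊗ Qbar)ˣ`, the union over the Galois levels `F`. -/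
def locUnitsS (q : Nat.Primes) : Subgroup (LocAlg Qbar q)ˣ where
  carrier := {u | ∃ L : GalLevel S, u ∈ (locToAmb L.F q).range}
  mul_mem' := by
    rintro a b ⟨L, ha⟩ ⟨L', hb⟩
    exact ⟨L.sup L', mul_mem (range_locToAmb_mono (L.le_sup_left L') q ha)
      (range_locToAmb_mono (L.le_sup_right L') q hb)⟩
  one_mem' := ⟨GalLevel.bot S, one_mem _⟩
  inv_mem' := by
    rintro a ⟨L, ha⟩
    exact ⟨L, inv_mem ha⟩

/-- `⋃_F (ℝ ⊗ F)ˣ ⊆ (ℝ ⊗ Qbar)ˣ`, the union over the Galois levels `F`. -/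
def archUnitsS : Subgroup (ArchAlg Qbar)ˣ where
  carrier := {u | ∃ L : GalLevel S, u ∈ (archToAmb L.F).range}
  mul_mem' := by
    rintro a b ⟨L, ha⟩ ⟨L', hb⟩
    exact ⟨L.sup L', mul_mem (range_archToAmb_mono (L.le_sup_left L') ha)
      (range_archToAmb_mono (L.le_sup_right L') hb)⟩
  one_mem' := ⟨GalLevel.bot S, one_mem _⟩
  inv_mem' := by
    rintro a ⟨L, ha⟩
    exact ⟨L, inv_mem ha⟩

lemma mem_locUnitsS {q : Nat.Primes} {u : (LocAlg Qbar q)ˣ} :
    u ∈ locUnitsS S q ↔ ∃ L : GalLevel S, ∃ v : (LocAlg L.F q)ˣ, locToAmb L.F q v = u := Iff.rfl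

lemma mem_archUnitsS {u : (ArchAlg Qbar)ˣ} :
    u ∈ archUnitsS S ↔ ∃ L : GalLevel S, ∃ v : (ArchAlg L.F)ˣ, archToAmb L.F v = u := Iff.rfl

/-- The local component maps are equivariant for a normal subextension. -/
lemma locToAmb_smul (F : IntermediateField ℚ Qbar) [Normal ℚ F] (q : Nat.Primes) (σ : Γℚ)
    (u : (LocAlg F q)ˣ) : locToAmb F q (σ • u) = σ • locToAmb F q u := by
  apply Units.ext
  change locMap (incl F) q (locMap (MulSemiringAction.toRingHom Γℚ F σ) q _) =
    locMap (MulSemiringAction.toRingHom Γℚ Qbar σ) q (locMap (incl F) q _)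
  rw [← locMap_comp, ← locMap_comp, incl_comp_toRingHom]

lemma archToAmb_smul (F : IntermediateField ℚ Qbar) [Normal ℚ F] (σ : Γℚ)
    (u : (ArchAlg F)ˣ) : archToAmb F (σ • u) = σ • archToAmb F u := by
  apply Units.ext
  change archMap (incl F) (archMap (MulSemiringAction.toRingHom Γℚ F σ) _) =
    archMap (MulSemiringAction.toRingHom Γℚ Qbar σ) (archMap (incl F) _)
  rw [← archMap_comp, ← archMap_comp, incl_comp_toRingHom]

lemma isSMulStable_locUnitsS (q : Nat.Primes) : IsSMulStable Γℚ (locUnitsS S q) := by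
  rintro σ _ ⟨L, v, rfl⟩
  exact ⟨L, σ • v, locToAmb_smul L.F q σ v⟩

lemma isSMulStable_archUnitsS : IsSMulStable Γℚ (archUnitsS S) := by
  rintro σ _ ⟨L, v, rfl⟩
  exact ⟨L, σ • v, archToAmb_smul L.F σ v⟩

/-- The components of an idele of a level field lie in the local unit groups of `ℚ_S`. -/
lemma fst_mem_locUnitsS {a : AmbJ} (ha : a ∈ ideleS S) (q : Nat.Primes) :
    a.1 q ∈ locUnitsS S q := by
  obtain ⟨L, b, -, rfl⟩ := ha
  exact ⟨L, _, rfl⟩

lemma snd_mem_archUnitsS {a : AmbJ} (ha : a ∈ ideleS S) : a.2 ∈ archUnitsS S := by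
  obtain ⟨L, b, -, rfl⟩ := ha
  exact ⟨L, _, rfl⟩

lemma fst_eq_one_of_mem_ideleSS {a : AmbJ} (ha : a ∈ ideleSS S) {q : Nat.Primes} (hq : q ∉ S) :
    a.1 q = 1 := by
  obtain ⟨L, b, hb, rfl⟩ := ha
  rw [toAmb_fst, hb q hq, map_one]

end Components

/-! ### The factor modules -/

section Factors

/-- The `q`-component `⋃_F (ℚ_q ⊗ F)ˣ` of `J_S`. -/
abbrev JSqGrp (q : Nat.Primes) : Type := ↥(locUnitsS S q)

/-- The archimedean component `⋃_F (ℝ ⊗ F)ˣ` of `J_S`. -/
abbrev JSarchGrp : Type := ↥(archUnitsS S)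

instance instActionJSqGrp (q : Nat.Primes) : MulDistribMulAction Γℚ (JSqGrp S q) :=
  subgroupAction _ (isSMulStable_locUnitsS S q)

instance instActionJSarchGrp : MulDistribMulAction Γℚ (JSarchGrp S) :=
  subgroupAction _ (isSMulStable_archUnitsS S)

@[simp] lemma coe_smul_JSqGrp (q : Nat.Primes) (σ : Γℚ) (u : JSqGrp S q) :
    ((σ • u : JSqGrp S q) : (LocAlg Qbar q)ˣ) = σ • (u : (LocAlg Qbar q)ˣ) := rfl

@[simp] lemma coe_smul_JSarchGrp (σ : Γℚ) (u : JSarchGrp S) :
    ((σ • u : JSarchGrp S) : (ArchAlg Qbar)ˣ) = σ • (u : (ArchAlg Qbar)ˣ) := rfl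

/-- The `q`-component of `J_S` as a `ℤ[Γℚ]`-module. -/
def JSq (q : Nat.Primes) : Rep ℤ Γℚ := Rep.ofMulDistribMulAction Γℚ (JSqGrp S q)

/-- The archimedean component of `J_S` as a `ℤ[Γℚ]`-module. -/
def JSarch : Rep ℤ Γℚ := Rep.ofMulDistribMulAction Γℚ (JSarchGrp S)

/-- The projection of `J_S` onto its `q`-component. -/
def jsProjLoc (q : Nat.Primes) : JSgrp S →* JSqGrp S q where
  toFun a := ⟨(a : AmbJ).1 q, fst_mem_locUnitsS S (ideleSS_le_ideleS S a.2) q⟩
  map_one' := rfl
  map_mul' _ _ := rfl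

/-- The projection of `J_S` onto its archimedean component. -/
def jsProjArch : JSgrp S →* JSarchGrp S where
  toFun a := ⟨(a : AmbJ).2, snd_mem_archUnitsS S (ideleSS_le_ideleS S a.2)⟩
  map_one' := rfl
  map_mul' _ _ := rfl

@[simp] lemma coe_jsProjLoc (q : Nat.Primes) (a : JSgrp S) :
    (jsProjLoc S q a : (LocAlg Qbar q)ˣ) = (a : AmbJ).1 q := rfl

@[simp] lemma coe_jsProjArch (a : JSgrp S) :
    (jsProjArch S a : (ArchAlg Qbar)ˣ) = (a : AmbJ).2 := rfl

lemma jsProjLoc_smul (q : Nat.Primes) (σ : Γℚ) (a : JSgrp S) :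
    jsProjLoc S q (σ • a) = σ • jsProjLoc S q a := rfl

lemma jsProjArch_smul (σ : Γℚ) (a : JSgrp S) :
    jsProjArch S (σ • a) = σ • jsProjArch S a := rfl

/-! ### Inclusions of the components -/

/-- The idele of `F` with prescribed components at the primes of a finite set `T` and at
infinity, and component `1` outside `T`. -/
def ideleOfFamily (T : Finset Nat.Primes) (F : IntermediateField ℚ Qbar) [FiniteDimensional ℚ F]
    (v : ∀ q : Nat.Primes, (LocAlg F q)ˣ) (w : (ArchAlg F)ˣ) : Idele F :=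
  ⟨(fun q => if q ∈ T then v q else 1, w), by
    refine Set.Finite.subset T.finite_toSet ?_
    intro q hq
    by_contra hqT
    apply hq
    simp only [Finset.mem_coe] at hqT
    simp only [if_neg hqT]
    exact one_mem _⟩

lemma ideleOfFamily_fst (T : Finset Nat.Primes) (F : IntermediateField ℚ Qbar)
    [FiniteDimensional ℚ F] (v : ∀ q : Nat.Primes, (LocAlg F q)ˣ) (w : (ArchAlg F)ˣ)
    (q : Nat.Primes) :
    (ideleOfFamily T F v w : IdeleProd F).1 q = if q ∈ T then v q else 1 := rfl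

lemma ideleOfFamily_snd (T : Finset Nat.Primes) (F : IntermediateField ℚ Qbar)
    [FiniteDimensional ℚ F] (v : ∀ q : Nat.Primes, (LocAlg F q)ˣ) (w : (ArchAlg F)ˣ) :
    (ideleOfFamily T F v w : IdeleProd F).2 = w := rfl

lemma ideleOfFamily_mem_ideleAtS {T : Finset Nat.Primes} (hT : T ⊆ S)
    (F : IntermediateField ℚ Qbar) [FiniteDimensional ℚ F]
    (v : ∀ q : Nat.Primes, (LocAlg F q)ˣ) (w : (ArchAlg F)ˣ) :
    ideleOfFamily T F v w ∈ ideleAtS S F := by
  intro q hq
  rw [ideleOfFamily_fst, if_neg (fun h => hq (hT h))]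

/-- The ambient element with a single nontrivial component, at `q`, coming from a level field. -/
lemma toAmb_ideleOfFamily_single (L : GalLevel S) (q : Nat.Primes) (v : (LocAlg L.F q)ˣ) :
    toAmb L.F (ideleOfFamily {q} L.F (Pi.mulSingle q v) 1) =
      ((Pi.mulSingle q (locToAmb L.F q v), 1) : AmbJ) := by
  classical
  ext : 1
  · funext q'
    rw [toAmb_fst, ideleOfFamily_fst]
    change _ = (Pi.mulSingle q (locToAmb L.F q v) : ∀ q, (LocAlg Qbar q)ˣ) q'
    by_cases h : q' = q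
    · subst h
      rw [if_pos (Finset.mem_singleton_self _), Pi.mulSingle_eq_same, Pi.mulSingle_eq_same]
    · rw [if_neg (fun h' => h (Finset.mem_singleton.1 h')), Pi.mulSingle_eq_of_ne h, map_one]
  · rw [toAmb_snd, ideleOfFamily_snd, map_one]

lemma toAmb_ideleOfFamily_arch (L : GalLevel S) (v : (ArchAlg L.F)ˣ) :
    toAmb L.F (ideleOfFamily ∅ L.F 1 v) = ((1, archToAmb L.F v) : AmbJ) := by
  ext : 1
  · funext q'
    rw [toAmb_fst, ideleOfFamily_fst, if_neg (Finset.notMem_empty _), map_one]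
    rfl
  · rfl

lemma mulSingle_mem_ideleS {q : Nat.Primes} {u : (LocAlg Qbar q)ˣ}
    (hu : u ∈ locUnitsS S q) : ((Pi.mulSingle q u, 1) : AmbJ) ∈ ideleS S := by
  obtain ⟨L, v, rfl⟩ := hu
  exact ⟨L, _, Subgroup.mem_top _, toAmb_ideleOfFamily_single S L q v⟩

lemma mulSingle_mem_ideleSS {q : Nat.Primes} (hq : q ∈ S) {u : (LocAlg Qbar q)ˣ}
    (hu : u ∈ locUnitsS S q) : ((Pi.mulSingle q u, 1) : AmbJ) ∈ ideleSS S := by
  obtain ⟨L, v, rfl⟩ := hu
  exact ⟨L, _, ideleOfFamily_mem_ideleAtS S (Finset.singleton_subset_iff.2 hq) L.F _ _,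
    toAmb_ideleOfFamily_single S L q v⟩

lemma one_prod_mem_ideleSS {u : (ArchAlg Qbar)ˣ} (hu : u ∈ archUnitsS S) :
    ((1, u) : AmbJ) ∈ ideleSS S := by
  obtain ⟨L, v, rfl⟩ := hu
  exact ⟨L, _, ideleOfFamily_mem_ideleAtS S (Finset.empty_subset S) L.F _ _,
    toAmb_ideleOfFamily_arch S L v⟩

/-- The inclusion of the `q`-component into `J_S` (`q ∈ S`). -/
def jsInclLoc {q : Nat.Primes} (hq : q ∈ S) : JSqGrp S q →* JSgrp S where
  toFun u := ⟨(Pi.mulSingle q (u : (LocAlg Qbar q)ˣ), 1), mulSingle_mem_ideleSS S hq u.2⟩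
  map_one' := by
    apply Subtype.ext
    change ((Pi.mulSingle q (1 : (LocAlg Qbar q)ˣ), 1) : AmbJ) = 1
    rw [Pi.mulSingle_one]
    rfl
  map_mul' a b := by
    apply Subtype.ext
    change ((Pi.mulSingle q ((a : (LocAlg Qbar q)ˣ) * b), 1) : AmbJ) =
      (Pi.mulSingle q (a : (LocAlg Qbar q)ˣ), 1) * (Pi.mulSingle q (b : (LocAlg Qbar q)ˣ), 1)
    rw [Pi.mulSingle_mul, Prod.mk_mul_mk, one_mul]

/-- The inclusion of the archimedean component into `J_S`. -/
def jsInclArch : JSarchGrp S →* JSgrp S where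
  toFun u := ⟨(1, (u : (ArchAlg Qbar)ˣ)), one_prod_mem_ideleSS S u.2⟩
  map_one' := rfl
  map_mul' a b := by
    apply Subtype.ext
    change ((1, ((a : (ArchAlg Qbar)ˣ) * b)) : AmbJ) = (1, (a : (ArchAlg Qbar)ˣ)) * (1, (b : (ArchAlg Qbar)ˣ))
    rw [Prod.mk_mul_mk, one_mul]

@[simp] lemma coe_jsInclLoc {q : Nat.Primes} (hq : q ∈ S) (u : JSqGrp S q) :
    (jsInclLoc S hq u : AmbJ) = (Pi.mulSingle q (u : (LocAlg Qbar q)ˣ), 1) := rfl

@[simp] lemma coe_jsInclArch (u : JSarchGrp S) :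
    (jsInclArch S u : AmbJ) = (1, (u : (ArchAlg Qbar)ˣ)) := rfl

lemma jsInclLoc_smul {q : Nat.Primes} (hq : q ∈ S) (σ : Γℚ) (u : JSqGrp S q) :
    jsInclLoc S hq (σ • u) = σ • jsInclLoc S hq u := by
  classical
  apply Subtype.ext
  ext : 1
  · funext q'
    change (Pi.mulSingle q (σ • (u : (LocAlg Qbar q)ˣ)) : ∀ q, (LocAlg Qbar q)ˣ) q' =
      σ • (Pi.mulSingle q (u : (LocAlg Qbar q)ˣ) : ∀ q, (LocAlg Qbar q)ˣ) q'
    by_cases h : q' = q
    · subst h
      rw [Pi.mulSingle_eq_same, Pi.mulSingle_eq_same]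
    · rw [Pi.mulSingle_eq_of_ne h, Pi.mulSingle_eq_of_ne h, smul_one]
  · change (1 : (ArchAlg Qbar)ˣ) = σ • (1 : (ArchAlg Qbar)ˣ)
    rw [smul_one]

lemma jsInclArch_smul (σ : Γℚ) (u : JSarchGrp S) :
    jsInclArch S (σ • u) = σ • jsInclArch S u := by
  apply Subtype.ext
  ext : 1
  · funext q'
    change (1 : (LocAlg Qbar q')ˣ) = σ • (1 : (LocAlg Qbar q')ˣ)
    rw [smul_one]
  · rfl

/-! ### The decomposition -/

lemma jsProjLoc_jsInclLoc {q : Nat.Primes} (hq : q ∈ S) (u : JSqGrp S q) :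
    jsProjLoc S q (jsInclLoc S hq u) = u := by
  apply Subtype.ext
  change (Pi.mulSingle q (u : (LocAlg Qbar q)ˣ) : ∀ q, (LocAlg Qbar q)ˣ) q = u
  rw [Pi.mulSingle_eq_same]

lemma jsProjLoc_jsInclLoc_of_ne {q q' : Nat.Primes} (hq : q ∈ S) (h : q' ≠ q) (u : JSqGrp S q) :
    jsProjLoc S q' (jsInclLoc S hq u) = 1 := by
  apply Subtype.ext
  change (Pi.mulSingle q (u : (LocAlg Qbar q)ˣ) : ∀ q, (LocAlg Qbar q)ˣ) q' = 1
  rw [Pi.mulSingle_eq_of_ne h]

lemma jsProjArch_jsInclLoc {q : Nat.Primes} (hq : q ∈ S) (u : JSqGrp S q) :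
    jsProjArch S (jsInclLoc S hq u) = 1 := rfl

lemma jsProjLoc_jsInclArch (q : Nat.Primes) (u : JSarchGrp S) :
    jsProjLoc S q (jsInclArch S u) = 1 := rfl

lemma jsProjArch_jsInclArch (u : JSarchGrp S) : jsProjArch S (jsInclArch S u) = u := rfl

/-- An element of `J_S` is determined by its components at `S` and at infinity. -/
lemma jsgrp_ext {a b : JSgrp S} (hloc : ∀ q ∈ S, jsProjLoc S q a = jsProjLoc S q b)
    (harch : jsProjArch S a = jsProjArch S b) : a = b := by
  apply Subtype.ext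
  ext : 1
  · funext q
    by_cases hq : q ∈ S
    · exact congrArg Subtype.val (hloc q hq)
    · rw [fst_eq_one_of_mem_ideleSS S a.2 hq, fst_eq_one_of_mem_ideleSS S b.2 hq]
  · exact congrArg Subtype.val harch

/-- **`J_S` is the product of its components**: every element is the product of its components
at the primes of `S` and at infinity. -/
lemma jsgrp_eq_prod (a : JSgrp S) :
    a = (∏ q : ↥S, jsInclLoc S q.2 (jsProjLoc S q a)) * jsInclArch S (jsProjArch S a) := by
  classical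
  apply jsgrp_ext
  · intro q hq
    rw [map_mul, map_prod, jsProjLoc_jsInclArch, mul_one,
      Finset.prod_eq_single (⟨q, hq⟩ : ↥S)]
    · exact (jsProjLoc_jsInclLoc S hq _).symm
    · intro q' _ hne
      exact jsProjLoc_jsInclLoc_of_ne S q'.2 (fun h => hne (Subtype.ext h.symm)) _
    · intro h
      exact absurd (Finset.mem_univ _) h
  · rw [map_mul, map_prod, jsProjArch_jsInclArch]
    rw [Finset.prod_eq_one (fun q _ => jsProjArch_jsInclLoc S q.2 _), one_mul]

/-- The multiplicative form of the semi-local decomposition. -/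
def jsMulEquiv : JSgrp S ≃* (∀ q : ↥S, JSqGrp S q) × JSarchGrp S where
  toFun a := (fun q => jsProjLoc S q a, jsProjArch S a)
  invFun x := (∏ q : ↥S, jsInclLoc S q.2 (x.1 q)) * jsInclArch S x.2
  left_inv a := (jsgrp_eq_prod S a).symm
  right_inv x := by
    classical
    ext : 1
    · funext q
      change jsProjLoc S q ((∏ q : ↥S, jsInclLoc S q.2 (x.1 q)) * jsInclArch S x.2) = x.1 q
      rw [map_mul, map_prod, jsProjLoc_jsInclArch, mul_one, Finset.prod_eq_single q]
      · exact jsProjLoc_jsInclLoc S q.2 _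
      · intro q' _ hne
        exact jsProjLoc_jsInclLoc_of_ne S q'.2 (fun h => hne (Subtype.ext h.symm)) _
      · intro h
        exact absurd (Finset.mem_univ _) h
    · change jsProjArch S ((∏ q : ↥S, jsInclLoc S q.2 (x.1 q)) * jsInclArch S x.2) = x.2
      rw [map_mul, map_prod, jsProjArch_jsInclArch,
        Finset.prod_eq_one (fun q _ => jsProjArch_jsInclLoc S q.2 _), one_mul]
  map_mul' a b := by
    ext : 1
    · funext q
      exact map_mul (jsProjLoc S q) a b
    · exact map_mul (jsProjArch S) a b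

@[simp] lemma jsMulEquiv_apply_fst (a : JSgrp S) (q : ↥S) :
    (jsMulEquiv S a).1 q = jsProjLoc S q a := rfl

@[simp] lemma jsMulEquiv_apply_snd (a : JSgrp S) : (jsMulEquiv S a).2 = jsProjArch S a := rfl

end Factors

/-! ### Finite levels and invariants -/

section FiniteLevel

open scoped Fermat.Agent.Lib.CFT.Global.SVersion

variable (L : GalLevel S)

/-- The map `(ℚ_q ⊗ F)ˣ → ⋃_F (ℚ_q ⊗ F)ˣ` for a Galois level `F`. -/
def levelToJSq (q : Nat.Primes) : (LocAlg L.F q)ˣ →* JSqGrp S q :=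
  (locToAmb L.F q).codRestrict (locUnitsS S q) (fun v => ⟨L, v, rfl⟩)

/-- The map `(ℝ ⊗ F)ˣ → ⋃_F (ℝ ⊗ F)ˣ` for a Galois level `F`. -/
def levelToJSarch : (ArchAlg L.F)ˣ →* JSarchGrp S :=
  (archToAmb L.F).codRestrict (archUnitsS S) (fun v => ⟨L, v, rfl⟩)

@[simp] lemma coe_levelToJSq (q : Nat.Primes) (v : (LocAlg L.F q)ˣ) :
    (levelToJSq S L q v : (LocAlg Qbar q)ˣ) = locToAmb L.F q v := rfl

@[simp] lemma coe_levelToJSarch (v : (ArchAlg L.F)ˣ) :
    (levelToJSarch S L v : (ArchAlg Qbar)ˣ) = archToAmb L.F v := rfl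

lemma levelToJSq_injective (q : Nat.Primes) : Function.Injective (levelToJSq S L q) :=
  fun _ _ h => locToAmb_injective L.F q (congrArg Subtype.val h)

lemma levelToJSarch_injective : Function.Injective (levelToJSarch S L) :=
  fun _ _ h => archToAmb_injective L.F (congrArg Subtype.val h)

lemma levelToJSq_smul (q : Nat.Primes) (σ : Γℚ) (v : (LocAlg L.F q)ˣ) :
    levelToJSq S L q (σ • v) = σ • levelToJSq S L q v :=
  Subtype.ext (locToAmb_smul L.F q σ v)

lemma levelToJSarch_smul (σ : Γℚ) (v : (ArchAlg L.F)ˣ) :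
    levelToJSarch S L (σ • v) = σ • levelToJSarch S L v :=
  Subtype.ext (archToAmb_smul L.F σ v)

/-- Compatibility with the transition maps. -/
lemma levelToJSq_inclusion {L L' : GalLevel S} (h : L.F ≤ L'.F) (q : Nat.Primes)
    (u : (LocAlg L.F q)ˣ) :
    levelToJSq S L' q (Units.map ((locMap ((IntermediateField.inclusion h : L.F →ₐ[ℚ] L'.F) :
      L.F →+* L'.F) q : LocAlg L.F q →ₐ[ℚ_[pv q]] LocAlg L'.F q) :
        LocAlg L.F q →* LocAlg L'.F q) u) = levelToJSq S L q u :=
  Subtype.ext (locToAmb_inclusion h q u)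

lemma levelToJSarch_inclusion {L L' : GalLevel S} (h : L.F ≤ L'.F) (u : (ArchAlg L.F)ˣ) :
    levelToJSarch S L' (Units.map ((archMap ((IntermediateField.inclusion h : L.F →ₐ[ℚ] L'.F) :
      L.F →+* L'.F) : ArchAlg L.F →ₐ[ℝ] ArchAlg L'.F) : ArchAlg L.F →* ArchAlg L'.F) u) =
        levelToJSarch S L u :=
  Subtype.ext (archToAmb_inclusion h u)

/-- Every element of the `q`-component comes from a Galois level (which may be taken above a
given one). -/
lemma exists_levelToJSq_eq (q : Nat.Primes) (u : JSqGrp S q) (L₀ : GalLevel S) :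
    ∃ L : GalLevel S, L₀.F ≤ L.F ∧ ∃ v, levelToJSq S L q v = u := by
  obtain ⟨L, v, hv⟩ := u.2
  refine ⟨L₀.sup L, L₀.le_sup_left L,
    Units.map ((locMap ((IntermediateField.inclusion (L₀.le_sup_right L) :
      L.F →ₐ[ℚ] (L₀.sup L).F) : L.F →+* (L₀.sup L).F) q :
        LocAlg L.F q →ₐ[ℚ_[pv q]] LocAlg (L₀.sup L).F q) :
          LocAlg L.F q →* LocAlg (L₀.sup L).F q) v, ?_⟩
  rw [levelToJSq_inclusion]
  exact Subtype.ext hv

lemma exists_levelToJSarch_eq (u : JSarchGrp S) (L₀ : GalLevel S) :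
    ∃ L : GalLevel S, L₀.F ≤ L.F ∧ ∃ v, levelToJSarch S L v = u := by
  obtain ⟨L, v, hv⟩ := u.2
  refine ⟨L₀.sup L, L₀.le_sup_left L,
    Units.map ((archMap ((IntermediateField.inclusion (L₀.le_sup_right L) :
      L.F →ₐ[ℚ] (L₀.sup L).F) : L.F →+* (L₀.sup L).F) :
        ArchAlg L.F →ₐ[ℝ] ArchAlg (L₀.sup L).F) : ArchAlg L.F →* ArchAlg (L₀.sup L).F) v, ?_⟩
  rw [levelToJSarch_inclusion]
  exact Subtype.ext hv

/-- `(JSq)^{V_F} = (ℚ_q ⊗ F)ˣ`: an element of the `q`-component fixed by the fixing subgroup of a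
Galois level `F` comes from `F`. -/
theorem mem_range_levelToJSq_of_fixed (q : Nat.Primes) (u : JSqGrp S q)
    (hfix : ∀ σ ∈ L.F.fixingSubgroup, σ • u = u) : u ∈ (levelToJSq S L q).range := by
  classical
  obtain ⟨b, hb⟩ := Descent.mem_range_toAmb_of_fixed S L (mulSingle_mem_ideleS S u.2) (by
    intro σ hσ
    have h1 : σ • (u : (LocAlg Qbar q)ˣ) = u := congrArg Subtype.val (hfix σ hσ)
    ext : 1
    · funext q'
      change σ • (Pi.mulSingle q (u : (LocAlg Qbar q)ˣ) : ∀ q, (LocAlg Qbar q)ˣ) q' =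
        (Pi.mulSingle q (u : (LocAlg Qbar q)ˣ) : ∀ q, (LocAlg Qbar q)ˣ) q'
      by_cases h : q' = q
      · subst h
        rw [Pi.mulSingle_eq_same, h1]
      · rw [Pi.mulSingle_eq_of_ne h, smul_one]
    · change σ • (1 : (ArchAlg Qbar)ˣ) = 1
      rw [smul_one])
  refine ⟨(b : IdeleProd L.F).1 q, Subtype.ext ?_⟩
  have h2 := congrFun (congrArg Prod.fst hb) q
  rw [toAmb_fst] at h2
  change locToAmb L.F q ((b : IdeleProd L.F).1 q) = u
  rw [h2]
  exact Pi.mulSingle_eq_same q _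

/-- `(JSarch)^{V_F} = (ℝ ⊗ F)ˣ`. -/
theorem mem_range_levelToJSarch_of_fixed (u : JSarchGrp S)
    (hfix : ∀ σ ∈ L.F.fixingSubgroup, σ • u = u) : u ∈ (levelToJSarch S L).range := by
  obtain ⟨b, hb⟩ := Descent.mem_range_toAmb_of_fixed S L
    (ideleSS_le_ideleS S (one_prod_mem_ideleSS S u.2)) (by
    intro σ hσ
    have h1 : σ • (u : (ArchAlg Qbar)ˣ) = u := congrArg Subtype.val (hfix σ hσ)
    ext : 1
    · funext q'
      change σ • (1 : (LocAlg Qbar q')ˣ) = 1
      rw [smul_one]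
    · exact h1)
  refine ⟨(b : IdeleProd L.F).2, Subtype.ext ?_⟩
  exact congrArg Prod.snd hb

/-- Elements coming from a level are fixed by its fixing subgroup. -/
lemma smul_levelToJSq_of_mem_fixingSubgroup (q : Nat.Primes) {σ : Γℚ}
    (hσ : σ ∈ L.F.fixingSubgroup) (v : (LocAlg L.F q)ˣ) :
    σ • levelToJSq S L q v = levelToJSq S L q v := by
  have hcomp : (MulSemiringAction.toRingHom Γℚ Qbar σ).comp (incl L.F) = incl L.F := by
    ext x
    exact (IntermediateField.mem_fixingSubgroup_iff L.F σ).1 hσ x x.2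
  apply Subtype.ext
  apply Units.ext
  change locMap (MulSemiringAction.toRingHom Γℚ Qbar σ) q (locMap (incl L.F) q _) =
    locMap (incl L.F) q _
  rw [← locMap_comp, hcomp]

lemma smul_levelToJSarch_of_mem_fixingSubgroup {σ : Γℚ}
    (hσ : σ ∈ L.F.fixingSubgroup) (v : (ArchAlg L.F)ˣ) :
    σ • levelToJSarch S L v = levelToJSarch S L v := by
  have hcomp : (MulSemiringAction.toRingHom Γℚ Qbar σ).comp (incl L.F) = incl L.F := by
    ext x
    exact (IntermediateField.mem_fixingSubgroup_iff L.F σ).1 hσ x x.2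
  apply Subtype.ext
  apply Units.ext
  change archMap (MulSemiringAction.toRingHom Γℚ Qbar σ) (archMap (incl L.F) _) =
    archMap (incl L.F) _
  rw [← archMap_comp, hcomp]

end FiniteLevel

section Discrete

lemma isDiscrete_JSq (q : Nat.Primes) : (levelsS S).IsDiscrete (JSq S q) := by
  intro m
  obtain ⟨L, -, v, hv⟩ := exists_levelToJSq_eq S q (Additive.toMul m) (GalLevel.bot S)
  refine ⟨_, L.fixingSubgroup_mem_levels, fun σ hσ => ?_⟩
  apply congrArg Additive.ofMul
  change σ • (Additive.toMul m : JSqGrp S q) = Additive.toMul m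
  have h := smul_levelToJSq_of_mem_fixingSubgroup S L q hσ v
  rw [hv] at h
  exact h

lemma isDiscrete_JSarch : (levelsS S).IsDiscrete (JSarch S) := by
  intro m
  obtain ⟨L, -, v, hv⟩ := exists_levelToJSarch_eq S (Additive.toMul m) (GalLevel.bot S)
  refine ⟨_, L.fixingSubgroup_mem_levels, fun σ hσ => ?_⟩
  apply congrArg Additive.ofMul
  change σ • (Additive.toMul m : JSarchGrp S) = Additive.toMul m
  have h := smul_levelToJSarch_of_mem_fixingSubgroup S L hσ v
  rw [hv] at h
  exact h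

end Discrete

/-! ### The decomposition in `Rep ℤ Γℚ` -/

section RepDecomposition

open CategoryTheory.Limits

/-- The factors of `J_S`: `none ↦` the archimedean component, `some q ↦` the `q`-component. -/
def jsFac : Option ↥S → Rep ℤ Γℚ
  | none => JSarch S
  | some q => JSq S q

/-- The projections of `J_S` onto its factors. -/
def jsProj : ∀ i : Option ↥S, JS S ⟶ jsFac S i
  | none => repHom (jsProjArch S) (jsProjArch_smul S)
  | some q => repHom (jsProjLoc S q) (jsProjLoc_smul S q)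

/-- The inclusions of the factors into `J_S`. -/
def jsIncl : ∀ i : Option ↥S, jsFac S i ⟶ JS S
  | none => repHom (jsInclArch S) (jsInclArch_smul S)
  | some q => repHom (jsInclLoc S q.2) (jsInclLoc_smul S q.2)

lemma jsProj_none_apply (a : Additive (JSgrp S)) :
    (jsProj S none).hom a = Additive.ofMul (jsProjArch S a.toMul) := rfl

lemma jsProj_some_apply (q : ↥S) (a : Additive (JSgrp S)) :
    (jsProj S (some q)).hom a = Additive.ofMul (jsProjLoc S q a.toMul) := rfl

lemma jsIncl_none_apply (u : Additive (JSarchGrp S)) :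
    (jsIncl S none).hom u = Additive.ofMul (jsInclArch S u.toMul) := rfl

lemma jsIncl_some_apply (q : ↥S) (u : Additive (JSqGrp S q)) :
    (jsIncl S (some q)).hom u = Additive.ofMul (jsInclLoc S q.2 u.toMul) := rfl

lemma jsIncl_jsProj_self (i : Option ↥S) : jsIncl S i ≫ jsProj S i = 𝟙 (jsFac S i) := by
  cases i with
  | none =>
    apply Rep.hom_ext
    apply Representation.IntertwiningMap.ext
    ext u
    exact congrArg Additive.ofMul (jsProjArch_jsInclArch S (Additive.toMul u))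
  | some q =>
    apply Rep.hom_ext
    apply Representation.IntertwiningMap.ext
    ext u
    exact congrArg Additive.ofMul (jsProjLoc_jsInclLoc S q.2 (Additive.toMul u))

lemma jsIncl_jsProj_of_ne {i j : Option ↥S} (h : i ≠ j) : jsIncl S i ≫ jsProj S j = 0 := by
  cases i with
  | none =>
    cases j with
    | none => exact absurd rfl h
    | some q' =>
      apply Rep.hom_ext
      apply Representation.IntertwiningMap.ext
      ext u
      exact congrArg Additive.ofMul (jsProjLoc_jsInclArch S q' (Additive.toMul u))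
  | some q =>
    cases j with
    | none =>
      apply Rep.hom_ext
      apply Representation.IntertwiningMap.ext
      ext u
      exact congrArg Additive.ofMul (jsProjArch_jsInclLoc S q.2 (Additive.toMul u))
    | some q' =>
      have hne : (q' : Nat.Primes) ≠ q := fun h' => h (congrArg some (Subtype.ext h'.symm))
      apply Rep.hom_ext
      apply Representation.IntertwiningMap.ext
      ext u
      exact congrArg Additive.ofMul (jsProjLoc_jsInclLoc_of_ne S q.2 hne (Additive.toMul u))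

/-- `J_S` with its projections and inclusions, as a bicone over its factors. -/
def jsBicone : Bicone (jsFac S) where
  pt := JS S
  π := jsProj S
  ι := jsIncl S
  ι_π i j := by
    by_cases h : i = j
    · subst h
      rw [dif_pos rfl, eqToHom_refl]
      exact jsIncl_jsProj_self S i
    · rw [dif_neg h]
      exact jsIncl_jsProj_of_ne S h

lemma jsBicone_total :
    ∑ i : Option ↥S, (jsBicone S).π i ≫ (jsBicone S).ι i = 𝟙 (jsBicone S).pt := by
  refine Rep.hom_ext ?_
  rw [Rep.sum_hom]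
  refine Representation.IntertwiningMap.ext ?_
  rw [Representation.IntertwiningMap.toLinearMap_sum]
  refine LinearMap.ext fun a => ?_
  rw [LinearMap.sum_apply, Fintype.sum_option]
  have key : ∀ a : Additive (JSgrp S),
      Additive.ofMul (jsInclArch S (jsProjArch S a.toMul)) +
        ∑ q : ↥S, Additive.ofMul (jsInclLoc S q.2 (jsProjLoc S q a.toMul)) = a := by
    intro a
    rw [← ofMul_prod, ← ofMul_mul, mul_comm, ← jsgrp_eq_prod]
    rfl
  exact key a

/-- `J_S` is the biproduct of its factors in `Rep ℤ Γℚ`. -/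
def jsBicone_isBilimit : (jsBicone S).IsBilimit :=
  isBilimitOfTotal _ (jsBicone_total S)

universe u in
/-- **Semi-local decomposition, functorial form**: every additive functor from `Rep ℤ Γℚ` to
modules (e.g. `X ↦ Hⁿ(W, X)` or `X ↦ Tⁿ(W, X)` for an open subgroup `W`) sends `J_S` to the
product of its values on the factors: the maps induced by the projections are jointly
bijective. -/
theorem bijective_map_jsProj {k : Type u} [CommRing k] (T : Rep ℤ Γℚ ⥤ ModuleCat.{u} k)
    [T.Additive] :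
    Function.Bijective (fun (x : T.obj (JS S)) (i : Option ↥S) => T.map (jsProj S i) x) :=
  Coh.ShapiroExplicit.bijective_pi_map_of_total T (jsBicone S) (jsBicone_total S)

end RepDecomposition

end Fermat.Agent.Lib.CFT.Global.SVersion
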