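import Mathlib
import Fermat.Agent.Lib.CFT.Global.SVersion.LocalCompare
import Fermat.Agent.Lib.CFT.Global.SVersion.LevelFamilyAt
import Fermat.Agent.Lib.CFT.Duality.BaseCase.TransferSemilocal

/-!
# The local comparison for the decomposition groups of `ℚ_S / F₀` (P-CFT, S-version (P3), helper66)

Notation of note 575: `q ∈ S`, `φ := primeLocalToGlobal q : G_q →* Γℚ`, `F₀` a level field,
`W := F₀.fixingSubgroup`, `g : Γℚ`, `D := funStab φ W g = {h | g⁻¹ φ(h) g ∈ W}`,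
`c_g := funStabHom φ W g : D →* W`, `𝒲ˢ := LES.comap (galFamilyOver F₀ hF₀) c_g`.

* `funStab_mem_primeLocalLevels`: `D` is an open subgroup (a level) of `G_q`;
* `comapFamily_sub`, `comapFamily_normal`: the levels of `𝒲ˢ` are normal open subgroups of `D`;
* the instantiation of `LocalCompare` for `𝒲ˢ`.
-/

set_option autoImplicit false
set_option linter.unusedSectionVars false

namespace Fermat.Agent.Lib.CFT.Global.SVersion.LocalCompareInst

open CategoryTheory ExtCitation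
open Fermat.Agent.Lib.CFT.Profinite Fermat.Agent.Lib.CFT.Profinite.LevelFamily
  Fermat.Agent.Lib.CFT.Profinite.Bridge
  Fermat.Agent.Lib.CFT.Duality Fermat.Agent.Lib.CFT.Duality.Semilocal
  Fermat.Agent.Lib.CFT.Local.LqModule
  Fermat.Agent.Lib.CFT.Global.SVersion
  Fermat.Agent.Lib.CFT.Global.SVersion.LocalCompare

local notation "Qbar" => AlgebraicClosure ℚ
local notation "Γℚ" => (AlgebraicClosure ℚ ≃ₐ[ℚ] AlgebraicClosure ℚ)

variable {S : Finset Nat.Primes} (q : Nat.Primes)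
  (F₀ : IntermediateField ℚ Qbar) (hF₀ : F₀.IsUnramifiedOutside S) (g : Γℚ)

/-- The decomposition-type subgroup `D = {h ∈ G_q | g⁻¹ φ_q(h) g ∈ W}`. -/
noncomputable abbrev Dg : Subgroup (primeLocalGaloisGroup q) :=
  funStab (primeLocalToGlobal q) F₀.fixingSubgroup g

/-- The homomorphism `c_g : D →* W`, `h ↦ g⁻¹ φ_q(h) g`. -/
noncomputable abbrev cg : ↥(Dg q F₀ g) →* ↥F₀.fixingSubgroup :=
  funStabHom (primeLocalToGlobal q) F₀.fixingSubgroup g

include hF₀ in
/-- `D` is an open subgroup of the local Galois group. -/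
theorem funStab_mem_primeLocalLevels : Dg q F₀ g ∈ (primeLocalLevels q).levels := by
  obtain ⟨V, hV, hVW, hn⟩ := (levelsS S).normal_le F₀.fixingSubgroup ⟨F₀, hF₀, rfl⟩
  have h1 : V.comap (primeLocalToGlobal q) ∈ (primeLocalLevels q).levels :=
    comap_mem_primeLocalLevels q (primeLocalToGlobal q) (isCompatible_primeLocalLevels S q) hV
  refine mem_primeLocalLevels_of_le q h1 (fun h hh => ?_)
  rw [mem_funStab]
  have := hn.conj_mem _ hh g⁻¹
  rw [inv_inv] at this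
  exact hVW this

/-- The level family `𝒲ˢ` on `D` pulled back from the Galois levels over `F₀`. -/
noncomputable abbrev comapFamily : LevelFamily ↥(Dg q F₀ g) :=
  LES.comap (galFamilyOver F₀ hF₀) (cg q F₀ g)

/-- The levels of `𝒲ˢ` are open subgroups of `D`. -/
theorem comapFamily_sub : ∀ U ∈ (comapFamily q F₀ hF₀ g).levels,
    U ∈ (LES.restrict (primeLocalLevels q) (Dg q F₀ g)).levels := by
  rintro _ ⟨_, ⟨L, hL, rfl⟩, rfl⟩
  refine ⟨(L.V).comap (primeLocalToGlobal q),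
    comap_mem_primeLocalLevels q (primeLocalToGlobal q) (isCompatible_primeLocalLevels S q)
      L.fixingSubgroup_mem_levels, ?_⟩
  ext h
  have hn : (L.V).Normal := inferInstance
  constructor
  · intro hh
    have h1 : primeLocalToGlobal q (h : primeLocalGaloisGroup q) ∈ L.V := hh
    have := hn.conj_mem _ h1 g⁻¹
    rw [inv_inv] at this
    exact this
  · intro hh
    have h1 : g⁻¹ * primeLocalToGlobal q (h : primeLocalGaloisGroup q) * g ∈ L.V := hh
    have := hn.conj_mem _ h1 g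
    have e : g * (g⁻¹ * primeLocalToGlobal q (h : primeLocalGaloisGroup q) * g) * g⁻¹ =
        primeLocalToGlobal q (h : primeLocalGaloisGroup q) := by group
    rw [e] at this
    exact this

/-- The levels of `𝒲ˢ` are normal. -/
theorem comapFamily_normal : ∀ U ∈ (comapFamily q F₀ hF₀ g).levels, U.Normal := by
  rintro _ ⟨N, hN, rfl⟩
  have := galFamilyOver_normal hN
  infer_instance

/-! ### The instantiation of `LocalCompare` -/

/-- The divisibility hypothesis on the indices of `𝒲ˢ` (supplied by `LocalDegree`). -/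
def IndexDivHyp (p : ℕ) : Prop :=
  ∀ U ∈ (comapFamily q F₀ hF₀ g).levels, ∃ U' ∈ (comapFamily q F₀ hF₀ g).levels,
    U' ≤ U ∧ p * U.index ∣ U'.index

include hF₀ in
/-- Hilbert 90 for `D`: `H¹(D, (ℚ̄_q)ˣ) = 0` (all open subgroups). -/
theorem subsingleton_H1_Dg :
    Subsingleton ((LES.restrict (primeLocalLevels q) (Dg q F₀ g)).levelCohomology
      (Rep.res (Dg q F₀ g).subtype (Lq q)) 1) :=
  subsingleton_H1 q (Dg q F₀ g) (funStab_mem_primeLocalLevels q F₀ hF₀ g)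

include hF₀ in
/-- `H³(D, (ℚ̄_q)ˣ) = 0` (all open subgroups). -/
theorem subsingleton_H3_Dg :
    Subsingleton ((LES.restrict (primeLocalLevels q) (Dg q F₀ g)).levelCohomology
      (Rep.res (Dg q F₀ g).subtype (Lq q)) 3) :=
  subsingleton_H3 q (Dg q F₀ g) (funStab_mem_primeLocalLevels q F₀ hF₀ g)

/-- `H¹(𝒲ˢ, (ℚ̄_q)ˣ) = 0`. -/
theorem subsingleton_H1_comapFamily :
    Subsingleton ((comapFamily q F₀ hF₀ g).levelCohomology
      (Rep.res (Dg q F₀ g).subtype (Lq q)) 1) :=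
  sub_subsingleton_H1 q (Dg q F₀ g) (funStab_mem_primeLocalLevels q F₀ hF₀ g)
    (comapFamily q F₀ hF₀ g) (comapFamily_sub q F₀ hF₀ g)

/-- `H³(𝒲ˢ, (ℚ̄_q)ˣ) = 0`. -/
theorem subsingleton_H3_comapFamily :
    Subsingleton ((comapFamily q F₀ hF₀ g).levelCohomology
      (Rep.res (Dg q F₀ g).subtype (Lq q)) 3) :=
  sub_subsingleton_H3 q (Dg q F₀ g) (funStab_mem_primeLocalLevels q F₀ hF₀ g)
    (comapFamily q F₀ hF₀ g) (comapFamily_sub q F₀ hF₀ g)

/-- The comparison map `Hⁿ(𝒲ˢ, (ℚ̄_q)ˣ) → Hⁿ(D, (ℚ̄_q)ˣ)`. -/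
noncomputable abbrev cmpMapDg (n : ℕ) :
    (comapFamily q F₀ hF₀ g).levelCohomology (Rep.res (Dg q F₀ g).subtype (Lq q)) n ⟶
      (LES.restrict (primeLocalLevels q) (Dg q F₀ g)).levelCohomology
        (Rep.res (Dg q F₀ g).subtype (Lq q)) n :=
  cmpMap q (Dg q F₀ g) (comapFamily q F₀ hF₀ g) (comapFamily_sub q F₀ hF₀ g) n

/-- `H²(𝒲ˢ, (ℚ̄_q)ˣ) → H²(D, (ℚ̄_q)ˣ)` is injective. -/
theorem cmpMapDg_injective : Function.Injective (cmpMapDg q F₀ hF₀ g 2).hom :=
  cmpMap_injective q (Dg q F₀ g) (funStab_mem_primeLocalLevels q F₀ hF₀ g)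
    (comapFamily q F₀ hF₀ g) (comapFamily_sub q F₀ hF₀ g)

/-- `H²(𝒲ˢ, (ℚ̄_q)ˣ)` is `p`-divisible. -/
theorem exists_nsmul_eq_comapFamily {p : ℕ} (hp : IndexDivHyp q F₀ hF₀ g p)
    (x : (comapFamily q F₀ hF₀ g).levelCohomology (Rep.res (Dg q F₀ g).subtype (Lq q)) 2) :
    ∃ y : (comapFamily q F₀ hF₀ g).levelCohomology (Rep.res (Dg q F₀ g).subtype (Lq q)) 2,
      p • y = x :=
  exists_nsmul_eq q (Dg q F₀ g) (funStab_mem_primeLocalLevels q F₀ hF₀ g)
    (comapFamily q F₀ hF₀ g) (comapFamily_sub q F₀ hF₀ g) (comapFamily_normal q F₀ hF₀ g) hp x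

/-- `H²(𝒲ˢ, (ℚ̄_q)ˣ) → H²(D, (ℚ̄_q)ˣ)` is bijective on `p`-torsion. -/
theorem cmpTorsionMap_bijective_comapFamily {p : ℕ} (hp : IndexDivHyp q F₀ hF₀ g p) :
    Function.Bijective (cmpTorsionMap q (Dg q F₀ g) (comapFamily q F₀ hF₀ g)
      (comapFamily_sub q F₀ hF₀ g) p) :=
  cmpTorsionMap_bijective q (Dg q F₀ g) (funStab_mem_primeLocalLevels q F₀ hF₀ g)
    (comapFamily q F₀ hF₀ g) (comapFamily_sub q F₀ hF₀ g) (comapFamily_normal q F₀ hF₀ g) hp

end Fermat.Agent.Lib.CFT.Global.SVersion.LocalCompareInst
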