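import Fermat.Agent.Lib.CFT.Global.SVersion.LocalProjConj
import Fermat.Agent.Lib.CFT.Duality.BaseCase.TransferSemilocal
import Fermat.Agent.Lib.CFT.Global.SVersion.LocalCompareInst

/-!
# `p^∞` divides the indices of the pulled-back Galois level family on `S_g`
(helper31, P-CFT Global/S-version, item (iv) of the instantiation of `LocalCompare.lean`)

Let `p, q ∈ S`, `F₀` a level field (unramified outside `S`), `W := F₀.fixingSubgroup`, `g : Γℚ`,
`S_g := Sg q W g ≤ G_q` (helper57's `LocalProjConj`), `c_g := cg q W g : S_g →* W` and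
`𝒲ˢ := LES.comap (galFamilyOver F₀ hF₀) c_g`, the level family on `S_g` whose levels are the
`S_g ∩ φ_q⁻¹ (L.V)` for the Galois levels `L ⊇ F₀`.

Main statement (`comap_galFamilyOver_exists_pow_mul_index_dvd`): every level `U` of `𝒲ˢ` contains a
level `U'` of `𝒲ˢ` with `p ^ N * U.index ∣ U'.index`.  The case `N = 1`
(`comap_galFamilyOver_exists_mul_index_dvd`) is literally the hypothesis `hp` of
`LocalCompare.exists_nsmul_eq` / `LocalCompare.cmpTorsionMap_bijective` (and of `FormationSub`,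
`FormationSubT`) for `𝒲' := 𝒲ˢ`.

Proof: helper77's `LocalDegree.exists_level_pow_dvd_relIndex_prime` (the local degrees of `ℚ_S` at the
places over `q` are divisible by `p^∞`) plus multiplicativity of relative indices.
-/

set_option autoImplicit false

noncomputable section

namespace Fermat.Agent.Lib.CFT.Global.SVersion.LocalCompareDiv

open ExtCitation Fermat.Agent.Lib.CFT.Profinite Fermat.Agent.Lib.CFT.Profinite.Bridge
open Fermat.Agent.Lib.CFT.Profinite.LES LevelFamily
open Fermat.Agent.Lib.CFT.Global Fermat.Agent.Lib.CFT.Global.SVersion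
open Fermat.Agent.Lib.CFT.Global.SVersion.LocalProjConj
open Fermat.Agent.Lib.CFT.Duality

/-! ### Group theory -/

section Group

variable {G : Type*} [Group G]

/-- For a chain `A' ≤ B ≤ A ≤ D` of subgroups: if `m ∣ [A : B]` then `m * [D : A] ∣ [D : A']`. -/
theorem mul_relIndex_dvd_relIndex {A' B A D : Subgroup G} (h1 : A' ≤ B) (h2 : B ≤ A) (h3 : A ≤ D)
    {m : ℕ} (hm : m ∣ B.relIndex A) : m * A.relIndex D ∣ A'.relIndex D := by
  have e1 : A'.relIndex B * B.relIndex A = A'.relIndex A := Subgroup.relIndex_mul_relIndex _ _ _ h1 h2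
  have e2 : A'.relIndex A * A.relIndex D = A'.relIndex D :=
    Subgroup.relIndex_mul_relIndex _ _ _ (h1.trans h2) h3
  rw [← e2, ← e1]
  exact Nat.mul_dvd_mul (hm.trans (Dvd.intro_left _ rfl)) dvd_rfl

/-- The preimage of a normal subgroup under `h ↦ g⁻¹ * φ h * g` is its preimage under `φ`. -/
theorem comap_conj_comp_of_normal {H : Type*} [Group H] (φ : H →* G) (g : G) (U : Subgroup G)
    [hU : U.Normal] : U.comap ((MulAut.conj g⁻¹).toMonoidHom.comp φ) = U.comap φ := by
  ext h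
  rw [Subgroup.mem_comap, Subgroup.mem_comap]
  show (MulAut.conj g⁻¹) (φ h) ∈ U ↔ φ h ∈ U
  rw [MulAut.conj_apply, inv_inv]
  constructor
  · intro hh
    have h1 := hU.conj_mem _ hh g
    have h2 : g * (g⁻¹ * φ h * g) * g⁻¹ = φ h := by group
    rwa [h2] at h1
  · intro hh
    have h1 := hU.conj_mem _ hh g⁻¹
    rwa [inv_inv] at h1

end Group

/-! ### The divisibility statement -/

local notation "Qbar" => AlgebraicClosure ℚ
local notation "Γℚ" => (AlgebraicClosure ℚ ≃ₐ[ℚ] AlgebraicClosure ℚ)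

variable {S : Finset Nat.Primes} {p q : Nat.Primes}

/-- **`p^∞` divides the indices of `𝒲ˢ`.**  Every level `U` of
`𝒲ˢ = comap (galFamilyOver F₀ hF₀) (cg q F₀.fixingSubgroup g)` contains a level `U'` with
`p ^ N * U.index ∣ U'.index`. -/
theorem comap_galFamilyOver_exists_pow_mul_index_dvd (hp : p ∈ S) (hq : q ∈ S)
    (F₀ : IntermediateField ℚ Qbar) (hF₀ : F₀.IsUnramifiedOutside S) (g : Γℚ)
    {U : Subgroup ↥(Sg q F₀.fixingSubgroup g)}
    (hU : U ∈ (comap (galFamilyOver F₀ hF₀) (cg q F₀.fixingSubgroup g)).levels) (N : ℕ) :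
    ∃ U' ∈ (comap (galFamilyOver F₀ hF₀) (cg q F₀.fixingSubgroup g)).levels,
      U' ≤ U ∧ (p : ℕ) ^ N * U.index ∣ U'.index := by
  obtain ⟨L, hL, rfl⟩ := (mem_comap_galFamilyOver_levels q g F₀ hF₀).1 hU
  obtain ⟨U'', ⟨F', hF', rfl⟩, hle, -, hdvd⟩ :=
    LocalDegree.exists_level_pow_dvd_relIndex_prime hp hq L.fixingSubgroup_mem_levels g N
  set L' : GalLevel S := L.sup (GalLevel.ofUnram F' hF') with hL'
  have hLL' : L.F ≤ L'.F := GalLevel.le_sup_left _ _
  have hL'F' : L'.V ≤ F'.fixingSubgroup :=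
    IntermediateField.fixingSubgroup_antitone
      ((GalLevel.le_ofUnram F' hF').trans (GalLevel.le_sup_right L (GalLevel.ofUnram F' hF')))
  refine ⟨_, (mem_comap_galFamilyOver_levels q g F₀ hF₀).2 ⟨L', hL.trans hLL', rfl⟩, ?_, ?_⟩
  · intro x hx
    exact GalLevel.V_le_of_le hLL' hx
  · set ψ : primeLocalGaloisGroup q →* Γℚ :=
      (MulAut.conj g⁻¹).toMonoidHom.comp (primeLocalToGlobal q) with hψ
    have hD : Sg q F₀.fixingSubgroup g = (F₀.fixingSubgroup).comap ψ :=
      Sg_eq_comap_conj q F₀.fixingSubgroup g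
    have hA : (L.V).comap (primeLocalToGlobal q) = (L.V).comap ψ :=
      (comap_conj_comp_of_normal (primeLocalToGlobal q) g L.V).symm
    have hA' : (L'.V).comap (primeLocalToGlobal q) = (L'.V).comap ψ :=
      (comap_conj_comp_of_normal (primeLocalToGlobal q) g L'.V).symm
    show (p : ℕ) ^ N * ((L.V).comap (primeLocalToGlobal q)).relIndex (Sg q F₀.fixingSubgroup g) ∣
      ((L'.V).comap (primeLocalToGlobal q)).relIndex (Sg q F₀.fixingSubgroup g)
    rw [hA, hA', hD]
    exact mul_relIndex_dvd_relIndex (B := F'.fixingSubgroup.comap ψ)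
      (Subgroup.comap_mono hL'F') (Subgroup.comap_mono hle)
      (Subgroup.comap_mono (IntermediateField.fixingSubgroup_antitone hL)) hdvd

/-- The hypothesis `hp` of `LocalCompare` / `FormationSub` for `𝒲ˢ`: the indices are cofinally
multiplied by `p`. -/
theorem comap_galFamilyOver_exists_mul_index_dvd (hp : p ∈ S) (hq : q ∈ S)
    (F₀ : IntermediateField ℚ Qbar) (hF₀ : F₀.IsUnramifiedOutside S) (g : Γℚ) :
    ∀ U ∈ (comap (galFamilyOver F₀ hF₀) (cg q F₀.fixingSubgroup g)).levels,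
      ∃ U' ∈ (comap (galFamilyOver F₀ hF₀) (cg q F₀.fixingSubgroup g)).levels,
        U' ≤ U ∧ (p : ℕ) * U.index ∣ U'.index := by
  intro U hU
  obtain ⟨U', hU', hle, hdvd⟩ :=
    comap_galFamilyOver_exists_pow_mul_index_dvd hp hq F₀ hF₀ g hU 1
  rw [pow_one] at hdvd
  exact ⟨U', hU', hle, hdvd⟩

/-! ### The same statements for helper36's `funStabHom` (`TransferSemilocal.lean`)

`Semilocal.funStabHom φ W g` (helper36) and `LocalProjConj.stabHom φ W g` (helper57) are two
definitions of the same homomorphism `h ↦ g⁻¹ * φ h * g`; they agree definitionally. -/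

open Fermat.Agent.Lib.CFT.Duality.Semilocal

/-- helper36's `funStabHom` is helper57's `stabHom`. -/
theorem funStabHom_eq_stabHom {G H : Type} [Group G] [Group H] (φ : H →* G) (V : Subgroup G)
    (g : G) : funStabHom φ V g = stabHom φ V g := rfl

/-- helper36's `funStabHom` at `φ_q` is helper57's `cg`. -/
theorem funStabHom_eq_cg (q : Nat.Primes) (W : Subgroup Γℚ) (g : Γℚ) :
    funStabHom (primeLocalToGlobal q) W g = cg q W g := rfl

/-- `comap_galFamilyOver_exists_pow_mul_index_dvd` for `funStabHom`. -/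
theorem comap_funStabHom_exists_pow_mul_index_dvd (hp : p ∈ S) (hq : q ∈ S)
    (F₀ : IntermediateField ℚ Qbar) (hF₀ : F₀.IsUnramifiedOutside S) (g : Γℚ)
    {U : Subgroup ↥(funStab (primeLocalToGlobal q) F₀.fixingSubgroup g)}
    (hU : U ∈ (comap (galFamilyOver F₀ hF₀)
      (funStabHom (primeLocalToGlobal q) F₀.fixingSubgroup g)).levels) (N : ℕ) :
    ∃ U' ∈ (comap (galFamilyOver F₀ hF₀)
        (funStabHom (primeLocalToGlobal q) F₀.fixingSubgroup g)).levels,
      U' ≤ U ∧ (p : ℕ) ^ N * U.index ∣ U'.index :=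
  comap_galFamilyOver_exists_pow_mul_index_dvd hp hq F₀ hF₀ g hU N

/-- **The hypothesis `hp` of `LocalCompare` for `𝒲ˢ`, in helper36's notation.** -/
theorem hp_comap_galFamilyOver (hp : p ∈ S) (hq : q ∈ S)
    (F₀ : IntermediateField ℚ Qbar) (hF₀ : F₀.IsUnramifiedOutside S) (g : Γℚ) :
    ∀ U ∈ (comap (galFamilyOver F₀ hF₀)
        (funStabHom (primeLocalToGlobal q) F₀.fixingSubgroup g)).levels,
      ∃ U' ∈ (comap (galFamilyOver F₀ hF₀)
          (funStabHom (primeLocalToGlobal q) F₀.fixingSubgroup g)).levels,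
        U' ≤ U ∧ (p : ℕ) * U.index ∣ U'.index :=
  comap_galFamilyOver_exists_mul_index_dvd hp hq F₀ hF₀ g

/-- The levels of `𝒲ˢ` (in helper36's notation) are the `S_g ∩ φ_q⁻¹ (L.V)`. -/
theorem mem_comap_funStabHom_levels (F₀ : IntermediateField ℚ Qbar)
    (hF₀ : F₀.IsUnramifiedOutside S) (g : Γℚ)
    {U : Subgroup ↥(funStab (primeLocalToGlobal q) F₀.fixingSubgroup g)} :
    U ∈ (comap (galFamilyOver F₀ hF₀)
        (funStabHom (primeLocalToGlobal q) F₀.fixingSubgroup g)).levels ↔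
      ∃ L : GalLevel S, F₀ ≤ L.F ∧
        U = ((L.V).comap (primeLocalToGlobal q)).subgroupOf
          (funStab (primeLocalToGlobal q) F₀.fixingSubgroup g) :=
  mem_comap_galFamilyOver_levels q g F₀ hF₀

/-- All levels of `𝒲ˢ` (in helper36's notation) are normal. -/
theorem comap_funStabHom_normal (F₀ : IntermediateField ℚ Qbar)
    (hF₀ : F₀.IsUnramifiedOutside S) (g : Γℚ)
    {U : Subgroup ↥(funStab (primeLocalToGlobal q) F₀.fixingSubgroup g)}
    (hU : U ∈ (comap (galFamilyOver F₀ hF₀)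
      (funStabHom (primeLocalToGlobal q) F₀.fixingSubgroup g)).levels) : U.Normal :=
  comap_galFamilyOver_normal q g F₀ hF₀ hU

/-- Every level of `𝒲ˢ` (in helper36's notation) contains an open subgroup of `S_g`. -/
theorem isCompatible_restrict_comap_funStabHom (F₀ : IntermediateField ℚ Qbar)
    (hF₀ : F₀.IsUnramifiedOutside S) (g : Γℚ) :
    IsCompatible (restrict (primeLocalLevels q) (funStab (primeLocalToGlobal q) F₀.fixingSubgroup g))
      (comap (galFamilyOver F₀ hF₀) (funStabHom (primeLocalToGlobal q) F₀.fixingSubgroup g))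
      (MonoidHom.id ↥(funStab (primeLocalToGlobal q) F₀.fixingSubgroup g)) :=
  isCompatible_restrict_comap_cg q g F₀ hF₀

/-! ### helper66's `LocalCompareInst.IndexDivHyp`, and the unconditional `H²` statements -/

open Fermat.Agent.Lib.CFT.Local.LqModule in
/-- **helper66's `IndexDivHyp` holds** for `p, q ∈ S`. -/
theorem indexDivHyp (hp : p ∈ S) (hq : q ∈ S)
    (F₀ : IntermediateField ℚ Qbar) (hF₀ : F₀.IsUnramifiedOutside S) (g : Γℚ) :
    LocalCompareInst.IndexDivHyp q F₀ hF₀ g (p : ℕ) :=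
  hp_comap_galFamilyOver hp hq F₀ hF₀ g

open Fermat.Agent.Lib.CFT.Local.LqModule in
/-- `H²(𝒲ˢ, (ℚ̄_q)ˣ)` is `p`-divisible (`p, q ∈ S`), unconditionally. -/
theorem exists_nsmul_eq_comapFamily (hp : p ∈ S) (hq : q ∈ S)
    (F₀ : IntermediateField ℚ Qbar) (hF₀ : F₀.IsUnramifiedOutside S) (g : Γℚ)
    (x : (LocalCompareInst.comapFamily q F₀ hF₀ g).levelCohomology
      (Rep.res (LocalCompareInst.Dg q F₀ g).subtype (Lq q)) 2) :
    ∃ y : (LocalCompareInst.comapFamily q F₀ hF₀ g).levelCohomology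
        (Rep.res (LocalCompareInst.Dg q F₀ g).subtype (Lq q)) 2, (p : ℕ) • y = x :=
  LocalCompareInst.exists_nsmul_eq_comapFamily q F₀ hF₀ g (indexDivHyp hp hq F₀ hF₀ g) x

open Fermat.Agent.Lib.CFT.Local.LqModule in
/-- `H²(𝒲ˢ, (ℚ̄_q)ˣ) → H²(S_g, (ℚ̄_q)ˣ)` is bijective on `p`-torsion (`p, q ∈ S`),
unconditionally. -/
theorem cmpTorsionMap_bijective_comapFamily (hp : p ∈ S) (hq : q ∈ S)
    (F₀ : IntermediateField ℚ Qbar) (hF₀ : F₀.IsUnramifiedOutside S) (g : Γℚ) :
    Function.Bijective (LocalCompare.cmpTorsionMap q (LocalCompareInst.Dg q F₀ g)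
      (LocalCompareInst.comapFamily q F₀ hF₀ g) (LocalCompareInst.comapFamily_sub q F₀ hF₀ g)
      (p : ℕ)) :=
  LocalCompareInst.cmpTorsionMap_bijective_comapFamily q F₀ hF₀ g (indexDivHyp hp hq F₀ hF₀ g)

end Fermat.Agent.Lib.CFT.Global.SVersion.LocalCompareDiv
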