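import Fermat.Agent.Lib.CFT.Duality.BaseCase.KCalcSeq
import Fermat.Agent.Lib.CFT.Profinite.LevelClasses

/-!
# Five lemma for the `T`-groups (helper11, P-CFT Global/S-version)

`T^r(X)` is the cohomology of the cone of multiplication by `p` on the level complex of `X`
(`Duality/BaseCase/KCalc*.lean`), sitting in the Bockstein sequence
`0 ⟶ H^r(X)/p ⟶ T^{r+1}(X) ⟶ H^{r+1}(X)[p] ⟶ 0`.

For a finite or infinite family of changes of group `(φ i, lam i) : (G, X) ⟶ (H i, Y i)` we prove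
that the induced map `T^{r+1}(X) ⟶ Π i, T^{r+1}(Y i)` is bijective as soon as the maps on level
cohomology are bijective modulo `p` in degree `r` and bijective on `p`-torsion in degree `r + 1`
(`tMap_bijective_succ`), and the corresponding vanishing criterion (`subsingleton_T_succ`).
These reduce the semi-local statement for `T` to statements on level cohomology.
-/

set_option autoImplicit false

universe u

open CategoryTheory Fermat.Agent.Lib.CFT.Profinite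

namespace Fermat.Agent.Lib.CFT.Global.SVersion.TFive

open Fermat.Agent.Lib.CFT.Duality.KCalc

variable {k G : Type u} [CommRing k] [Group G] (𝒰 : LevelFamily G) (p : ℕ) {X : Rep.{u} k G}

/-- `T^{r+1}(X) = 0` if `H^r(X)` is `p`-divisible and `H^{r+1}(X)` has no `p`-torsion. -/
theorem subsingleton_T_succ (r : ℕ)
    (hdiv : ∀ a : 𝒰.levelCohomology X r, ∃ a₀ : 𝒰.levelCohomology X r, p • a₀ = a)
    (htor : ∀ a' : 𝒰.levelCohomology X (r + 1), p • a' = 0 → a' = 0) :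
    Subsingleton (T 𝒰 p X (r + 1)) := by
  refine ⟨fun s t => ?_⟩
  have key : ∀ t : T 𝒰 p X (r + 1), t = 0 := by
    intro t
    have h1 : toH 𝒰 p X (r + 1) t = 0 := htor _ (smul_toH 𝒰 p X (r + 1) t)
    obtain ⟨a, rfl⟩ := (toH_eq_zero_iff 𝒰 p X r t).1 h1
    obtain ⟨a₀, rfl⟩ := hdiv a
    exact ofH_smul 𝒰 p X r a₀
  rw [key s, key t]

section Family

variable {ι : Type*} {H : ι → Type u} [∀ i, Group (H i)] (𝒱 : ∀ i, LevelFamily (H i))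
  {Y : ∀ i, Rep.{u} k (H i)} (φ : ∀ i, H i →* G)
  (hφ : ∀ i, LevelFamily.IsCompatible (𝒱 i) 𝒰 (φ i)) (lam : ∀ i, Rep.res (φ i) X ⟶ Y i)

/-- The family of maps on level cohomology. -/
noncomputable def hMap (r : ℕ) (x : 𝒰.levelCohomology X r) (i : ι) :
    (𝒱 i).levelCohomology (Y i) r :=
  (HomologicalComplex.homologyMap (LevelFamily.levelCochainsMap (φ i) (hφ i) (lam i)) r).hom x

/-- The family of maps on the `T`-groups. -/
noncomputable def tMap (r : ℕ) (t : T 𝒰 p X r) (i : ι) : T (𝒱 i) p (Y i) r :=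
  TMapOfHom 𝒰 p (𝒱 i) (φ i) (hφ i) (lam i) r t

theorem hMap_apply (r : ℕ) (x : 𝒰.levelCohomology X r) (i : ι) :
    hMap 𝒰 𝒱 φ hφ lam r x i =
      (LevelFamily.levelCohomologyMapOfHom (φ i) (hφ i) (lam i) r).hom x := rfl

theorem tMap_add (r : ℕ) (s t : T 𝒰 p X r) :
    tMap 𝒰 p 𝒱 φ hφ lam r (s + t) = tMap 𝒰 p 𝒱 φ hφ lam r s + tMap 𝒰 p 𝒱 φ hφ lam r t := by
  funext i
  exact map_add _ s t

theorem tMap_sub (r : ℕ) (s t : T 𝒰 p X r) :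
    tMap 𝒰 p 𝒱 φ hφ lam r (s - t) = tMap 𝒰 p 𝒱 φ hφ lam r s - tMap 𝒰 p 𝒱 φ hφ lam r t := by
  funext i
  exact map_sub _ s t

theorem tMap_zero (r : ℕ) : tMap 𝒰 p 𝒱 φ hφ lam r 0 = 0 := by
  funext i
  exact map_zero _

theorem hMap_add (r : ℕ) (x y : 𝒰.levelCohomology X r) :
    hMap 𝒰 𝒱 φ hφ lam r (x + y) = hMap 𝒰 𝒱 φ hφ lam r x + hMap 𝒰 𝒱 φ hφ lam r y := by
  funext i
  exact map_add _ x y

theorem hMap_nsmul (r : ℕ) (n : ℕ) (x : 𝒰.levelCohomology X r) :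
    hMap 𝒰 𝒱 φ hφ lam r (n • x) = n • hMap 𝒰 𝒱 φ hφ lam r x := by
  funext i
  exact map_nsmul _ n x

theorem toH_tMap (r : ℕ) (t : T 𝒰 p X r) (i : ι) :
    toH (𝒱 i) p (Y i) r (tMap 𝒰 p 𝒱 φ hφ lam r t i) =
      hMap 𝒰 𝒱 φ hφ lam r (toH 𝒰 p X r t) i :=
  toH_TMapOfHom 𝒰 p (𝒱 i) (φ i) (hφ i) (lam i) r t

theorem tMap_ofH (r : ℕ) (y : 𝒰.levelCohomology X r) (i : ι) :
    tMap 𝒰 p 𝒱 φ hφ lam (r + 1) (ofH 𝒰 p X r y) i =
      ofH (𝒱 i) p (Y i) r (hMap 𝒰 𝒱 φ hφ lam r y i) :=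
  TMapOfHom_ofH 𝒰 p (𝒱 i) (φ i) (hφ i) (lam i) r y

/-- Injectivity part of the five lemma. -/
theorem tMap_injective_succ (r : ℕ)
    (hinj_mod : ∀ a : 𝒰.levelCohomology X r,
      (∀ i, ∃ z : (𝒱 i).levelCohomology (Y i) r, p • z = hMap 𝒰 𝒱 φ hφ lam r a i) →
        ∃ a₀ : 𝒰.levelCohomology X r, p • a₀ = a)
    (hinj_tor : ∀ a' : 𝒰.levelCohomology X (r + 1), p • a' = 0 →
      (∀ i, hMap 𝒰 𝒱 φ hφ lam (r + 1) a' i = 0) → a' = 0) :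
    Function.Injective (tMap 𝒰 p 𝒱 φ hφ lam (r + 1)) := by
  intro s t hst
  have h0 : tMap 𝒰 p 𝒱 φ hφ lam (r + 1) (s - t) = 0 := by
    rw [tMap_sub, hst, sub_self]
  suffices h : s - t = 0 from sub_eq_zero.1 h
  generalize s - t = d at h0
  have h1 : toH 𝒰 p X (r + 1) d = 0 := by
    refine hinj_tor _ (smul_toH 𝒰 p X (r + 1) d) (fun i => ?_)
    rw [← toH_tMap, h0]
    exact map_zero _
  obtain ⟨a, rfl⟩ := (toH_eq_zero_iff 𝒰 p X r d).1 h1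
  obtain ⟨a₀, rfl⟩ := hinj_mod a (fun i => by
    have h2 := congr_fun h0 i
    rw [tMap_ofH] at h2
    exact (ofH_eq_zero_iff (𝒱 i) p (Y i) r _).1 h2)
  exact ofH_smul 𝒰 p X r a₀

/-- Surjectivity part of the five lemma. -/
theorem tMap_surjective_succ (r : ℕ)
    (hsurj_mod : ∀ b : ∀ i, (𝒱 i).levelCohomology (Y i) r,
      ∃ a : 𝒰.levelCohomology X r, ∀ i, ∃ z : (𝒱 i).levelCohomology (Y i) r,
        b i = hMap 𝒰 𝒱 φ hφ lam r a i + p • z)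
    (hsurj_tor : ∀ b' : ∀ i, (𝒱 i).levelCohomology (Y i) (r + 1), (∀ i, p • b' i = 0) →
      ∃ a' : 𝒰.levelCohomology X (r + 1), p • a' = 0 ∧
        ∀ i, hMap 𝒰 𝒱 φ hφ lam (r + 1) a' i = b' i) :
    Function.Surjective (tMap 𝒰 p 𝒱 φ hφ lam (r + 1)) := by
  intro s
  obtain ⟨a', ha', hfa'⟩ := hsurj_tor (fun i => toH (𝒱 i) p (Y i) (r + 1) (s i))
    (fun i => smul_toH (𝒱 i) p (Y i) (r + 1) (s i))
  obtain ⟨t₀, ht₀⟩ := (exists_toH_eq_iff 𝒰 p X (r + 1) a').2 ha'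
  have hker : ∀ i, ∃ b : (𝒱 i).levelCohomology (Y i) r,
      ofH (𝒱 i) p (Y i) r b = s i - tMap 𝒰 p 𝒱 φ hφ lam (r + 1) t₀ i := by
    intro i
    refine (toH_eq_zero_iff (𝒱 i) p (Y i) r _).1 ?_
    rw [map_sub, toH_tMap, ht₀, hfa' i, sub_self]
  choose b hb using hker
  obtain ⟨a, ha⟩ := hsurj_mod b
  refine ⟨t₀ + ofH 𝒰 p X r a, ?_⟩
  funext i
  obtain ⟨z, hz⟩ := ha i
  rw [tMap_add]
  show tMap 𝒰 p 𝒱 φ hφ lam (r + 1) t₀ i + tMap 𝒰 p 𝒱 φ hφ lam (r + 1) (ofH 𝒰 p X r a) i = s i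
  rw [tMap_ofH]
  have h3 : ofH (𝒱 i) p (Y i) r (b i) = ofH (𝒱 i) p (Y i) r (hMap 𝒰 𝒱 φ hφ lam r a i) := by
    rw [hz, map_add, ofH_smul, add_zero]
  rw [← h3, hb i]
  abel

/-- **Five lemma for `T`**: the map `T^{r+1}(X) ⟶ Π i, T^{r+1}(Y i)` is bijective if the maps on
level cohomology are bijective modulo `p` in degree `r` and bijective on `p`-torsion in degree
`r + 1`. -/
theorem tMap_bijective_succ (r : ℕ)
    (hinj_mod : ∀ a : 𝒰.levelCohomology X r,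
      (∀ i, ∃ z : (𝒱 i).levelCohomology (Y i) r, p • z = hMap 𝒰 𝒱 φ hφ lam r a i) →
        ∃ a₀ : 𝒰.levelCohomology X r, p • a₀ = a)
    (hsurj_mod : ∀ b : ∀ i, (𝒱 i).levelCohomology (Y i) r,
      ∃ a : 𝒰.levelCohomology X r, ∀ i, ∃ z : (𝒱 i).levelCohomology (Y i) r,
        b i = hMap 𝒰 𝒱 φ hφ lam r a i + p • z)
    (hinj_tor : ∀ a' : 𝒰.levelCohomology X (r + 1), p • a' = 0 →
      (∀ i, hMap 𝒰 𝒱 φ hφ lam (r + 1) a' i = 0) → a' = 0)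
    (hsurj_tor : ∀ b' : ∀ i, (𝒱 i).levelCohomology (Y i) (r + 1), (∀ i, p • b' i = 0) →
      ∃ a' : 𝒰.levelCohomology X (r + 1), p • a' = 0 ∧
        ∀ i, hMap 𝒰 𝒱 φ hφ lam (r + 1) a' i = b' i) :
    Function.Bijective (tMap 𝒰 p 𝒱 φ hφ lam (r + 1)) :=
  ⟨tMap_injective_succ 𝒰 p 𝒱 φ hφ lam r hinj_mod hinj_tor,
    tMap_surjective_succ 𝒰 p 𝒱 φ hφ lam r hsurj_mod hsurj_tor⟩

/-- Special case: if `H^r` vanishes on both sides, only the `p`-torsion in degree `r + 1`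
matters. -/
theorem tMap_bijective_succ_of_subsingleton (r : ℕ)
    [Subsingleton (𝒰.levelCohomology X r)]
    (hY : ∀ i, Subsingleton ((𝒱 i).levelCohomology (Y i) r))
    (hinj_tor : ∀ a' : 𝒰.levelCohomology X (r + 1), p • a' = 0 →
      (∀ i, hMap 𝒰 𝒱 φ hφ lam (r + 1) a' i = 0) → a' = 0)
    (hsurj_tor : ∀ b' : ∀ i, (𝒱 i).levelCohomology (Y i) (r + 1), (∀ i, p • b' i = 0) →
      ∃ a' : 𝒰.levelCohomology X (r + 1), p • a' = 0 ∧
        ∀ i, hMap 𝒰 𝒱 φ hφ lam (r + 1) a' i = b' i) :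
    Function.Bijective (tMap 𝒰 p 𝒱 φ hφ lam (r + 1)) := by
  refine tMap_bijective_succ 𝒰 p 𝒱 φ hφ lam r ?_ ?_ hinj_tor hsurj_tor
  · intro a _
    exact ⟨0, Subsingleton.elim _ _⟩
  · intro b
    refine ⟨0, fun i => ⟨0, ?_⟩⟩
    have := hY i
    exact Subsingleton.elim _ _

/-! ### The hypotheses of the five lemma from bijectivity on level cohomology -/

theorem hinj_mod_of_bijective (r : ℕ)
    (h : Function.Bijective (hMap 𝒰 𝒱 φ hφ lam r)) (a : 𝒰.levelCohomology X r)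
    (ha : ∀ i, ∃ z : (𝒱 i).levelCohomology (Y i) r, p • z = hMap 𝒰 𝒱 φ hφ lam r a i) :
    ∃ a₀ : 𝒰.levelCohomology X r, p • a₀ = a := by
  choose z hz using ha
  obtain ⟨a₀, ha₀⟩ := h.2 z
  refine ⟨a₀, h.1 ?_⟩
  rw [hMap_nsmul, ha₀]
  funext i
  exact hz i

theorem hsurj_mod_of_surjective (r : ℕ)
    (h : Function.Surjective (hMap 𝒰 𝒱 φ hφ lam r))
    (b : ∀ i, (𝒱 i).levelCohomology (Y i) r) :
    ∃ a : 𝒰.levelCohomology X r, ∀ i, ∃ z : (𝒱 i).levelCohomology (Y i) r,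
      b i = hMap 𝒰 𝒱 φ hφ lam r a i + p • z := by
  obtain ⟨a, ha⟩ := h b
  exact ⟨a, fun i => ⟨0, by rw [ha, smul_zero, add_zero]⟩⟩

theorem hinj_tor_of_injective (r : ℕ)
    (h : Function.Injective (hMap 𝒰 𝒱 φ hφ lam r)) (a' : 𝒰.levelCohomology X r)
    (_ : p • a' = 0) (h0 : ∀ i, hMap 𝒰 𝒱 φ hφ lam r a' i = 0) : a' = 0 := by
  apply h
  funext i
  rw [h0 i]
  exact (map_zero _).symm

theorem hsurj_tor_of_bijective (r : ℕ)
    (h : Function.Bijective (hMap 𝒰 𝒱 φ hφ lam r))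
    (b' : ∀ i, (𝒱 i).levelCohomology (Y i) r) (hb' : ∀ i, p • b' i = 0) :
    ∃ a' : 𝒰.levelCohomology X r, p • a' = 0 ∧ ∀ i, hMap 𝒰 𝒱 φ hφ lam r a' i = b' i := by
  obtain ⟨a', ha'⟩ := h.2 b'
  refine ⟨a', h.1 ?_, fun i => congr_fun ha' i⟩
  rw [hMap_nsmul, ha']
  funext i
  rw [Pi.smul_apply, hb' i]
  exact (map_zero _).symm

/-- If the maps on level cohomology are bijective in degrees `r` and `r + 1`, so is the map on
`T^{r+1}`. -/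
theorem tMap_bijective_succ_of_bijective (r : ℕ)
    (h0 : Function.Bijective (hMap 𝒰 𝒱 φ hφ lam r))
    (h1 : Function.Bijective (hMap 𝒰 𝒱 φ hφ lam (r + 1))) :
    Function.Bijective (tMap 𝒰 p 𝒱 φ hφ lam (r + 1)) :=
  tMap_bijective_succ 𝒰 p 𝒱 φ hφ lam r (hinj_mod_of_bijective 𝒰 p 𝒱 φ hφ lam r h0)
    (hsurj_mod_of_surjective 𝒰 p 𝒱 φ hφ lam r h0.2)
    (hinj_tor_of_injective 𝒰 p 𝒱 φ hφ lam (r + 1) h1.1)
    (hsurj_tor_of_bijective 𝒰 p 𝒱 φ hφ lam (r + 1) h1)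

end Family

end Fermat.Agent.Lib.CFT.Global.SVersion.TFive
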