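/-
`T`-level form of `FormationSub.lean` (P-CFT Global/S-version, abstract piece (P3), helper41).

For a formation `F` (helper7) and a level family `𝒲` all of whose levels are levels of `F.𝒰`, let
`τ r : T^r(𝒲, C) → T^r(F.𝒰, C)` be the canonical comparison map on the cohomology of the cone of
multiplication by `p` (`KCalc.TMapOfHom` along the identity).  If `H¹` vanishes on both sides then
* (T1) `τ 1` is bijective;
* (T2) `τ 2` is bijective as soon as `p` divides the index of a normal level of `𝒲`;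
and if the indices of the normal levels of `𝒲` are cofinally multiplied by `p` and `H³(𝒲, C) = 0`
* (T3) `T³(𝒲, C) = 0`.
The vanishing hypotheses hold when the layers are class layers (`ℤ`-coefficients).  Variants with
the target family `F.𝒰` replaced by a mutually cofinal family are included.
-/
import Fermat.Agent.Lib.CFT.Global.SVersion.FormationSub
import Fermat.Agent.Lib.CFT.Global.SVersion.TFive
import Fermat.Agent.Lib.CFT.Profinite.MutualT
import Fermat.Agent.Lib.CFT.Profinite.LevelLowDegree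

set_option autoImplicit false

namespace Fermat.Agent.Lib.CFT.Global.SVersion.FormationSubT

open CategoryTheory
open Fermat.Agent.Lib.CFT.Profinite Fermat.Agent.Lib.CFT.Profinite.LevelFamily
open Fermat.Agent.Lib.CFT.Coh.ClassFormation
open Fermat.Agent.Lib.CFT.Duality.KCalc
open Fermat.Agent.Lib.CFT.Global.SVersion.FormationSub
open Fermat.Agent.Lib.CFT.Global.SVersion.TFive

universe u

/-! ### `H⁰` does not depend on the level family -/

section H0

variable {k G : Type u} [CommRing k] [Group G] {𝒰 𝒱 : LevelFamily G}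
  (h : IsCompatible 𝒱 𝒰 (MonoidHom.id G)) (M : Rep.{u} k G)

/-- The comparison map on `H⁰` is the identity on invariants. -/
theorem H0Equiv_map (x : 𝒰.levelCohomology M 0) :
    𝒱.H0Equiv M ((LES.map (MonoidHom.id G) h (𝟙 M) 0).hom x) = 𝒰.H0Equiv M x := by
  obtain ⟨f, rfl⟩ := 𝒰.classMk_surjective M 0 x
  apply Subtype.ext
  have e : (LES.map (MonoidHom.id G) h (𝟙 M) 0).hom (𝒰.classMk M 0 f) =
      𝒱.classMk M 0 (levelCocyclesMap (MonoidHom.id G) h (𝟙 M) 0 f) :=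
    levelCohomologyMapOfHom_classMk (MonoidHom.id G) h (𝟙 M) 0 f
  rw [e, H0Equiv_classMk, H0Equiv_classMk, levelCocyclesMap_coe]
  rfl

/-- The comparison map on `H⁰` is bijective (one-sided compatibility suffices). -/
theorem map_zero_bijective :
    Function.Bijective (LES.map (MonoidHom.id G) h (𝟙 M) 0).hom := by
  have e : ⇑(LES.map (MonoidHom.id G) h (𝟙 M) 0).hom =
      ⇑(𝒱.H0Equiv M).symm ∘ ⇑(𝒰.H0Equiv M) := by
    funext x
    rw [Function.comp_apply, LinearEquiv.eq_symm_apply, H0Equiv_map]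
  rw [e]
  exact (𝒱.H0Equiv M).symm.bijective.comp (𝒰.H0Equiv M).bijective

end H0

/-! ### The five lemma for a single map -/

section Single

variable {k G : Type u} [CommRing k] [Group G] (𝒰 𝒱 : LevelFamily G) (p : ℕ)
  (h : IsCompatible 𝒱 𝒰 (MonoidHom.id G)) (M : Rep.{u} k G)

theorem TMapOfHom_eq_tMap (r : ℕ) :
    ⇑(TMapOfHom 𝒰 p 𝒱 (MonoidHom.id G) h (𝟙 M) r) =
      ⇑(Equiv.funUnique Unit (T 𝒱 p M r)) ∘
        tMap 𝒰 p (fun _ : Unit => 𝒱) (fun _ => MonoidHom.id G) (fun _ => h) (fun _ => 𝟙 M) r :=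
  rfl

theorem hMap_eq (r : ℕ) :
    hMap 𝒰 (fun _ : Unit => 𝒱) (fun _ => MonoidHom.id G) (fun _ => h) (fun _ => 𝟙 M) r =
      ⇑(Equiv.funUnique Unit (𝒱.levelCohomology M r)).symm ∘
        ⇑(LES.map (MonoidHom.id G) h (𝟙 M) r).hom :=
  rfl

/-- `T^{r+1}(𝒰, M) → T^{r+1}(𝒱, M)` is bijective if `H^r` is bijective and `H^{r+1}` is injective
and surjective on `p`-torsion. -/
theorem TMapOfHom_bijective_succ (r : ℕ)
    (h0 : Function.Bijective (LES.map (MonoidHom.id G) h (𝟙 M) r).hom)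
    (hinj : Function.Injective (LES.map (MonoidHom.id G) h (𝟙 M) (r + 1)).hom)
    (hsurj : ∀ b : 𝒱.levelCohomology M (r + 1), p • b = 0 →
      ∃ a : 𝒰.levelCohomology M (r + 1), p • a = 0 ∧
        (LES.map (MonoidHom.id G) h (𝟙 M) (r + 1)).hom a = b) :
    Function.Bijective (TMapOfHom 𝒰 p 𝒱 (MonoidHom.id G) h (𝟙 M) (r + 1)) := by
  rw [TMapOfHom_eq_tMap]
  refine (Equiv.funUnique Unit _).bijective.comp ?_
  have hb0 : Function.Bijective
      (hMap 𝒰 (fun _ : Unit => 𝒱) (fun _ => MonoidHom.id G) (fun _ => h) (fun _ => 𝟙 M) r) := by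
    rw [hMap_eq]
    exact (Equiv.funUnique Unit _).symm.bijective.comp h0
  refine tMap_bijective_succ 𝒰 p (fun _ : Unit => 𝒱) (fun _ => MonoidHom.id G) (fun _ => h)
    (fun _ => 𝟙 M) r (hinj_mod_of_bijective 𝒰 p _ _ _ _ r hb0)
    (hsurj_mod_of_surjective 𝒰 p _ _ _ _ r hb0.2) ?_ ?_
  · intro a' _ ha'
    exact hinj ((ha' ()).trans (map_zero _).symm)
  · intro b' hb'
    obtain ⟨a, ha, hab⟩ := hsurj (b' ()) (hb' ())
    exact ⟨a, ha, fun _ => hab⟩

end Single

/-! ### Sub-families of the level family of a formation -/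

section Sub

variable {k Γ : Type u} [CommRing k] [Group Γ] (F : Formation k Γ) (𝒲 : LevelFamily Γ)
  (hsub : ∀ U ∈ 𝒲.levels, U ∈ F.𝒰.levels) (p : ℕ)

/-- The canonical comparison map `T^r(𝒲, C) → T^r(F.𝒰, C)`. -/
noncomputable abbrev tau (r : ℕ) : T 𝒲 p F.C r →ₗ[k] T F.𝒰 p F.C r :=
  TMapOfHom 𝒲 p F.𝒰 (MonoidHom.id Γ) (isCompatible_of_sub F 𝒲 hsub) (𝟙 F.C) r

/-- **(T1)** `τ 1` is bijective as soon as `H¹` vanishes on both sides. -/
theorem tau_one_bijective (h1 : Subsingleton (𝒲.levelCohomology F.C 1))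
    (h1' : Subsingleton (F.𝒰.levelCohomology F.C 1)) :
    Function.Bijective (tau F 𝒲 hsub p 1) := by
  refine TMapOfHom_bijective_succ 𝒲 F.𝒰 p (isCompatible_of_sub F 𝒲 hsub) F.C 0
    (map_zero_bijective _ F.C) (fun a b _ => Subsingleton.elim a b) ?_
  intro b _
  exact ⟨0, smul_zero _, Subsingleton.elim _ _⟩

/-- **(T2)** `τ 2` is bijective if `H¹` vanishes on both sides and `p` divides the index of a
normal level of `𝒲`. -/
theorem tau_two_bijective (h1 : Subsingleton (𝒲.levelCohomology F.C 1))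
    (h1' : Subsingleton (F.𝒰.levelCohomology F.C 1)) (U : Subgroup Γ) [U.Normal]
    (hU : U ∈ 𝒲.levels) (hpU : p ∣ U.index) :
    Function.Bijective (tau F 𝒲 hsub p 2) := by
  refine TMapOfHom_bijective_succ 𝒲 F.𝒰 p (isCompatible_of_sub F 𝒲 hsub) F.C 1
    ⟨fun a b _ => Subsingleton.elim a b, fun b => ⟨0, Subsingleton.elim _ _⟩⟩
    (subMap_injective F 𝒲 hsub) ?_
  intro b hb
  obtain ⟨a, ha⟩ := (torsionMap_bijective F 𝒲 hsub U hU hpU).2 ⟨b, hb⟩
  exact ⟨a.1, a.2, congrArg Subtype.val ha⟩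

include hsub in
/-- **(T3)** `T³(𝒲, C) = 0` if the indices of the normal levels of `𝒲` are cofinally multiplied by
`p` and `H³(𝒲, C) = 0`. -/
theorem subsingleton_T_three
    (hp : ∀ (U : Subgroup Γ) (_ : U.Normal), U ∈ 𝒲.levels →
      ∃ (U' : Subgroup Γ) (_ : U'.Normal), U' ∈ 𝒲.levels ∧ U' ≤ U ∧ p * U.index ∣ U'.index)
    (h3 : Subsingleton (𝒲.levelCohomology F.C 3)) : Subsingleton (T 𝒲 p F.C 3) :=
  subsingleton_T_succ 𝒲 p 2 (exists_nsmul_eq_sub F 𝒲 hsub hp)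
    (fun _ _ => Subsingleton.elim _ _)

include hsub in
/-- `τ 3` is injective under the hypotheses of (T3) (its source vanishes). -/
theorem tau_three_injective
    (hp : ∀ (U : Subgroup Γ) (_ : U.Normal), U ∈ 𝒲.levels →
      ∃ (U' : Subgroup Γ) (_ : U'.Normal), U' ∈ 𝒲.levels ∧ U' ≤ U ∧ p * U.index ∣ U'.index)
    (h3 : Subsingleton (𝒲.levelCohomology F.C 3)) :
    Function.Injective (tau F 𝒲 hsub p 3) :=
  haveI := subsingleton_T_three F 𝒲 hsub p hp h3
  fun a b _ => Subsingleton.elim a b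

omit F hsub in
/-- Under the cofinal divisibility hypothesis, `p` divides the index of some normal level. -/
theorem exists_dvd_index
    (hp : ∀ (U : Subgroup Γ) (_ : U.Normal), U ∈ 𝒲.levels →
      ∃ (U' : Subgroup Γ) (_ : U'.Normal), U' ∈ 𝒲.levels ∧ U' ≤ U ∧ p * U.index ∣ U'.index) :
    ∃ (U : Subgroup Γ) (_ : U.Normal), U ∈ 𝒲.levels ∧ p ∣ U.index := by
  obtain ⟨U₀, hU₀, hn₀⟩ := 𝒲.exists_normal
  obtain ⟨U', hn', hU', -, hdvd⟩ := hp U₀ hn₀ hU₀
  exact ⟨U', hn', hU', (Dvd.intro _ rfl).trans hdvd⟩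

/-- (T2) under the cofinal divisibility hypothesis. -/
theorem tau_two_bijective_of_div (h1 : Subsingleton (𝒲.levelCohomology F.C 1))
    (h1' : Subsingleton (F.𝒰.levelCohomology F.C 1))
    (hp : ∀ (U : Subgroup Γ) (_ : U.Normal), U ∈ 𝒲.levels →
      ∃ (U' : Subgroup Γ) (_ : U'.Normal), U' ∈ 𝒲.levels ∧ U' ≤ U ∧ p * U.index ∣ U'.index) :
    Function.Bijective (tau F 𝒲 hsub p 2) := by
  obtain ⟨U, hn, hU, hpU⟩ := exists_dvd_index 𝒲 p hp
  exact tau_two_bijective F 𝒲 hsub p h1 h1' U hU hpU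

/-! #### Variants when all levels of `𝒲` are normal -/

include hsub in
theorem subsingleton_T_three_of_normal (hn : ∀ U ∈ 𝒲.levels, U.Normal)
    (hp : ∀ U ∈ 𝒲.levels, ∃ U' ∈ 𝒲.levels, U' ≤ U ∧ p * U.index ∣ U'.index)
    (h3 : Subsingleton (𝒲.levelCohomology F.C 3)) : Subsingleton (T 𝒲 p F.C 3) :=
  subsingleton_T_three F 𝒲 hsub p (fun U _ hU => by
    obtain ⟨U', hU', hle, hdvd⟩ := hp U hU
    exact ⟨U', hn U' hU', hU', hle, hdvd⟩) h3

theorem tau_two_bijective_of_normal (hn : ∀ U ∈ 𝒲.levels, U.Normal)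
    (h1 : Subsingleton (𝒲.levelCohomology F.C 1))
    (h1' : Subsingleton (F.𝒰.levelCohomology F.C 1))
    (hp : ∀ U ∈ 𝒲.levels, ∃ U' ∈ 𝒲.levels, U' ≤ U ∧ p * U.index ∣ U'.index) :
    Function.Bijective (tau F 𝒲 hsub p 2) :=
  tau_two_bijective_of_div F 𝒲 hsub p h1 h1' (fun U _ hU => by
    obtain ⟨U', hU', hle, hdvd⟩ := hp U hU
    exact ⟨U', hn U' hU', hU', hle, hdvd⟩)

/-! #### Variants with the target family replaced by a mutually cofinal one -/

variable (𝒱 : LevelFamily Γ) (hV : IsCompatible 𝒱 F.𝒰 (MonoidHom.id Γ))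
  (hV' : IsCompatible F.𝒰 𝒱 (MonoidHom.id Γ)) (hφ : IsCompatible 𝒱 𝒲 (MonoidHom.id Γ))

include hV hV' in
/-- Bijectivity of `T^r(𝒲, C) → T^r(𝒱, C)` is equivalent to that of `τ r` when `𝒱` and `F.𝒰` are
mutually cofinal. -/
theorem bijective_iff_tau (r : ℕ) :
    Function.Bijective (TMapOfHom 𝒲 p 𝒱 (MonoidHom.id Γ) hφ (𝟙 F.C) r) ↔
      Function.Bijective (tau F 𝒲 hsub p r) :=
  (LES.TMapOfHom_bijective_iff_of_mutual p (MonoidHom.id Γ) (𝟙 F.C)
    (isCompatible_of_sub F 𝒲 hsub) hφ 𝒲.isCompatible_id 𝒲.isCompatible_id hV hV' r).symm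

include hsub hV hV' in
/-- (T1) for a target family mutually cofinal with `F.𝒰`. -/
theorem TMapOfHom_one_bijective_of_mutual (h1 : Subsingleton (𝒲.levelCohomology F.C 1))
    (h1' : Subsingleton (F.𝒰.levelCohomology F.C 1)) :
    Function.Bijective (TMapOfHom 𝒲 p 𝒱 (MonoidHom.id Γ) hφ (𝟙 F.C) 1) :=
  (bijective_iff_tau F 𝒲 hsub p 𝒱 hV hV' hφ 1).2 (tau_one_bijective F 𝒲 hsub p h1 h1')

include hsub hV hV' in
/-- (T2) for a target family mutually cofinal with `F.𝒰`. -/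
theorem TMapOfHom_two_bijective_of_mutual (h1 : Subsingleton (𝒲.levelCohomology F.C 1))
    (h1' : Subsingleton (F.𝒰.levelCohomology F.C 1))
    (hp : ∀ (U : Subgroup Γ) (_ : U.Normal), U ∈ 𝒲.levels →
      ∃ (U' : Subgroup Γ) (_ : U'.Normal), U' ∈ 𝒲.levels ∧ U' ≤ U ∧ p * U.index ∣ U'.index) :
    Function.Bijective (TMapOfHom 𝒲 p 𝒱 (MonoidHom.id Γ) hφ (𝟙 F.C) 2) :=
  (bijective_iff_tau F 𝒲 hsub p 𝒱 hV hV' hφ 2).2 (tau_two_bijective_of_div F 𝒲 hsub p h1 h1' hp)

end Sub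

/-! ### `ℤ`-coefficients: the vanishing hypotheses from class layers -/

section ClassLayer

open Fermat.Agent.Lib.CFT.Coh.TateThm

variable {Γ : Type} [Group Γ] (F : Formation ℤ Γ) (𝒲 : LevelFamily Γ)
  (hsub : ∀ U ∈ 𝒲.levels, U ∈ F.𝒰.levels) (p : ℕ)
  (hcl : ∀ (U : Subgroup Γ) [U.Normal] (hU : U ∈ F.𝒰.levels),
    IsClassLayer (F.C.quotientToInvariants U) (F.u U hU))

include hcl in
theorem subsingleton_one_three_top :
    Subsingleton (F.𝒰.levelCohomology F.C 1) ∧ Subsingleton (F.𝒰.levelCohomology F.C 3) :=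
  subsingleton_one_three F.𝒰 F (fun _ h => h) (fun U _ hU => hcl U hU)

include hsub hcl in
theorem subsingleton_one_three_sub :
    Subsingleton (𝒲.levelCohomology F.C 1) ∧ Subsingleton (𝒲.levelCohomology F.C 3) :=
  subsingleton_one_three 𝒲 F hsub (fun U _ hU => hcl U (hsub U hU))

include hcl in
/-- **(T1)** for a formation with class layers. -/
theorem tau_one_bijective_of_isClassLayer : Function.Bijective (tau F 𝒲 hsub p 1) :=
  tau_one_bijective F 𝒲 hsub p (subsingleton_one_three_sub F 𝒲 hsub hcl).1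
    (subsingleton_one_three_top F hcl).1

include hcl in
/-- **(T2)** for a formation with class layers. -/
theorem tau_two_bijective_of_isClassLayer
    (hp : ∀ (U : Subgroup Γ) (_ : U.Normal), U ∈ 𝒲.levels →
      ∃ (U' : Subgroup Γ) (_ : U'.Normal), U' ∈ 𝒲.levels ∧ U' ≤ U ∧ p * U.index ∣ U'.index) :
    Function.Bijective (tau F 𝒲 hsub p 2) :=
  tau_two_bijective_of_div F 𝒲 hsub p (subsingleton_one_three_sub F 𝒲 hsub hcl).1
    (subsingleton_one_three_top F hcl).1 hp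

include hsub hcl in
/-- **(T3)** for a formation with class layers. -/
theorem subsingleton_T_three_of_isClassLayer
    (hp : ∀ (U : Subgroup Γ) (_ : U.Normal), U ∈ 𝒲.levels →
      ∃ (U' : Subgroup Γ) (_ : U'.Normal), U' ∈ 𝒲.levels ∧ U' ≤ U ∧ p * U.index ∣ U'.index) :
    Subsingleton (T 𝒲 p F.C 3) :=
  subsingleton_T_three F 𝒲 hsub p hp (subsingleton_one_three_sub F 𝒲 hsub hcl).2

variable (𝒱 : LevelFamily Γ) (hV : IsCompatible 𝒱 F.𝒰 (MonoidHom.id Γ))
  (hV' : IsCompatible F.𝒰 𝒱 (MonoidHom.id Γ)) (hφ : IsCompatible 𝒱 𝒲 (MonoidHom.id Γ))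

include hsub hcl hV hV' in
/-- (T1) with class layers, target family mutually cofinal with `F.𝒰`. -/
theorem TMapOfHom_one_bijective_of_isClassLayer :
    Function.Bijective (TMapOfHom 𝒲 p 𝒱 (MonoidHom.id Γ) hφ (𝟙 F.C) 1) :=
  TMapOfHom_one_bijective_of_mutual F 𝒲 hsub p 𝒱 hV hV' hφ
    (subsingleton_one_three_sub F 𝒲 hsub hcl).1 (subsingleton_one_three_top F hcl).1

include hsub hcl hV hV' in
/-- (T2) with class layers, target family mutually cofinal with `F.𝒰`. -/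
theorem TMapOfHom_two_bijective_of_isClassLayer
    (hp : ∀ (U : Subgroup Γ) (_ : U.Normal), U ∈ 𝒲.levels →
      ∃ (U' : Subgroup Γ) (_ : U'.Normal), U' ∈ 𝒲.levels ∧ U' ≤ U ∧ p * U.index ∣ U'.index) :
    Function.Bijective (TMapOfHom 𝒲 p 𝒱 (MonoidHom.id Γ) hφ (𝟙 F.C) 2) :=
  TMapOfHom_two_bijective_of_mutual F 𝒲 hsub p 𝒱 hV hV' hφ
    (subsingleton_one_three_sub F 𝒲 hsub hcl).1 (subsingleton_one_three_top F hcl).1 hp

end ClassLayer

end Fermat.Agent.Lib.CFT.Global.SVersion.FormationSubT
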