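/-
`T`-level form of `LocalCompare.lean` (P-CFT Global/S-version, piece (P3), helper41): for an open
subgroup `W` of the local Galois group at `q`, `C = (ℚ̄_q)ˣ` restricted to `W`, `𝒱` the family of
all open subgroups of `W` and a sub-family `𝒲'` of normal open subgroups whose indices are
cofinally multiplied by `p`, the comparison maps `τ r : T^r(𝒲', C) → T^r(𝒱, C)` are bijective for
`r = 1, 2`, and `T³(𝒲', C) = 0` (so `τ 3` is injective).  Instantiation of `FormationSubT.lean`
at the canonical local formation.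
-/
import Fermat.Agent.Lib.CFT.Global.SVersion.LocalCompare
import Fermat.Agent.Lib.CFT.Global.SVersion.FormationSubT

set_option autoImplicit false

namespace Fermat.Agent.Lib.CFT.Global.SVersion.LocalCompareT

open CategoryTheory ExtCitation
open Fermat.Agent.Lib.CFT.Profinite Fermat.Agent.Lib.CFT.Profinite.LevelFamily
  Fermat.Agent.Lib.CFT.Coh.ClassFormation
  Fermat.Agent.Lib.CFT.Local Fermat.Agent.Lib.CFT.Duality
  Fermat.Agent.Lib.CFT.Duality.KCalc
  Fermat.Agent.Lib.CFT.Local.LqModule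
  Fermat.Agent.Lib.CFT.Global.SVersion.LocalCompare
  Fermat.Agent.Lib.CFT.Global.SVersion.FormationSubT

variable (q : Nat.Primes) (W : Subgroup (primeLocalGaloisGroup q))
  (hW : W ∈ (primeLocalLevels q).levels) (𝒲' : LevelFamily ↥W)
  (hsub : ∀ U ∈ 𝒲'.levels, U ∈ (LES.restrict (primeLocalLevels q) W).levels) (p : ℕ)

/-- The comparison map `T^r(𝒲', C) → T^r(𝒱, C)`. -/
noncomputable abbrev tauLoc (r : ℕ) :=
  TMapOfHom (X := Rep.res W.subtype (Lq q)) (Y := Rep.res W.subtype (Lq q)) 𝒲' p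
    (LES.restrict (primeLocalLevels q) W) (MonoidHom.id ↥W)
    (isCompatible_sub q W 𝒲' hsub) (𝟙 (Rep.res W.subtype (Lq q))) r

include hW in
/-- **(T1)** `τ 1` is bijective. -/
theorem tauLoc_one_bijective : Function.Bijective (tauLoc q W 𝒲' hsub p 1) :=
  tau_one_bijective (canonicalFormation q W hW) 𝒲' hsub p
    (sub_subsingleton_H1 q W hW 𝒲' hsub) (subsingleton_H1 q W hW)

variable (hn : ∀ U ∈ 𝒲'.levels, U.Normal)
  (hp : ∀ U ∈ 𝒲'.levels, ∃ U' ∈ 𝒲'.levels, U' ≤ U ∧ p * U.index ∣ U'.index)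

include hW hn hp in
/-- **(T2)** `τ 2` is bijective. -/
theorem tauLoc_two_bijective : Function.Bijective (tauLoc q W 𝒲' hsub p 2) :=
  tau_two_bijective_of_normal (canonicalFormation q W hW) 𝒲' hsub p hn
    (sub_subsingleton_H1 q W hW 𝒲' hsub) (subsingleton_H1 q W hW) hp

include hW hsub hn hp in
/-- **(T3)** `T³(𝒲', C) = 0`. -/
theorem subsingleton_T_three_loc :
    Subsingleton (T 𝒲' p (Rep.res W.subtype (Lq q)) 3) :=
  subsingleton_T_three_of_normal (canonicalFormation q W hW) 𝒲' hsub p hn hp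
    (sub_subsingleton_H3 q W hW 𝒲' hsub)

include hW hn hp in
/-- **(T3')** `τ 3` is injective. -/
theorem tauLoc_three_injective : Function.Injective (tauLoc q W 𝒲' hsub p 3) :=
  haveI := subsingleton_T_three_loc q W hW 𝒲' hsub p hn hp
  fun a b _ => Subsingleton.elim a b

end Fermat.Agent.Lib.CFT.Global.SVersion.LocalCompareT
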