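import Mathlib
import Fermat.Agent.Lib.CFT.Global.SVersion.SemiLocal
import Fermat.Agent.Lib.CFT.Global.SVersion.LevelFamilyAt
import Fermat.Agent.Lib.CFT.Global.SVersion.TFive
import Fermat.Agent.Lib.CFT.Global.CohIdelesArchCoh
import Fermat.Agent.Lib.CFT.Global.SecondIneq.Instance.Approx
import Fermat.Agent.Lib.CFT.Profinite.LevelFinite
import Fermat.Agent.Lib.CFT.Profinite.LevelLowDegree
import Fermat.Agent.Lib.CFT.Profinite.MutualT

/-!
# The archimedean factor of `J_S` has trivial `T`-groups (helper27, P-CFT SVersion (P1b))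

For a level field `F₀`, `W = F₀.fixingSubgroup`, `𝒢 = galFamilyOver F₀ hF₀` and `p` odd:

* `two_nsmul_levelCohomology_JSarch` : `2 • x = 0` for `x ∈ Hⁿ(𝒢, res_W (JSarch S))`, `n ≥ 1`;
* `exists_nsmul_eq_H0_JSarch` : `H⁰(𝒢, res_W (JSarch S))` is `p`-divisible;
* `subsingleton_T_JSarch` : `Tⁿ(𝒢, p, res_W (JSarch S)) = 0` for `n ≥ 1`.
-/

set_option autoImplicit false
set_option linter.unusedSectionVars false
set_option linter.style.haveILetI false

open scoped TensorProduct NumberField
open CategoryTheory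

noncomputable section

namespace Fermat.Agent.Lib.CFT.Global.SVersion.SemiLocalArch

open Fermat.Agent.Lib.CFT.Global Fermat.Agent.Lib.CFT.Global.SVersion
open Fermat.Agent.Lib.CFT.Profinite Fermat.Agent.Lib.CFT.Profinite.LevelFamily

/-! ### Finite level: the cohomology of `(ℝ ⊗ L)ˣ` is killed by `2` -/

section FiniteLevel

open Fermat.Agent.Lib.CFT.Global.CohIdelesArch EtaleAlg

attribute [local instance] Units.mulDistribMulActionRight

variable (L : Type) [Field L] [NumberField L] (G : Type) [Group G] [MulSemiringAction G L]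
  [FaithfulSMul G L] [Finite G]

/-- For a finite group `G` acting faithfully on a number field `L`, the cohomology groups
`Hⁿ(G, (ℝ ⊗ L)ˣ)`, `n ≥ 1`, are killed by `2`. -/
theorem two_nsmul_groupCohomology_archUnits (n : ℕ) (hn : n ≠ 0)
    (x : groupCohomology (Rep.ofMulDistribMulAction G (ArchAlg L)ˣ) n) : 2 • x = 0 := by
  classical
  let _ := Fintype.ofFinite G
  have key : (groupCohomologyArchUnitsIso L G n).hom (2 • x) = 0 := by
    rw [map_nsmul]
    set z := (groupCohomologyArchUnitsIso L G n).hom x with hz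
    apply (ModuleCat.biproductIsoPi _).toLinearEquiv.injective
    rw [map_nsmul, map_zero]
    funext ω
    rw [Pi.smul_apply, Pi.zero_apply]
    generalize ((ModuleCat.biproductIsoPi _).toLinearEquiv z) ω = y
    have hdvd : Nat.card (groupCohomology (Rep.ofMulDistribMulAction
        (MulAction.stabilizer G (orbitMax L G ω)) (ResUnits (orbitMax L G ω))) n) ∣ 2 :=
      card_groupCohomology_resUnits_dvd_two (G := G) (orbitPlace L G ω) n hn
    obtain ⟨c, hc⟩ := hdvd
    have h1 := card_nsmul_eq_zero' (x := y)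
    rw [hc, mul_nsmul, h1, smul_zero]
  have h := congrArg (groupCohomologyArchUnitsIso L G n).inv key
  simpa using h

end FiniteLevel

/-! ### Transfer to the finite layers of a level family -/

section Transfer

universe u

variable {k W : Type u} [CommRing k] [Group W] (V : Subgroup W) [V.Normal] (M : Rep.{u} k W)
  (X : Rep.{u} k (W ⧸ V)) (j : X.V →ₗ[k] M.V)

theorem mem_invariants_of_equivariant
    (hequiv : ∀ (w : W) (x : X.V), j (X.ρ (w : W ⧸ V) x) = M.ρ w (j x)) (x : X.V) :
    j x ∈ Representation.invariants (M.ρ.comp V.subtype) := by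
  intro v
  have h1 := hequiv v.1 x
  have h2 : ((v.1 : W) : W ⧸ V) = 1 := (QuotientGroup.eq_one_iff _).2 v.2
  rw [h2, map_one, Module.End.one_apply] at h1
  exact h1.symm

/-- The map `j`, corestricted to the `V`-invariants of `M`. -/
def toInvariantsMap (hequiv : ∀ (w : W) (x : X.V), j (X.ρ (w : W ⧸ V) x) = M.ρ w (j x)) :
    X.V →ₗ[k] Representation.invariants (M.ρ.comp V.subtype) :=
  j.codRestrict _ (mem_invariants_of_equivariant V M X j hequiv)

theorem toInvariantsMap_bijective (hinj : Function.Injective j)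
    (hequiv : ∀ (w : W) (x : X.V), j (X.ρ (w : W ⧸ V) x) = M.ρ w (j x))
    (hsurj : ∀ m : M.V, (∀ v ∈ V, M.ρ v m = m) → ∃ x, j x = m) :
    Function.Bijective (toInvariantsMap V M X j hequiv) := by
  refine ⟨fun x y hxy => hinj (congrArg Subtype.val hxy), fun m => ?_⟩
  obtain ⟨x, hx⟩ := hsurj m.1 (fun v hv => m.2 ⟨v, hv⟩)
  exact ⟨x, Subtype.ext hx⟩

/-- A representation `X` of `W ⧸ V` with an injective map to `M`, equivariant along `W → W ⧸ V`,
whose image is the module of `V`-invariants of `M`, is isomorphic to `M.quotientToInvariants V`. -/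
def isoQuotientToInvariants (hinj : Function.Injective j)
    (hequiv : ∀ (w : W) (x : X.V), j (X.ρ (w : W ⧸ V) x) = M.ρ w (j x))
    (hsurj : ∀ m : M.V, (∀ v ∈ V, M.ρ v m = m) → ∃ x, j x = m) :
    X ≅ M.quotientToInvariants V :=
  Rep.mkIso (Representation.Equiv.mk
    (LinearEquiv.ofBijective (toInvariantsMap V M X j hequiv)
      (toInvariantsMap_bijective V M X j hinj hequiv hsurj))
    (fun q => by
      induction q using QuotientGroup.induction_on with
      | H w =>
        ext x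
        exact hequiv w x))

/-- If `a` kills `Hⁿ(W ⧸ V, X)` and `X` is identified with the `V`-invariants of `M`, then `a`
kills the cohomology of the finite layer `Hⁿ(W ⧸ V, M^V)`. -/
theorem smul_eq_zero_quotientToInvariants (hinj : Function.Injective j)
    (hequiv : ∀ (w : W) (x : X.V), j (X.ρ (w : W ⧸ V) x) = M.ρ w (j x))
    (hsurj : ∀ m : M.V, (∀ v ∈ V, M.ρ v m = m) → ∃ x, j x = m) (n : ℕ) (a : k)
    (h : ∀ y : groupCohomology X n, a • y = 0)
    (y : groupCohomology (M.quotientToInvariants V) n) : a • y = 0 := by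
  let e : groupCohomology X n ≅ groupCohomology (M.quotientToInvariants V) n :=
    (groupCohomology.functor k (W ⧸ V) n).mapIso
      (isoQuotientToInvariants V M X j hinj hequiv hsurj)
  have h1 : e.hom.hom (e.inv.hom y) = y := by
    rw [← LinearMap.comp_apply, ← ModuleCat.hom_comp, e.inv_hom_id, ModuleCat.hom_id,
      LinearMap.id_apply]
  rw [← h1, ← LinearMap.map_smul, h (e.inv.hom y), map_zero]

end Transfer

/-! ### The finite layers of `galFamilyOver F₀` act on the level fields -/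

section Quotient

open scoped Fermat.Agent.Lib.CFT.Global.SVersion

local notation "Qbar" => AlgebraicClosure ℚ
local notation "Γℚ" => (AlgebraicClosure ℚ ≃ₐ[ℚ] AlgebraicClosure ℚ)

variable {S : Finset Nat.Primes} (F₀ : IntermediateField ℚ Qbar) (L : GalLevel S)

/-- The level subgroup of `F₀.fixingSubgroup` attached to the Galois level `L`. -/
abbrev levelSub : Subgroup ↥F₀.fixingSubgroup := (L.V).subgroupOf F₀.fixingSubgroup

/-- The action of `F₀.fixingSubgroup` on the Galois level field `L.F`, as a homomorphism. -/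
def fixingToRingAut : ↥F₀.fixingSubgroup →* RingAut L.F :=
  (MulSemiringAction.toRingAut Γℚ L.F).comp (F₀.fixingSubgroup).subtype

theorem fixingToRingAut_apply (w : ↥F₀.fixingSubgroup) (x : L.F) :
    fixingToRingAut F₀ L w x = (w : Γℚ) • x := rfl

theorem levelSub_le_ker : levelSub F₀ L ≤ (fixingToRingAut F₀ L).ker := by
  intro w hw
  rw [MonoidHom.mem_ker]
  ext x
  change (((w : Γℚ) • x : L.F) : Qbar) = (x : Qbar)
  rw [coe_galAction_smul]
  exact (IntermediateField.mem_fixingSubgroup_iff L.F (w : Γℚ)).1 hw x x.2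

/-- The action of the finite layer `F₀.fixingSubgroup ⧸ levelSub F₀ L` on `L.F`, as a
homomorphism. -/
def quotToRingAut : ↥F₀.fixingSubgroup ⧸ levelSub F₀ L →* RingAut L.F :=
  QuotientGroup.lift (levelSub F₀ L) (fixingToRingAut F₀ L) (levelSub_le_ker F₀ L)

/-- The action of the finite layer on the level field. -/
@[reducible] def quotAction : MulSemiringAction (↥F₀.fixingSubgroup ⧸ levelSub F₀ L) L.F :=
  MulSemiringAction.compHom L.F (quotToRingAut F₀ L)

theorem quotAction_mk_smul (w : ↥F₀.fixingSubgroup) (x : L.F) :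
    letI := quotAction F₀ L
    ((w : ↥F₀.fixingSubgroup ⧸ levelSub F₀ L) • x : L.F) = (w : Γℚ) • x := rfl

theorem faithfulSMul_quotAction :
    letI := quotAction F₀ L
    FaithfulSMul (↥F₀.fixingSubgroup ⧸ levelSub F₀ L) L.F := by
  letI := quotAction F₀ L
  refine ⟨fun {q₁ q₂} h => ?_⟩
  induction q₁ using QuotientGroup.induction_on with
  | H w₁ =>
  induction q₂ using QuotientGroup.induction_on with
  | H w₂ =>
  rw [QuotientGroup.eq]
  change (w₁⁻¹ * w₂ : ↥F₀.fixingSubgroup).1 ∈ L.F.fixingSubgroup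
  rw [IntermediateField.mem_fixingSubgroup_iff]
  intro x hx
  have h1 := congrArg (fun y : L.F => (y : Qbar)) (h ⟨x, hx⟩)
  simp only [quotAction_mk_smul, coe_galAction_smul] at h1
  change (w₁⁻¹ * w₂ : ↥F₀.fixingSubgroup).1 x = x
  rw [Subgroup.coe_mul, Subgroup.coe_inv, AlgEquiv.mul_apply, ← h1]
  exact (w₁ : Γℚ).symm_apply_apply x

end Quotient

/-! ### (a) The level cohomology of the archimedean factor is killed by `2` -/

section Main

open scoped Fermat.Agent.Lib.CFT.Global.SVersion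

local notation "Qbar" => AlgebraicClosure ℚ
local notation "Γℚ" => (AlgebraicClosure ℚ ≃ₐ[ℚ] AlgebraicClosure ℚ)

attribute [local instance] Units.mulDistribMulActionRight

variable (S : Finset Nat.Primes) (F₀ : IntermediateField ℚ Qbar)

/-- The archimedean factor, restricted to the open subgroup `F₀.fixingSubgroup`. -/
abbrev resJSarch : Rep ℤ ↥F₀.fixingSubgroup := Rep.res (F₀.fixingSubgroup).subtype (JSarch S)

/-- The map `(ℝ ⊗ L.F)ˣ → JSarch S`, additively. -/
def levelToJSarchLin (L : GalLevel S) : Additive (ArchAlg L.F)ˣ →ₗ[ℤ] Additive (JSarchGrp S) :=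
  (levelToJSarch S L).toAdditive.toIntLinearMap

theorem levelToJSarchLin_apply (L : GalLevel S) (x : Additive (ArchAlg L.F)ˣ) :
    levelToJSarchLin S L x = Additive.ofMul (levelToJSarch S L x.toMul) := rfl

theorem quot_smul_archUnits (L : GalLevel S) (w : ↥F₀.fixingSubgroup) (v : (ArchAlg L.F)ˣ) :
    letI := quotAction F₀ L
    ((w : ↥F₀.fixingSubgroup ⧸ levelSub F₀ L) • v : (ArchAlg L.F)ˣ) = (w : Γℚ) • v := by
  letI := quotAction F₀ L
  apply Units.ext
  change archMap (MulSemiringAction.toRingHom (↥F₀.fixingSubgroup ⧸ levelSub F₀ L) L.F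
    (w : ↥F₀.fixingSubgroup ⧸ levelSub F₀ L)) (v : ArchAlg L.F) =
    archMap (MulSemiringAction.toRingHom Γℚ L.F (w : Γℚ)) (v : ArchAlg L.F)
  rfl

/-- The cohomology of every finite layer of `galFamilyOver F₀` with values in the archimedean
factor is killed by `2` in positive degrees. -/
theorem two_nsmul_finH_JSarch (L : GalLevel S) (hle : F₀ ≤ L.F) (n : ℕ) (hn : n ≠ 0)
    (y : groupCohomology ((resJSarch S F₀).quotientToInvariants (levelSub F₀ L)) n) :
    2 • y = 0 := by
  rw [← Nat.cast_smul_eq_nsmul ℤ, Nat.cast_ofNat]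
  letI := quotAction F₀ L
  haveI := faithfulSMul_quotAction F₀ L
  haveI : (levelSub F₀ L).FiniteIndex := by
    have := L.finiteIndex_V
    infer_instance
  haveI : Finite (↥F₀.fixingSubgroup ⧸ levelSub F₀ L) :=
    Subgroup.finite_quotient_of_finiteIndex
  refine smul_eq_zero_quotientToInvariants (levelSub F₀ L) (resJSarch S F₀)
    (Rep.ofMulDistribMulAction (↥F₀.fixingSubgroup ⧸ levelSub F₀ L) (ArchAlg L.F)ˣ)
    (levelToJSarchLin S L) ?_ ?_ ?_ n 2
    (fun z => by
      rw [← Nat.cast_ofNat, Nat.cast_smul_eq_nsmul]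
      exact two_nsmul_groupCohomology_archUnits L.F (↥F₀.fixingSubgroup ⧸ levelSub F₀ L) n hn z) y
  · intro (x : Additive (ArchAlg L.F)ˣ) (x' : Additive (ArchAlg L.F)ˣ) h
    have h1 : levelToJSarch S L x.toMul = levelToJSarch S L x'.toMul :=
      congrArg Additive.toMul h
    exact congrArg Additive.ofMul (levelToJSarch_injective S L h1)
  · intro w (x : Additive (ArchAlg L.F)ˣ)
    change Additive.ofMul (levelToJSarch S L
      ((w : ↥F₀.fixingSubgroup ⧸ levelSub F₀ L) • x.toMul)) =
      Additive.ofMul ((w : Γℚ) • levelToJSarch S L x.toMul)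
    rw [quot_smul_archUnits, levelToJSarch_smul]
  · intro m hm
    obtain ⟨v, hv⟩ := mem_range_levelToJSarch_of_fixed S L (Additive.toMul m) (fun σ hσ => by
      have hσW : σ ∈ F₀.fixingSubgroup := IntermediateField.fixingSubgroup_antitone hle hσ
      exact congrArg Additive.toMul (hm ⟨σ, hσW⟩ hσ))
    exact ⟨Additive.ofMul v, congrArg Additive.ofMul hv⟩

/-- **(a)** The level cohomology of `F₀.fixingSubgroup` (over the Galois levels above `F₀`) with
values in the archimedean factor of `J_S` is killed by `2` in positive degrees. -/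
theorem two_nsmul_levelCohomology_JSarch (hF₀ : F₀.IsUnramifiedOutside S) (n : ℕ) (hn : n ≠ 0)
    (x : (galFamilyOver F₀ hF₀).levelCohomology (resJSarch S F₀) n) : 2 • x = 0 := by
  rw [← Nat.cast_smul_eq_nsmul ℤ, Nat.cast_ofNat]
  refine smul_eq_zero_of_forall_finite_level (𝒰 := galFamilyOver F₀ hF₀) n (2 : ℤ) ?_ x
  rintro V ⟨L, hle, rfl⟩ hn' y
  rw [← Nat.cast_ofNat, Nat.cast_smul_eq_nsmul]
  exact two_nsmul_finH_JSarch S F₀ L hle n hn y

end Main

/-! ### (b) `p`-divisibility of the invariants, `p` odd -/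

section Divisible

open scoped Fermat.Agent.Lib.CFT.Global.SVersion

local notation "Qbar" => AlgebraicClosure ℚ
local notation "Γℚ" => (AlgebraicClosure ℚ ≃ₐ[ℚ] AlgebraicClosure ℚ)

/-- For `p` odd every unit of `ℝ ⊗ F` is a `p`-th power. -/
theorem exists_pow_eq_of_odd (F : Type) [Field F] [NumberField F] (a : (ArchAlg F)ˣ) {p : ℕ}
    (hp : Odd p) : ∃ w : (ArchAlg F)ˣ, w ^ p = a := by
  obtain ⟨m, hm⟩ := hp
  have hpos : ∀ ψ : ArchAlg F →ₐ[ℝ] ℝ,
      0 < ψ ((((a ^ (m + 1)) ^ 2 : (ArchAlg F)ˣ) : (ArchAlg F)ˣ) : ArchAlg F) := by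
    intro ψ
    rw [Units.val_pow_eq_pow_val, map_pow]
    have hne : ψ ((a ^ (m + 1) : (ArchAlg F)ˣ) : ArchAlg F) ≠ 0 :=
      ((a ^ (m + 1)).isUnit.map ψ).ne_zero
    positivity
  obtain ⟨w, hw⟩ := SecondIneq.Instance.exists_pow_eq_of_pos F _ hpos p (by omega)
  refine ⟨w * a⁻¹, ?_⟩
  rw [mul_pow, hw, hm, inv_pow, ← pow_mul, mul_inv_eq_iff_eq_mul, ← pow_succ']
  congr 1
  ring

variable (S : Finset Nat.Primes) (F₀ : IntermediateField ℚ Qbar)

/-- The image of `(ℝ ⊗ F₀)ˣ` in the ambient group is fixed by `F₀.fixingSubgroup`. -/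
theorem smul_archToAmb_of_mem_fixingSubgroup {σ : Γℚ} (hσ : σ ∈ F₀.fixingSubgroup)
    (z : (ArchAlg F₀)ˣ) : σ • archToAmb F₀ z = archToAmb F₀ z := by
  have hcomp : (MulSemiringAction.toRingHom Γℚ Qbar σ).comp (incl F₀) = incl F₀ := by
    ext x
    exact (IntermediateField.mem_fixingSubgroup_iff F₀ σ).1 hσ x x.2
  apply Units.ext
  change archMap (MulSemiringAction.toRingHom Γℚ Qbar σ) (archMap (incl F₀) _) =
    archMap (incl F₀) _
  rw [← archMap_comp, hcomp]

/-- **(b)**, group form: for `p` odd, an element of the archimedean factor fixed by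
`F₀.fixingSubgroup` is the `p`-th power of such an element. -/
theorem exists_pow_eq_of_fixed_JSarch (hF₀ : F₀.IsUnramifiedOutside S) {p : ℕ} (hp : Odd p)
    (u : JSarchGrp S) (hu : ∀ σ ∈ F₀.fixingSubgroup, σ • u = u) :
    ∃ u₀ : JSarchGrp S, (∀ σ ∈ F₀.fixingSubgroup, σ • u₀ = u₀) ∧ u₀ ^ p = u := by
  haveI : FiniteDimensional ℚ F₀ := hF₀.1
  obtain ⟨L, hle', v, rfl⟩ := exists_levelToJSarch_eq S u (GalLevel.ofUnram F₀ hF₀)
  have hle : F₀ ≤ L.F := (GalLevel.le_ofUnram F₀ hF₀).trans hle'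
  -- descend `v` to `F₀`
  set b : Idele L.F := ideleOfFamily ∅ L.F (fun _ => 1) v with hb
  have hbfix : ∀ σ ∈ F₀.fixingSubgroup, σ • b = b := by
    intro σ hσ
    apply Subtype.ext
    ext : 1
    · funext q
      change σ • (b : IdeleProd L.F).1 q = (b : IdeleProd L.F).1 q
      rw [hb, ideleOfFamily_fst, if_neg (Finset.notMem_empty q), smul_one]
    · change σ • v = v
      apply levelToJSarch_injective S L
      rw [levelToJSarch_smul]
      exact hu σ hσ
  obtain ⟨b₀, hb₀⟩ := Descent.exists_levelMap_eq_of_fixed hle b hbfix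
  have hv : archUnitsMap ((IntermediateField.inclusion hle : F₀ →ₐ[ℚ] L.F) : F₀ →+* L.F)
      (b₀ : IdeleProd F₀).2 = v := by
    have := congrArg (fun z : Idele L.F => (z : IdeleProd L.F).2) hb₀
    exact this
  obtain ⟨z, hz⟩ := exists_pow_eq_of_odd F₀ (b₀ : IdeleProd F₀).2 hp
  refine ⟨levelToJSarch S L
    (archUnitsMap ((IntermediateField.inclusion hle : F₀ →ₐ[ℚ] L.F) : F₀ →+* L.F) z), ?_, ?_⟩
  · intro σ hσ
    apply Subtype.ext
    change σ • archToAmb L.F (archUnitsMap _ z) = archToAmb L.F (archUnitsMap _ z)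
    have h1 : archToAmb L.F
        (archUnitsMap ((IntermediateField.inclusion hle : F₀ →ₐ[ℚ] L.F) : F₀ →+* L.F) z) =
        archToAmb F₀ z := archToAmb_inclusion hle z
    rw [h1]
    exact smul_archToAmb_of_mem_fixingSubgroup F₀ hσ z
  · rw [← map_pow, ← map_pow, hz, hv]

/-- **(b)** `H⁰` of the archimedean factor is `p`-divisible for `p` odd. -/
theorem exists_nsmul_eq_H0_JSarch (hF₀ : F₀.IsUnramifiedOutside S) {p : ℕ} (hp : Odd p)
    (a : (galFamilyOver F₀ hF₀).levelCohomology (resJSarch S F₀) 0) :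
    ∃ a₀ : (galFamilyOver F₀ hF₀).levelCohomology (resJSarch S F₀) 0, p • a₀ = a := by
  set e := (galFamilyOver F₀ hF₀).H0Equiv (resJSarch S F₀) with he
  set m := e a with hm
  obtain ⟨u₀, hu₀fix, hu₀⟩ := exists_pow_eq_of_fixed_JSarch S F₀ hF₀ hp
    (Additive.toMul (show Additive (JSarchGrp S) from m.1))
    (fun σ hσ => congrArg Additive.toMul (m.2 ⟨σ, hσ⟩))
  let m₀ : (resJSarch S F₀).ρ.invariants :=
    ⟨(Additive.ofMul u₀ : Additive (JSarchGrp S)), fun w =>
      congrArg Additive.ofMul (hu₀fix w.1 w.2)⟩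
  refine ⟨e.symm m₀, e.injective ?_⟩
  rw [map_nsmul, LinearEquiv.apply_symm_apply]
  apply Subtype.ext
  change p • (Additive.ofMul u₀ : Additive (JSarchGrp S)) = m.1
  rw [← ofMul_pow, hu₀]
  rfl

/-! ### (c) Vanishing of the `T`-groups -/

open Fermat.Agent.Lib.CFT.Duality.KCalc in
/-- **(c)** For `p` odd, the `T`-groups of the archimedean factor vanish in positive degrees. -/
theorem subsingleton_T_JSarch (hF₀ : F₀.IsUnramifiedOutside S) {p : ℕ} (hp : Odd p) (n : ℕ)
    (hn : n ≠ 0) : Subsingleton (T (galFamilyOver F₀ hF₀) p (resJSarch S F₀) n) := by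
  obtain ⟨r, rfl⟩ := Nat.exists_eq_succ_of_ne_zero hn
  obtain ⟨c, hc⟩ := hp
  have hkill : ∀ (i : ℕ), i ≠ 0 →
      ∀ x : (galFamilyOver F₀ hF₀).levelCohomology (resJSarch S F₀) i, p • x = x := by
    intro i hi x
    rw [hc, add_nsmul, mul_nsmul, two_nsmul_levelCohomology_JSarch S F₀ hF₀ i hi x,
      smul_zero, zero_add, one_nsmul]
  refine TFive.subsingleton_T_succ (galFamilyOver F₀ hF₀) p r ?_ ?_
  · intro a
    rcases Nat.eq_zero_or_pos r with rfl | hr
    · exact exists_nsmul_eq_H0_JSarch S F₀ hF₀ ⟨c, hc⟩ a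
    · exact ⟨a, hkill r hr.ne' a⟩
  · intro a' ha'
    rw [← hkill (r + 1) (Nat.succ_ne_zero r) a', ha']

/-! ### The same statements over the restriction of `levelsS S` -/

open Fermat.Agent.Lib.CFT.Profinite.LES Fermat.Agent.Lib.CFT.Profinite.Bridge in
/-- **(a)** over `restrict (levelsS S) F₀.fixingSubgroup`. -/
theorem two_nsmul_levelCohomology_JSarch_restrict (hF₀ : F₀.IsUnramifiedOutside S) (n : ℕ)
    (hn : n ≠ 0)
    (x : (restrict (levelsS S) F₀.fixingSubgroup).levelCohomology (resJSarch S F₀) n) :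
    2 • x = 0 := by
  set e := galFamilyOverIso F₀ hF₀ (resJSarch S F₀) n with he
  have h1 : e.hom.hom (e.inv.hom x) = x := by
    rw [← LinearMap.comp_apply, ← ModuleCat.hom_comp, e.inv_hom_id, ModuleCat.hom_id,
      LinearMap.id_apply]
  rw [← h1, ← map_nsmul, two_nsmul_levelCohomology_JSarch S F₀ hF₀ n hn, map_zero]

open Fermat.Agent.Lib.CFT.Profinite.LES Fermat.Agent.Lib.CFT.Profinite.Bridge
  Fermat.Agent.Lib.CFT.Duality.KCalc in
/-- **(c)** over `restrict (levelsS S) F₀.fixingSubgroup`. -/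
theorem subsingleton_T_JSarch_restrict (hF₀ : F₀.IsUnramifiedOutside S) {p : ℕ} (hp : Odd p)
    (n : ℕ) (hn : n ≠ 0) :
    Subsingleton (T (restrict (levelsS S) F₀.fixingSubgroup) p (resJSarch S F₀) n) := by
  have := subsingleton_T_JSarch S F₀ hF₀ hp n hn
  exact (TEquivOfMutual p (isCompatible_restrict_galFamilyOver F₀ hF₀)
    (isCompatible_galFamilyOver_restrict F₀ hF₀) (resJSarch S F₀) n).symm.toEquiv.subsingleton

end Divisible

end Fermat.Agent.Lib.CFT.Global.SVersion.SemiLocalArch
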