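import Fermat.Agent.Lib.CFT.Global.SVersion.SemiLocalInduced
import Fermat.Agent.Lib.CFT.Duality.BaseCase.SemilocalCone
import Fermat.Agent.Lib.CFT.Global.SVersion.SemiLocalArch

/-!
# The semi-local theorem for `J_S` over the Galois level family (helper65, P-CFT Global/S-version)

Combination of (P1) the product decomposition `J_S = ∏_{q ∈ S} JSq × JSarch`
(`SemiLocal.bijective_map_jsProj`), (P1b) the vanishing of the archimedean contribution
(`SemiLocalArch.subsingleton_T_JSarch`, helper27) and (P2) Shapiro in the limit for the `q`-factors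
(`SemiLocalInduced.semilocal_T_bijective`):

for a level field `F₀`, `W = F₀.fixingSubgroup`, `𝒢 = galFamilyOver F₀ hF₀`, `p` odd, `n ≥ 1` and
finite systems `r q : ι q → Γℚ` of representatives of the double cosets `φ_q(G_q) \ Γℚ / W`, the map

`thetaT : Tⁿ(𝒢, res_W J_S) → ∏_{q ∈ S} ∏_{i : ι q} Tⁿ(comap 𝒢 c_{r q i}, res L_q)`

induced by `(c_{r q i}, λ_{r q i})` (`LocalProjConj.cg`, `LocalProjConj.lamg`) is bijective
(`thetaT_bijective`).
-/

set_option autoImplicit false

open scoped TensorProduct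
open CategoryTheory

noncomputable section

namespace Fermat.Agent.Lib.CFT.Global.SVersion.SemiLocalJoint

open ExtCitation
open Fermat.Agent.Lib.CFT.Global Fermat.Agent.Lib.CFT.Profinite.Bridge
open Fermat.Agent.Lib.CFT.Global.SVersion Fermat.Agent.Lib.CFT.Global.SVersion.LocalZero
open Fermat.Agent.Lib.CFT.Global.SVersion.SemiLocalInduced
open Fermat.Agent.Lib.CFT.Global.SVersion.LocalProjConj
open Fermat.Agent.Lib.CFT.Local.LqModule Fermat.Agent.Lib.CFT.Duality.ArithKDatum
open Fermat.Agent.Lib.CFT.Profinite Fermat.Agent.Lib.CFT.Profinite.LES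
open Fermat.Agent.Lib.CFT.Duality Fermat.Agent.Lib.CFT.Duality.KCalc

local notation "Qbar" => AlgebraicClosure ℚ
local notation "Γℚ" => (AlgebraicClosure ℚ ≃ₐ[ℚ] AlgebraicClosure ℚ)

variable {S : Finset Nat.Primes} (F₀ : IntermediateField ℚ Qbar)
  (hF₀ : F₀.IsUnramifiedOutside S) (p : ℕ)

/-- The additive functor `X ↦ Tⁿ(𝒢, res_W X)` on `Rep ℤ Γℚ` (`W = F₀.fixingSubgroup`,
`𝒢 = galFamilyOver F₀ hF₀`). -/
def TW (n : ℕ) : Rep ℤ Γℚ ⥤ ModuleCat ℤ :=
  Rep.resFunctor F₀.fixingSubgroup.subtype ⋙ Semilocal.TFunctor (galFamilyOver F₀ hF₀) p n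

instance (n : ℕ) : (TW F₀ hF₀ p n).Additive := by
  unfold TW
  infer_instance

theorem TW_map_hom {X Y : Rep ℤ Γℚ} (f : X ⟶ Y) (n : ℕ)
    (t : T (galFamilyOver F₀ hF₀) p (Rep.res F₀.fixingSubgroup.subtype X) n) :
    ((TW F₀ hF₀ p n).map f).hom t =
      TMap (galFamilyOver F₀ hF₀) p ((Rep.resFunctor F₀.fixingSubgroup.subtype).map f) n t := rfl

/-- The change-of-group map of `λ_g` on `J_S` factors through the projection onto the
`q`-factor. -/
theorem TMapOfHom_lamg (q : ↥S) (g : Γℚ) (n : ℕ)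
    (t : T (galFamilyOver F₀ hF₀) p (Rep.res F₀.fixingSubgroup.subtype (JS S)) n) :
    TMapOfHom (galFamilyOver F₀ hF₀) p
        (comap (galFamilyOver F₀ hF₀) (cg q.1 F₀.fixingSubgroup g)) (cg q.1 F₀.fixingSubgroup g)
        (isCompatible_comap (galFamilyOver F₀ hF₀) (cg q.1 F₀.fixingSubgroup g))
        (lamg q.1 S F₀.fixingSubgroup g) n t =
      TMapOfHom (galFamilyOver F₀ hF₀) p
        (comap (galFamilyOver F₀ hF₀) (cg q.1 F₀.fixingSubgroup g)) (cg q.1 F₀.fixingSubgroup g)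
        (isCompatible_comap (galFamilyOver F₀ hF₀) (cg q.1 F₀.fixingSubgroup g))
        (lamQ S q.1 F₀.fixingSubgroup g) n
        (TMap (galFamilyOver F₀ hF₀) p
          ((Rep.resFunctor F₀.fixingSubgroup.subtype).map (jsProj S (some q))) n t) := by
  have hc : (Rep.resFunctor (cg q.1 F₀.fixingSubgroup g)).map
        ((Rep.resFunctor F₀.fixingSubgroup.subtype).map (jsProj S (some q))) ≫
        lamQ S q.1 F₀.fixingSubgroup g =
      lamg q.1 S F₀.fixingSubgroup g ≫ 𝟙 _ := by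
    rw [Category.comp_id]
    refine Rep.hom_ext ?_
    refine Representation.IntertwiningMap.ext ?_
    refine LinearMap.ext fun a => ?_
    exact (lamg_hom_eq S q.1 F₀.fixingSubgroup g q.2 a).symm
  have h := TMap_TMapOfHom (galFamilyOver F₀ hF₀) _ p (cg q.1 F₀.fixingSubgroup g)
    (isCompatible_comap (galFamilyOver F₀ hF₀) (cg q.1 F₀.fixingSubgroup g)) _ (𝟙 _)
    (lamg q.1 S F₀.fixingSubgroup g) (lamQ S q.1 F₀.fixingSubgroup g) hc n t
  rw [TMap_id] at h
  exact h.symm

variable {ι : ↥S → Type*} (r : ∀ q : ↥S, ι q → Γℚ)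

/-- The joint semi-local map on `Tⁿ(𝒢, res_W J_S)`: the family of the change-of-group maps along
`(c_{r q i}, λ_{r q i})`, `q ∈ S`, `i : ι q`. -/
def thetaT (n : ℕ) (t : T (galFamilyOver F₀ hF₀) p (Rep.res F₀.fixingSubgroup.subtype (JS S)) n)
    (q : ↥S) (i : ι q) :
    T (comap (galFamilyOver F₀ hF₀) (cg q.1 F₀.fixingSubgroup (r q i))) p
      (Rep.res (Sg q.1 F₀.fixingSubgroup (r q i)).subtype (Lq q.1)) n :=
  TMapOfHom (galFamilyOver F₀ hF₀) p
    (comap (galFamilyOver F₀ hF₀) (cg q.1 F₀.fixingSubgroup (r q i)))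
    (cg q.1 F₀.fixingSubgroup (r q i))
    (isCompatible_comap (galFamilyOver F₀ hF₀) (cg q.1 F₀.fixingSubgroup (r q i)))
    (lamg q.1 S F₀.fixingSubgroup (r q i)) n t

/-- **The semi-local theorem over the Galois level family**, conditional on the vanishing of the
archimedean contribution. -/
theorem thetaT_bijective_of_arch [∀ q, Finite (ι q)] (hc : ∀ q : ↥S, Covers q.1 F₀ (r q))
    (hs : ∀ q : ↥S, Separated q.1 F₀ (r q)) (n : ℕ)
    (harch : Subsingleton
      (T (galFamilyOver F₀ hF₀) p (Rep.res F₀.fixingSubgroup.subtype (JSarch S)) n)) :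
    Function.Bijective (thetaT F₀ hF₀ p r n) := by
  have := fun q : ↥S => Fintype.ofFinite (ι q)
  have hΦ := bijective_map_jsProj S (TW F₀ hF₀ p n)
  have hΨ := fun q : ↥S => semilocal_T_bijective (S := S) (q := q.1) F₀ hF₀ (r q) (hc q) (hs q) p n
  have hfac : ∀ (t : T (galFamilyOver F₀ hF₀) p (Rep.res F₀.fixingSubgroup.subtype (JS S)) n)
      (q : ↥S) (i : ι q), thetaT F₀ hF₀ p r n t q i =
        TMapOfHom (galFamilyOver F₀ hF₀) p
          (comap (galFamilyOver F₀ hF₀) (cg q.1 F₀.fixingSubgroup (r q i)))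
          (cg q.1 F₀.fixingSubgroup (r q i))
          (isCompatible_comap (galFamilyOver F₀ hF₀) (cg q.1 F₀.fixingSubgroup (r q i)))
          (lamQ S q.1 F₀.fixingSubgroup (r q i)) n
          (((TW F₀ hF₀ p n).map (jsProj S (some q))).hom t) :=
    fun t q i => TMapOfHom_lamg F₀ hF₀ p q (r q i) n t
  constructor
  · intro t t' htt'
    apply hΦ.1
    funext j
    cases j with
    | none => exact harch.elim _ _
    | some q =>
      apply (hΨ q).1
      funext i
      have h1 := congrFun (congrFun htt' q) i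
      rw [hfac, hfac] at h1
      exact h1
  · intro y
    choose tq htq using fun q : ↥S => (hΨ q).2 (y q)
    obtain ⟨t, ht⟩ := hΦ.2 (fun j : Option ↥S =>
      match j with
      | none => (0 : (TW F₀ hF₀ p n).obj (jsFac S none))
      | some q => tq q)
    refine ⟨t, ?_⟩
    funext q i
    refine (hfac t q i).trans ?_
    have h1 : ((TW F₀ hF₀ p n).map (jsProj S (some q))).hom t = tq q := congrFun ht (some q)
    exact (congrArg (fun z => TMapOfHom (galFamilyOver F₀ hF₀) p
      (comap (galFamilyOver F₀ hF₀) (cg q.1 F₀.fixingSubgroup (r q i)))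
      (cg q.1 F₀.fixingSubgroup (r q i))
      (isCompatible_comap (galFamilyOver F₀ hF₀) (cg q.1 F₀.fixingSubgroup (r q i)))
      (lamQ S q.1 F₀.fixingSubgroup (r q i)) n z) h1).trans (congrFun (htq q) i)

/-- **The semi-local theorem over the Galois level family**: for `p` odd and `n ≥ 1`,
`Tⁿ(𝒢, res_W J_S) → ∏_{q ∈ S} ∏_i Tⁿ(comap 𝒢 c_{r q i}, res L_q)` is bijective. -/
theorem thetaT_bijective [∀ q, Finite (ι q)] (hp : Odd p) (hc : ∀ q : ↥S, Covers q.1 F₀ (r q))
    (hs : ∀ q : ↥S, Separated q.1 F₀ (r q)) (n : ℕ) (hn : n ≠ 0) :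
    Function.Bijective (thetaT F₀ hF₀ p r n) :=
  thetaT_bijective_of_arch F₀ hF₀ p r hc hs n
    (SemiLocalArch.subsingleton_T_JSarch S F₀ hF₀ hp n hn)

end Fermat.Agent.Lib.CFT.Global.SVersion.SemiLocalJoint
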