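import Fermat.Agent.Lib.CFT.Duality.BaseCase.PFormSemi
import Fermat.Agent.Lib.CFT.Global.SVersion.SemiLocalJoint
import Fermat.Agent.Lib.CFT.Global.SVersion.LocalCompareT
import Fermat.Agent.Lib.CFT.Global.SVersion.LocalCompareInst
import Fermat.Agent.Lib.CFT.Global.SVersion.LocalCompareDiv

/-!
# The semi-local theorem in `V`-form (helper11, P-CFT Global/S-version, final assembly)

For a level field `F₀` (finite over `ℚ`, unramified outside `S`), `W = Gal(Qbar / F₀)`, and a
finite system `r v` of representatives of the double cosets `φ_q(G_q) \ Γℚ / W` (`v = q ∈ S`),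
the map

`T^n(W, J_S) ⟶ ∏_{q ∈ S} ∏_i T^n(S_{q, r i}, Qbar_qˣ)`

(`Semilocal.VMap` of the arithmetic zigzag datum) is bijective for `n = 1, 2` and injective for
`n = 3`.  It is the composite of

* the change of level family `restrict (levelsS S) W ↔ galFamilyOver F₀` (`TMutual`);
* the joint semi-local theorem over the Galois level family `galFamilyOver F₀`, with target
  families `𝒲ˢ = comap (galFamilyOver F₀) c_g` (`SemiLocalJoint.lean`: product decomposition of
  `J_S`, vanishing of the archimedean factor for `p` odd, Shapiro's lemma in the limit);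
* the comparison `T^n(𝒲ˢ, Qbar_qˣ) ⟶ T^n(S_g, Qbar_qˣ)`, bijective for `n = 1, 2`, with
  `T^3(𝒲ˢ, Qbar_qˣ) = 0` (`LocalCompareDiv.lean`).
-/

set_option autoImplicit false

open CategoryTheory

noncomputable section

namespace Fermat.Agent.Lib.CFT.Global.SVersion.SemiLocalMain

open ExtCitation Fermat.Agent.Lib.CFT.Profinite Fermat.Agent.Lib.CFT.Profinite.Bridge
open Fermat.Agent.Lib.CFT.Profinite.LES LevelFamily
open Fermat.Agent.Lib.CFT.Global Fermat.Agent.Lib.CFT.Global.SVersion
open Fermat.Agent.Lib.CFT.Local.LqModule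
open Fermat.Agent.Lib.CFT.Duality Fermat.Agent.Lib.CFT.Duality.KCalc
open Fermat.Agent.Lib.CFT.Duality.ArithKDatum Fermat.Agent.Lib.CFT.Duality.Semilocal
open Fermat.Agent.Lib.CFT.Global.SVersion.LocalProjConj

local notation "Qbar" => AlgebraicClosure ℚ
local notation "Γℚ" => (AlgebraicClosure ℚ ≃ₐ[ℚ] AlgebraicClosure ℚ)

variable (S : Finset Nat.Primes) (p : ℕ) [hp : Fact p.Prime]
  (hpS : (⟨p, hp.out⟩ : Nat.Primes) ∈ S)
  (F₀ : IntermediateField ℚ Qbar) (hF₀ : F₀.IsUnramifiedOutside S)

/-! ### Factorisation of the `V`-form map -/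

/-- The `V`-form map at `(v, g)` is the joint map over the Galois level family followed by the
comparison of level families on `S_g`, up to the change of level family on `W`. -/
theorem VMapAt_eq (v : (arithDatum S).ι) (g : Γℚ) (n : ℕ)
    (t : T (restrict (levelsS S) F₀.fixingSubgroup) p
      (Rep.res F₀.fixingSubgroup.subtype (JS S)) n) :
    VMapAt (arithKDatum S p hpS) F₀.fixingSubgroup v g n t =
      TMutual p (isCompatible_restrict_comap_cg v.1 g F₀ hF₀)
        (Rep.res (Sg v.1 F₀.fixingSubgroup g).subtype (Lq v.1)) n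
        (TMapOfHom (galFamilyOver F₀ hF₀) p
          (comap (galFamilyOver F₀ hF₀) (cg v.1 F₀.fixingSubgroup g))
          (cg v.1 F₀.fixingSubgroup g)
          (isCompatible_comap (galFamilyOver F₀ hF₀) (cg v.1 F₀.fixingSubgroup g))
          (lamg v.1 S F₀.fixingSubgroup g) n
          (TMutual p (isCompatible_galFamilyOver_restrict F₀ hF₀)
            (Rep.res F₀.fixingSubgroup.subtype (JS S)) n t)) := by
  rw [TMutual_TMapOfHom p (cg v.1 F₀.fixingSubgroup g) (lamg v.1 S F₀.fixingSubgroup g)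
      (isCompatible_comap (galFamilyOver F₀ hF₀) (cg v.1 F₀.fixingSubgroup g))
      (isCompatible_restrict_comap_cg v.1 g F₀ hF₀)
      (isCompatible_cg_galFamilyOver v.1 g F₀ hF₀),
    TMapOfHom_TMutual p (cg v.1 F₀.fixingSubgroup g) (lamg v.1 S F₀.fixingSubgroup g)
      (isCompatible_cg_galFamilyOver v.1 g F₀ hF₀)
      (isCompatible_galFamilyOver_restrict F₀ hF₀)
      (isCompatible_cg v.1 S F₀.fixingSubgroup g)]
  rfl

/-! ### Assembly -/

section Assembly

variable {ι : ↥S → Type} (r : ∀ v : ↥S, ι v → Γℚ)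

/-- The joint semi-local map over the Galois level family `galFamilyOver F₀`, with target
families `comap (galFamilyOver F₀) c_g`. -/
def jointMap (n : ℕ)
    (t : T (galFamilyOver F₀ hF₀) p (Rep.res F₀.fixingSubgroup.subtype (JS S)) n)
    (v : ↥S) (i : ι v) :
    T (comap (galFamilyOver F₀ hF₀) (cg v.1 F₀.fixingSubgroup (r v i))) p
      (Rep.res (Sg v.1 F₀.fixingSubgroup (r v i)).subtype (Lq v.1)) n :=
  TMapOfHom (galFamilyOver F₀ hF₀) p
    (comap (galFamilyOver F₀ hF₀) (cg v.1 F₀.fixingSubgroup (r v i)))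
    (cg v.1 F₀.fixingSubgroup (r v i))
    (isCompatible_comap (galFamilyOver F₀ hF₀) (cg v.1 F₀.fixingSubgroup (r v i)))
    (lamg v.1 S F₀.fixingSubgroup (r v i)) n t

/-- The product of the comparison maps `T^n(𝒲ˢ, Qbar_qˣ) ⟶ T^n(S_g, Qbar_qˣ)`. -/
def cmpMap (n : ℕ)
    (y : ∀ (v : ↥S) (i : ι v),
      T (comap (galFamilyOver F₀ hF₀) (cg v.1 F₀.fixingSubgroup (r v i))) p
        (Rep.res (Sg v.1 F₀.fixingSubgroup (r v i)).subtype (Lq v.1)) n)
    (v : ↥S) (i : ι v) :
    T (restrict (primeLocalLevels v.1) (Sg v.1 F₀.fixingSubgroup (r v i))) p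
      (Rep.res (Sg v.1 F₀.fixingSubgroup (r v i)).subtype (Lq v.1)) n :=
  TMutual p (isCompatible_restrict_comap_cg v.1 (r v i) F₀ hF₀)
    (Rep.res (Sg v.1 F₀.fixingSubgroup (r v i)).subtype (Lq v.1)) n (y v i)

theorem VMap_eq (n : ℕ) :
    ⇑(VMap (arithKDatum S p hpS) F₀.fixingSubgroup r n) =
      cmpMap S p F₀ hF₀ r n ∘ jointMap S p F₀ hF₀ r n ∘
        ⇑(TMutual p (isCompatible_galFamilyOver_restrict F₀ hF₀)
          (Rep.res F₀.fixingSubgroup.subtype (JS S)) n) := by
  funext t v i
  exact VMapAt_eq S p hpS F₀ hF₀ v (r v i) n t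

omit hp in
theorem mutual_bijective (n : ℕ) :
    Function.Bijective (TMutual p (isCompatible_galFamilyOver_restrict F₀ hF₀)
      (Rep.res F₀.fixingSubgroup.subtype (JS S)) n) :=
  TMutual_bijective p (isCompatible_galFamilyOver_restrict F₀ hF₀)
    (isCompatible_restrict_galFamilyOver F₀ hF₀) _ n

/-- **Assembly**: the `V`-form semi-local statement from the joint theorem over the Galois level
family and the comparison of level families on the decomposition groups. -/
theorem vform_of_joint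
    (hJ : ∀ n : ℕ, n ≠ 0 → Function.Bijective (jointMap S p F₀ hF₀ r n))
    (h1 : ∀ (v : ↥S) (i : ι v), Function.Bijective
      (TMutual p (isCompatible_restrict_comap_cg v.1 (r v i) F₀ hF₀)
        (Rep.res (Sg v.1 F₀.fixingSubgroup (r v i)).subtype (Lq v.1)) 1))
    (h2 : ∀ (v : ↥S) (i : ι v), Function.Bijective
      (TMutual p (isCompatible_restrict_comap_cg v.1 (r v i) F₀ hF₀)
        (Rep.res (Sg v.1 F₀.fixingSubgroup (r v i)).subtype (Lq v.1)) 2))
    (h3 : ∀ (v : ↥S) (i : ι v), Subsingleton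
      (T (comap (galFamilyOver F₀ hF₀) (cg v.1 F₀.fixingSubgroup (r v i))) p
        (Rep.res (Sg v.1 F₀.fixingSubgroup (r v i)).subtype (Lq v.1)) 3)) :
    Function.Bijective (VMap (arithKDatum S p hpS) F₀.fixingSubgroup r 1) ∧
      Function.Bijective (VMap (arithKDatum S p hpS) F₀.fixingSubgroup r 2) ∧
      Function.Injective (VMap (arithKDatum S p hpS) F₀.fixingSubgroup r 3) := by
  refine ⟨?_, ?_, ?_⟩
  · rw [VMap_eq]
    refine Function.Bijective.comp ?_
      ((hJ 1 one_ne_zero).comp (mutual_bijective S p F₀ hF₀ 1))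
    exact Function.Bijective.piMap fun v => Function.Bijective.piMap fun i => h1 v i
  · rw [VMap_eq]
    refine Function.Bijective.comp ?_
      ((hJ 2 two_ne_zero).comp (mutual_bijective S p F₀ hF₀ 2))
    exact Function.Bijective.piMap fun v => Function.Bijective.piMap fun i => h2 v i
  · rw [VMap_eq]
    refine Function.Injective.comp ?_
      ((hJ 3 three_ne_zero).comp (mutual_bijective S p F₀ hF₀ 3)).1
    intro y y' _
    funext v i
    have := h3 v i
    exact Subsingleton.elim _ _

end Assembly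

/-! ### The main theorem -/

section Main

open Fermat.Agent.Lib.CFT.Global.SVersion.LocalCompareInst

variable {S p hpS F₀ hF₀}

/-- The `V`-form semi-local statement for the level field `F₀`, given the divisibility of the
local degrees along the Galois level family (`LocalCompareInst.IndexDivHyp`). -/
theorem vform_of_indexDiv (hp2 : p ≠ 2) {ι : ↥S → Type} [∀ v, Finite (ι v)]
    (r : ∀ v : ↥S, ι v → Γℚ)
    (hcover : ∀ (v : ↥S) (g : Γℚ), ∃ i h,
      g⁻¹ * primeLocalToGlobal v.1 h * r v i ∈ F₀.fixingSubgroup)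
    (hdisj : ∀ (v : ↥S) i j h,
      (r v j)⁻¹ * primeLocalToGlobal v.1 h * r v i ∈ F₀.fixingSubgroup → i = j)
    (hdiv : ∀ (v : ↥S) (g : Γℚ), IndexDivHyp v.1 F₀ hF₀ g p) :
    Function.Bijective (VMap (arithKDatum S p hpS) F₀.fixingSubgroup r 1) ∧
      Function.Bijective (VMap (arithKDatum S p hpS) F₀.fixingSubgroup r 2) ∧
      Function.Injective (VMap (arithKDatum S p hpS) F₀.fixingSubgroup r 3) := by
  have hodd : Odd p := hp.out.odd_of_ne_two hp2
  refine vform_of_joint S p hpS F₀ hF₀ r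
    (fun n hn => SemiLocalJoint.thetaT_bijective F₀ hF₀ p r hodd hcover hdisj n hn)
    (fun v i => ?_) (fun v i => ?_) (fun v i => ?_)
  · exact LocalCompareT.tauLoc_one_bijective v.1 (Sg v.1 F₀.fixingSubgroup (r v i))
      (funStab_mem_primeLocalLevels v.1 F₀ hF₀ (r v i))
      (comap (galFamilyOver F₀ hF₀) (LocalProjConj.cg v.1 F₀.fixingSubgroup (r v i)))
      (comapFamily_sub v.1 F₀ hF₀ (r v i)) p
  · exact LocalCompareT.tauLoc_two_bijective v.1 (Sg v.1 F₀.fixingSubgroup (r v i))
      (funStab_mem_primeLocalLevels v.1 F₀ hF₀ (r v i))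
      (comap (galFamilyOver F₀ hF₀) (LocalProjConj.cg v.1 F₀.fixingSubgroup (r v i)))
      (comapFamily_sub v.1 F₀ hF₀ (r v i)) p (comapFamily_normal v.1 F₀ hF₀ (r v i))
      (hdiv v (r v i))
  · exact LocalCompareT.subsingleton_T_three_loc v.1 (Sg v.1 F₀.fixingSubgroup (r v i))
      (funStab_mem_primeLocalLevels v.1 F₀ hF₀ (r v i))
      (comap (galFamilyOver F₀ hF₀) (LocalProjConj.cg v.1 F₀.fixingSubgroup (r v i)))
      (comapFamily_sub v.1 F₀ hF₀ (r v i)) p (comapFamily_normal v.1 F₀ hF₀ (r v i))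
      (hdiv v (r v i))

variable (S p hpS) in
/-- **The semi-local theorem in `V`-form** for the arithmetic zigzag datum (`p` odd, `p ∈ S`):
for every level field `F₀` and every finite system of representatives of the double cosets
`φ_q(G_q) \ Γℚ / Gal(Qbar / F₀)`, `q ∈ S`, the map
`T^n(Gal(Qbar / F₀), J_S) ⟶ ∏_{q ∈ S} ∏_i T^n(S_{q, r i}, Qbar_qˣ)` is bijective for `n = 1, 2` and
injective for `n = 3`.  This is the input of `PFormSemi.semi₀` and `PFormSemi.semi`. -/
theorem vform (hp2 : p ≠ 2) : GlobalBase.PFormSemi.VFormStatement S p hpS := by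
  intro F₀ hF₀ ι hfin r hcover hdisj
  have hfin' : ∀ v : ↥S, Finite (ι v) := hfin
  exact vform_of_indexDiv (hpS := hpS) (hF₀ := hF₀) (ι := ι) hp2 r hcover hdisj
    (fun v g => LocalCompareDiv.indexDivHyp (p := ⟨p, hp.out⟩) (q := v.1) hpS v.2 F₀ hF₀ g)

variable (S p hpS) in
/-- The field `semi₀` of the `P`-form contract for the arithmetic zigzag datum. -/
theorem semi₀ (hp2 : p ≠ 2) :
    Function.Bijective ((arithKDatum S p hpS).lamT 2) ∧
      Function.Injective ((arithKDatum S p hpS).lamT 3) :=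
  GlobalBase.PFormSemi.semi₀ (vform S p hpS hp2)

variable (S p hpS) in
/-- The field `semi` of the `P`-form contract for the arithmetic zigzag datum. -/
theorem semi (hp2 : p ≠ 2) {A : Type*} [Monoid A] (χ : Γℚ →* A) (W : Subgroup Γℚ)
    (hW : IsOpenSubgroup (arithDatum S).𝒰 W) (hχ : W ≤ χ.ker) :
    Function.Bijective ((KDatumPV.pv (arithKDatum S p hpS) W hW).lamT 1) ∧
      Function.Bijective ((KDatumPV.pv (arithKDatum S p hpS) W hW).lamT 2) ∧
      Function.Injective ((KDatumPV.pv (arithKDatum S p hpS) W hW).lamT 3) :=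
  GlobalBase.PFormSemi.semi_of_le_ker (vform S p hpS hp2) χ W hW hχ

end Main

end Fermat.Agent.Lib.CFT.Global.SVersion.SemiLocalMain
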