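/-
helper40.  P-CFT, Global/S-version: `Idele F ⧸ (Fˣ · J_S(F) · U_{F,S})` is a torsion group (finiteness
of the class group), in the exact shape requested by the S-version block:
`exists_pow_mem_range_sup_sIdeleGroup`.
-/
import Mathlib
import Fermat.Agent.Lib.CFT.Global.IdeleIdeal
import Fermat.Agent.Lib.CFT.Global.SUnitsClass
import Fermat.Agent.Lib.CFT.Global.SVersion.Level

set_option autoImplicit false

open scoped TensorProduct NumberField

noncomputable section

namespace Fermat.Agent.Lib.CFT.Global.SVersion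

open Fermat.Agent.Lib.CFT.Global IsDedekindDomain NumberField

variable (F : Type) [Field F] [NumberField F]

/-- The class number kills every prime: `v ^ h` is principal, generated by an element whose divisor
is exactly `h • v`. -/
lemma exists_ordAt_eq_card_classGroup (v : HeightOneSpectrum (𝓞 F)) :
    ∃ a : Fˣ, SUnits.ordAt v a = (Fintype.card (ClassGroup (𝓞 F)) : ℤ) ∧
      ∀ v' : HeightOneSpectrum (𝓞 F), v' ≠ v → SUnits.ordAt v' a = 0 := by
  classical
  have hI : v.asIdeal ∈ nonZeroDivisors (Ideal (𝓞 F)) :=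
    mem_nonZeroDivisors_iff_ne_zero.mpr v.ne_bot
  set h := Fintype.card (ClassGroup (𝓞 F)) with hh
  have hpos : 0 < h := Fintype.card_pos
  have h1 : ClassGroup.mk0 (⟨v.asIdeal, hI⟩ ^ h) = 1 := by
    rw [map_pow, hh, pow_card_eq_one]
  rw [ClassGroup.mk0_eq_one_iff] at h1
  obtain ⟨a, ha⟩ := h1.principal
  have ha' : v.asIdeal ^ h = Ideal.span {a} := by
    simpa using ha
  have ha0 : a ≠ 0 := by
    rintro rfl
    have : v.asIdeal ^ h = ⊥ := by simpa using ha'
    exact v.ne_bot (pow_eq_zero_iff hpos.ne' |>.mp this)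
  have haK : (a : F) ≠ 0 := RingOfIntegers.coe_ne_zero_iff.mpr ha0
  refine ⟨Units.mk0 (a : F) haK, ?_, fun v' hv' => ?_⟩
  · rw [SUnits.ordAt_mk0_eq_multiplicity, ← ha']
    have hprime : Prime v.asIdeal := Ideal.prime_of_isPrime v.ne_bot v.isPrime
    rw [multiplicity_pow_self hprime.ne_zero hprime.not_isUnit]
  · apply SUnits.ordAt_mk0_eq_zero
    intro hav'
    have h2 : v.asIdeal ^ h ≤ v'.asIdeal := by
      rw [ha', Ideal.span_singleton_le_iff_mem]; exact hav'
    have h3 : v.asIdeal ≤ v'.asIdeal := v'.isPrime.le_of_pow_le h2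
    have h4 : v.asIdeal = v'.asIdeal := (v.isMaximal.eq_of_le v'.isPrime.ne_top h3)
    exact hv' (HeightOneSpectrum.ext h4.symm)

/-- `h` times every divisor is principal. -/
lemma exists_ordAt_eq_card_mul (n : HeightOneSpectrum (𝓞 F) →₀ ℤ) :
    ∃ x : Fˣ, ∀ v, SUnits.ordAt v x = (Fintype.card (ClassGroup (𝓞 F)) : ℤ) * n v := by
  classical
  induction n using Finsupp.induction_linear with
  | zero => exact ⟨1, fun v => by simp⟩
  | add f g hf hg =>
    obtain ⟨x, hx⟩ := hf
    obtain ⟨y, hy⟩ := hg
    exact ⟨x * y, fun v => by rw [SUnits.ordAt_mul, hx, hy, Finsupp.add_apply]; ring⟩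
  | single v₀ m =>
    obtain ⟨a, ha, ha'⟩ := exists_ordAt_eq_card_classGroup F v₀
    refine ⟨a ^ m, fun v => ?_⟩
    rw [SUnits.ordAt_zpow]
    by_cases hv : v = v₀
    · subst hv
      rw [ha, Finsupp.single_eq_same]
      ring
    · rw [ha' v hv, Finsupp.single_apply, if_neg (Ne.symm hv)]
      ring

/-- **Finiteness of the class group, idelic form**: a power of every idele is the product of a
principal idele and an idele which is an integral unit outside `S`. -/
theorem exists_pow_mem_range_sup_sIdeleGroup (S : Finset Nat.Primes) (b : Idele F) :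
    ∃ n : ℕ, 0 < n ∧ b ^ n ∈ (principal F).range ⊔ sIdeleGroup S F := by
  classical
  set h := Fintype.card (ClassGroup (𝓞 F)) with hh
  refine ⟨h, Fintype.card_pos, ?_⟩
  obtain ⟨x, hx⟩ := exists_ordAt_eq_card_mul F (Multiplicative.toAdd (IdeleIdeal.divisor F b))
  have hker : b ^ h * (principal F x)⁻¹ ∈ (IdeleIdeal.divisor F).ker := by
    rw [MonoidHom.mem_ker]
    apply Multiplicative.toAdd.injective
    ext v
    rw [map_mul, map_pow, map_inv]
    have h1 := IdeleIdeal.divisor_principal F x v
    rw [hx v] at h1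
    simp only [toAdd_mul, toAdd_pow, toAdd_inv, Finsupp.add_apply, Finsupp.smul_apply,
      Finsupp.neg_apply, h1, toAdd_one, Finsupp.zero_apply]
    simp [hh]
  rw [IdeleIdeal.ker_divisor] at hker
  have hle : FirstIneq.sIdeles F ∅ ≤ sIdeleGroup S F := by
    intro c hc q _
    exact hc q (Set.notMem_empty q)
  have : b ^ h = principal F x * (b ^ h * (principal F x)⁻¹) := by
    rw [mul_comm (b ^ h), mul_inv_cancel_left]
  rw [this]
  exact Subgroup.mul_mem_sup ⟨x, rfl⟩ (hle hker)

end Fermat.Agent.Lib.CFT.Global.SVersion
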