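/-
Injectivity of inflation `H²(Γ ⧸ U, C^U) → H²(𝒰, C)` for a formation, change of the level family
along mutual cofinality, and the arithmetic instances for `C_S`: over `ℚ` (families `galFamily S`
and `levelsS S`) and over a level field `F₀` (families `galFamilyOver F₀ hF₀` and
`restrict (levelsS S) F₀.fixingSubgroup`).  Used by the local-global nonvanishing (LG-weak).
-/
import Mathlib
import Fermat.Agent.Lib.CFT.Global.SVersion.FormationMain

set_option autoImplicit false

universe u

noncomputable section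

namespace Fermat.Agent.Lib.CFT.Global.SVersion.FormationInfl

open CategoryTheory groupCohomology
open Fermat.Agent.Lib.CFT.Profinite Fermat.Agent.Lib.CFT.Profinite.LevelFamily
open Fermat.Agent.Lib.CFT.Profinite.Bridge
open Fermat.Agent.Lib.CFT.Coh.ClassFormation Fermat.Agent.Lib.CFT.Coh.TateThm
open Fermat.Agent.Lib.CFT.Global.SVersion
open Fermat.Agent.Lib.CFT.Global.SVersion.FormationOfLayers
open Fermat.Agent.Lib.CFT.Global.SVersion.Formation
open Fermat.Agent.Lib.CFT.Global.SVersion.FormationMain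

/-! ### Change of the level family -/

section Mutual

variable {k G : Type u} [CommRing k] [Group G] {𝒰 𝒱 : LevelFamily G}

/-- Cochain level: inflation from a common level commutes with the change of level family. -/
theorem levelInfl_comp_mutual (h1 : IsCompatible 𝒱 𝒰 (MonoidHom.id G)) (M : Rep.{u} k G)
    (V : Subgroup G) [V.Normal] (hV : V ∈ 𝒰.levels) (hV' : V ∈ 𝒱.levels) :
    𝒰.levelInfl M V hV ≫ levelCochainsMap (MonoidHom.id G) h1 (𝟙 M) = 𝒱.levelInfl M V hV' := by
  ext n c : 3
  rfl

/-- Inflation from a common level commutes with the isomorphism of level cohomology of mutually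
cofinal families. -/
theorem inflH_comp_isoOfMutual (h1 : IsCompatible 𝒱 𝒰 (MonoidHom.id G))
    (h2 : IsCompatible 𝒰 𝒱 (MonoidHom.id G)) (M : Rep.{u} k G)
    (V : Subgroup G) [V.Normal] (hV : V ∈ 𝒰.levels) (hV' : V ∈ 𝒱.levels) (n : ℕ) :
    𝒰.inflH M V hV n ≫ (levelCohomologyIsoOfMutual h1 h2 M n).hom = 𝒱.inflH M V hV' n := by
  have h := HomologicalComplex.homologyMap_comp (𝒰.levelInfl M V hV)
    (levelCochainsMap (MonoidHom.id G) h1 (𝟙 M)) n
  rw [levelInfl_comp_mutual h1 M V hV hV'] at h
  exact h.symm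

theorem isoOfMutual_inflH (h1 : IsCompatible 𝒱 𝒰 (MonoidHom.id G))
    (h2 : IsCompatible 𝒰 𝒱 (MonoidHom.id G)) (M : Rep.{u} k G)
    (V : Subgroup G) [V.Normal] (hV : V ∈ 𝒰.levels) (hV' : V ∈ 𝒱.levels) (n : ℕ)
    (y : groupCohomology (M.quotientToInvariants V) n) :
    (levelCohomologyIsoOfMutual h1 h2 M n).hom.hom ((𝒰.inflH M V hV n).hom y) =
      (𝒱.inflH M V hV' n).hom y :=
  congr($(inflH_comp_isoOfMutual h1 h2 M V hV hV' n) y)

/-- Injectivity of inflation from a common level does not depend on the (mutually cofinal)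
level family. -/
theorem inflH_injective_of_mutual (h1 : IsCompatible 𝒱 𝒰 (MonoidHom.id G))
    (h2 : IsCompatible 𝒰 𝒱 (MonoidHom.id G)) (M : Rep.{u} k G)
    (V : Subgroup G) [V.Normal] (hV : V ∈ 𝒰.levels) (hV' : V ∈ 𝒱.levels) (n : ℕ)
    (h : Function.Injective (𝒰.inflH M V hV n).hom) :
    Function.Injective (𝒱.inflH M V hV' n).hom := by
  intro y y' hyy'
  apply h
  have e := levelCohomologyIsoOfMutual h1 h2 M n
  have hinj : Function.Injective (levelCohomologyIsoOfMutual h1 h2 M n).hom.hom :=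
    (ConcreteCategory.bijective_of_isIso (levelCohomologyIsoOfMutual h1 h2 M n).hom).1
  apply hinj
  rw [isoOfMutual_inflH h1 h2 M V hV hV', isoOfMutual_inflH h1 h2 M V hV hV']
  exact hyy'

end Mutual

/-! ### Formations -/

section Formation

variable {k Γ : Type} [CommRing k] [Group Γ] (F : Formation k Γ)

/-- **Inflation from a level of a formation is injective on `H²`.** -/
theorem inflH_two_injective (U : Subgroup Γ) [U.Normal] (hU : U ∈ F.𝒰.levels) :
    Function.Injective (F.𝒰.inflH F.C U hU 2).hom := by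
  intro y y' hyy'
  apply F.invLevel_injective U hU
  rw [← F.inv_inflH U hU y, ← F.inv_inflH U hU y']
  exact congrArg _ hyy'

/-- The same over a mutually cofinal level family. -/
theorem inflH_two_injective_of_mutual {𝒱 : LevelFamily Γ}
    (h1 : IsCompatible 𝒱 F.𝒰 (MonoidHom.id Γ)) (h2 : IsCompatible F.𝒰 𝒱 (MonoidHom.id Γ))
    (U : Subgroup Γ) [U.Normal] (hU : U ∈ F.𝒰.levels) (hU' : U ∈ 𝒱.levels) :
    Function.Injective (𝒱.inflH F.C U hU' 2).hom :=
  inflH_injective_of_mutual h1 h2 F.C U hU hU' 2 (inflH_two_injective F U hU)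

theorem inflH_two_ne_zero (U : Subgroup Γ) [U.Normal] (hU : U ∈ F.𝒰.levels)
    {y : groupCohomology (F.C.quotientToInvariants U) 2} (hy : y ≠ 0) :
    (F.𝒰.inflH F.C U hU 2).hom y ≠ 0 := fun h =>
  hy (inflH_two_injective F U hU (h.trans (map_zero _).symm))

end Formation

/-! ### The arithmetic instances -/

section Arithmetic

local notation "Qbar" => AlgebraicClosure ℚ
local notation "Γℚ" => (AlgebraicClosure ℚ ≃ₐ[ℚ] AlgebraicClosure ℚ)

variable {S : Finset Nat.Primes}

/-- `H²(Γℚ ⧸ L.V, (C_S)^{L.V}) → H²(galFamily S, C_S)` is injective. -/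
theorem inflH_CS_injective_galFamily (L : GalLevel S) :
    Function.Injective ((galFamily S).inflH (CS S) L.V ⟨L, rfl⟩ 2).hom :=
  inflH_two_injective (formationQ S).toFormation L.V ⟨L, rfl⟩

/-- `H²(Γℚ ⧸ L.V, (C_S)^{L.V}) → H²(levelsS S, C_S)` is injective. -/
theorem inflH_CS_injective (L : GalLevel S) :
    Function.Injective ((levelsS S).inflH (CS S) L.V L.fixingSubgroup_mem_levels 2).hom :=
  inflH_two_injective_of_mutual (formationQ S).toFormation
    (isCompatible_levelsS_galFamily S) (isCompatible_galFamily_levelsS S) L.V ⟨L, rfl⟩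
    L.fixingSubgroup_mem_levels

theorem inflH_CS_ne_zero (L : GalLevel S)
    {y : groupCohomology ((CS S).quotientToInvariants L.V) 2} (hy : y ≠ 0) :
    ((levelsS S).inflH (CS S) L.V L.fixingSubgroup_mem_levels 2).hom y ≠ 0 := fun h =>
  hy (inflH_CS_injective L (h.trans (map_zero _).symm))


variable (F₀ : IntermediateField ℚ Qbar) (hF₀ : F₀.IsUnramifiedOutside S)

/-- Over a level field `F₀`: `H²(V_{F₀} ⧸ V_L, (C_S)^{V_L}) → H²(galFamilyOver F₀, C_S)` is
injective (`F₀ ≤ L.F`). -/
theorem inflH_CS_injective_galFamilyOver (L : GalLevel S) (h : F₀ ≤ L.F) :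
    Function.Injective ((galFamilyOver F₀ hF₀).inflH
      (Rep.res (F₀.fixingSubgroup).subtype (CS S)) ((L.V).subgroupOf F₀.fixingSubgroup)
      (subgroupOf_mem_galFamilyOver (hF₀ := hF₀) h) 2).hom :=
  inflH_two_injective (formationOver F₀ hF₀).toFormation _
    (subgroupOf_mem_galFamilyOver (hF₀ := hF₀) h)

include hF₀ in
/-- Over a level field `F₀`, for the restricted level family `restrict (levelsS S) V_{F₀}`. -/
theorem inflH_CS_injective_over (L : GalLevel S) (h : F₀ ≤ L.F) :
    Function.Injective ((LES.restrict (levelsS S) F₀.fixingSubgroup).inflH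
      (Rep.res (F₀.fixingSubgroup).subtype (CS S)) ((L.V).subgroupOf F₀.fixingSubgroup)
      ⟨L.V, L.fixingSubgroup_mem_levels, rfl⟩ 2).hom :=
  inflH_two_injective_of_mutual (formationOver F₀ hF₀).toFormation
    (isCompatible_restrict_galFamilyOver F₀ hF₀) (isCompatible_galFamilyOver_restrict F₀ hF₀)
    _ (subgroupOf_mem_galFamilyOver (hF₀ := hF₀) h) ⟨L.V, L.fixingSubgroup_mem_levels, rfl⟩

end Arithmetic

end Fermat.Agent.Lib.CFT.Global.SVersion.FormationInfl
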