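import Fermat.Agent.Lib.CFT.Global.SVersion.QSTorsion
import Fermat.Agent.Lib.CFT.Global.SVersion.LevelFamilyAt
import Fermat.Agent.Lib.CFT.Duality.BaseCase.KCalcSeq

/-!
# P-CFT, Global/SVersion: the exact-sequence part of (LG-weak)

For a prime `p ∈ S` and the cone cohomology `T^r = T 𝒰 p · r` of multiplication by `p`
(`Duality/BaseCase/KCalc`), over a level family `𝒰` on `Γℚ` for which `J_S` and `C_S` are discrete
(e.g. `levelsS S` or `galFamily S`):

* `bijective_TMap_cs'ToCS` : `T^r(C'_S) → T^r(C_S)` is bijective (because `p` is bijective on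
  `Q_S = C_S / C'_S`);
* `exact_TMap_esToJS_jsToCS'` : `T^r(E_S) → T^r(J_S) → T^r(C'_S)` is exact;
* `jsToCS : JS S ⟶ CS S`, the composite `J_S → C'_S → C_S`, and
  `exact_TMap_esToJS_jsToCS` : `T^r(E_S) → T^r(J_S) → T^r(C_S)` is exact, i.e. a class of
  `T^r(J_S)` dying in `T^r(C_S)` comes from `T^r(E_S)` (`exists_of_TMap_jsToCS_eq_zero`).
-/

set_option autoImplicit false

open CategoryTheory

noncomputable section

namespace Fermat.Agent.Lib.CFT.Global.SVersion.LGExact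

open Fermat.Agent.Lib.CFT.Profinite Fermat.Agent.Lib.CFT.Profinite.Bridge
open Fermat.Agent.Lib.CFT.Global.SVersion Fermat.Agent.Lib.CFT.Duality.KCalc

local notation "Qbar" => AlgebraicClosure ℚ
local notation "Γℚ" => (AlgebraicClosure ℚ ≃ₐ[ℚ] AlgebraicClosure ℚ)

variable (S : Finset Nat.Primes)

/-- `E_S ⟶ J_S`. -/
def esToJSHom : ES S ⟶ JS S := (seqEJC S).f

/-- `J_S ⟶ C'_S`. -/
def jsToCS'Hom : JS S ⟶ CS' S := (seqEJC S).g

/-- `C'_S ⟶ C_S`. -/
def cs'ToCSHom : CS' S ⟶ CS S := (seqCCQ S).f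

/-- `C_S ⟶ Q_S`. -/
def csToQSHom : CS S ⟶ QS S := (seqCCQ S).g

/-- The composite `J_S ⟶ C'_S ⟶ C_S` (an idele of `ℚ_S` supported on `S ∪ ∞` to its class). -/
def jsToCS : JS S ⟶ CS S := jsToCS'Hom S ≫ cs'ToCSHom S

lemma esToJSHom_jsToCS'Hom : esToJSHom S ≫ jsToCS'Hom S = 0 := (seqEJC S).zero

lemma esToJSHom_jsToCS : esToJSHom S ≫ jsToCS S = 0 := by
  unfold jsToCS
  rw [← Category.assoc, esToJSHom_jsToCS'Hom, Limits.zero_comp]

/-! ### Discreteness for the Galois level family -/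

lemma isDiscrete_galFamily_of_levelsS {k : Type} [CommRing k] {M : Rep.{0} k Γℚ}
    (hM : (levelsS S).IsDiscrete M) : (galFamily S).IsDiscrete M := by
  intro m
  obtain ⟨U, hU, hm⟩ := hM m
  obtain ⟨U', hU', hle⟩ := isCompatible_galFamily_levelsS S U hU
  exact ⟨U', hU', fun s hs => hm s (hle hs)⟩

lemma isDiscrete_levelsS_of_galFamily {k : Type} [CommRing k] {M : Rep.{0} k Γℚ}
    (hM : (galFamily S).IsDiscrete M) : (levelsS S).IsDiscrete M := by
  intro m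
  obtain ⟨U, hU, hm⟩ := hM m
  obtain ⟨U', hU', hle⟩ := isCompatible_levelsS_galFamily S U hU
  exact ⟨U', hU', fun s hs => hm s (hle hs)⟩

/-! ### The general statements -/

section General

variable {S}
variable (𝒰 : LevelFamily Γℚ) {p : ℕ} (hp : p.Prime) (hpS : (⟨p, hp⟩ : Nat.Primes) ∈ S)

include hpS in
/-- `T^r(C'_S) → T^r(C_S)` is bijective for a prime `p ∈ S`: `Q_S` is uniquely `p`-divisible. -/
theorem bijective_TMap_cs'ToCS (hC : 𝒰.IsDiscrete (CS S)) (r : ℕ) :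
    Function.Bijective (TMap 𝒰 p (cs'ToCSHom S) r) :=
  TMap_f_bijective 𝒰 p (S := seqCCQ S) (shortExact_seqCCQ S) hC
    (bijective_nsmul_QS (S := S) hp hpS) r

/-- `T^r(E_S) → T^r(J_S) → T^r(C'_S)` is exact. -/
theorem exact_TMap_esToJS_jsToCS' (hJ : 𝒰.IsDiscrete (JS S)) (r : ℕ) :
    Function.Exact (TMap 𝒰 p (esToJSHom S) r) (TMap 𝒰 p (jsToCS'Hom S) r) :=
  exact_TMap_f_TMap_g 𝒰 p (S := seqEJC S) (shortExact_seqEJC S) hJ r

theorem TMap_jsToCS (r : ℕ) (t : T 𝒰 p (JS S) r) :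
    TMap 𝒰 p (jsToCS S) r t = TMap 𝒰 p (cs'ToCSHom S) r (TMap 𝒰 p (jsToCS'Hom S) r t) :=
  TMap_comp 𝒰 p (jsToCS'Hom S) (cs'ToCSHom S) r t

include hpS in
/-- `T^r(E_S) → T^r(J_S) → T^r(C_S)` is exact for a prime `p ∈ S`. -/
theorem exact_TMap_esToJS_jsToCS (hJ : 𝒰.IsDiscrete (JS S)) (hC : 𝒰.IsDiscrete (CS S)) (r : ℕ) :
    Function.Exact (TMap 𝒰 p (esToJSHom S) r) (TMap 𝒰 p (jsToCS S) r) := by
  intro t
  rw [TMap_jsToCS]
  constructor
  · intro h
    have h0 : TMap 𝒰 p (jsToCS'Hom S) r t = 0 := by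
      apply (bijective_TMap_cs'ToCS 𝒰 hp hpS hC r).1
      rw [h, map_zero]
    exact (exact_TMap_esToJS_jsToCS' 𝒰 hJ r t).1 h0
  · intro h
    rw [(exact_TMap_esToJS_jsToCS' 𝒰 hJ r t).2 h, map_zero]

include hpS in
/-- A class of `T^r(J_S)` dying in `T^r(C_S)` comes from `T^r(E_S)`. -/
theorem exists_of_TMap_jsToCS_eq_zero (hJ : 𝒰.IsDiscrete (JS S)) (hC : 𝒰.IsDiscrete (CS S))
    (r : ℕ) (t : T 𝒰 p (JS S) r) (ht : TMap 𝒰 p (jsToCS S) r t = 0) :
    ∃ e : T 𝒰 p (ES S) r, TMap 𝒰 p (esToJSHom S) r e = t :=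
  (exact_TMap_esToJS_jsToCS 𝒰 hp hpS hJ hC r t).1 ht

/-- `TMap` of the zero morphism is zero. -/
theorem TMap_zero' {k G : Type} [CommRing k] [Group G] (𝒱 : LevelFamily G) (n : ℕ)
    (X Y : Rep.{0} k G) (r : ℕ) (t : T 𝒱 n X r) : TMap 𝒱 n (0 : X ⟶ Y) r t = 0 := by
  have h : KpMap 𝒱 n (0 : X ⟶ Y) = 0 :=
    Fermat.Agent.Lib.CFT.Duality.natCone.hom_ext _ (fun _ _ => rfl) (fun _ _ => rfl)
  unfold TMap
  rw [h, HomologicalComplex.homologyMap_zero]
  rfl

theorem TMap_jsToCS'_esToJS (r : ℕ) (e : T 𝒰 p (ES S) r) :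
    TMap 𝒰 p (jsToCS'Hom S) r (TMap 𝒰 p (esToJSHom S) r e) = 0 := by
  rw [← TMap_comp, esToJSHom_jsToCS'Hom, TMap_zero']

theorem TMap_jsToCS_esToJS (r : ℕ) (e : T 𝒰 p (ES S) r) :
    TMap 𝒰 p (jsToCS S) r (TMap 𝒰 p (esToJSHom S) r e) = 0 := by
  rw [← TMap_comp, esToJSHom_jsToCS, TMap_zero']

end General

/-! ### Specialisations to `levelsS S` and `galFamily S` -/

section Special

variable {S}
variable {p : ℕ} (hp : p.Prime) (hpS : (⟨p, hp⟩ : Nat.Primes) ∈ S)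

include hpS in
theorem bijective_TMap_cs'ToCS_levelsS (r : ℕ) :
    Function.Bijective (TMap (levelsS S) p (cs'ToCSHom S) r) :=
  bijective_TMap_cs'ToCS (levelsS S) hp hpS (isDiscrete_CS S) r

include hpS in
theorem exact_TMap_esToJS_jsToCS_levelsS (r : ℕ) :
    Function.Exact (TMap (levelsS S) p (esToJSHom S) r) (TMap (levelsS S) p (jsToCS S) r) :=
  exact_TMap_esToJS_jsToCS (levelsS S) hp hpS (isDiscrete_JS S) (isDiscrete_CS S) r

include hpS in
theorem exists_of_TMap_jsToCS_eq_zero_levelsS (r : ℕ) (t : T (levelsS S) p (JS S) r)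
    (ht : TMap (levelsS S) p (jsToCS S) r t = 0) :
    ∃ e : T (levelsS S) p (ES S) r, TMap (levelsS S) p (esToJSHom S) r e = t :=
  exists_of_TMap_jsToCS_eq_zero (levelsS S) hp hpS (isDiscrete_JS S) (isDiscrete_CS S) r t ht

include hpS in
theorem bijective_TMap_cs'ToCS_galFamily (r : ℕ) :
    Function.Bijective (TMap (galFamily S) p (cs'ToCSHom S) r) :=
  bijective_TMap_cs'ToCS (galFamily S) hp hpS
    (isDiscrete_galFamily_of_levelsS S (isDiscrete_CS S)) r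

include hpS in
theorem exact_TMap_esToJS_jsToCS_galFamily (r : ℕ) :
    Function.Exact (TMap (galFamily S) p (esToJSHom S) r) (TMap (galFamily S) p (jsToCS S) r) :=
  exact_TMap_esToJS_jsToCS (galFamily S) hp hpS
    (isDiscrete_galFamily_of_levelsS S (isDiscrete_JS S))
    (isDiscrete_galFamily_of_levelsS S (isDiscrete_CS S)) r

include hpS in
theorem exists_of_TMap_jsToCS_eq_zero_galFamily (r : ℕ) (t : T (galFamily S) p (JS S) r)
    (ht : TMap (galFamily S) p (jsToCS S) r t = 0) :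
    ∃ e : T (galFamily S) p (ES S) r, TMap (galFamily S) p (esToJSHom S) r e = t :=
  exists_of_TMap_jsToCS_eq_zero (galFamily S) hp hpS
    (isDiscrete_galFamily_of_levelsS S (isDiscrete_JS S))
    (isDiscrete_galFamily_of_levelsS S (isDiscrete_CS S)) r t ht

end Special

end Fermat.Agent.Lib.CFT.Global.SVersion.LGExact
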