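import Mathlib
import Fermat.Agent.Lib.CFT.Global.SVersion.CSLevelLayer
import Fermat.Agent.Lib.CFT.Global.SVersion.FormationOfLayers
import Fermat.Agent.Lib.CFT.Global.ClassFormation.AllLayers

/-!
# The cardinality data at the finite layers of `(Γℚ, galFamily S, C_S)`

For a Galois level `L` of `S` and `Q = Γℚ ⧸ L.V` (acting faithfully on the number field `L.F`):

* `isZero_unitsOut_QTop`: `U_{L.F,S}` is cohomologically trivial on every subgroup of `Q`;
* `layerData_csRep_QTop`: `H¹(H, C_S(L.F)) = 0`, `H²(H, C_S(L.F))` cyclic of order `|H|` for every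
  subgroup `H ≤ Q` (from the global input `ClassFormation.globalCFInput` for `C_{L.F}`);
* `layerData_CS S : FormationOfLayers.LayerData (galFamily S) (CS S)`: the same for the layers
  `(C_S)^{L.V}` of the limit module, transported along the descent isomorphism
  `RepDescent.csDescentIsoTop` (which uses the lifting hypothesis `UnitsOutCoh.liftHyp`).
-/

set_option autoImplicit false
set_option linter.unusedSectionVars false

open scoped NumberField

noncomputable section

namespace Fermat.Agent.Lib.CFT.Global.SVersion.LayerDataCS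

open Fermat.Agent.Lib.CFT.Global Fermat.Agent.Lib.CFT.Global.SVersion
  Fermat.Agent.Lib.CFT.Global.SVersion.RepDescent
  Fermat.Agent.Lib.CFT.Global.SVersion.CSLevelLayer
  Fermat.Agent.Lib.CFT.Global.SVersion.FormationOfLayers
  Fermat.Agent.Lib.CFT.Profinite Fermat.Agent.Lib.CFT.Profinite.Bridge
  CategoryTheory CategoryTheory.Limits groupCohomology
open scoped Fermat.Agent.Lib.CFT.Global.SVersion.RepDescent

local notation "Qbar" => AlgebraicClosure ℚ
local notation "Γℚ" => (AlgebraicClosure ℚ ≃ₐ[ℚ] AlgebraicClosure ℚ)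

/-! ### Transport of cohomological data along an isomorphism of representations -/

section Transport

variable {G : Type} [Group G] {A B : Rep.{0} ℤ G} (e : A ≅ B)

/-- The isomorphism on the cohomology of a subgroup induced by an isomorphism of
representations. -/
def resCohIso (H : Subgroup G) (n : ℕ) :
    groupCohomology (Rep.res H.subtype A) n ≅ groupCohomology (Rep.res H.subtype B) n :=
  (groupCohomology.functor ℤ ↥H n).mapIso ((Rep.resFunctor H.subtype).mapIso e)

/-- The isomorphism on cohomology induced by an isomorphism of representations. -/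
def cohIso (n : ℕ) : groupCohomology A n ≅ groupCohomology B n :=
  (groupCohomology.functor ℤ G n).mapIso e

end Transport

variable {S : Finset Nat.Primes}

/-! ### The layer `Q = Γℚ ⧸ L.V` -/

/-- `U_{L.F,S}` is cohomologically trivial on every subgroup of `Γℚ ⧸ L.V`. -/
theorem isZero_unitsOut_QTop (L : GalLevel S) (H : Subgroup (QTop L)) (n : ℕ) [NeZero n] :
    IsZero (groupCohomology (unitsOutRep S L.F ↥H) n) :=
  isZero_res_unitsOutRep S L.F (QTop L) (isUnramOut_galLevel L (QTop L)) H n

/-- `U_{L'.F,S}` is cohomologically trivial on every subgroup of `W ⧸ (L'.V ⊓ W)`. -/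
theorem isZero_unitsOut_QOver (W : Subgroup Γℚ) (L' : GalLevel S) (H : Subgroup (QOver W L'))
    (n : ℕ) [NeZero n] :
    IsZero (groupCohomology (unitsOutRep S L'.F ↥H) n) :=
  isZero_res_unitsOutRep S L'.F (QOver W L') (isUnramOut_galLevel L' (QOver W L')) H n

/-- The global input for the subgroups of a finite group acting faithfully on a number field. -/
theorem ideleClass_input (F : Type) [Field F] [NumberField F] (G : Type) [Group G] [Finite G]
    [MulSemiringAction G F] [FaithfulSMul G F] (H : Subgroup G) :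
    IsZero (groupCohomology (ideleClassRep F H) 1) ∧
      IsAddCyclic (groupCohomology (ideleClassRep F H) 2) ∧
      Nat.card (groupCohomology (ideleClassRep F H) 2) = Nat.card H := by
  have : FaithfulSMul H F := ⟨fun {a b} h => Subtype.ext (FaithfulSMul.eq_of_smul_eq_smul
    (M := G) (α := F) (fun x => h x))⟩
  exact ClassFormation.globalCFInput F H

/-- The cardinality data for `C_S(L.F)` as a module over `Γℚ ⧸ L.V`. -/
theorem layerData_csRep_QTop (L : GalLevel S) :
    (∀ H : Subgroup (QTop L),
      IsZero (groupCohomology.H1 (Rep.res H.subtype (csRep S L.F (QTop L))))) ∧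
    (∀ H : Subgroup (QTop L),
      IsAddCyclic (groupCohomology.H2 (Rep.res H.subtype (csRep S L.F (QTop L))))) ∧
    (∀ H : Subgroup (QTop L),
      Nat.card (groupCohomology.H2 (Rep.res H.subtype (csRep S L.F (QTop L)))) = Nat.card H) :=
  layerData_csRep S L.F (QTop L) (isUnramOut_galLevel L (QTop L))
    (fun H => ideleClass_input L.F (QTop L) H)

/-- The cardinality data for `C_S(L'.F)` as a module over `W ⧸ (L'.V ⊓ W)`. -/
theorem layerData_csRep_QOver (W : Subgroup Γℚ) (L' : GalLevel S) :
    (∀ H : Subgroup (QOver W L'),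
      IsZero (groupCohomology.H1 (Rep.res H.subtype (csRep S L'.F (QOver W L'))))) ∧
    (∀ H : Subgroup (QOver W L'),
      IsAddCyclic (groupCohomology.H2 (Rep.res H.subtype (csRep S L'.F (QOver W L'))))) ∧
    (∀ H : Subgroup (QOver W L'),
      Nat.card (groupCohomology.H2 (Rep.res H.subtype (csRep S L'.F (QOver W L')))) =
        Nat.card H) :=
  layerData_csRep S L'.F (QOver W L') (isUnramOut_galLevel L' (QOver W L'))
    (fun H => ideleClass_input L'.F (QOver W L') H)

/-! ### The layers of the limit module -/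

/-- `H¹(H, (C_S)^{L.V}) = 0` for every subgroup `H ≤ Γℚ ⧸ L.V`. -/
theorem isZero_H1_res_CS (L : GalLevel S) (H : Subgroup (Γℚ ⧸ L.V)) :
    IsZero (groupCohomology.H1 (Rep.res H.subtype ((CS S).quotientToInvariants L.V))) :=
  IsZero.of_iso ((layerData_csRep_QTop L).1 H)
    (resCohIso (csDescentIsoTop L (UnitsOutCoh.liftHyp S)) H 1).symm

/-- `H²(H, (C_S)^{L.V})` is cyclic for every subgroup `H ≤ Γℚ ⧸ L.V`. -/
theorem isAddCyclic_H2_res_CS (L : GalLevel S) (H : Subgroup (Γℚ ⧸ L.V)) :
    IsAddCyclic (groupCohomology.H2 (Rep.res H.subtype ((CS S).quotientToInvariants L.V))) := by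
  have := (layerData_csRep_QTop L).2.1 H
  let e := (resCohIso (csDescentIsoTop L (UnitsOutCoh.liftHyp S)) H 2).toLinearEquiv
  exact isAddCyclic_of_surjective e.toAddMonoidHom e.surjective

/-- `|H²(H, (C_S)^{L.V})| = |H|` for every subgroup `H ≤ Γℚ ⧸ L.V`. -/
theorem card_H2_res_CS (L : GalLevel S) (H : Subgroup (Γℚ ⧸ L.V)) :
    Nat.card (groupCohomology.H2 (Rep.res H.subtype ((CS S).quotientToInvariants L.V))) =
      Nat.card H := by
  rw [← (layerData_csRep_QTop L).2.2 H]
  exact Nat.card_congr
    (resCohIso (csDescentIsoTop L (UnitsOutCoh.liftHyp S)) H 2).toLinearEquiv.toEquiv.symm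

/-- `H²(Γℚ ⧸ L.V, (C_S)^{L.V})` is cyclic. -/
theorem isAddCyclic_H2_CS (L : GalLevel S) :
    IsAddCyclic (groupCohomology.H2 ((CS S).quotientToInvariants L.V)) := by
  have := isAddCyclic_H2_csRep S L.F (QTop L) (isUnramOut_galLevel L (QTop L))
    (ClassFormation.globalCFInput L.F (QTop L)).2.1
  let e := (cohIso (csDescentIsoTop L (UnitsOutCoh.liftHyp S)) 2).toLinearEquiv
  exact isAddCyclic_of_surjective e.toAddMonoidHom e.surjective

/-- `|H²(Γℚ ⧸ L.V, (C_S)^{L.V})| = [Γℚ : L.V]`. -/
theorem card_H2_CS (L : GalLevel S) :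
    Nat.card (groupCohomology.H2 ((CS S).quotientToInvariants L.V)) = (L.V).index := by
  rw [← card_QTop L, ← (ClassFormation.globalCFInput L.F (QTop L)).2.2,
    ← card_H2_csRep S L.F (QTop L) (isUnramOut_galLevel L (QTop L))]
  exact Nat.card_congr
    (cohIso (csDescentIsoTop L (UnitsOutCoh.liftHyp S)) 2).toLinearEquiv.toEquiv.symm

/-- **The cardinality data at the finite layers of `(Γℚ, galFamily S, C_S)`.** -/
theorem layerData_CS (S : Finset Nat.Primes) : LayerData (galFamily S) (CS S) where
  h1 := by
    rintro _ _ ⟨L, rfl⟩ H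
    exact isZero_H1_res_CS L H
  h2 := by
    rintro _ _ ⟨L, rfl⟩ H
    exact (card_H2_res_CS L H).dvd
  cyc := by
    rintro _ _ ⟨L, rfl⟩
    exact isAddCyclic_H2_CS L
  card := by
    rintro _ _ ⟨L, rfl⟩
    exact card_H2_CS L

end Fermat.Agent.Lib.CFT.Global.SVersion.LayerDataCS
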