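import Fermat.Agent.Lib.CFT.Global.SVersion.LevelFamilyAt
import Fermat.Agent.Lib.CFT.Global.SVersion.CycloTower

/-!
# `p^∞` divides the indices of the Galois level families (helper11, P-CFT Global/S-version)

For `p ∈ S` the cyclotomic `p`-tower lies in `ℚ_S` (`CycloTower.lean`, helper45).  We restate its
main theorem for the Galois level families `galFamily S` and `galFamilyOver F₀ hF₀`: every level
`U` contains a level `U'` with `p ^ N * U.index ∣ U'.index`.  This is the divisibility hypothesis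
of `Limit.exists_nsmul_eq_levelCohomology` / `FormationSub` (p-divisibility of `H²(·, C_S)` and
`H²(·, C_S)[p] ≃ ℤ/p`).
-/

set_option autoImplicit false

noncomputable section

namespace Fermat.Agent.Lib.CFT.Global.SVersion

open Fermat.Agent.Lib.CFT.Profinite Fermat.Agent.Lib.CFT.Profinite.Bridge

local notation "Qbar" => AlgebraicClosure ℚ
local notation "Γℚ" => (AlgebraicClosure ℚ ≃ₐ[ℚ] AlgebraicClosure ℚ)

variable {S : Finset Nat.Primes}

/-- Every Galois level `L` lies in a Galois level `L'` with `p ^ N * [Γℚ : L.V] ∣ [Γℚ : L'.V]`. -/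
theorem exists_galLevel_pow_mul_index_dvd {p : Nat.Primes} (hp : p ∈ S) (L : GalLevel S) (N : ℕ) :
    ∃ L' : GalLevel S, L.F ≤ L'.F ∧ (p : ℕ) ^ N * (L.V).index ∣ (L'.V).index := by
  obtain ⟨U', ⟨F', hF', rfl⟩, -, -, hdvd⟩ :=
    CycloTower.exists_level_pow_mul_index_dvd hp L.fixingSubgroup_mem_levels N
  refine ⟨L.sup (GalLevel.ofUnram F' hF'), GalLevel.le_sup_left _ _, ?_⟩
  have h3 : (L.sup (GalLevel.ofUnram F' hF')).V ≤ F'.fixingSubgroup :=
    IntermediateField.fixingSubgroup_antitone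
      ((GalLevel.le_ofUnram F' hF').trans (GalLevel.le_sup_right L (GalLevel.ofUnram F' hF')))
  have h4 : F'.fixingSubgroup.index ∣ ((L.sup (GalLevel.ofUnram F' hF')).V).index :=
    Subgroup.index_dvd_of_le h3
  exact hdvd.trans h4

/-- `p^∞` divides the indices of `galFamily S`. -/
theorem galFamily_exists_pow_mul_index_dvd {p : Nat.Primes} (hp : p ∈ S) {U : Subgroup Γℚ}
    (hU : U ∈ (galFamily S).levels) (N : ℕ) :
    ∃ U' ∈ (galFamily S).levels, U' ≤ U ∧ (p : ℕ) ^ N * U.index ∣ U'.index := by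
  obtain ⟨L, rfl⟩ := hU
  obtain ⟨L', hle, hdvd⟩ := exists_galLevel_pow_mul_index_dvd hp L N
  exact ⟨_, ⟨L', rfl⟩, GalLevel.V_le_of_le hle, hdvd⟩

/-- `p^∞` divides the indices of `galFamilyOver F₀ hF₀`. -/
theorem galFamilyOver_exists_pow_mul_index_dvd {p : Nat.Primes} (hp : p ∈ S)
    (F₀ : IntermediateField ℚ Qbar) (hF₀ : F₀.IsUnramifiedOutside S)
    {U : Subgroup ↥F₀.fixingSubgroup} (hU : U ∈ (galFamilyOver F₀ hF₀).levels) (N : ℕ) :
    ∃ U' ∈ (galFamilyOver F₀ hF₀).levels, U' ≤ U ∧ (p : ℕ) ^ N * U.index ∣ U'.index := by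
  obtain ⟨L, hL, rfl⟩ := hU
  obtain ⟨L', hle, hdvd⟩ := exists_galLevel_pow_mul_index_dvd hp L N
  refine ⟨_, ⟨L', hL.trans hle, rfl⟩, ?_, ?_⟩
  · intro x hx
    exact GalLevel.V_le_of_le hle hx
  · have hW : (F₀.fixingSubgroup).FiniteIndex :=
      (levelsS S).finiteIndex _ ⟨F₀, hF₀, rfl⟩
    have hLW : L.V ≤ F₀.fixingSubgroup := IntermediateField.fixingSubgroup_antitone hL
    have hL'W : L'.V ≤ F₀.fixingSubgroup :=
      IntermediateField.fixingSubgroup_antitone (hL.trans hle)
    have e1 : ((L.V).subgroupOf F₀.fixingSubgroup).index * (F₀.fixingSubgroup).index =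
        (L.V).index := by
      rw [← Subgroup.relIndex]
      exact Subgroup.relIndex_mul_index hLW
    have e2 : ((L'.V).subgroupOf F₀.fixingSubgroup).index * (F₀.fixingSubgroup).index =
        (L'.V).index := by
      rw [← Subgroup.relIndex]
      exact Subgroup.relIndex_mul_index hL'W
    rw [← e1, ← e2, ← mul_assoc] at hdvd
    exact Nat.dvd_of_mul_dvd_mul_right (Nat.pos_of_ne_zero hW.index_ne_zero) hdvd

end Fermat.Agent.Lib.CFT.Global.SVersion
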