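/-
Variant of `SVersion/LimitInfl.lean` with the `H¹`-vanishing hypothesis stated for the relative
layer `U ⧸ (U' ⊓ U)` acting on `(M|_U)^{U'}` (instead of the subgroup `U ⧸ U'` of `G ⧸ U'` acting
on `M^{U'}`): the two pairs (group, module) are isomorphic, hence have the same cohomology.
-/
import Fermat.Agent.Lib.CFT.Global.SVersion.LimitInfl

set_option autoImplicit false

namespace Fermat.Agent.Lib.CFT.Global.SVersion.LimitInflRel

open CategoryTheory groupCohomology Rep
open Fermat.Agent.Lib.CFT.Profinite Fermat.Agent.Lib.CFT.Global.SVersion.Limit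
open Fermat.Agent.Lib.CFT.Global.SVersion.LimitInfl
open Fermat.Agent.Lib.CFT.Coh

universe u

variable {k G : Type u} [CommRing k] [Group G] (M : Rep.{u} k G) (U U' : Subgroup G) [U.Normal]
  [U'.Normal] (h : U' ≤ U)

/-- The map `U → U ⧸ U' ⊆ G ⧸ U'`. -/
def toRelKer : U →* relKer U U' h :=
  ((QuotientGroup.mk' U').comp U.subtype).codRestrict (relKer U U' h)
    (fun u => (mk_mem_relKer_iff U U' h u).2 u.2)

theorem toRelKer_coe (x : U) : ((toRelKer U U' h x : relKer U U' h) : G ⧸ U') = ((x : G) : G ⧸ U') :=
  rfl

/-- The isomorphism `U ⧸ (U' ⊓ U) → U ⧸ U'` (as a homomorphism). -/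
def relIso : U ⧸ U'.subgroupOf U →* relKer U U' h :=
  QuotientGroup.lift (U'.subgroupOf U) (toRelKer U U' h) (fun x hx => by
    apply Subtype.ext
    rw [toRelKer_coe]
    exact (QuotientGroup.eq_one_iff (x : G)).2 hx)

theorem relIso_mk (x : U) : relIso U U' h (x : U ⧸ U'.subgroupOf U) = toRelKer U U' h x := rfl

theorem relIso_bijective : Function.Bijective (relIso U U' h) := by
  constructor
  · intro x y hxy
    induction x using QuotientGroup.induction_on with
    | H x =>
      induction y using QuotientGroup.induction_on with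
      | H y =>
        rw [relIso_mk, relIso_mk] at hxy
        have h1 := congrArg Subtype.val hxy
        rw [toRelKer_coe, toRelKer_coe] at h1
        have h2 : (x : G)⁻¹ * (y : G) ∈ U' := QuotientGroup.eq.1 h1
        exact QuotientGroup.eq.2 h2
  · rintro ⟨z, hz⟩
    induction z using QuotientGroup.induction_on with
    | H g =>
      have hg : g ∈ U := (mk_mem_relKer_iff U U' h g).1 hz
      exact ⟨((⟨g, hg⟩ : U) : U ⧸ U'.subgroupOf U), Subtype.ext rfl⟩

/-- The identification `M^{U'} = (M|_U)^{U' ⊓ U}` as a morphism of representations along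
`relIso`. -/
noncomputable def relInvHom :
    res (relIso U U' h) (res (relKer U U' h).subtype (M.quotientToInvariants U')) ⟶
      (res U.subtype M).quotientToInvariants (U'.subgroupOf U) :=
  Rep.ofHom ⟨LinearMap.codRestrict _ (Submodule.subtype _) (fun x s => x.2 ⟨s.1.1, s.2⟩),
    fun q => by
      induction q using QuotientGroup.induction_on with
      | H q =>
        ext x
        rfl⟩

theorem relInvHom_apply_coe (x : M.quotientToInvariants U') :
    ((relInvHom M U U' h).hom x).1 = x.1 := rfl

theorem relInvHom_bijective : Function.Bijective (relInvHom M U U' h).hom := by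
  constructor
  · intro x y hxy
    apply Subtype.ext
    exact congrArg (fun z => z.1) hxy
  · intro a
    refine ⟨⟨a.1, fun s => ?_⟩, ?_⟩
    · exact a.2 ⟨⟨s.1, h s.2⟩, s.2⟩
    · apply Subtype.ext
      rfl

/-- The cohomology of the two models of the relative layer agree. -/
theorem relMap_bijective (n : ℕ) :
    Function.Bijective (groupCohomology.map (relIso U U' h) (relInvHom M U U' h) n) :=
  MapBijective.map_bijective (relIso U U' h) (relInvHom M U U' h) (relIso_bijective U U' h)
    (relInvHom_bijective M U U' h) n

theorem isZero_relKer_of_subsingleton (n : ℕ)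
    (hs : Subsingleton
      (groupCohomology ((res U.subtype M).quotientToInvariants (U'.subgroupOf U)) n)) :
    Limits.IsZero
      (groupCohomology (res (relKer U U' h).subtype (M.quotientToInvariants U')) n) :=
  (ModuleCat.isZero_iff_subsingleton).2 ((relMap_bijective M U U' h n).1.subsingleton)

/-- Degree two: if `H¹(U ⧸ (U' ⊓ U), (M|_U)^{U'}) = 0` then
`H²(G ⧸ U, M^U) → H²(G ⧸ U', M^{U'})` is injective. -/
theorem finInfl_two_injective_of_rel
    (hs : Subsingleton
      (groupCohomology ((res U.subtype M).quotientToInvariants (U'.subgroupOf U)) 1)) :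
    Function.Injective (finInfl M h 2) :=
  finInfl_two_injective M U U' h (isZero_relKer_of_subsingleton M U U' h 1 hs)

end Fermat.Agent.Lib.CFT.Global.SVersion.LimitInflRel
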