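import Fermat.Agent.Lib.CFT.Global.SVersion.LocalCompareDiv
import Fermat.Agent.Lib.CFT.Global.SVersion.FormationSubT
import Fermat.Agent.Lib.CFT.Profinite.MutualT

/-!
# The `T`-level local comparison for the decomposition groups of `ℚ_S / F₀`
(helper31, P-CFT Global/S-version, (P3) of note 575 in its final `T`-level form)

Notation of helper66's `LocalCompareInst`: `D := Dg q F₀ g = S_g ≤ G_q` (open),
`𝒲ˢ := comapFamily q F₀ hF₀ g = LES.comap (galFamilyOver F₀ hF₀) c_g`, `C := Rep.res D.subtype (Lq q)`,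
`𝒱 := LES.restrict (primeLocalLevels q) D` (all open subgroups of `D`).  With
`τ r : T^r(𝒲ˢ, p, C) → T^r(𝒱, p, C)` the canonical comparison map of helper41's `FormationSubT`
(`KCalc.TMapOfHom` along the identity of `D`) for the canonical local formation on `D`:

* `tauDg_one_bijective`: `τ 1` is bijective (any `p`);
* `tauDg_two_bijective`: `τ 2` is bijective for `p, q ∈ S`;
* `subsingleton_T_three`, `tauDg_three_injective`: `T³(𝒲ˢ, p, C) = 0` for `p, q ∈ S`.

Everything is unconditional (canonical local invariants of `LocalInvInstance`, helper77's local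
degree theorem through `LocalCompareDiv.indexDivHyp`).
-/

set_option autoImplicit false

noncomputable section

namespace Fermat.Agent.Lib.CFT.Global.SVersion.LocalCompareTInst

open CategoryTheory ExtCitation
open Fermat.Agent.Lib.CFT.Profinite Fermat.Agent.Lib.CFT.Profinite.LevelFamily
open Fermat.Agent.Lib.CFT.Coh.ClassFormation
open Fermat.Agent.Lib.CFT.Duality Fermat.Agent.Lib.CFT.Duality.KCalc
open Fermat.Agent.Lib.CFT.Local.LqModule
open Fermat.Agent.Lib.CFT.Global.SVersion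
open Fermat.Agent.Lib.CFT.Global.SVersion.LocalCompare
open Fermat.Agent.Lib.CFT.Global.SVersion.LocalCompareInst
open Fermat.Agent.Lib.CFT.Global.SVersion.FormationSubT

local notation "Qbar" => AlgebraicClosure ℚ
local notation "Γℚ" => (AlgebraicClosure ℚ ≃ₐ[ℚ] AlgebraicClosure ℚ)

variable {S : Finset Nat.Primes} (q : Nat.Primes)
  (F₀ : IntermediateField ℚ Qbar) (hF₀ : F₀.IsUnramifiedOutside S) (g : Γℚ)

/-- The canonical local class formation on the open subgroup `S_g = Dg q F₀ g` of `G_q`. -/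
abbrev formDg : Formation ℤ ↥(Dg q F₀ g) :=
  canonicalFormation q (Dg q F₀ g) (funStab_mem_primeLocalLevels q F₀ hF₀ g)

theorem formDg_𝒰 : (formDg q F₀ hF₀ g).𝒰 = LES.restrict (primeLocalLevels q) (Dg q F₀ g) := rfl

theorem formDg_C : (formDg q F₀ hF₀ g).C = Rep.res (Dg q F₀ g).subtype (Lq q) := rfl

/-- The layers of `formDg` are class layers. -/
theorem isClassLayer_formDg (U : Subgroup ↥(Dg q F₀ g)) [U.Normal]
    (hU : U ∈ (formDg q F₀ hF₀ g).𝒰.levels) :
    Fermat.Agent.Lib.CFT.Coh.TateThm.IsClassLayer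
      ((formDg q F₀ hF₀ g).C.quotientToInvariants U) ((formDg q F₀ hF₀ g).u U hU) :=
  isClassLayer_canonicalFormation q (Dg q F₀ g) (funStab_mem_primeLocalLevels q F₀ hF₀ g) U hU

/-- The comparison map `T^r(𝒲ˢ, p, (ℚ̄_q)ˣ) → T^r(S_g, p, (ℚ̄_q)ˣ)`. -/
abbrev tauDg (p r : ℕ) :
    T (comapFamily q F₀ hF₀ g) p (Rep.res (Dg q F₀ g).subtype (Lq q)) r →ₗ[ℤ]
      T (LES.restrict (primeLocalLevels q) (Dg q F₀ g)) p
        (Rep.res (Dg q F₀ g).subtype (Lq q)) r :=
  tau (formDg q F₀ hF₀ g) (comapFamily q F₀ hF₀ g) (comapFamily_sub q F₀ hF₀ g) p r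

theorem tauDg_eq (p r : ℕ) :
    tauDg q F₀ hF₀ g p r =
      TMapOfHom (comapFamily q F₀ hF₀ g) p (LES.restrict (primeLocalLevels q) (Dg q F₀ g))
        (MonoidHom.id ↥(Dg q F₀ g))
        (FormationSub.isCompatible_of_sub (formDg q F₀ hF₀ g) (comapFamily q F₀ hF₀ g)
          (comapFamily_sub q F₀ hF₀ g))
        (𝟙 (Rep.res (Dg q F₀ g).subtype (Lq q))) r := rfl

/-- **(T1)** `T¹(𝒲ˢ) → T¹(S_g)` is bijective. -/
theorem tauDg_one_bijective (p : ℕ) : Function.Bijective (tauDg q F₀ hF₀ g p 1) :=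
  tau_one_bijective_of_isClassLayer (formDg q F₀ hF₀ g) (comapFamily q F₀ hF₀ g)
    (comapFamily_sub q F₀ hF₀ g) p (fun U _ hU => isClassLayer_formDg q F₀ hF₀ g U hU)

variable {q}

/-- The divisibility hypothesis in the shape of `FormationSubT`. -/
theorem hp_normal {p : Nat.Primes} (hp : p ∈ S) (hq : q ∈ S) :
    ∀ (U : Subgroup ↥(Dg q F₀ g)) (_ : U.Normal), U ∈ (comapFamily q F₀ hF₀ g).levels →
      ∃ (U' : Subgroup ↥(Dg q F₀ g)) (_ : U'.Normal), U' ∈ (comapFamily q F₀ hF₀ g).levels ∧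
        U' ≤ U ∧ (p : ℕ) * U.index ∣ U'.index := by
  intro U _ hU
  obtain ⟨U', hU', hle, hdvd⟩ := LocalCompareDiv.indexDivHyp hp hq F₀ hF₀ g U hU
  exact ⟨U', comapFamily_normal q F₀ hF₀ g U' hU', hU', hle, hdvd⟩

/-- **(T2)** `T²(𝒲ˢ) → T²(S_g)` is bijective for `p, q ∈ S`. -/
theorem tauDg_two_bijective {p : Nat.Primes} (hp : p ∈ S) (hq : q ∈ S) :
    Function.Bijective (tauDg q F₀ hF₀ g (p : ℕ) 2) :=
  tau_two_bijective_of_isClassLayer (formDg q F₀ hF₀ g) (comapFamily q F₀ hF₀ g)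
    (comapFamily_sub q F₀ hF₀ g) (p : ℕ) (fun U _ hU => isClassLayer_formDg q F₀ hF₀ g U hU)
    (hp_normal F₀ hF₀ g hp hq)

/-- **(T3)** `T³(𝒲ˢ, p, (ℚ̄_q)ˣ) = 0` for `p, q ∈ S`. -/
theorem subsingleton_T_three {p : Nat.Primes} (hp : p ∈ S) (hq : q ∈ S) :
    Subsingleton (T (comapFamily q F₀ hF₀ g) (p : ℕ) (Rep.res (Dg q F₀ g).subtype (Lq q)) 3) :=
  subsingleton_T_three_of_isClassLayer (formDg q F₀ hF₀ g) (comapFamily q F₀ hF₀ g)
    (comapFamily_sub q F₀ hF₀ g) (p : ℕ) (fun U _ hU => isClassLayer_formDg q F₀ hF₀ g U hU)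
    (hp_normal F₀ hF₀ g hp hq)

/-- `T³(𝒲ˢ) → T³(S_g)` is injective for `p, q ∈ S` (its source vanishes). -/
theorem tauDg_three_injective {p : Nat.Primes} (hp : p ∈ S) (hq : q ∈ S) :
    Function.Injective (tauDg q F₀ hF₀ g (p : ℕ) 3) :=
  haveI := subsingleton_T_three F₀ hF₀ g hp hq
  fun a b _ => Subsingleton.elim a b

/-! ### The exact shapes consumed by `SemiLocalMain` (helper57's notation `Sg`, `cg`, `LES.TMutual`) -/

section TMutualShape

open Fermat.Agent.Lib.CFT.Global.SVersion.LocalProjConj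

/-- **(T1)** in the shape of `SemiLocalMain`. -/
theorem TMutual_one_bijective (q : Nat.Primes) (p : ℕ) :
    Function.Bijective (LES.TMutual p (isCompatible_restrict_comap_cg q g F₀ hF₀)
      (Rep.res (Sg q F₀.fixingSubgroup g).subtype (Lq q)) 1) :=
  tauDg_one_bijective q F₀ hF₀ g p

/-- **(T2)** in the shape of `SemiLocalMain`. -/
theorem TMutual_two_bijective {p : Nat.Primes} (hp : p ∈ S) (hq : q ∈ S) :
    Function.Bijective (LES.TMutual (p : ℕ) (isCompatible_restrict_comap_cg q g F₀ hF₀)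
      (Rep.res (Sg q F₀.fixingSubgroup g).subtype (Lq q)) 2) :=
  tauDg_two_bijective F₀ hF₀ g hp hq

/-- **(T3)** in the shape of `SemiLocalMain`. -/
theorem subsingleton_T_three_cg {p : Nat.Primes} (hp : p ∈ S) (hq : q ∈ S) :
    Subsingleton (T (LES.comap (galFamilyOver F₀ hF₀)
      (LocalProjConj.cg q F₀.fixingSubgroup g)) (p : ℕ)
      (Rep.res (Sg q F₀.fixingSubgroup g).subtype (Lq q)) 3) :=
  subsingleton_T_three F₀ hF₀ g hp hq

/-- `T³(𝒲ˢ) → T³(S_g)` is injective, in the shape of `SemiLocalMain`. -/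
theorem TMutual_three_injective {p : Nat.Primes} (hp : p ∈ S) (hq : q ∈ S) :
    Function.Injective (LES.TMutual (p : ℕ) (isCompatible_restrict_comap_cg q g F₀ hF₀)
      (Rep.res (Sg q F₀.fixingSubgroup g).subtype (Lq q)) 3) :=
  tauDg_three_injective F₀ hF₀ g hp hq

end TMutualShape

end Fermat.Agent.Lib.CFT.Global.SVersion.LocalCompareTInst
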