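import Fermat.Agent.Lib.CFT.Global.SVersion.Ambient
import Fermat.Agent.Lib.CFT.Global.SVersion.RepMul
import Fermat.Agent.Lib.CFT.Global.SVersion.Level
import Fermat.Agent.Lib.CFT.Profinite.BridgeLevels
import Fermat.Agent.Lib.CFT.Profinite.LevelCochains

/-!
# The discrete `Γℚ`-modules of the `S`-version (helper11, P-CFT Global/S-version, file 3)

`S` a finite set of rational primes.  A *Galois level* is a finite Galois extension `F / ℚ` inside
`Qbar`, unramified outside `S` (Prelude `IsUnramifiedOutside`).  Inside the ambient group `AmbJ` we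
form the directed unions over all Galois levels of the images of
* all ideles (`ideleS`), * the principal ideles (`prinS`), * `U_{F,S}` (`unitsOutS`),
* `J_S(F)` (`ideleSS`), * `Fˣ · U_{F,S}` (`prinUnitsS`),
and inside `Qbarˣ` the group `unitsS` of `S`-units of level fields.  The modules are

* `ESgrp S = unitsS S`                      (`E_S`, the `S`-units of `ℚ_S`),
* `JSgrp S = ideleSS S`                     (`J_S = ∏_{q ∈ S} (ℚ_q ⊗ ℚ_S)ˣ × (ℝ ⊗ ℚ_S)ˣ`),
* `CSgrp S = ideleS S ⧸ prinUnitsS S`       (`C_S = colim_F Idele F ⧸ Fˣ U_{F,S}`),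
* `CS'grp S = JSgrp S ⧸ image of ESgrp S`    (`C'_S = J_S / E_S`),
* `QSgrp S = ideleS S ⧸ (prinUnitsS S ⊔ ideleSS S)`  (`colim_F Cl_S(F)`),

each with its `MulDistribMulAction` of `Γℚ`, and `ES S, JS S, CS S, CS' S, QS S : Rep ℤ Γℚ`.
-/

open scoped TensorProduct NumberField

noncomputable section

namespace Fermat.Agent.Lib.CFT.Global.SVersion

open Fermat.Agent.Lib.CFT.Profinite Fermat.Agent.Lib.CFT.Profinite.Bridge RepMul

local notation "Qbar" => AlgebraicClosure ℚ
local notation "Γℚ" => (AlgebraicClosure ℚ ≃ₐ[ℚ] AlgebraicClosure ℚ)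

local instance isAlgebraicQbar_sv : Algebra.IsAlgebraic ℚ (AlgebraicClosure ℚ) :=
  AlgebraicClosure.isAlgebraic ℚ
local instance isAlgClosureQbar_sv : IsAlgClosure ℚ (AlgebraicClosure ℚ) :=
  ⟨inferInstance, inferInstance⟩
local instance normalQbar_sv : Normal ℚ (AlgebraicClosure ℚ) :=
  IsAlgClosure.normal ℚ (AlgebraicClosure ℚ)

/-- `Normal ℚ F` does not depend on the chosen `Algebra ℚ F` instance. -/
lemma normal_rat_congr {F : Type*} [Field F] (a b : Algebra ℚ F) (h : @Normal ℚ F _ _ a) :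
    @Normal ℚ F _ _ b := by
  have : a = b := Subsingleton.elim a b
  subst this
  exact h

variable (S : Finset Nat.Primes)

/-- A Galois level: a finite Galois subextension of `Qbar / ℚ` unramified outside `S`. -/
structure GalLevel where
  /-- the field -/
  F : IntermediateField ℚ Qbar
  unram : F.IsUnramifiedOutside S
  normal : Normal ℚ F

namespace GalLevel

variable {S}

instance (L : GalLevel S) : FiniteDimensional ℚ L.F := L.unram.1

instance (L : GalLevel S) : Normal ℚ L.F := L.normal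

instance : LE (GalLevel S) := ⟨fun L L' => L.F ≤ L'.F⟩

lemma le_def {L L' : GalLevel S} : L ≤ L' ↔ L.F ≤ L'.F := Iff.rfl

/-- The compositum of two Galois levels. -/
def sup (L L' : GalLevel S) : GalLevel S where
  F := L.F ⊔ L'.F
  unram := L.unram.sup L'.unram
  normal := by
    have := normal_rat_congr _ (IntermediateField.algebra' L.F) L.normal
    have := normal_rat_congr _ (IntermediateField.algebra' L'.F) L'.normal
    exact normal_rat_congr _ _ (IntermediateField.normal_sup ℚ Qbar L.F L'.F)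

lemma le_sup_left (L L' : GalLevel S) : L ≤ L.sup L' :=
  (_root_.le_sup_left : L.F ≤ L.F ⊔ L'.F)

lemma le_sup_right (L L' : GalLevel S) : L' ≤ L.sup L' :=
  (_root_.le_sup_right : L'.F ≤ L.F ⊔ L'.F)

variable (S) in
/-- The trivial level `ℚ`. -/
def bot : GalLevel S where
  F := ⊥
  unram := IntermediateField.isUnramifiedOutside_bot S
  normal := normal_rat_congr _ _ (Normal.of_algEquiv (IntermediateField.botEquiv ℚ Qbar).symm)

instance : Nonempty (GalLevel S) := ⟨bot S⟩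

/-- Every field unramified outside `S` is contained in a Galois level. -/
def ofUnram (F : IntermediateField ℚ Qbar) (hF : F.IsUnramifiedOutside S) : GalLevel S where
  F := IntermediateField.normalClosure ℚ F Qbar
  unram := isUnramifiedOutside_normalClosure hF
  normal := normal_rat_congr _ _ (normalClosure.normal ℚ F Qbar)

lemma le_ofUnram (F : IntermediateField ℚ Qbar) (hF : F.IsUnramifiedOutside S) :
    F ≤ (ofUnram F hF).F := IntermediateField.le_normalClosure F

/-- The fixing subgroup of a Galois level is a level of `levelsS S`. -/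
lemma fixingSubgroup_mem_levels (L : GalLevel S) : L.F.fixingSubgroup ∈ (levelsS S).levels :=
  ⟨L.F, L.unram, rfl⟩

end GalLevel

/-! ### Directed unions of level subgroups inside `AmbJ` -/

/-- A family of subgroups of the idele groups of the Galois levels which is compatible with the
transition maps and stable under the Galois action. -/
structure LevelSubgroups where
  /-- the subgroup at level `L` -/
  N : ∀ L : GalLevel S, Subgroup (Idele L.F)
  mono : ∀ {L L' : GalLevel S} (h : L.F ≤ L'.F) (b : Idele L.F), b ∈ N L → levelMap h b ∈ N L'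
  stable : ∀ (L : GalLevel S) (σ : Γℚ) (b : Idele L.F), b ∈ N L → σ • b ∈ N L

namespace LevelSubgroups

variable {S}

/-- The directed union of the images in `AmbJ`. -/
def union (𝒩 : LevelSubgroups S) : Subgroup AmbJ where
  carrier := {a | ∃ L : GalLevel S, ∃ b ∈ 𝒩.N L, toAmb L.F b = a}
  mul_mem' := by
    rintro _ _ ⟨L, b, hb, rfl⟩ ⟨L', b', hb', rfl⟩
    refine ⟨L.sup L', levelMap (L.le_sup_left L') b * levelMap (L.le_sup_right L') b',
      mul_mem (𝒩.mono _ b hb) (𝒩.mono _ b' hb'), ?_⟩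
    rw [map_mul, toAmb_levelMap, toAmb_levelMap]
  one_mem' := ⟨GalLevel.bot S, 1, one_mem _, map_one _⟩
  inv_mem' := by
    rintro _ ⟨L, b, hb, rfl⟩
    exact ⟨L, b⁻¹, inv_mem hb, map_inv _ _⟩

lemma mem_union {𝒩 : LevelSubgroups S} {a : AmbJ} :
    a ∈ 𝒩.union ↔ ∃ L : GalLevel S, ∃ b ∈ 𝒩.N L, toAmb L.F b = a := Iff.rfl

lemma toAmb_mem_union (𝒩 : LevelSubgroups S) (L : GalLevel S) {b : Idele L.F} (hb : b ∈ 𝒩.N L) :
    toAmb L.F b ∈ 𝒩.union := ⟨L, b, hb, rfl⟩

/-- Two elements of unions can be represented at a common level. -/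
lemma exists_common_level {𝒩 𝒩' : LevelSubgroups S} {a a' : AmbJ} (ha : a ∈ 𝒩.union)
    (ha' : a' ∈ 𝒩'.union) : ∃ L : GalLevel S, ∃ b ∈ 𝒩.N L, ∃ b' ∈ 𝒩'.N L,
      toAmb L.F b = a ∧ toAmb L.F b' = a' := by
  obtain ⟨L, b, hb, rfl⟩ := ha
  obtain ⟨L', b', hb', rfl⟩ := ha'
  exact ⟨L.sup L', levelMap (L.le_sup_left L') b, 𝒩.mono _ b hb,
    levelMap (L.le_sup_right L') b', 𝒩'.mono _ b' hb', toAmb_levelMap _ _, toAmb_levelMap _ _⟩

/-- A representative can be moved to any larger level. -/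
lemma exists_rep_of_le {𝒩 : LevelSubgroups S} {a : AmbJ} (ha : a ∈ 𝒩.union) (L₀ : GalLevel S) :
    ∃ L : GalLevel S, L₀.F ≤ L.F ∧ ∃ b ∈ 𝒩.N L, toAmb L.F b = a := by
  obtain ⟨L, b, hb, rfl⟩ := ha
  exact ⟨L₀.sup L, L₀.le_sup_left L, levelMap (L₀.le_sup_right L) b, 𝒩.mono _ b hb,
    toAmb_levelMap _ _⟩

lemma isSMulStable_union (𝒩 : LevelSubgroups S) : IsSMulStable Γℚ 𝒩.union := by
  rintro σ _ ⟨L, b, hb, rfl⟩
  exact ⟨L, σ • b, 𝒩.stable L σ b hb, toAmb_smul L.F σ b⟩

/-- Every element of a union is fixed by the fixing subgroup of some Galois level. -/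
lemma exists_level_fixing {𝒩 : LevelSubgroups S} {a : AmbJ} (ha : a ∈ 𝒩.union) :
    ∃ L : GalLevel S, ∀ σ ∈ L.F.fixingSubgroup, σ • a = a := by
  obtain ⟨L, b, -, rfl⟩ := ha
  exact ⟨L, fun σ hσ => smul_toAmb_of_mem_fixingSubgroup L.F hσ b⟩

/-- The supremum of two families. -/
def sup (𝒩 𝒩' : LevelSubgroups S) : LevelSubgroups S where
  N L := 𝒩.N L ⊔ 𝒩'.N L
  mono := by
    intro L L' h b hb
    obtain ⟨x, hx, y, hy, rfl⟩ := Subgroup.mem_sup.1 hb
    rw [map_mul]
    exact Subgroup.mem_sup.2 ⟨_, 𝒩.mono h x hx, _, 𝒩'.mono h y hy, rfl⟩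
  stable := by
    intro L σ b hb
    obtain ⟨x, hx, y, hy, rfl⟩ := Subgroup.mem_sup.1 hb
    rw [smul_mul']
    exact Subgroup.mem_sup.2 ⟨_, 𝒩.stable L σ x hx, _, 𝒩'.stable L σ y hy, rfl⟩

lemma union_sup (𝒩 𝒩' : LevelSubgroups S) : (𝒩.sup 𝒩').union = 𝒩.union ⊔ 𝒩'.union := by
  apply le_antisymm
  · rintro _ ⟨L, b, hb, rfl⟩
    obtain ⟨x, hx, y, hy, rfl⟩ := Subgroup.mem_sup.1 hb
    rw [map_mul]
    exact Subgroup.mem_sup.2 ⟨_, ⟨L, x, hx, rfl⟩, _, ⟨L, y, hy, rfl⟩, rfl⟩
  · apply sup_le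
    · rintro _ ⟨L, b, hb, rfl⟩
      exact ⟨L, b, Subgroup.mem_sup_left hb, rfl⟩
    · rintro _ ⟨L, b, hb, rfl⟩
      exact ⟨L, b, Subgroup.mem_sup_right hb, rfl⟩

lemma union_mono {𝒩 𝒩' : LevelSubgroups S} (h : ∀ L, 𝒩.N L ≤ 𝒩'.N L) : 𝒩.union ≤ 𝒩'.union := by
  rintro _ ⟨L, b, hb, rfl⟩
  exact ⟨L, b, h L hb, rfl⟩

end LevelSubgroups

/-! ### The specific families -/

/-- All ideles of the level fields. -/
def allFam : LevelSubgroups S where
  N _ := ⊤
  mono _ _ _ := Subgroup.mem_top _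
  stable _ _ _ _ := Subgroup.mem_top _

/-- The principal ideles of the level fields. -/
def prinFam : LevelSubgroups S where
  N L := (principal L.F).range
  mono := by
    rintro L L' h _ ⟨x, rfl⟩
    exact ⟨_, (ideleMap_principal _ x).symm⟩
  stable := fun L σ _ hb => smul_mem_range_principal L.F Γℚ σ hb

/-- The groups `U_{F,S}`. -/
def unitsOutFam : LevelSubgroups S where
  N L := unitsOut S L.F
  mono := fun _ _ hb => ideleMap_mem_unitsOut S _ hb
  stable := fun L σ _ hb => smul_mem_unitsOut S L.F Γℚ σ hb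

/-- The groups `J_S(F)`. -/
def atSFam : LevelSubgroups S where
  N L := ideleAtS S L.F
  mono := fun _ b hb => (ideleMap_mem_ideleAtS_iff S _ b).2 hb
  stable := fun L σ _ hb => smul_mem_ideleAtS S L.F Γℚ σ hb

/-- `⋃_F Idele F ⊆ AmbJ`: all ideles of level fields. -/
def ideleS : Subgroup AmbJ := (allFam S).union

/-- `⋃_F Fˣ`: the principal ideles of level fields. -/
def prinS : Subgroup AmbJ := (prinFam S).union

/-- `U_S = ⋃_F U_{F,S}`. -/
def unitsOutS : Subgroup AmbJ := (unitsOutFam S).union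

/-- `J_S = ⋃_F J_S(F)`. -/
def ideleSS : Subgroup AmbJ := (atSFam S).union

/-- `⋃_F Fˣ · U_{F,S}`. -/
def prinUnitsS : Subgroup AmbJ := ((prinFam S).sup (unitsOutFam S)).union

lemma prinUnitsS_eq : prinUnitsS S = prinS S ⊔ unitsOutS S := LevelSubgroups.union_sup _ _

lemma prinS_le_ideleS : prinS S ≤ ideleS S :=
  LevelSubgroups.union_mono (𝒩' := allFam S) fun _ => le_top

lemma unitsOutS_le_ideleS : unitsOutS S ≤ ideleS S :=
  LevelSubgroups.union_mono (𝒩' := allFam S) fun _ => le_top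

lemma ideleSS_le_ideleS : ideleSS S ≤ ideleS S :=
  LevelSubgroups.union_mono (𝒩' := allFam S) fun _ => le_top

lemma prinUnitsS_le_ideleS : prinUnitsS S ≤ ideleS S :=
  LevelSubgroups.union_mono (𝒩' := allFam S) fun _ => le_top

lemma isSMulStable_ideleS : IsSMulStable Γℚ (ideleS S) := (allFam S).isSMulStable_union

lemma isSMulStable_prinS : IsSMulStable Γℚ (prinS S) := (prinFam S).isSMulStable_union

lemma isSMulStable_unitsOutS : IsSMulStable Γℚ (unitsOutS S) := (unitsOutFam S).isSMulStable_union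

lemma isSMulStable_ideleSS : IsSMulStable Γℚ (ideleSS S) := (atSFam S).isSMulStable_union

lemma isSMulStable_prinUnitsS : IsSMulStable Γℚ (prinUnitsS S) :=
  ((prinFam S).sup (unitsOutFam S)).isSMulStable_union

lemma toAmb_mem_ideleS (L : GalLevel S) (b : Idele L.F) : toAmb L.F b ∈ ideleS S :=
  (allFam S).toAmb_mem_union L (Subgroup.mem_top b)

/-! ### The diagonal embedding of `Qbarˣ` and the projection onto `S ∪ {∞}` -/

/-- The action of `Γℚ` on `Qbarˣ`. -/
scoped instance qbarUnitsAction : MulDistribMulAction Γℚ Qbarˣ := Units.mulDistribMulActionRight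

/-- High-priority shortcut. -/
scoped instance (priority := high) qbarUnitsSMul : SMul Γℚ Qbarˣ := qbarUnitsAction.toSMul

/-- The diagonal embedding `Qbarˣ → AmbJ`. -/
def ambDiag : Qbarˣ →* AmbJ where
  toFun x :=
    (fun q => Units.map ((Algebra.TensorProduct.includeRight : Qbar →ₐ[ℚ] LocAlg Qbar q) :
        Qbar →* LocAlg Qbar q) x,
      Units.map ((Algebra.TensorProduct.includeRight : Qbar →ₐ[ℚ] ArchAlg Qbar) :
        Qbar →* ArchAlg Qbar) x)
  map_one' := by
    ext : 1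
    · funext q; exact map_one _
    · exact map_one _
  map_mul' x y := by
    ext : 1
    · funext q; exact map_mul _ _ _
    · exact map_mul _ _ _

@[simp] lemma val_ambDiag_fst (x : Qbarˣ) (q : Nat.Primes) :
    (((ambDiag x).1 q : (LocAlg Qbar q)ˣ) : LocAlg Qbar q) = (1 : ℚ_[pv q]) ⊗ₜ[ℚ] (x : Qbar) := rfl

@[simp] lemma val_ambDiag_snd (x : Qbarˣ) :
    (((ambDiag x).2 : (ArchAlg Qbar)ˣ) : ArchAlg Qbar) = (1 : ℝ) ⊗ₜ[ℚ] (x : Qbar) := rfl

lemma ambDiag_injective : Function.Injective ambDiag := by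
  intro x y h
  apply Units.ext
  have h1 : ((1 : ℝ) ⊗ₜ[ℚ] (x : Qbar) : ArchAlg Qbar) = (1 : ℝ) ⊗ₜ[ℚ] (y : Qbar) :=
    congrArg (fun a : AmbJ => ((a.2 : (ArchAlg Qbar)ˣ) : ArchAlg Qbar)) h
  exact Algebra.TensorProduct.includeRight_injective
    (FaithfulSMul.algebraMap_injective ℚ ℝ) h1

lemma ambDiag_smul (σ : Γℚ) (x : Qbarˣ) : ambDiag (σ • x) = σ • ambDiag x := by
  ext : 1
  · funext q
    apply Units.ext
    simp
  · apply Units.ext
    simp

/-- The principal ideles of a finite subfield, inside `AmbJ`. -/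
lemma toAmb_principal (F : IntermediateField ℚ Qbar) [FiniteDimensional ℚ F] (y : Fˣ) :
    toAmb F (principal F y) = ambDiag (Units.map (incl F : F →* Qbar) y) := by
  ext : 1
  · funext q
    apply Units.ext
    simp
  · apply Units.ext
    simp

open Classical in
/-- The projection of `AmbJ` onto the components in `S ∪ {∞}`. -/
def cutAmb : AmbJ →* AmbJ where
  toFun a := (fun q => if q ∈ S then a.1 q else 1, a.2)
  map_one' := by
    ext : 1
    · funext q
      change (if q ∈ S then (1 : (LocAlg Qbar q)ˣ) else 1) = 1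
      simp
    · rfl
  map_mul' a b := by
    ext : 1
    · funext q
      change (if q ∈ S then a.1 q * b.1 q else 1) =
        (if q ∈ S then a.1 q else 1) * (if q ∈ S then b.1 q else 1)
      split_ifs <;> simp
    · rfl

lemma cutAmb_fst_of_mem (a : AmbJ) {q : Nat.Primes} (hq : q ∈ S) : (cutAmb S a).1 q = a.1 q := by
  change (if q ∈ S then a.1 q else 1) = _
  rw [if_pos hq]

lemma cutAmb_fst_of_not_mem (a : AmbJ) {q : Nat.Primes} (hq : q ∉ S) : (cutAmb S a).1 q = 1 := by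
  change (if q ∈ S then a.1 q else 1) = _
  rw [if_neg hq]

@[simp] lemma cutAmb_snd (a : AmbJ) : (cutAmb S a).2 = a.2 := rfl

lemma cutAmb_smul (σ : Γℚ) (a : AmbJ) : cutAmb S (σ • a) = σ • cutAmb S a := by
  ext : 1
  · funext q
    by_cases hq : q ∈ S
    · rw [cutAmb_fst_of_mem S _ hq, smul_ambJ_fst, smul_ambJ_fst, cutAmb_fst_of_mem S _ hq]
    · rw [cutAmb_fst_of_not_mem S _ hq, smul_ambJ_fst, cutAmb_fst_of_not_mem S _ hq, smul_one]
  · rfl

lemma cutAmb_toAmb (F : IntermediateField ℚ Qbar) [FiniteDimensional ℚ F] (b : Idele F) :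
    cutAmb S (toAmb F b) = toAmb F (cutS S F b) := by
  ext : 1
  · funext q
    by_cases hq : q ∈ S
    · rw [cutAmb_fst_of_mem S _ hq, toAmb_fst, toAmb_fst, cutS_fst_of_mem S F b hq]
    · rw [cutAmb_fst_of_not_mem S _ hq, toAmb_fst, cutS_fst_of_not_mem S F b hq, map_one]
  · rfl

lemma cutAmb_mem_ideleSS {a : AmbJ} (ha : a ∈ ideleS S) : cutAmb S a ∈ ideleSS S := by
  obtain ⟨L, b, -, rfl⟩ := ha
  rw [cutAmb_toAmb]
  exact (atSFam S).toAmb_mem_union L (cutS_mem_ideleAtS S L.F b)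

lemma cutAmb_eq_self_of_mem_ideleSS {a : AmbJ} (ha : a ∈ ideleSS S) : cutAmb S a = a := by
  obtain ⟨L, b, hb, rfl⟩ := ha
  rw [cutAmb_toAmb, (cutS_eq_self_iff S L.F b).2 hb]

lemma cutAmb_eq_one_of_mem_unitsOutS {a : AmbJ} (ha : a ∈ unitsOutS S) : cutAmb S a = 1 := by
  obtain ⟨L, b, hb, rfl⟩ := ha
  rw [cutAmb_toAmb, cutS_eq_one_of_mem_unitsOut S L.F hb, map_one]

/-! ### The `S`-units of `ℚ_S` -/

lemma units_map_incl_inclusion {F F' : IntermediateField ℚ Qbar} (h : F ≤ F') (y : Fˣ) :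
    Units.map (incl F' : F' →* Qbar)
      (Units.map (((IntermediateField.inclusion h : F →ₐ[ℚ] F') : F →+* F') : F →* F') y) =
      Units.map (incl F : F →* Qbar) y := by
  apply Units.ext
  rfl

/-- `E_S`: the `S`-units of the level fields, as a subgroup of `Qbarˣ`. -/
def unitsS : Subgroup Qbarˣ where
  carrier := {x | ∃ L : GalLevel S, ∃ y ∈ sUnitsS S L.F, Units.map (incl L.F : L.F →* Qbar) y = x}
  mul_mem' := by
    rintro _ _ ⟨L, y, hy, rfl⟩ ⟨L', y', hy', rfl⟩
    refine ⟨L.sup L', _, mul_mem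
      (map_mem_sUnitsS S ((IntermediateField.inclusion (L.le_sup_left L') :
        L.F →ₐ[ℚ] (L.sup L').F) : L.F →+* (L.sup L').F) hy)
      (map_mem_sUnitsS S ((IntermediateField.inclusion (L.le_sup_right L') :
        L'.F →ₐ[ℚ] (L.sup L').F) : L'.F →+* (L.sup L').F) hy'), ?_⟩
    rw [map_mul, units_map_incl_inclusion, units_map_incl_inclusion]
  one_mem' := ⟨GalLevel.bot S, 1, one_mem _, map_one _⟩
  inv_mem' := by
    rintro _ ⟨L, y, hy, rfl⟩
    exact ⟨L, y⁻¹, inv_mem hy, map_inv _ _⟩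

lemma mem_unitsS {x : Qbarˣ} : x ∈ unitsS S ↔
    ∃ L : GalLevel S, ∃ y ∈ sUnitsS S L.F, Units.map (incl L.F : L.F →* Qbar) y = x := Iff.rfl

/-- The action of `Γℚ` on the units of a normal subextension (definitionally the scoped
`fieldUnitsAction` of `Ideles.lean` when `F` is finite). -/
scoped instance levelUnitsAction (F : IntermediateField ℚ Qbar) [Normal ℚ F] :
    MulDistribMulAction Γℚ Fˣ := Units.mulDistribMulActionRight

/-- High-priority shortcut (the generic search for `SMul Γℚ Fˣ` is very slow). -/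
scoped instance (priority := high) levelUnitsSMul (F : IntermediateField ℚ Qbar) [Normal ℚ F] :
    SMul Γℚ Fˣ := (levelUnitsAction F).toSMul

lemma units_map_incl_smul (F : IntermediateField ℚ Qbar) [Normal ℚ F] (σ : Γℚ) (y : Fˣ) :
    Units.map (incl F : F →* Qbar) (σ • y) = σ • Units.map (incl F : F →* Qbar) y := by
  apply Units.ext
  exact coe_galAction_smul F σ (y : F)

lemma isSMulStable_unitsS : IsSMulStable Γℚ (unitsS S) := by
  rintro σ _ ⟨L, y, hy, rfl⟩
  exact ⟨L, σ • y, smul_mem_sUnitsS S L.F Γℚ σ hy, units_map_incl_smul L.F σ y⟩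

/-- The image of an `S`-unit in `J_S`: its components at `S ∪ {∞}`. -/
lemma cutAmb_ambDiag_mem_ideleSS {x : Qbarˣ} (hx : x ∈ unitsS S) :
    cutAmb S (ambDiag x) ∈ ideleSS S := by
  obtain ⟨L, y, -, rfl⟩ := hx
  rw [← toAmb_principal]
  exact cutAmb_mem_ideleSS S (toAmb_mem_ideleS S L _)

/-- Exactness of `E_S → J_S → C_S` in the limit: an element of `J_S` is trivial in `C_S` iff it
comes from an `S`-unit. -/
lemma mem_prinUnitsS_iff_of_mem_ideleSS {a : AmbJ} (ha : a ∈ ideleSS S) :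
    a ∈ prinUnitsS S ↔ ∃ x ∈ unitsS S, cutAmb S (ambDiag x) = a := by
  constructor
  · intro h
    obtain ⟨L, b, hb, b', hb', hba, hb'a⟩ := LevelSubgroups.exists_common_level ha h
    have hbb' : b = b' := toAmb_injective L.F (hba.trans hb'a.symm)
    subst hbb'
    obtain ⟨y, hy⟩ := (mem_range_sup_unitsOut_iff S L.F hb).1 hb'
    refine ⟨Units.map (incl L.F : L.F →* Qbar) (y : L.Fˣ), ⟨L, y, y.2, rfl⟩, ?_⟩
    rw [← toAmb_principal, cutAmb_toAmb, ← hba]
    exact congrArg (toAmb L.F) hy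
  · rintro ⟨_, ⟨L, y, hy, rfl⟩, rfl⟩
    rw [← toAmb_principal, cutAmb_toAmb]
    refine ⟨L, _, ?_, rfl⟩
    exact (mem_range_sup_unitsOut_iff S L.F (cutS_mem_ideleAtS S L.F _)).2 ⟨⟨y, hy⟩, rfl⟩

/-! ### The modules -/

/-- `E_S` as a group. -/
abbrev ESgrp : Type := ↥(unitsS S)

/-- `J_S` as a group. -/
abbrev JSgrp : Type := ↥(ideleSS S)

/-- All ideles of level fields, as a group. -/
abbrev ISgrp : Type := ↥(ideleS S)

instance instActionESgrp : MulDistribMulAction Γℚ (ESgrp S) :=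
  subgroupAction (unitsS S) (isSMulStable_unitsS S)

instance instActionJSgrp : MulDistribMulAction Γℚ (JSgrp S) :=
  subgroupAction (ideleSS S) (isSMulStable_ideleSS S)

instance instActionISgrp : MulDistribMulAction Γℚ (ISgrp S) :=
  subgroupAction (ideleS S) (isSMulStable_ideleS S)

@[simp] lemma coe_smul_ESgrp (σ : Γℚ) (x : ESgrp S) : ((σ • x : ESgrp S) : Qbarˣ) = σ • (x : Qbarˣ) :=
  rfl

@[simp] lemma coe_smul_JSgrp (σ : Γℚ) (a : JSgrp S) : ((σ • a : JSgrp S) : AmbJ) = σ • (a : AmbJ) :=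
  rfl

@[simp] lemma coe_smul_ISgrp (σ : Γℚ) (a : ISgrp S) : ((σ • a : ISgrp S) : AmbJ) = σ • (a : AmbJ) :=
  rfl

/-- The subgroup `⋃ Fˣ U_{F,S}` of `ISgrp`. -/
def prinUnitsSub : Subgroup (ISgrp S) := (prinUnitsS S).subgroupOf (ideleS S)

/-- The subgroup `⋃ Fˣ U_{F,S} J_S(F)` of `ISgrp`. -/
def prinUnitsAtSSub : Subgroup (ISgrp S) := (prinUnitsS S ⊔ ideleSS S).subgroupOf (ideleS S)

lemma isSMulStable_prinUnitsSub : IsSMulStable Γℚ (prinUnitsSub S) := by
  intro σ a ha
  exact isSMulStable_prinUnitsS S σ a ha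

lemma isSMulStable_prinUnitsAtSSub : IsSMulStable Γℚ (prinUnitsAtSSub S) := by
  intro σ a ha
  exact (isSMulStable_prinUnitsS S).sup (isSMulStable_ideleSS S) σ a ha

lemma prinUnitsSub_le : prinUnitsSub S ≤ prinUnitsAtSSub S := by
  intro a ha
  exact Subgroup.mem_sup_left (show (a : AmbJ) ∈ prinUnitsS S from ha)

/-- `C_S = colim_F Idele F ⧸ Fˣ U_{F,S}` as a group. -/
abbrev CSgrp : Type := ISgrp S ⧸ prinUnitsSub S

/-- `colim_F Cl_S(F)` as a group. -/
abbrev QSgrp : Type := ISgrp S ⧸ prinUnitsAtSSub S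

instance instActionCSgrp : MulDistribMulAction Γℚ (CSgrp S) :=
  quotientAction (prinUnitsSub S) (isSMulStable_prinUnitsSub S)

instance instActionQSgrp : MulDistribMulAction Γℚ (QSgrp S) :=
  quotientAction (prinUnitsAtSSub S) (isSMulStable_prinUnitsAtSSub S)

lemma smul_mk_CSgrp (σ : Γℚ) (a : ISgrp S) :
    σ • (QuotientGroup.mk a : CSgrp S) = QuotientGroup.mk (σ • a) := rfl

lemma smul_mk_QSgrp (σ : Γℚ) (a : ISgrp S) :
    σ • (QuotientGroup.mk a : QSgrp S) = QuotientGroup.mk (σ • a) := rfl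

/-- The map `E_S → J_S`. -/
def esToJS : ESgrp S →* JSgrp S where
  toFun x := ⟨cutAmb S (ambDiag (x : Qbarˣ)), cutAmb_ambDiag_mem_ideleSS S x.2⟩
  map_one' := Subtype.ext (by simp)
  map_mul' x y := Subtype.ext (by simp)

@[simp] lemma coe_esToJS (x : ESgrp S) : (esToJS S x : AmbJ) = cutAmb S (ambDiag (x : Qbarˣ)) := rfl

lemma esToJS_injective : Function.Injective (esToJS S) := by
  intro x y h
  apply Subtype.ext
  apply ambDiag_injective
  have h1 : cutAmb S (ambDiag (x : Qbarˣ)) = cutAmb S (ambDiag (y : Qbarˣ)) :=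
    congrArg Subtype.val h
  have h2 := congrArg Prod.snd h1
  simp only [cutAmb_snd] at h2
  ext : 1
  · funext q
    apply Units.ext
    have h3 : ((1 : ℝ) ⊗ₜ[ℚ] ((x : Qbarˣ) : Qbar) : ArchAlg Qbar) = (1 : ℝ) ⊗ₜ[ℚ] ((y : Qbarˣ) : Qbar) :=
      congrArg Units.val h2
    have h4 : ((x : Qbarˣ) : Qbar) = ((y : Qbarˣ) : Qbar) :=
      Algebra.TensorProduct.includeRight_injective (FaithfulSMul.algebraMap_injective ℚ ℝ) h3
    simp [h4]
  · exact h2

lemma esToJS_smul (σ : Γℚ) (x : ESgrp S) : esToJS S (σ • x) = σ • esToJS S x := by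
  apply Subtype.ext
  simp [ambDiag_smul, cutAmb_smul]

lemma isSMulStable_range_esToJS : IsSMulStable Γℚ (esToJS S).range :=
  isSMulStable_range (esToJS S) (esToJS_smul S)

/-- `C'_S = J_S / E_S` as a group. -/
abbrev CS'grp : Type := JSgrp S ⧸ (esToJS S).range

instance instActionCS'grp : MulDistribMulAction Γℚ (CS'grp S) :=
  quotientAction (esToJS S).range (isSMulStable_range_esToJS S)

lemma smul_mk_CS'grp (σ : Γℚ) (a : JSgrp S) :
    σ • (QuotientGroup.mk a : CS'grp S) = QuotientGroup.mk (σ • a) := rfl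

/-- The inclusion `J_S → ⋃ Idele F`. -/
def jsToIS : JSgrp S →* ISgrp S := Subgroup.inclusion (ideleSS_le_ideleS S)

@[simp] lemma coe_jsToIS (a : JSgrp S) : (jsToIS S a : AmbJ) = (a : AmbJ) := rfl

lemma jsToIS_smul (σ : Γℚ) (a : JSgrp S) : jsToIS S (σ • a) = σ • jsToIS S a := rfl

/-- An element of `J_S` is trivial in `C_S` iff it comes from `E_S`. -/
lemma jsToIS_mem_prinUnitsSub_iff (a : JSgrp S) :
    jsToIS S a ∈ prinUnitsSub S ↔ a ∈ (esToJS S).range := by
  change (a : AmbJ) ∈ prinUnitsS S ↔ _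
  rw [mem_prinUnitsS_iff_of_mem_ideleSS S a.2]
  constructor
  · rintro ⟨x, hx, hxa⟩
    exact ⟨⟨x, hx⟩, Subtype.ext hxa⟩
  · rintro ⟨x, rfl⟩
    exact ⟨x, x.2, rfl⟩

/-- The map `C'_S → C_S`. -/
def cs'ToCS : CS'grp S →* CSgrp S :=
  QuotientGroup.map (esToJS S).range (prinUnitsSub S) (jsToIS S)
    (fun a ha => (jsToIS_mem_prinUnitsSub_iff S a).2 ha)

@[simp] lemma cs'ToCS_mk (a : JSgrp S) :
    cs'ToCS S (QuotientGroup.mk a) = QuotientGroup.mk (jsToIS S a) := rfl

lemma cs'ToCS_injective : Function.Injective (cs'ToCS S) := by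
  rw [injective_iff_map_eq_one]
  intro c hc
  induction c using QuotientGroup.induction_on with
  | H a =>
    rw [cs'ToCS_mk, QuotientGroup.eq_one_iff] at hc
    rw [QuotientGroup.eq_one_iff]
    exact (jsToIS_mem_prinUnitsSub_iff S a).1 hc

lemma cs'ToCS_smul (σ : Γℚ) (c : CS'grp S) : cs'ToCS S (σ • c) = σ • cs'ToCS S c := by
  induction c using QuotientGroup.induction_on with
  | H a => rfl

/-- The map `C_S → colim Cl_S(F)`. -/
def csToQS : CSgrp S →* QSgrp S :=
  QuotientGroup.map (prinUnitsSub S) (prinUnitsAtSSub S) (MonoidHom.id _)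
    (fun _ ha => prinUnitsSub_le S ha)

@[simp] lemma csToQS_mk (a : ISgrp S) : csToQS S (QuotientGroup.mk a) = QuotientGroup.mk a := rfl

lemma csToQS_surjective : Function.Surjective (csToQS S) := by
  intro c
  induction c using QuotientGroup.induction_on with
  | H a => exact ⟨QuotientGroup.mk a, rfl⟩

lemma csToQS_smul (σ : Γℚ) (c : CSgrp S) : csToQS S (σ • c) = σ • csToQS S c := by
  induction c using QuotientGroup.induction_on with
  | H a => rfl

/-- Exactness of `C'_S → C_S → colim Cl_S(F)`. -/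
lemma csToQS_eq_one_iff (c : CSgrp S) : csToQS S c = 1 ↔ c ∈ (cs'ToCS S).range := by
  induction c using QuotientGroup.induction_on with
  | H a =>
    rw [csToQS_mk, QuotientGroup.eq_one_iff]
    constructor
    · intro h
      obtain ⟨u, hu, j, hj, huj⟩ := Subgroup.mem_sup.1 (show (a : AmbJ) ∈ prinUnitsS S ⊔ ideleSS S from h)
      refine ⟨QuotientGroup.mk ⟨j, hj⟩, ?_⟩
      rw [cs'ToCS_mk, QuotientGroup.eq]
      change ((jsToIS S ⟨j, hj⟩)⁻¹ * a : ISgrp S).1 ∈ prinUnitsS S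
      have : ((jsToIS S ⟨j, hj⟩)⁻¹ * a : ISgrp S).1 = u := by
        change j⁻¹ * (a : AmbJ) = u
        rw [← huj]
        simp
      rw [this]
      exact hu
    · rintro ⟨c', hc'⟩
      induction c' using QuotientGroup.induction_on with
      | H j =>
        rw [cs'ToCS_mk, QuotientGroup.eq] at hc'
        have h1 : ((jsToIS S j)⁻¹ * a : ISgrp S).1 ∈ prinUnitsS S := hc'
        change (a : AmbJ) ∈ prinUnitsS S ⊔ ideleSS S
        have h2 : (a : AmbJ) = ((jsToIS S j)⁻¹ * a : ISgrp S).1 * (j : AmbJ) := by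
          change (a : AmbJ) = ((j : AmbJ)⁻¹ * (a : AmbJ)) * (j : AmbJ)
          simp
        rw [h2]
        exact Subgroup.mem_sup.2 ⟨_, h1, _, j.2, rfl⟩

end Fermat.Agent.Lib.CFT.Global.SVersion
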