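import Fermat.Agent.Lib.CFT.Global.LocalDegreeAt
import Fermat.Agent.Lib.CFT.Global.SVersion.Modules

/-!
# Galois levels with large local degrees ((LG-weak), item (C'))

For `p, q ∈ S` and every `k` there is a Galois level `L` (a finite Galois extension of `ℚ` inside
`Qbar`, unramified outside `S`) containing a `p ^ k`-th root of `q`; hence for every Galois level
`L' ≥ L` and every prime `m` of `L'` above `q`, `p ^ k` divides the local degree
`[L'_m : ℚ_q]`, i.e. the order of the decomposition group of `m`.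
-/

set_option autoImplicit false

open scoped NumberField Pointwise TensorProduct

noncomputable section

namespace Fermat.Agent.Lib.CFT.Global.SVersion.LocalDegreeLevel

open Fermat.Agent.Lib.CFT.Global Fermat.Agent.Lib.CFT.Global.Places
  Fermat.Agent.Lib.CFT.Global.LocalFieldAt Fermat.Agent.Lib.CFT.Global.EtaleAlg
  Fermat.Agent.Lib.CFT.Global.SVersion Fermat.Agent.Lib.CFT.Global.LocalDegreeAt
open IntermediateField

local notation "Qbar" => AlgebraicClosure ℚ

variable {S : Finset Nat.Primes}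

/-- A Galois level containing a `p ^ k`-th root of `q` (`p, q ∈ S`). -/
theorem exists_galLevel_root {p q : Nat.Primes} (hp : p ∈ S) (hq : q ∈ S) (k : ℕ) :
    ∃ (L : GalLevel S) (β : Qbar), β ∈ L.F ∧ β ^ ((p : ℕ) ^ k) = ((q : ℕ) : Qbar) := by
  have hn0 : (p : ℕ) ^ k ≠ 0 := pow_ne_zero _ p.2.ne_zero
  obtain ⟨β, hβ⟩ := IsAlgClosed.exists_pow_nat_eq ((q : ℕ) : Qbar) (Nat.pos_of_ne_zero hn0)
  have hun : (ℚ⟮β⟯ : IntermediateField ℚ Qbar).IsUnramifiedOutside S := by
    refine LocalDegree.isUnramifiedOutside_adjoin_root_prime hn0 (fun r hr => ?_) hq hβ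
    have h1 : (r : ℕ) ∣ (p : ℕ) := r.2.dvd_of_dvd_pow hr
    have h2 : (r : ℕ) = (p : ℕ) := (Nat.prime_dvd_prime_iff_eq r.2 p.2).1 h1
    rw [Subtype.ext h2]
    exact hp
  exact ⟨GalLevel.ofUnram _ hun, β,
    GalLevel.le_ofUnram _ hun (mem_adjoin_simple_self ℚ β), hβ⟩

/-- **(C')**, degree form: above a suitable Galois level, `p ^ k` divides all local degrees at the
primes above `q`. -/
theorem exists_galLevel_pow_dvd_finrank {p q : Nat.Primes} (hp : p ∈ S) (hq : q ∈ S) (k : ℕ) :
    ∃ L : GalLevel S, ∀ L' : GalLevel S, L ≤ L' →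
      ∀ m : MaximalSpectrum (LocAlg L'.F q),
        (p : ℕ) ^ k ∣ Module.finrank ℚ_[pv q] (FieldAt L'.F q m) := by
  obtain ⟨L, β, hβL, hβ⟩ := exists_galLevel_root hp hq k
  refine ⟨L, fun L' hLL' m => ?_⟩
  have hβL' : β ∈ L'.F := hLL' hβL
  refine dvd_finrank_padic_fieldAt_of_pow_eq m (Nat.pos_of_ne_zero (pow_ne_zero _ p.2.ne_zero))
    (⟨β, hβL'⟩ : L'.F) ?_
  apply Subtype.ext
  rw [SubmonoidClass.coe_pow]
  have h1 : (((pv q : ℕ) : L'.F) : Qbar) = ((q : ℕ) : Qbar) := by
    rw [show (pv q : ℕ) = (q : ℕ) from rfl]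
    simp
  rw [h1]
  exact hβ

/-- **(C')**, group form: above a suitable Galois level, `p ^ k` divides the orders of all
decomposition groups above `q`, for any presentation `G` of the Galois group. -/
theorem exists_galLevel_pow_dvd_card_stabilizer {p q : Nat.Primes} (hp : p ∈ S) (hq : q ∈ S)
    (k : ℕ) :
    ∃ L : GalLevel S, ∀ L' : GalLevel S, L ≤ L' →
      ∀ (G : Type) [Group G] [Finite G] [MulSemiringAction G L'.F] [IsGaloisGroup G ℚ L'.F]
        (m : MaximalSpectrum (LocAlg L'.F q)),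
        (p : ℕ) ^ k ∣ Nat.card (MulAction.stabilizer G m) := by
  obtain ⟨L, hL⟩ := exists_galLevel_pow_dvd_finrank hp hq k
  refine ⟨L, fun L' hLL' G _ _ _ _ m => ?_⟩
  rw [card_stabilizer_eq_finrank_padic (G := G) m]
  exact hL L' hLL' m

end Fermat.Agent.Lib.CFT.Global.SVersion.LocalDegreeLevel
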