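/-
Small naturality facts for level cohomology used in the passage to the limit of the
local-global sequence (P-CFT Global/S-version):

* `map_zero'`: the map on level cohomology induced by the zero morphism of representations is
  zero;
* `levelCohomologyMap_inflH`: inflation from a finite level is natural in the coefficient
  module (same group);
* `map_comp_levelCohomologyMap`: a change of group after a same-group coefficient map is the
  change of group along the composite coefficient map.
-/
import Fermat.Agent.Lib.CFT.Global.SVersion.LimitMap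
import Fermat.Agent.Lib.CFT.Profinite.LES

set_option autoImplicit false

namespace Fermat.Agent.Lib.CFT.Global.SVersion.LocalGlobalLimit

open CategoryTheory groupCohomology Rep
open Fermat.Agent.Lib.CFT.Profinite Fermat.Agent.Lib.CFT.Profinite.LevelFamily
open Fermat.Agent.Lib.CFT.Global.SVersion.Limit

universe u

variable {k G : Type u} [CommRing k] [Group G] (𝒰 : LevelFamily G)

/-! ### (B1) The zero morphism -/

section Zero

variable {𝒰}
variable {G' : Type u} [Group G'] {𝒰' : LevelFamily G'}

/-- Cochain level: the zero morphism of representations induces the zero chain map. -/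
theorem levelCochainsMap_zero (φ : G' →* G) (hφ : IsCompatible 𝒰' 𝒰 φ) (M : Rep.{u} k G)
    (N : Rep.{u} k G') :
    levelCochainsMap φ hφ (0 : Rep.res φ M ⟶ N) = 0 := by
  ext n x : 3
  apply Subtype.ext
  funext g
  rfl

/-- The zero morphism of representations induces the zero map on level cohomology. -/
theorem map_zero' (φ : G' →* G) (hφ : IsCompatible 𝒰' 𝒰 φ) (M : Rep.{u} k G)
    (N : Rep.{u} k G') (n : ℕ) :
    LES.map φ hφ (0 : Rep.res φ M ⟶ N) n = 0 := by
  rw [LES.map_def, levelCochainsMap_zero φ hφ M N]
  exact HomologicalComplex.homologyMap_zero _ _ n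

end Zero

/-! ### (B2) Inflation is natural in the coefficients -/

section Infl

variable {M M' : Rep.{u} k G} (f : M ⟶ M')

/-- Cochain level: inflation from a finite level commutes with a morphism of coefficients. -/
theorem levelInfl_comp_levelComplexFunctor_map (U : Subgroup G) [U.Normal]
    (hU : U ∈ 𝒰.levels) :
    𝒰.levelInfl M U hU ≫ levelCochainsMap (MonoidHom.id G) 𝒰.isCompatible_id f =
      cochainsMap (A := M.quotientToInvariants U) (B := M'.quotientToInvariants U)
        (MonoidHom.id (G ⧸ U)) ((Rep.quotientToInvariantsFunctor k U).map f) ≫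
        𝒰.levelInfl M' U hU := by
  ext n c : 3
  rfl

/-- Morphism form: inflation from a finite level commutes with a morphism of coefficients. -/
theorem inflH_comp_levelCohomologyMap (U : Subgroup G) [U.Normal] (hU : U ∈ 𝒰.levels) (n : ℕ) :
    𝒰.inflH M U hU n ≫ 𝒰.levelCohomologyMap f n =
      groupCohomology.map (A := M.quotientToInvariants U) (B := M'.quotientToInvariants U)
        (MonoidHom.id (G ⧸ U)) ((Rep.quotientToInvariantsFunctor k U).map f) n ≫
        𝒰.inflH M' U hU n := by
  have h1 := HomologicalComplex.homologyMap_comp (𝒰.levelInfl M U hU)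
    (levelCochainsMap (MonoidHom.id G) 𝒰.isCompatible_id f) n
  have h2 := HomologicalComplex.homologyMap_comp
    (cochainsMap (A := M.quotientToInvariants U) (B := M'.quotientToInvariants U)
        (MonoidHom.id (G ⧸ U)) ((Rep.quotientToInvariantsFunctor k U).map f))
    (𝒰.levelInfl M' U hU) n
  rw [levelInfl_comp_levelComplexFunctor_map 𝒰 f U hU] at h1
  exact h1.symm.trans h2

/-- Inflation from a finite level commutes with a morphism of coefficients (element form). -/
theorem levelCohomologyMap_inflH (U : Subgroup G) [U.Normal] (hU : U ∈ 𝒰.levels) (n : ℕ)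
    (y : groupCohomology (M.quotientToInvariants U) n) :
    (𝒰.levelCohomologyMap f n).hom ((𝒰.inflH M U hU n).hom y) =
      (𝒰.inflH M' U hU n).hom
        ((groupCohomology.map (A := M.quotientToInvariants U) (B := M'.quotientToInvariants U)
          (MonoidHom.id (G ⧸ U)) ((Rep.quotientToInvariantsFunctor k U).map f) n).hom y) :=
  congr($(inflH_comp_levelCohomologyMap 𝒰 f U hU n) y)

end Infl

/-! ### (B3) Change of group after a coefficient map -/

section Comp

variable {𝒰}
variable {G' : Type u} [Group G'] {𝒰' : LevelFamily G'}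

/-- Morphism form of `map_comp_levelCohomologyMap`. -/
theorem levelCohomologyMap_comp_map (φ : G' →* G) (hφ : IsCompatible 𝒰' 𝒰 φ)
    {M₁ M₂ : Rep.{u} k G} {N : Rep.{u} k G'} (g : M₁ ⟶ M₂) (ρ : Rep.res φ M₂ ⟶ N) (n : ℕ) :
    𝒰.levelCohomologyMap g n ≫ LES.map φ hφ ρ n =
      LES.map φ hφ ((Rep.resFunctor φ).map g ≫ ρ) n := by
  have h := LES.map_comp (MonoidHom.id G) 𝒰.isCompatible_id g φ hφ ρ n
  rw [LES.levelCohomologyMap_eq_map]
  exact h.symm

/-- A change of group after a same-group coefficient map is the change of group along the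
composite coefficient map. -/
theorem map_comp_levelCohomologyMap (φ : G' →* G) (hφ : IsCompatible 𝒰' 𝒰 φ)
    {M₁ M₂ : Rep.{u} k G} {N : Rep.{u} k G'} (g : M₁ ⟶ M₂) (ρ : Rep.res φ M₂ ⟶ N) (n : ℕ)
    (x : 𝒰.levelCohomology M₁ n) :
    (LES.map φ hφ ρ n).hom ((𝒰.levelCohomologyMap g n).hom x) =
      (LES.map φ hφ ((Rep.resFunctor φ).map g ≫ ρ) n).hom x :=
  congr($(levelCohomologyMap_comp_map φ hφ g ρ n) x)

end Comp

end Fermat.Agent.Lib.CFT.Global.SVersion.LocalGlobalLimit
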