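import Fermat.Agent.Lib.CFT.Global.LocalGlobalFinite
import Fermat.Agent.Lib.CFT.Global.CohIdeles.HasseH2
import Fermat.Agent.Lib.CFT.Global.SVersion.RepDescent
import Fermat.Agent.Lib.CFT.Global.SVersion.SemiLocal
import Fermat.Agent.Lib.CFT.Global.SVersion.CSLevelLayer
import Fermat.Agent.Lib.CFT.Global.SVersion.LGExact
import Fermat.Agent.Lib.CFT.Global.SVersion.UnitsOutCoh
import Fermat.Agent.Lib.CFT.Global.SVersion.LocalDegreeLevel
import Fermat.Agent.Lib.CFT.Global.SVersion.LocalGlobalLimit
import Fermat.Agent.Lib.CFT.Duality.BaseCase.RhoIncl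
import Fermat.Agent.Lib.CFT.Duality.BaseCase.ArithLG
import Fermat.Agent.Lib.CFT.Global.ClassFormation.SumFormulaMain
import Fermat.Agent.Lib.CFT.Global.SVersion.FormationInfl

/-!
# (LG-weak), `H`-level limit form (helper75)

For a finite set `S` of primes, a prime `p ∈ S` and `q ∈ S` there is a class
`y ∈ H²(G_S, J_S)` with `p • y = 0`, with trivial image under the local projections
`ρ_v : H²(G_S, J_S) → H²(G_v, L_v)` for `v ≠ q`, and with nonzero image in `H²(G_S, C_S)`.

Construction: a Galois level `L` containing a `p`-th root of `q` (so that `p` divides the order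
of every decomposition group over `q`), a class `y₀ ∈ H²(Gal(L.F/ℚ), (ℚ_q ⊗ L.F)ˣ)` with
`p • y₀ = 0` and global invariant `1/p` (`LocalGlobalFinite.exists_class_inv_eq`); its image in
`H²(Gal(L.F/ℚ), C_{L.F})` is nonzero by the (`p`-primary) sum formula and the Hasse principle,
hence also in `H²(Gal(L.F/ℚ), C_S(L.F))` (cohomological triviality of `U_{L.F,S}`); `y` is the
inflation of the image of `y₀` in `H²(Γℚ ⧸ L.V, (J_{S,q})^{L.V})` pushed to `J_S`.

The only hypothesis left is the injectivity of the inflation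
`H²(Γℚ ⧸ L.V, (C_S)^{L.V}) → H²(G_S, C_S)` (`hinj`), a consequence of `H¹ = 0` for the layers of
the formation `C_S` (`Limit.inflH_injective` + `LimitInfl.finInfl_two_injective`).
-/

set_option autoImplicit false
set_option linter.unusedSectionVars false

open scoped Pointwise TensorProduct
open CategoryTheory

noncomputable section

namespace Fermat.Agent.Lib.CFT.Global.SVersion.LocalGlobal

open Fermat.Agent.Lib.CFT.Global Fermat.Agent.Lib.CFT.Global.EtaleAlg
open Fermat.Agent.Lib.CFT.Global.SVersion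
open Fermat.Agent.Lib.CFT.Global.SVersion.Descent
open Fermat.Agent.Lib.CFT.Global.SVersion.RepDescent
open Fermat.Agent.Lib.CFT.Global.SVersion.LGExact
open Fermat.Agent.Lib.CFT.Global.SVersion.CSLevelLayer
open Fermat.Agent.Lib.CFT.Global.LocalGlobalFinite
open Fermat.Agent.Lib.CFT.Profinite Fermat.Agent.Lib.CFT.Profinite.Bridge
open Fermat.Agent.Lib.CFT.Local (LocalInvTheory)
open Fermat.Agent.Lib.CFT.Local.LocalBrauer (QZ)

open scoped Fermat.Agent.Lib.CFT.Global.SVersion
open scoped Fermat.Agent.Lib.CFT.Global.SVersion.RepDescent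

local notation "Qbar" => AlgebraicClosure ℚ
local notation "Γℚ" => (AlgebraicClosure ℚ ≃ₐ[ℚ] AlgebraicClosure ℚ)

attribute [local instance] Units.mulDistribMulActionRight

/-! ### The finite quotient `Γℚ ⧸ L.V` as a Galois group -/

section QTopGalois

variable {S : Finset Nat.Primes} (L : GalLevel S)

/-- The finite quotient `Γℚ ⧸ L.V` is a Galois group of `L.F / ℚ`. -/
instance isGaloisGroup_qTop : IsGaloisGroup (QTop L) ℚ L.F where
  faithful := inferInstance
  commutes := ⟨fun g c x => by
    rw [Algebra.smul_def, Algebra.smul_def, smul_mul']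
    congr 1
    exact map_ratCast (MulSemiringAction.toRingHom (QTop L) L.F g) c⟩
  isInvariant := ⟨fun b hb => by
    have hfix : ∀ σ ∈ (⊥ : IntermediateField ℚ Qbar).fixingSubgroup,
        σ (b : Qbar) = (b : Qbar) := by
      intro σ _
      have h := hb (QuotientGroup.mk σ : QTop L)
      have h2 : ((σ • b : L.F) : Qbar) = (b : Qbar) := congrArg (fun y : L.F => (y : Qbar)) h
      rwa [coe_galAction_smul] at h2
    have hmem : (b : Qbar) ∈ (⊥ : IntermediateField ℚ Qbar) :=
      Descent.mem_of_forall_fixingSubgroup hfix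
    rw [IntermediateField.mem_bot] at hmem
    obtain ⟨a, ha⟩ := hmem
    exact ⟨a, Subtype.ext ha⟩⟩

end QTopGalois

/-! ### The finite-level square -/

section FiniteLevel

variable {S : Finset Nat.Primes} (L : GalLevel S) (q : Nat.Primes)

lemma mk_smul_locUnits (σ : Γℚ) (u : (LocAlg L.F q)ˣ) :
    (QuotientGroup.mk σ : QTop L) • u = σ • u := rfl

/-- **Descent for the `q`-factor of `J_S`**: `(ℚ_q ⊗ L.F)ˣ` with its `Γℚ ⧸ L.V`-action is the
representation on the `L.V`-invariants of `J_{S,q}`. -/
def jsqDescentIsoTop :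
    Rep.ofMulDistribMulAction (QTop L) (LocAlg L.F q)ˣ ≅ (JSq S q).quotientToInvariants L.V :=
  descentIsoRes (MonoidHom.id Γℚ) L.V (levelToJSq S L q) (levelToJSq_injective S L q)
    (fun σ u => by rw [mk_smul_locUnits]; exact levelToJSq_smul S L q σ u)
    (fun u hu => MonoidHom.mem_range.1
      (mem_range_levelToJSq_of_fixed S L q u (fun σ hσ => hu ⟨σ, hσ⟩)))

lemma jsqDescentIsoTop_hom_apply (u : Additive (LocAlg L.F q)ˣ) :
    (((jsqDescentIsoTop L q).hom.hom u).1 : Additive (JSqGrp S q)) =
      Additive.ofMul (levelToJSq S L q u.toMul) := rfl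

/-- The ambient element of the idele of `L.F` with a single nontrivial component at `q`. -/
lemma toAmb_ideleSingle (u : (LocAlg L.F q)ˣ) :
    toAmb L.F (ideleSingle L.F q u) = ((Pi.mulSingle q (locToAmb L.F q u), 1) : AmbJ) := by
  classical
  ext : 1
  · funext q'
    rw [toAmb_fst]
    change _ = (Pi.mulSingle q (locToAmb L.F q u) : ∀ q, (LocAlg Qbar q)ˣ) q'
    by_cases h : q' = q
    · subst h
      rw [ideleSingle_fst_self, Pi.mulSingle_eq_same]
    · rw [ideleSingle_fst_of_ne h, Pi.mulSingle_eq_of_ne h, map_one]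
  · rw [toAmb_snd, ideleSingle_snd, map_one]

/-- The idele of `L.F` supported at `q ∈ S`, in the union of all ideles, is the image of its
`q`-component under `J_{S,q} → J_S → ⋃ Idele F`. -/
lemma levelToIS_ideleSingle (hq : q ∈ S) (u : (LocAlg L.F q)ˣ) :
    levelToIS S L (ideleSingle L.F q u) = jsToIS S (jsInclLoc S hq (levelToJSq S L q u)) := by
  apply Subtype.ext
  rw [coe_levelToIS, coe_jsToIS, coe_jsInclLoc, coe_levelToJSq]
  exact toAmb_ideleSingle L q u

variable (S) in
/-- The inclusion `J_{S,q} ⟶ J_S` (`q ∈ S`), with its source written as `JSq S q`. -/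
def jsqIncl (hq : q ∈ S) : JSq S q ⟶ JS S := jsIncl S (some ⟨q, hq⟩)

variable (S) in
lemma jsqIncl_eq (q : ↥S) : jsqIncl S q.1 q.2 = jsIncl S (some q) := rfl

/-- **The finite-level square.**  The composite
`(ℚ_q ⊗ L.F)ˣ → J_{L.F} → C_{L.F} → C_S(L.F) ≅ (C_S)^{L.V}` is the composite
`(ℚ_q ⊗ L.F)ˣ ≅ (J_{S,q})^{L.V} → (J_S)^{L.V} → (C_S)^{L.V}`. -/
theorem single_comp_descent (hq : q ∈ S) :
    ideleSingleRep L.F (QTop L) q ≫ classRepHom L.F (QTop L) ≫ classToCSRep S L.F (QTop L) ≫
        (csDescentIsoTop L (UnitsOutCoh.liftHyp S)).hom =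
      (jsqDescentIsoTop L q).hom ≫
        (Rep.quotientToInvariantsFunctor ℤ L.V).map (jsqIncl S q hq ≫ jsToCS S) := by
  refine Rep.hom_ext (Representation.IntertwiningMap.ext
    (LinearMap.ext fun (u : Additive (LocAlg L.F q)ˣ) => ?_))
  apply Subtype.ext
  change Additive.ofMul (QuotientGroup.mk (levelToIS S L (ideleSingle L.F q u.toMul)) : CSgrp S) =
    Additive.ofMul (QuotientGroup.mk (jsToIS S (jsInclLoc S hq (levelToJSq S L q u.toMul))) :
      CSgrp S)
  rw [levelToIS_ideleSingle L q hq]

end FiniteLevel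

/-! ### Nonvanishing in `H²(G, C_L)` for torsion classes -/

section Hasse

variable (T : ∀ q : Nat.Primes, LocalInvTheory (pv q))
variable (L : Type) [Field L] [NumberField L]
variable (G : Type) [Group G] [Finite G] [MulSemiringAction G L] [FaithfulSMul G L]

/-- **Nonvanishing in `H²(G, C_L)`, torsion form**: if the global invariant vanishes on the image
of the `p`-torsion of `H²(G, Lˣ)` (the `p`-primary sum formula), a `p`-torsion class of
`H²(G, J_L)` with nonzero global invariant has nonzero image in `H²(G, C_L)`. -/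
theorem map_classRepHom_ne_zero_of_nsmul (p : ℕ)
    (hsum : ∀ α : groupCohomology (unitsRep L G) 2, p • α = 0 →
      ClassFormation.globalInv T L G (ClassFormation.principalClass L G α) = 0)
    (x : groupCohomology (ideleRep L G) 2) (hpx : p • x = 0)
    (hx : ClassFormation.globalInv T L G x ≠ 0) :
    (groupCohomology.functor ℤ G 2).map (classRepHom L G) x ≠ 0 := by
  intro h
  obtain ⟨α, rfl⟩ := exists_of_map_classRepHom_eq_zero L G x h
  have hα : p • α = 0 := by
    apply hasse_principle_H2 L G (SecondIneq.Consequences.ideleClass_H1_isZero L G)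
    have h3 : ((groupCohomology.functor ℤ G 2).map (principalRepHom L G)).hom (p • α) =
        p • ((groupCohomology.functor ℤ G 2).map (principalRepHom L G)).hom α :=
      map_nsmul _ _ _
    exact h3.trans (hpx.trans (map_zero _).symm)
  exact hx (hsum α hα)

end Hasse


/-! ### Assembly -/

section Assembly

variable (S : Finset Nat.Primes) (T : ∀ q : Nat.Primes, LocalInvTheory (pv q))

/-- **The finite-level class.**  If `p` divides the order of all decomposition groups over `q` in
`L.F / ℚ`, there is a `p`-torsion class of `H²(Gal(L.F/ℚ), (ℚ_q ⊗ L.F)ˣ)` whose image in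
`H²(Gal(L.F/ℚ), C_S(L.F))` is nonzero. -/
theorem exists_finite_class (L : GalLevel S) (q : Nat.Primes) (p : ℕ) (hp : 1 < p)
    (hdvd : ∀ m : MaximalSpectrum (LocAlg L.F q), p ∣ Nat.card (MulAction.stabilizer (QTop L) m))
    (hsum : ∀ α : groupCohomology (unitsRep L.F (QTop L)) 2, p • α = 0 →
      ClassFormation.globalInv T L.F (QTop L) (ClassFormation.principalClass L.F (QTop L) α) = 0) :
    ∃ y₀ : groupCohomology (Rep.ofMulDistribMulAction (QTop L) (LocAlg L.F q)ˣ) 2,
      p • y₀ = 0 ∧
      groupCohomology.map (MonoidHom.id (QTop L)) (classToCSRep S L.F (QTop L)) 2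
        (groupCohomology.map (MonoidHom.id (QTop L)) (classRepHom L.F (QTop L)) 2
          (singleMap L.F (QTop L) q 2 y₀)) ≠ 0 := by
  obtain ⟨m⟩ : Nonempty (MaximalSpectrum (LocAlg L.F q)) := by
    obtain ⟨m, hm⟩ := Ideal.exists_maximal (LocAlg L.F q)
    exact ⟨⟨m, hm⟩⟩
  obtain ⟨y₀, hy₀, -, -, hinv⟩ :=
    exists_class_inv_eq T L.F (QTop L) q m p (by omega) (hdvd m)
  refine ⟨y₀, hy₀, ?_⟩
  have hx : ClassFormation.globalInv T L.F (QTop L) (singleMap L.F (QTop L) q 2 y₀) ≠ 0 := by
    rw [hinv]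
    exact one_div_ne_zero_addCircle p hp
  have hpx : p • singleMap L.F (QTop L) q 2 y₀ = 0 := by
    rw [← map_nsmul, hy₀, map_zero]
  have h1 := map_classRepHom_ne_zero_of_nsmul T L.F (QTop L) p hsum _ hpx hx
  intro h0
  apply h1
  exact (map_classToCSRep_bijective S L.F (QTop L) (isUnramOut_galLevel L _) 2).1
    (h0.trans (map_zero _).symm)


/-- **(LG-weak) on the `q`-factor.**  For `p, q ∈ S` there is a `p`-torsion class of
`H²(G_S, J_{S,q})` whose image in `H²(G_S, C_S)` is nonzero, given the `p`-primary sum formula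
(`hsum`) and the injectivity of inflation for `C_S` (`hinj`). -/
theorem exists_class_factor (p : ℕ) [hp : Fact p.Prime] (hpS : (⟨p, hp.out⟩ : Nat.Primes) ∈ S)
    (hsum : ∀ (L : GalLevel S) (α : groupCohomology (unitsRep L.F (QTop L)) 2), p • α = 0 →
      ClassFormation.globalInv T L.F (QTop L) (ClassFormation.principalClass L.F (QTop L) α) = 0)
    (hinj : ∀ L : GalLevel S, Function.Injective
      ((levelsS S).inflH (CS S) L.V L.fixingSubgroup_mem_levels 2).hom)
    (q : ↥S) :
    ∃ x : (levelsS S).levelCohomology (JSq S q.1) 2, p • x = 0 ∧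
      ((levelsS S).levelCohomologyMap (jsqIncl S q.1 q.2 ≫ jsToCS S) 2).hom x ≠ 0 := by
  obtain ⟨L, hL⟩ := LocalDegreeLevel.exists_galLevel_pow_dvd_card_stabilizer hpS q.2 1
  have hdvd : ∀ m : MaximalSpectrum (LocAlg L.F q.1),
      p ∣ Nat.card (MulAction.stabilizer (QTop L) m) := fun m => by
    have h := hL L (GalLevel.le_def.2 le_rfl) (QTop L) m
    simpa using h
  obtain ⟨y₀, hy₀, hne⟩ := exists_finite_class S T L q.1 p hp.out.one_lt hdvd (hsum L)
  set z : groupCohomology ((JSq S q.1).quotientToInvariants L.V) 2 :=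
    groupCohomology.map (MonoidHom.id (QTop L)) (jsqDescentIsoTop L q.1).hom 2 y₀ with hz
  refine ⟨((levelsS S).inflH (JSq S q.1) L.V L.fixingSubgroup_mem_levels 2).hom z, ?_, ?_⟩
  · have h1 : p • z = 0 := by
      rw [hz, ← map_nsmul, hy₀, map_zero]
    rw [← map_nsmul, h1, map_zero]
  · have key := LocalGlobalLimit.levelCohomologyMap_inflH (levelsS S) (M := JSq S q.1)
      (M' := CS S) (jsqIncl S q.1 q.2 ≫ jsToCS S) L.V L.fixingSubgroup_mem_levels 2 z
    intro h0
    have h1 := hinj L ((key.symm.trans h0).trans (map_zero _).symm)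
    apply hne
    have hcomp : ((groupCohomology.functor ℤ (QTop L) 2).map
        (ideleSingleRep L.F (QTop L) q.1 ≫ classRepHom L.F (QTop L) ≫
          classToCSRep S L.F (QTop L) ≫ (csDescentIsoTop L (UnitsOutCoh.liftHyp S)).hom)).hom y₀ =
        0 := by
      have e0 := congrArg (fun f => ((groupCohomology.functor ℤ (QTop L) 2).map f).hom y₀)
        (single_comp_descent L q.1 q.2)
      have e1 := (groupCohomology.functor ℤ (QTop L) 2).map_comp (jsqDescentIsoTop L q.1).hom
        ((Rep.quotientToInvariantsFunctor ℤ L.V).map (jsqIncl S q.1 q.2 ≫ jsToCS S))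
      have e2 := congrArg (fun f => ModuleCat.Hom.hom f y₀) e1
      exact e0.trans (e2.trans h1)
    rw [Functor.map_comp, Functor.map_comp, Functor.map_comp] at hcomp
    have hmono : Mono ((groupCohomology.functor ℤ (QTop L) 2).map
        (csDescentIsoTop L (UnitsOutCoh.liftHyp S)).hom) := inferInstance
    have hinj' := (ModuleCat.mono_iff_injective _).1 hmono
    exact hinj' (hcomp.trans (map_zero _).symm)


open Fermat.Agent.Lib.CFT.Duality Fermat.Agent.Lib.CFT.Duality.ArithKDatum in
/-- **(LG-weak), `H`-level limit form**: exactly the hypothesis `hH` of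
`GlobalBase.ArithLG.arith_hLG`.  For every `q ∈ S` there is a class `y ∈ H²(G_S, J_S)` with
`p • y = 0`, trivial local components `ρ_v(y)` for `v ≠ q`, and nonzero image in `H²(G_S, C_S)`;
given the `p`-primary sum formula (`hsum`) and the injectivity of inflation for `C_S`
(`hinj`). -/
theorem arith_hH_of_sum (p : ℕ) [hp : Fact p.Prime] (hpS : (⟨p, hp.out⟩ : Nat.Primes) ∈ S)
    (hsum : ∀ (L : GalLevel S) (α : groupCohomology (unitsRep L.F (QTop L)) 2), p • α = 0 →
      ClassFormation.globalInv T L.F (QTop L) (ClassFormation.principalClass L.F (QTop L) α) = 0)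
    (hinj : ∀ L : GalLevel S, Function.Injective
      ((levelsS S).inflH (CS S) L.V L.fixingSubgroup_mem_levels 2).hom) :
    ∀ q : (arithDatum S).ι,
      ∃ y : (arithDatum S).𝒰.levelCohomology (arithKDatum S p hpS).J 2, p • y = 0 ∧
        (∀ v, v ≠ q → (LES.map ((arithDatum S).φ v) ((arithDatum S).compat v)
          ((arithKDatum S p hpS).ρ v) 2).hom y = 0) ∧
        ((arithDatum S).𝒰.levelCohomologyMap
          ((arithKDatum S p hpS).π ≫ GlobalBase.PFormBridge.cs'ToCSHom S) 2).hom y ≠ 0 := by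
  intro q
  obtain ⟨x, hx, hne⟩ := exists_class_factor S T p hpS hsum hinj q
  refine ⟨((levelsS S).levelCohomologyMap (jsIncl S (some q)) 2).hom x, ?_, fun v hv => ?_, ?_⟩
  · have h1 := map_nsmul ((levelsS S).levelCohomologyMap (jsIncl S (some q)) 2).hom p x
    exact h1.symm.trans ((congrArg _ hx).trans (map_zero _))
  · exact map_rho_levelCohomologyMap_jsIncl_of_ne S q v hv 2 x
  · intro h0
    apply hne
    have h1 := DevissageStep.levelCohomologyMap_comp (levelsS S) (jsIncl S (some q))
      (jsToCS S) 2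
    have h2 := congrArg (fun f => ModuleCat.Hom.hom f x) h1
    exact h2.trans h0


open Fermat.Agent.Lib.CFT.Duality Fermat.Agent.Lib.CFT.Duality.ArithKDatum in
/-- **(LG-weak), `H`-level limit form, unconditional** (`p` odd): exactly the hypothesis `hH` of
`GlobalBase.ArithLG.arith_hLG`.  For every `q ∈ S` there is a class `y ∈ H²(G_S, J_S)` with
`p • y = 0`, trivial local components `ρ_v(y)` for `v ≠ q`, and nonzero image in
`H²(G_S, C_S)`. -/
theorem arith_hH (p : ℕ) [hp : Fact p.Prime] (hpS : (⟨p, hp.out⟩ : Nat.Primes) ∈ S)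
    (hp2 : p ≠ 2) :
    ∀ q : (arithDatum S).ι,
      ∃ y : (arithDatum S).𝒰.levelCohomology (arithKDatum S p hpS).J 2, p • y = 0 ∧
        (∀ v, v ≠ q → (LES.map ((arithDatum S).φ v) ((arithDatum S).compat v)
          ((arithKDatum S p hpS).ρ v) 2).hom y = 0) ∧
        ((arithDatum S).𝒰.levelCohomologyMap
          ((arithKDatum S p hpS).π ≫ GlobalBase.PFormBridge.cs'ToCSHom S) 2).hom y ≠ 0 :=
  arith_hH_of_sum S ClassFormation.canonicalInv p hpS
    (fun L α hα => ClassFormation.sumFormula_canonical L.F (QTop L) p 1 hp.out hp2 α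
      (by rwa [pow_one]))
    (fun L => FormationInfl.inflH_CS_injective L)

open Fermat.Agent.Lib.CFT.Duality Fermat.Agent.Lib.CFT.Duality.ArithKDatum
  Fermat.Agent.Lib.CFT.Duality.KCalc in
/-- **The field `hLG` of the arithmetic `P`-form contract**, for odd `p`: only the injectivity of
the invariant map on `T²(C_S)` and local Hilbert 90 for the modules `L_v` remain as inputs. -/
theorem arith_hLG_of_odd (p : ℕ) [hp : Fact p.Prime] (hpS : (⟨p, hp.out⟩ : Nat.Primes) ∈ S)
    (hp2 : p ≠ 2) (invT : KCalc.T (arithDatum S).𝒰 p (CS S) 2 →+ ZMod p)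
    (hinvT : Function.Injective invT)
    (h90 : ∀ v : (arithDatum S).ι,
      Subsingleton (((arithDatum S).𝒱 v).levelCohomology ((arithKDatum S p hpS).L v) 1)) :
    ∀ q : (arithDatum S).ι, ∃ y : KCalc.T (arithDatum S).𝒰 p (arithKDatum S p hpS).J 2,
      (∀ v, v ≠ q → (arithKDatum S p hpS).lamT 2 y v = 0) ∧
        invT (TMap (arithDatum S).𝒰 p
          ((arithKDatum S p hpS).π ≫ GlobalBase.PFormBridge.cs'ToCSHom S) 2 y) ≠ 0 :=
  GlobalBase.ArithLG.arith_hLG S p hpS invT hinvT h90 (arith_hH S p hpS hp2)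

end Assembly

end Fermat.Agent.Lib.CFT.Global.SVersion.LocalGlobal

end
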