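import Fermat.Agent.Lib.CFT.Global.LocalDegreeAt
import Fermat.Agent.Lib.CFT.Global.SVersion.LocalDegreeLevel
import Fermat.Agent.Lib.CFT.Global.SVersion.RepDescent
import Fermat.Agent.Lib.CFT.Global.SVersion.LocalDegree

/-!
# The Kummer level for the local-global compatibility ((LG-weak), item (C'), `QTop` form)

* `isGaloisGroup_qTop` : for a Galois level `L`, the finite quotient `QTop L = Γℚ ⧸ L.V` is a
  Galois group of `L.F / ℚ` in the sense of `IsGaloisGroup`;
* `exists_galLevel_dvd_card_stabilizer` : for `p, q ∈ S` there is a Galois level `L` such that `p`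
  divides the order of the decomposition group in `QTop L` of every prime of `L.F` above `q`;
* `exists_galLevel_forall_ge_pow_dvd_card_stabilizer` : the same for all levels above `L` and
  `p ^ k`.
-/

set_option autoImplicit false

open scoped TensorProduct NumberField Pointwise
open scoped Fermat.Agent.Lib.CFT.Global.SVersion Fermat.Agent.Lib.CFT.Global.SVersion.RepDescent

noncomputable section

namespace Fermat.Agent.Lib.CFT.Global.SVersion.LocalGlobalKummer

open Fermat.Agent.Lib.CFT.Global Fermat.Agent.Lib.CFT.Global.SVersion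
  Fermat.Agent.Lib.CFT.Global.SVersion.RepDescent Fermat.Agent.Lib.CFT.Global.SVersion.Descent
  Fermat.Agent.Lib.CFT.Global.LocalDegreeAt Fermat.Agent.Lib.CFT.Global.EtaleAlg

local notation "Qbar" => AlgebraicClosure ℚ
local notation "Γℚ" => (AlgebraicClosure ℚ ≃ₐ[ℚ] AlgebraicClosure ℚ)

variable {S : Finset Nat.Primes}

/-- `Γℚ ⧸ L.V` is a Galois group of `L.F / ℚ`. -/
instance isGaloisGroup_qTop (L : GalLevel S) : IsGaloisGroup (QTop L) ℚ L.F where
  faithful := inferInstance
  commutes := ⟨fun g c x => by
    rw [Algebra.smul_def, Algebra.smul_def, smul_mul']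
    congr 1
    exact map_ratCast (MulSemiringAction.toRingHom (QTop L) L.F g) c⟩
  isInvariant := ⟨fun b hb => by
    have hfix : ∀ σ ∈ (⊥ : IntermediateField ℚ Qbar).fixingSubgroup, σ (b : Qbar) = b := by
      intro σ _
      have h := hb (QuotientGroup.mk σ : QTop L)
      have h2 : (((QuotientGroup.mk σ : QTop L) • b : L.F) : Qbar) = (b : Qbar) :=
        congrArg (fun y : L.F => (y : Qbar)) h
      have h3 : (((QuotientGroup.mk σ : QTop L) • b : L.F) : Qbar) = σ (b : Qbar) :=
        coe_mk_smul (MonoidHom.id Γℚ) L σ b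
      rw [← h3, h2]
    have hmem := Descent.mem_of_forall_fixingSubgroup hfix
    rw [IntermediateField.mem_bot] at hmem
    obtain ⟨a, ha⟩ := hmem
    exact ⟨a, Subtype.ext ha⟩⟩

/-- **(C')**, all higher levels: for `p, q ∈ S` there is a Galois level above which `p ^ k` divides
the orders of all decomposition groups above `q`. -/
theorem exists_galLevel_forall_ge_pow_dvd_card_stabilizer (S : Finset Nat.Primes)
    {p q : Nat.Primes} (hp : p ∈ S) (hq : q ∈ S) (k : ℕ) :
    ∃ L : GalLevel S, ∀ L' : GalLevel S, L ≤ L' →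
      ∀ m : MaximalSpectrum (LocAlg L'.F q),
        (p : ℕ) ^ k ∣ Nat.card (MulAction.stabilizer (QTop L') m) := by
  obtain ⟨L, hL⟩ := LocalDegreeLevel.exists_galLevel_pow_dvd_card_stabilizer hp hq k
  exact ⟨L, fun L' hLL' m => hL L' hLL' (QTop L') m⟩

/-- **(C')**: for `p, q ∈ S` there is a Galois level `L` such that `p` divides the order of the
decomposition group of every prime of `L.F` above `q`. -/
theorem exists_galLevel_dvd_card_stabilizer (S : Finset Nat.Primes) {p q : Nat.Primes}
    (hp : p ∈ S) (hq : q ∈ S) :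
    ∃ L : GalLevel S, ∀ m : MaximalSpectrum (LocAlg L.F q),
      (p : ℕ) ∣ Nat.card (MulAction.stabilizer (QTop L) m) := by
  obtain ⟨L, hL⟩ := exists_galLevel_forall_ge_pow_dvd_card_stabilizer S hp hq 1
  refine ⟨L, fun m => ?_⟩
  have h := hL L (le_refl L.F) m
  rwa [pow_one] at h

end Fermat.Agent.Lib.CFT.Global.SVersion.LocalGlobalKummer
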