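import Fermat.Agent.Lib.CFT.Global.LocalGlobalFinite
import Fermat.Agent.Lib.CFT.Global.CohIdeles.HasseH2
import Fermat.Agent.Lib.CFT.Global.ClassFormation.SumFormulaMain
import Fermat.Agent.Lib.CFT.Global.SVersion.LocalGlobalKummer

/-!
# The finite-level chain of the weak local-global statement (helper55)

For `p, q ∈ S`, `p` odd, there is a Galois level `L` (finite Galois `L.F / ℚ` unramified outside
`S`) and a `p`-torsion class `y₀ ∈ H²(Gal(L.F/ℚ), (ℚ_q ⊗ L.F)ˣ)` whose image in
`H²(Gal(L.F/ℚ), C_{L.F})` (through the `q`-th coordinate embedding into the ideles) is nonzero.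

* `map_classRepHom_ne_zero_of_torsion` : a `p`-torsion class of `H²(G, J_L)` with nonzero global
  invariant has nonzero image in `H²(G, C_L)` (sum formula for `p`-torsion classes + Hasse
  principle + exactness of `H²(Lˣ) → H²(J_L) → H²(C_L)`);
* `exists_single_class_ne_zero` : if `p` divides the order of a decomposition group above `q`,
  a `p`-torsion class supported at `q` with nonzero image in `H²(G, C_L)` exists;
* `exists_level_class`, `exists_level_class'` : the statement above, at a Kummer level.
-/

set_option autoImplicit false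

open scoped TensorProduct NumberField
open scoped Fermat.Agent.Lib.CFT.Global.SVersion Fermat.Agent.Lib.CFT.Global.SVersion.RepDescent
open CategoryTheory

noncomputable section

namespace Fermat.Agent.Lib.CFT.Global.SVersion.LocalGlobalLevel

open Fermat.Agent.Lib.CFT.Global Fermat.Agent.Lib.CFT.Global.EtaleAlg
open Fermat.Agent.Lib.CFT.Global.LocalFieldAt
open Fermat.Agent.Lib.CFT.Global.SVersion Fermat.Agent.Lib.CFT.Global.SVersion.RepDescent
open Fermat.Agent.Lib.CFT.Local.LocalBrauer (QZ)

section Finite

variable (L : Type) [Field L] [NumberField L]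
variable (G : Type) [Group G] [Finite G] [MulSemiringAction G L] [FaithfulSMul G L]

/-- A `p`-torsion class (`p` odd) of `H²(G, J_L)` with nonzero global invariant has nonzero image
in `H²(G, C_L)`. -/
theorem map_classRepHom_ne_zero_of_torsion (p : ℕ) (hp : p.Prime) (hp2 : p ≠ 2)
    (x : groupCohomology (ideleRep L G) 2) (hpx : p • x = 0)
    (hx : ClassFormation.globalInv ClassFormation.canonicalInv L G x ≠ 0) :
    (groupCohomology.functor ℤ G 2).map (classRepHom L G) x ≠ 0 := by
  intro h
  obtain ⟨α, rfl⟩ := exists_of_map_classRepHom_eq_zero L G x h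
  have hinj := hasse_principle_H2 L G (SecondIneq.Consequences.ideleClass_H1_isZero L G)
  have hα : p • α = 0 := by
    apply hinj
    have h1 : ((groupCohomology.functor ℤ G 2).map (principalRepHom L G)).hom (p • α) =
        p • ((groupCohomology.functor ℤ G 2).map (principalRepHom L G)).hom α :=
      map_nsmul _ _ _
    exact h1.trans (hpx.trans
      (map_zero ((groupCohomology.functor ℤ G 2).map (principalRepHom L G)).hom).symm)
  exact hx (ClassFormation.sumFormula_canonical L G p 1 hp hp2 α (by simpa using hα))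

/-- If the odd prime `p` divides the order of the decomposition group of a prime `m` above `q`,
there is a `p`-torsion class of `H²(G, (ℚ_q ⊗ L)ˣ)` with nonzero image in `H²(G, C_L)`. -/
theorem exists_single_class_ne_zero (q : Nat.Primes) (m : MaximalSpectrum (LocAlg L q))
    (p : ℕ) (hp : p.Prime) (hp2 : p ≠ 2)
    (hdvd : p ∣ Nat.card (MulAction.stabilizer G m)) :
    ∃ y : groupCohomology (Rep.ofMulDistribMulAction G (LocAlg L q)ˣ) 2,
      p • y = 0 ∧
      (groupCohomology.functor ℤ G 2).map (classRepHom L G)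
        (LocalGlobalFinite.singleMap L G q 2 y) ≠ 0 := by
  obtain ⟨y, hy, -, -, hinv⟩ := LocalGlobalFinite.exists_class_inv_eq
    ClassFormation.canonicalInv L G q m p hp.pos hdvd
  refine ⟨y, hy, ?_⟩
  apply map_classRepHom_ne_zero_of_torsion L G p hp hp2
  · rw [← map_nsmul, hy, map_zero]
  · rw [hinv]
    exact LocalGlobalFinite.one_div_ne_zero_addCircle p hp.one_lt

end Finite

section Level

local notation "Qbar" => AlgebraicClosure ℚ

variable (S : Finset Nat.Primes)

/-- **The finite-level chain of (LG-weak).**  For `p, q ∈ S` with `p` odd there are a Galois level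
`L` and a `p`-torsion class of `H²(Γℚ ⧸ L.V, (ℚ_q ⊗ L.F)ˣ)` whose image in
`H²(Γℚ ⧸ L.V, C_{L.F})` is nonzero. -/
theorem exists_level_class {p q : Nat.Primes} (hp : p ∈ S) (hq : q ∈ S) (hp2 : (p : ℕ) ≠ 2) :
    ∃ (L : GalLevel S)
      (y₀ : groupCohomology (Rep.ofMulDistribMulAction (QTop L) (LocAlg L.F q)ˣ) 2),
      (p : ℕ) • y₀ = 0 ∧
      (groupCohomology.functor ℤ (QTop L) 2).map (classRepHom L.F (QTop L))
        (LocalGlobalFinite.singleMap L.F (QTop L) q 2 y₀) ≠ 0 := by
  obtain ⟨L, hL⟩ := LocalGlobalKummer.exists_galLevel_dvd_card_stabilizer S hp hq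
  have hnt : Nontrivial (LocAlg L.F q) := inferInstance
  obtain ⟨I, hI⟩ := Ideal.exists_maximal (LocAlg L.F q)
  let m : MaximalSpectrum (LocAlg L.F q) := ⟨I, hI⟩
  obtain ⟨y, hy, hne⟩ := exists_single_class_ne_zero L.F (QTop L) q m p p.2 hp2 (hL m)
  exact ⟨L, y, hy, hne⟩

/-- `exists_level_class`, with the map on cohomology written as `groupCohomology.map`. -/
theorem exists_level_class' {p q : Nat.Primes} (hp : p ∈ S) (hq : q ∈ S) (hp2 : (p : ℕ) ≠ 2) :
    ∃ (L : GalLevel S)
      (y₀ : groupCohomology (Rep.ofMulDistribMulAction (QTop L) (LocAlg L.F q)ˣ) 2),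
      (p : ℕ) • y₀ = 0 ∧
      (groupCohomology.map (MonoidHom.id (QTop L)) (classRepHom L.F (QTop L)) 2).hom
        ((groupCohomology.map (MonoidHom.id (QTop L))
          (LocalGlobalFinite.ideleSingleRep L.F (QTop L) q) 2).hom y₀) ≠ 0 :=
  exists_level_class S hp hq hp2

end Level

end Fermat.Agent.Lib.CFT.Global.SVersion.LocalGlobalLevel
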