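import Fermat.Agent.Lib.CFT.Profinite.BridgePlaces
import Fermat.Agent.Lib.CFT.Global.SVersion.Ambient
import Fermat.Agent.Lib.CFT.Global.Places.LocAlgDecomp

/-!
# P-CFT Global/SVersion/LocalZero: the place dictionary for `J_S` (degree `0`)

`F` a finite extension of `ℚ` inside `Qbar`, `V = F.fixingSubgroup`, `q` a prime,
`φ_q = localGaloisToGlobal q : G_q → Γℚ`, and `r : ι → Γℚ` a system of representatives of the
double cosets `φ_q(G_q) \ Γℚ / V`.

* (Z2) `locProd q F r : ℚ_q ⊗ F → ∏ i, ℚ_q(ι(r_i F))`, `e ↦ (i ↦ locHom (r i) e)`, is an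
  isomorphism of `ℚ_q`-algebras (Chinese remainder theorem), hence an isomorphism on units.
* (Z1) `mulMap q : ℚ_q ⊗ Qbar → Ωq`, `c ⊗ x ↦ c · ι x`, the projection `piq q : AmbJ → Ωqˣ`
  and its twists `piqAt q g a = piq q (g • a)`; on the ideles of `F` the twist by `g` is
  `locHom g` of the `q`-component.
* (Z3) the invariants of `Ωqˣ` under the stabiliser of the coset `g V` are `ℚ_q(ι(gF))ˣ`.
-/

set_option autoImplicit false

open scoped TensorProduct

noncomputable section

namespace Fermat.Agent.Lib.CFT.Global.SVersion.LocalZero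

open Fermat.Agent.Lib.CFT.Global Fermat.Agent.Lib.CFT.Profinite.Bridge

local notation "Qbar" => AlgebraicClosure ℚ
local notation "Γℚ" => (AlgebraicClosure ℚ ≃ₐ[ℚ] AlgebraicClosure ℚ)

variable (q : Nat.Primes)

local notation "Ωq" => PadicAlgCl (pv q)
local notation "Gq" => (PadicAlgCl (pv q) ≃ₐ[ℚ_[pv q]] PadicAlgCl (pv q))

/-! ### (Z2) The Chinese remainder theorem for `ℚ_q ⊗ F` in embedding form -/

section CRT

variable (F : IntermediateField ℚ Qbar) [FiniteDimensional ℚ F] {ι : Type*} (r : ι → Γℚ)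

/-- The product of the maps `locHom (r i) : ℚ_q ⊗ F → ℚ_q(ι(r_i F))`. -/
def locProd : LocAlg F q →ₐ[ℚ_[pv q]]
    ∀ i, localFieldOf (pv q) (F.map ((r i : Γℚ) : Qbar →ₐ[ℚ] Qbar)) :=
  AlgHom.pi (fun i => locHomField (pv q) F (r i))

@[simp]
theorem locProd_apply (e : LocAlg F q) (i : ι) :
    locProd q F r e i = locHomField (pv q) F (r i) e := rfl

theorem locProd_apply_coe (e : LocAlg F q) (i : ι) :
    ((locProd q F r e i : localFieldOf (pv q) (F.map ((r i : Γℚ) : Qbar →ₐ[ℚ] Qbar))) : Ωq) =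
      locHom (pv q) F (r i) e := rfl

/-- The representatives cover all double cosets `φ_q(G_q) \ Γℚ / V`. -/
def Covers : Prop :=
  ∀ g : Γℚ, ∃ i, ∃ h : Gq, g⁻¹ * localGaloisToGlobal (pv q) h * r i ∈ F.fixingSubgroup

/-- The representatives lie in pairwise distinct double cosets. -/
def Separated : Prop :=
  ∀ i j, ∀ h : Gq, (r j)⁻¹ * localGaloisToGlobal (pv q) h * r i ∈ F.fixingSubgroup → i = j

variable {q F r}

theorem placeAt_eq_of_mem {g g' : Γℚ} {h : Gq}
    (hh : g'⁻¹ * localGaloisToGlobal (pv q) h * g ∈ F.fixingSubgroup) :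
    placeAt (pv q) F g = placeAt (pv q) F g' := by
  rw [placeAt_eq_iff]
  refine ⟨h, (g'⁻¹ * localGaloisToGlobal (pv q) h * g)⁻¹, inv_mem hh, ?_⟩
  group

theorem Covers.exists_eq (hc : Covers q F r) (m : MaximalSpectrum (LocAlg F q)) :
    ∃ i, placeAt (pv q) F (r i) = m := by
  obtain ⟨g, rfl⟩ := exists_placeAt_eq (pv q) F m
  obtain ⟨i, h, hh⟩ := hc g
  exact ⟨i, placeAt_eq_of_mem hh⟩

theorem Separated.placeAt_injective (hs : Separated q F r) :
    Function.Injective (fun i => placeAt (pv q) F (r i)) := by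
  intro i j hij
  obtain ⟨h, s, hs', e⟩ := (placeAt_eq_iff (pv q) F (r i) (r j)).1 hij
  refine hs i j h ?_
  rw [e]
  have : (localGaloisToGlobal (pv q) h * r i * s)⁻¹ * localGaloisToGlobal (pv q) h * r i = s⁻¹ := by
    group
  rw [this]
  exact inv_mem hs'

theorem ker_locHomField_eq (g : Γℚ) :
    RingHom.ker (locHomField (pv q) F g) = (placeAt (pv q) F g).asIdeal :=
  ker_locHomField (pv q) F g

theorem locProd_injective (hc : Covers q F r) : Function.Injective (locProd q F r) := by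
  rw [injective_iff_map_eq_zero]
  intro e he
  have hmem : ∀ m : MaximalSpectrum (LocAlg F q), e ∈ m.asIdeal := by
    intro m
    obtain ⟨i, rfl⟩ := hc.exists_eq m
    rw [← ker_locHomField_eq, RingHom.mem_ker]
    exact congr_fun he i
  have hj : e ∈ Ideal.jacobson (⊥ : Ideal (LocAlg F q)) := by
    rw [Ideal.jacobson, Submodule.mem_sInf]
    rintro J ⟨-, hJ⟩
    exact hmem ⟨J, hJ⟩
  rw [IsArtinianRing.jacobson_eq_radical] at hj
  have h0 : (⊥ : Ideal (LocAlg F q)).radical = ⊥ := nilradical_eq_zero (LocAlg F q)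
  rw [h0] at hj
  exact hj

theorem locProd_surjective [Finite ι] (hs : Separated q F r) :
    Function.Surjective (locProd q F r) := by
  intro y
  choose x hx using fun i => locHomField_surjective (pv q) F (r i) (y i)
  have hcop : Pairwise (Function.onFun IsCoprime
      (fun i => (placeAt (pv q) F (r i)).asIdeal)) := by
    intro i j hij
    rw [Function.onFun, Ideal.isCoprime_iff_sup_eq]
    refine Ideal.IsMaximal.coprime_of_ne (placeAt (pv q) F (r i)).isMaximal
      (placeAt (pv q) F (r j)).isMaximal (fun h => hij (hs.placeAt_injective ?_))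
    exact MaximalSpectrum.ext h
  obtain ⟨e, he⟩ := Ideal.exists_forall_sub_mem_ideal hcop x
  refine ⟨e, funext fun i => ?_⟩
  rw [locProd_apply, ← hx i]
  have := he i
  rw [← ker_locHomField_eq, RingHom.mem_ker, map_sub, sub_eq_zero] at this
  exact this

theorem locProd_bijective [Finite ι] (hc : Covers q F r) (hs : Separated q F r) :
    Function.Bijective (locProd q F r) :=
  ⟨locProd_injective hc, locProd_surjective hs⟩

variable (q F r)

/-- (Z2) `ℚ_q ⊗ F ≃ ∏ i, ℚ_q(ι(r_i F))`. -/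
def locProdEquiv [Finite ι] (hc : Covers q F r) (hs : Separated q F r) :
    LocAlg F q ≃ₐ[ℚ_[pv q]] ∀ i, localFieldOf (pv q) (F.map ((r i : Γℚ) : Qbar →ₐ[ℚ] Qbar)) :=
  AlgEquiv.ofBijective (locProd q F r) (locProd_bijective hc hs)

@[simp]
theorem locProdEquiv_apply [Finite ι] (hc : Covers q F r) (hs : Separated q F r)
    (e : LocAlg F q) : locProdEquiv q F r hc hs e = locProd q F r e := rfl

/-- (Z2) on units: `(ℚ_q ⊗ F)ˣ ≃ ∏ i, ℚ_q(ι(r_i F))ˣ`. -/
def locProdUnitsEquiv [Finite ι] (hc : Covers q F r) (hs : Separated q F r) :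
    (LocAlg F q)ˣ ≃* ∀ i, (localFieldOf (pv q) (F.map ((r i : Γℚ) : Qbar →ₐ[ℚ] Qbar)))ˣ :=
  (Units.mapEquiv (locProdEquiv q F r hc hs).toMulEquiv).trans MulEquiv.piUnits

theorem locProdUnitsEquiv_apply_coe [Finite ι] (hc : Covers q F r) (hs : Separated q F r)
    (u : (LocAlg F q)ˣ) (i : ι) :
    (((locProdUnitsEquiv q F r hc hs u i :
      (localFieldOf (pv q) (F.map ((r i : Γℚ) : Qbar →ₐ[ℚ] Qbar)))ˣ) :
        localFieldOf (pv q) (F.map ((r i : Γℚ) : Qbar →ₐ[ℚ] Qbar))) : Ωq) =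
      locHom (pv q) F (r i) (u : LocAlg F q) := rfl

end CRT

/-! ### (Z1) The projection `AmbJ → Ωqˣ` and its twists -/

section MulMap

local instance instTowerQqPadic_lz : IsScalarTower ℚ ℚ_[pv q] (PadicAlgCl (pv q)) :=
  IsScalarTower.of_algebraMap_eq' (Subsingleton.elim _ _)

/-- The `ℚ_q`-algebra homomorphism `ℚ_q ⊗ Qbar → Ωq`, `c ⊗ x ↦ c · ι x`. -/
def mulMap : LocAlg Qbar q →ₐ[ℚ_[pv q]] Ωq :=
  Algebra.TensorProduct.lift (Algebra.ofId ℚ_[pv q] Ωq) (padicEmbedding (pv q))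
    (fun _ _ => Commute.all _ _)

theorem mulMap_tmul (c : ℚ_[pv q]) (x : Qbar) :
    mulMap q (c ⊗ₜ[ℚ] x) = algebraMap ℚ_[pv q] Ωq c * padicEmbedding (pv q) x := by
  unfold mulMap
  rw [Algebra.TensorProduct.lift_tmul]
  rfl

theorem mulMap_one_tmul (x : Qbar) :
    mulMap q ((1 : ℚ_[pv q]) ⊗ₜ[ℚ] x) = padicEmbedding (pv q) x := by
  rw [mulMap_tmul, map_one, one_mul]

/-- `mulMap` after the map induced by `x ↦ g x` on `F` is `locHom g`. -/
theorem mulMap_locMap (F : IntermediateField ℚ Qbar) (g : Γℚ) (e : LocAlg F q) :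
    mulMap q (locMap ((MulSemiringAction.toRingHom Γℚ Qbar g).comp (incl F)) q e) =
      locHom (pv q) F g e := by
  induction e using TensorProduct.induction_on with
  | zero => rw [map_zero, map_zero, map_zero]
  | tmul c x =>
    rw [locMap_tmul, mulMap_tmul, locHom_tmul]
    rfl
  | add e e' he he' => rw [map_add, map_add, map_add, he, he']

/-- `mulMap` is equivariant for the action of `G_q` through `φ_q`. -/
theorem mulMap_smul (h : Gq) (e : LocAlg Qbar q) :
    mulMap q (localGaloisToGlobal (pv q) h • e) = h (mulMap q e) := by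
  induction e using TensorProduct.induction_on with
  | zero => rw [smul_zero, map_zero, map_zero]
  | tmul c x =>
    have e1 : localGaloisToGlobal (pv q) h • (c ⊗ₜ[ℚ] x : LocAlg Qbar q) =
        c ⊗ₜ[ℚ] (localGaloisToGlobal (pv q) h x) :=
      locMap_tmul _ q c x
    rw [e1, mulMap_tmul, mulMap_tmul, map_mul, AlgEquiv.commutes,
      padicEmbedding_localGaloisToGlobal]
  | add e e' he he' => rw [smul_add, map_add, map_add, map_add, he, he']

/-- The projection of the ambient group to `Ωqˣ`: the `q`-component followed by `mulMap`. -/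
def piq : AmbJ →* Ωqˣ where
  toFun a := Units.map (mulMap q : LocAlg Qbar q →* Ωq) (a.1 q)
  map_one' := map_one _
  map_mul' a b := map_mul _ _ _

@[simp]
theorem coe_piq (a : AmbJ) : ((piq q a : Ωqˣ) : Ωq) = mulMap q ((a.1 q : (LocAlg Qbar q)ˣ) : LocAlg Qbar q) :=
  rfl

/-- `piq` is equivariant for the action of `G_q` through `φ_q`. -/
theorem coe_piq_smul (h : Gq) (a : AmbJ) :
    ((piq q (localGaloisToGlobal (pv q) h • a) : Ωqˣ) : Ωq) = h ((piq q a : Ωqˣ) : Ωq) :=
  mulMap_smul q h _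

/-- The twist of `piq` by `g ∈ Γℚ`: `a ↦ piq (g • a)`. -/
def piqAt (g : Γℚ) : AmbJ →* Ωqˣ where
  toFun a := piq q (g • a)
  map_one' := by rw [smul_one, map_one]
  map_mul' a b := by rw [smul_mul', map_mul]

theorem piqAt_apply (g : Γℚ) (a : AmbJ) : piqAt q g a = piq q (g • a) := rfl

theorem piqAt_one (a : AmbJ) : piqAt q 1 a = piq q a := by rw [piqAt_apply, one_smul]

theorem piqAt_smul (g σ : Γℚ) (a : AmbJ) : piqAt q g (σ • a) = piqAt q (g * σ) a := by
  rw [piqAt_apply, piqAt_apply, mul_smul]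

/-- Equivariance of the twisted projection: for `h ∈ G_q`, `piqAt g ((g⁻¹ φ_q(h) g) • a) =
h (piqAt g a)`. -/
theorem coe_piqAt_conj_smul (g : Γℚ) (h : Gq) (a : AmbJ) :
    ((piqAt q g ((g⁻¹ * localGaloisToGlobal (pv q) h * g) • a) : Ωqˣ) : Ωq) =
      h ((piqAt q g a : Ωqˣ) : Ωq) := by
  rw [piqAt_smul, piqAt_apply, piqAt_apply]
  have e : g * (g⁻¹ * localGaloisToGlobal (pv q) h * g) = localGaloisToGlobal (pv q) h * g := by
    group
  rw [e, mul_smul]
  exact coe_piq_smul q h (g • a)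

/-- (Z1) On the ideles of `F`, the twisted projection `piqAt g` is `locHom g` of the
`q`-component. -/
theorem coe_piqAt_toAmb (F : IntermediateField ℚ Qbar) [FiniteDimensional ℚ F] (g : Γℚ)
    (b : Idele F) :
    ((piqAt q g (toAmb F b) : Ωqˣ) : Ωq) =
      locHom (pv q) F g (((b : IdeleProd F).1 q : (LocAlg F q)ˣ) : LocAlg F q) := by
  rw [← mulMap_locMap, locMap_comp]
  rfl

/-- (Z1), unit form. -/
theorem piqAt_toAmb (F : IntermediateField ℚ Qbar) [FiniteDimensional ℚ F] (g : Γℚ)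
    (b : Idele F) :
    piqAt q g (toAmb F b) =
      Units.map (locHom (pv q) F g : LocAlg F q →* Ωq) ((b : IdeleProd F).1 q) :=
  Units.ext (coe_piqAt_toAmb q F g b)

end MulMap

/-! ### (Z3) Invariants of `Ωqˣ` under the stabilisers -/

section Invariants

/-- An element of `Ωq` fixed by the fixing subgroup of an intermediate field lies in it. -/
theorem mem_of_forall_fixingSubgroup (K : IntermediateField ℚ_[pv q] Ωq) {x : Ωq}
    (hx : ∀ s ∈ K.fixingSubgroup, s x = x) : x ∈ K := by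
  have h := InfiniteGalois.fixedField_fixingSubgroup K
  rw [← h, IntermediateField.mem_fixedField_iff]
  exact hx

variable (F : IntermediateField ℚ Qbar)

/-- (Z3) An element of `Ωq` fixed by the stabiliser `{h | g⁻¹ φ_q(h) g ∈ V}` of the coset `g V`
lies in the local field `ℚ_q(ι(gF))`. -/
theorem mem_localFieldOf_of_fixed (g : Γℚ) {x : Ωq}
    (hx : ∀ h : Gq, g⁻¹ * localGaloisToGlobal (pv q) h * g ∈ F.fixingSubgroup → h x = x) :
    x ∈ localFieldOf (pv q) (F.map ((g : Γℚ) : Qbar →ₐ[ℚ] Qbar)) :=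
  mem_of_forall_fixingSubgroup q _ fun s hs =>
    hx s ((stabilizer_left_coset (pv q) F g s).2 hs)

/-- Conversely the elements of `ℚ_q(ι(gF))` are fixed by the stabiliser of `g V`. -/
theorem fixed_of_mem_localFieldOf (g : Γℚ) {x : Ωq}
    (hx : x ∈ localFieldOf (pv q) (F.map ((g : Γℚ) : Qbar →ₐ[ℚ] Qbar))) (h : Gq)
    (hh : g⁻¹ * localGaloisToGlobal (pv q) h * g ∈ F.fixingSubgroup) : h x = x :=
  (stabilizer_left_coset (pv q) F g h).1 hh ⟨x, hx⟩

/-- (Z3) as an iff. -/
theorem mem_localFieldOf_iff_fixed (g : Γℚ) (x : Ωq) :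
    x ∈ localFieldOf (pv q) (F.map ((g : Γℚ) : Qbar →ₐ[ℚ] Qbar)) ↔
      ∀ h : Gq, g⁻¹ * localGaloisToGlobal (pv q) h * g ∈ F.fixingSubgroup → h x = x :=
  ⟨fun hx h hh => fixed_of_mem_localFieldOf q F g hx h hh, mem_localFieldOf_of_fixed q F g⟩

end Invariants

end Fermat.Agent.Lib.CFT.Global.SVersion.LocalZero
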