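import Fermat.Agent.Lib.CFT.Global.SVersion.LocalProjConj
import Fermat.Agent.Lib.CFT.Global.SVersion.LocalZero

/-!
# Comparison of the two copies of the local projection (helper57, P-CFT Global/S-version)

`LocalZero.mulMap / piq / piqAt` (helper36, values in `PadicAlgCl (pv q)`) agree with
`ArithKDatum.locMult / rhoMul` (helper25) and `LocalProjConj.piq / lamg` (values in `Qqbar q`,
the same type up to unfolding `pv`).  Hence every statement of `LocalZero` about `piqAt q g`
applies verbatim to `λ_g = lamg q S W g`: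

* `mulMap_eq_locMult`, `val_piq_eq`, `val_piqAt_eq`;
* `val_toUnit_lamg_eq_piqAt` : `toUnit (λ_g (ofMul a)) = piqAt q g a` (values in `Qbar_q`);
* `lamg_eq_zero_iff` : `λ_g (ofMul a) = 0 ↔ piqAt q g a = 1`.
-/

set_option autoImplicit false

open scoped TensorProduct NumberField

noncomputable section

namespace Fermat.Agent.Lib.CFT.Global.SVersion.LocalProjBridge

open ExtCitation Fermat.Agent.Lib.CFT.Global Fermat.Agent.Lib.CFT.Global.SVersion
open Fermat.Agent.Lib.CFT.Local.LqModule
open Fermat.Agent.Lib.CFT.Duality.ArithKDatum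
open Fermat.Agent.Lib.CFT.Global.SVersion.LocalProjConj

local notation "Qbar" => AlgebraicClosure ℚ
local notation "Γℚ" => (AlgebraicClosure ℚ ≃ₐ[ℚ] AlgebraicClosure ℚ)

variable (q : Nat.Primes)

/-- The two multiplication maps `ℚ_q ⊗ Qbar → Qbar_q` agree. -/
theorem mulMap_eq_locMult (e : LocAlg Qbar q) :
    (LocalZero.mulMap q e : Qqbar q) = locMult q e := by
  induction e using TensorProduct.induction_on with
  | zero =>
    rw [map_zero, map_zero]
    rfl
  | tmul a x =>
    rw [LocalZero.mulMap_tmul, locMult_tmul]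
    rfl
  | add x y hx hy =>
    rw [map_add, map_add, ← hx, ← hy]
    rfl

theorem val_piq_eq (a : AmbJ) :
    (((LocalZero.piq q a : (PadicAlgCl (pv q))ˣ) : PadicAlgCl (pv q)) : Qqbar q) =
      ((piq q a : (Qqbar q)ˣ) : Qqbar q) := by
  rw [LocalZero.coe_piq, val_piq]
  exact mulMap_eq_locMult q _

theorem val_piqAt_eq (g : Γℚ) (a : AmbJ) :
    (((LocalZero.piqAt q g a : (PadicAlgCl (pv q))ˣ) : PadicAlgCl (pv q)) : Qqbar q) =
      ((piq q (g • a) : (Qqbar q)ˣ) : Qqbar q) := by
  rw [LocalZero.piqAt_apply]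
  exact val_piq_eq q (g • a)

variable (S : Finset Nat.Primes) (W : Subgroup Γℚ) (g : Γℚ)

/-- `λ_g` is helper36's twisted projection `piqAt q g`. -/
theorem val_toUnit_lamg_eq_piqAt (a : JSgrp S) :
    ((toUnit q ((lamg q S W g).hom (Additive.ofMul a)) : (Qqbar q)ˣ) : Qqbar q) =
      (((LocalZero.piqAt q g (a : AmbJ) : (PadicAlgCl (pv q))ˣ) : PadicAlgCl (pv q)) : Qqbar q) := by
  rw [val_piqAt_eq, toUnit_lamg, rhoMul_eq_piq, coe_smul_JSgrp]

theorem lamg_eq_zero_iff (a : JSgrp S) :
    (lamg q S W g).hom (Additive.ofMul a) = 0 ↔ LocalZero.piqAt q g (a : AmbJ) = 1 := by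
  constructor
  · intro h
    apply Units.ext
    have h1 := val_toUnit_lamg_eq_piqAt q S W g a
    rw [h] at h1
    exact h1.symm
  · intro h
    have h1 := val_toUnit_lamg_eq_piqAt q S W g a
    rw [h] at h1
    have h2 : toUnit q ((lamg q S W g).hom (Additive.ofMul a)) = 1 := Units.ext h1
    calc (lamg q S W g).hom (Additive.ofMul a)
        = ofUnit q (toUnit q ((lamg q S W g).hom (Additive.ofMul a))) := (ofUnit_toUnit q _).symm
      _ = ofUnit q 1 := by rw [h2]
      _ = 0 := ofUnit_one q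

end Fermat.Agent.Lib.CFT.Global.SVersion.LocalProjBridge
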