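import Fermat.Agent.Lib.CFT.Duality.BaseCase.ArithKDatum
import Fermat.Agent.Lib.CFT.Duality.BaseCase.Semilocal
import Fermat.Agent.Lib.CFT.Global.SVersion.LevelFamilyAt
import Fermat.Agent.Lib.CFT.Global.SVersion.LocalDegree
import Fermat.Agent.Lib.CFT.Profinite.BridgePlaces

/-!
# Conjugates of the local projection `ρ_q` (helper57, P-CFT Global/S-version, (P5) + (P6))

Companion of the definition of `ρ_q : res φ_q (J_S) ⟶ L_q` (`Duality/BaseCase/ArithKDatum.lean`,
helper25: `locMult`, `rhoMul`, `rho`).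

GENERIC (`φ : H →* G`, `V ≤ G`, `g : G`; `Semilocal.funStab φ V g = {h | g⁻¹ * φ h * g ∈ V}`):
* `stabHom φ V g : funStab φ V g →* V`, `h ↦ g⁻¹ * φ h * g` (`coe_stabHom`),
  `funStab_eq_comap_conj`, `subtype_comp_stabHom`, `comap_stabHom_subgroupOf`;
* `isCompatible_stabHom`, `isCompatible_stabHom_of_le`, `isCompatible_restrict_comap_stabHom`;
* `lamOf ρ g : res (stabHom φ V g) (res V M) ⟶ res (funStab φ V g) Y`, `m ↦ ρ (g • m)`, for
  `ρ : res φ M ⟶ Y` (`lamOf_hom_apply`).

ARITHMETIC (`q : Nat.Primes`, `φ_q = primeLocalToGlobal q`, `W ≤ Γℚ`, `g : Γℚ`):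
* `Sg q W g`, `cg q W g`, `lamg S q W g` (`lamg_hom_apply`, `toUnit_lamg`);
* `isCompatible_cg`, `isCompatible_cg_galFamilyOver`, `isCompatible_restrict_comap_cg`,
  `comap_cg_subgroupOf`, `Sg_eq_comap_conjLoc`;
* `piq q : AmbJ →* (Qqbar q)ˣ` extending `rhoMul` (`rhoMul_eq_piq`, `val_piq_smul`);
* the FINITE-LEVEL FORMULA `val_piq_smul_toAmb` / `piq_smul_toAmb`: for `F` finite over `ℚ`,
  `b : Idele F`, `g : Γℚ`:  `piq q (g • toAmb F b) = locHom q F g (b_q)` where
  `Bridge.locHom q F g : ℚ_q ⊗ F → Qbar_q`, `a ⊗ x ↦ a · ι_q (g x)`; consequences for `rhoMul`,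
  `rho` and `lamg` (`toUnit_lamg_of_eq_toAmb`).
-/

set_option autoImplicit false

open scoped TensorProduct NumberField
open CategoryTheory

noncomputable section

namespace Fermat.Agent.Lib.CFT.Global.SVersion.LocalProjConj

open ExtCitation Fermat.Agent.Lib.CFT.Profinite Fermat.Agent.Lib.CFT.Profinite.Bridge
open Fermat.Agent.Lib.CFT.Profinite.LES LevelFamily
open Fermat.Agent.Lib.CFT.Global Fermat.Agent.Lib.CFT.Global.SVersion
open Fermat.Agent.Lib.CFT.Local.LqModule
open Fermat.Agent.Lib.CFT.Duality.ArithKDatum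
open Fermat.Agent.Lib.CFT.Duality.Semilocal

/-! ### Generic part -/

section Generic

universe u

variable {k : Type u} [CommRing k] {G H : Type u} [Group G] [Group H] (φ : H →* G)
  (V : Subgroup G)

/-- `c_g : funStab φ V g →* V`, `h ↦ g⁻¹ * φ h * g`. -/
def stabHom (g : G) : ↥(funStab φ V g) →* ↥V where
  toFun h := ⟨g⁻¹ * φ h * g, h.2⟩
  map_one' := Subtype.ext (by simp)
  map_mul' a b := Subtype.ext (by
    show g⁻¹ * φ ((a : H) * (b : H)) * g = (g⁻¹ * φ a * g) * (g⁻¹ * φ b * g)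
    rw [map_mul]
    group)

@[simp] theorem coe_stabHom (g : G) (h : ↥(funStab φ V g)) :
    ((stabHom φ V g h : V) : G) = g⁻¹ * φ h * g := rfl

theorem funStab_eq_comap_conj (g : G) :
    funStab φ V g = V.comap ((MulAut.conj g⁻¹).toMonoidHom.comp φ) := by
  ext h
  rw [mem_funStab, Subgroup.mem_comap]
  simp

theorem subtype_comp_stabHom (g : G) :
    V.subtype.comp (stabHom φ V g) =
      ((MulAut.conj g⁻¹).toMonoidHom.comp φ).comp (funStab φ V g).subtype := by
  ext h
  simp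

/-- The preimage under `c_g` of a NORMAL subgroup `U` (cut down to `V`) is `φ⁻¹ U` (cut down to the
stabiliser). -/
theorem comap_stabHom_subgroupOf (g : G) (U : Subgroup G) [hU : U.Normal] :
    (U.subgroupOf V).comap (stabHom φ V g) = (U.comap φ).subgroupOf (funStab φ V g) := by
  ext h
  rw [Subgroup.mem_comap, Subgroup.mem_subgroupOf, Subgroup.mem_subgroupOf, Subgroup.mem_comap,
    coe_stabHom]
  constructor
  · intro hh
    have h1 := hU.conj_mem _ hh g
    have h2 : g * (g⁻¹ * φ h * g) * g⁻¹ = φ h := by group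
    rwa [h2] at h1
  · intro hh
    have h1 := hU.conj_mem _ hh g⁻¹
    rwa [inv_inv] at h1

variable {φ} in
theorem isCompatible_stabHom {𝒰 : LevelFamily G} {𝒱 : LevelFamily H} (hφ : IsCompatible 𝒱 𝒰 φ)
    (g : G) :
    IsCompatible (restrict 𝒱 (funStab φ V g)) (restrict 𝒰 V) (stabHom φ V g) := by
  rintro _ ⟨U, hU, rfl⟩
  obtain ⟨W, hW, hWU, hn⟩ := 𝒰.normal_le U hU
  obtain ⟨W', hW', hle⟩ := hφ W hW
  refine ⟨W'.comap (funStab φ V g).subtype, comap_mem_comap_levels _ hW', fun s hs => ?_⟩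
  have hs' : (s : H) ∈ W' := hs
  show ((stabHom φ V g s : V) : G) ∈ U
  rw [coe_stabHom]
  have h1 := hn.conj_mem _ (hle hs') g⁻¹
  rw [inv_inv] at h1
  exact hWU h1

variable {φ} in
/-- Variant: the target family may be any family on `V` coarser than `restrict 𝒰 V`. -/
theorem isCompatible_stabHom_of_le {𝒰 : LevelFamily G} {𝒱 : LevelFamily H}
    (hφ : IsCompatible 𝒱 𝒰 φ) (g : G) {𝒢 : LevelFamily V}
    (h𝒢 : IsCompatible (restrict 𝒰 V) 𝒢 (MonoidHom.id V)) :
    IsCompatible (restrict 𝒱 (funStab φ V g)) 𝒢 (stabHom φ V g) := by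
  intro U hU
  obtain ⟨U', hU', hle⟩ := h𝒢 U hU
  obtain ⟨U'', hU'', hle'⟩ := isCompatible_stabHom V hφ g U' hU'
  exact ⟨U'', hU'', fun x hx => hle (hle' hx)⟩

variable {φ} in
/-- Every level of the family pulled back along `c_g` contains a level of the restricted local
family. -/
theorem isCompatible_restrict_comap_stabHom {𝒰 : LevelFamily G} {𝒱 : LevelFamily H}
    (hφ : IsCompatible 𝒱 𝒰 φ) (g : G) {𝒢 : LevelFamily V}
    (h𝒢 : IsCompatible (restrict 𝒰 V) 𝒢 (MonoidHom.id V)) :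
    IsCompatible (restrict 𝒱 (funStab φ V g)) (comap 𝒢 (stabHom φ V g))
      (MonoidHom.id ↥(funStab φ V g)) := by
  rintro _ ⟨U, hU, rfl⟩
  obtain ⟨U', hU', hle⟩ := isCompatible_stabHom_of_le V hφ g h𝒢 U hU
  exact ⟨U', hU', hle⟩

variable {φ V} in
/-- `λ_g : res c_g (res V M) ⟶ res (funStab φ V g) Y`, `m ↦ ρ (g • m)`. -/
def lamOf {M : Rep.{u} k G} {Y : Rep.{u} k H} (ρ : Rep.res φ M ⟶ Y) (g : G) :
    Rep.res (stabHom φ V g) (Rep.res V.subtype M) ⟶ Rep.res (funStab φ V g).subtype Y :=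
  Rep.ofHom ⟨ρ.hom.toLinearMap ∘ₗ M.ρ g, fun s => by
    ext m
    show ρ.hom (M.ρ g (M.ρ ((stabHom φ V g s : V) : G) m)) = Y.ρ (s : H) (ρ.hom (M.ρ g m))
    rw [coe_stabHom, ← Module.End.mul_apply, ← map_mul]
    have h1 : g * (g⁻¹ * φ (s : H) * g) = φ (s : H) * g := by group
    rw [h1, map_mul, Module.End.mul_apply]
    exact Rep.hom_comm_apply ρ (s : H) (M.ρ g m)⟩

variable {φ V} in
@[simp] theorem lamOf_hom_apply {M : Rep.{u} k G} {Y : Rep.{u} k H} (ρ : Rep.res φ M ⟶ Y) (g : G)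
    (m : M) : (lamOf (V := V) ρ g).hom m = ρ.hom (M.ρ g m) := rfl

end Generic

/-! ### Arithmetic part -/

section Arith

open Fermat.Agent.Lib.CFT.Duality

local notation "Qbar" => AlgebraicClosure ℚ
local notation "Γℚ" => (AlgebraicClosure ℚ ≃ₐ[ℚ] AlgebraicClosure ℚ)

variable (q : Nat.Primes) (S : Finset Nat.Primes) (W : Subgroup Γℚ) (g : Γℚ)

/-- `S_g = {h ∈ G_q | g⁻¹ * φ_q h * g ∈ W}`, the stabiliser of the coset `g W` (the decomposition
group of the place `g w₀` of the fixed field of `W`). -/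
abbrev Sg : Subgroup (primeLocalGaloisGroup q) := funStab (primeLocalToGlobal q) W g

theorem mem_Sg {h : primeLocalGaloisGroup q} :
    h ∈ Sg q W g ↔ g⁻¹ * primeLocalToGlobal q h * g ∈ W := Iff.rfl

/-- `c_g : S_g →* W`, `h ↦ g⁻¹ * φ_q h * g`. -/
abbrev cg : ↥(Sg q W g) →* ↥W := stabHom (primeLocalToGlobal q) W g

theorem coe_cg (h : ↥(Sg q W g)) :
    ((cg q W g h : W) : Γℚ) = g⁻¹ * primeLocalToGlobal q h * g := rfl

/-- `S_g` in the form used by `LocalDegree.exists_level_pow_dvd_relIndex_prime`. -/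
theorem Sg_eq_comap_conj :
    Sg q W g = W.comap ((MulAut.conj g⁻¹).toMonoidHom.comp (primeLocalToGlobal q)) :=
  funStab_eq_comap_conj _ _ _

/-- `λ_g : res c_g (res W J_S) ⟶ res S_g L_q`, `j ↦ ρ_q (g • j)`. -/
def lamg : Rep.res (cg q W g) (Rep.res W.subtype (JS S)) ⟶ Rep.res (Sg q W g).subtype (Lq q) :=
  lamOf (rho q S) g

theorem lamg_hom_apply (j : JS S) :
    (lamg q S W g).hom j = (rho q S).hom ((JS S).ρ g j) := rfl

theorem JS_ρ_ofMul (σ : Γℚ) (a : JSgrp S) :
    (JS S).ρ σ (Additive.ofMul a) = Additive.ofMul (σ • a) := rfl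

/-- `λ_g` on the multiplicative side. -/
theorem toUnit_lamg (a : JSgrp S) :
    toUnit q ((lamg q S W g).hom (Additive.ofMul a)) = rhoMul q S (g • a) := rfl

theorem isCompatible_cg :
    IsCompatible (restrict (primeLocalLevels q) (Sg q W g)) (restrict (levelsS S) W) (cg q W g) :=
  isCompatible_stabHom W (isCompatible_primeLocalLevels S q) g

/-- For a normal level `U`: `c_g⁻¹ (U ∩ W) = S_g ∩ φ_q⁻¹ U`. -/
theorem comap_cg_subgroupOf (U : Subgroup Γℚ) [U.Normal] :
    (U.subgroupOf W).comap (cg q W g) =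
      (U.comap (primeLocalToGlobal q)).subgroupOf (Sg q W g) :=
  comap_stabHom_subgroupOf _ _ g U

section Over

variable {S}
variable (F₀ : IntermediateField ℚ Qbar) (hF₀ : F₀.IsUnramifiedOutside S)

theorem isCompatible_cg_galFamilyOver :
    IsCompatible (restrict (primeLocalLevels q) (Sg q F₀.fixingSubgroup g))
      (galFamilyOver F₀ hF₀) (cg q F₀.fixingSubgroup g) :=
  isCompatible_stabHom_of_le _ (isCompatible_primeLocalLevels S q) g
    (isCompatible_restrict_galFamilyOver F₀ hF₀)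

/-- `𝒲 → 𝒲ˢ`: every level of `comap (galFamilyOver F₀) c_g` contains an open subgroup of `S_g`. -/
theorem isCompatible_restrict_comap_cg :
    IsCompatible (restrict (primeLocalLevels q) (Sg q F₀.fixingSubgroup g))
      (comap (galFamilyOver F₀ hF₀) (cg q F₀.fixingSubgroup g))
      (MonoidHom.id ↥(Sg q F₀.fixingSubgroup g)) :=
  isCompatible_restrict_comap_stabHom _ (isCompatible_primeLocalLevels S q) g
    (isCompatible_restrict_galFamilyOver F₀ hF₀)

/-- The levels of `𝒲ˢ = comap (galFamilyOver F₀) c_g` are the `S_g ∩ φ_q⁻¹ (L.V)`. -/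
theorem mem_comap_galFamilyOver_levels {U : Subgroup ↥(Sg q F₀.fixingSubgroup g)} :
    U ∈ (comap (galFamilyOver F₀ hF₀) (cg q F₀.fixingSubgroup g)).levels ↔
      ∃ L : GalLevel S, F₀ ≤ L.F ∧
        U = ((L.V).comap (primeLocalToGlobal q)).subgroupOf (Sg q F₀.fixingSubgroup g) := by
  constructor
  · rintro ⟨_, ⟨L, hL, rfl⟩, rfl⟩
    exact ⟨L, hL, comap_cg_subgroupOf q _ g L.V⟩
  · rintro ⟨L, hL, rfl⟩
    exact ⟨_, ⟨L, hL, rfl⟩, comap_cg_subgroupOf q _ g L.V⟩

/-- All levels of `𝒲ˢ` are normal in `S_g`. -/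
theorem comap_galFamilyOver_normal {U : Subgroup ↥(Sg q F₀.fixingSubgroup g)}
    (hU : U ∈ (comap (galFamilyOver F₀ hF₀) (cg q F₀.fixingSubgroup g)).levels) : U.Normal := by
  obtain ⟨U', hU', rfl⟩ := hU
  have := galFamilyOver_normal hU'
  infer_instance

end Over

/-! ### The projection on all of `AmbJ` and the finite-level formula -/

/-- The projection `AmbJ → Qbar_qˣ`: the `q`-component followed by the multiplication map
(`rhoMul q S` is its restriction to `J_S`). -/
def piq : AmbJ →* (Qqbar q)ˣ :=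
  (Units.map (locMult q : LocAlg Qbar q →* Qqbar q)).comp
    ((Pi.evalMonoidHom (fun q' : Nat.Primes => (LocAlg Qbar q')ˣ) q).comp
      (MonoidHom.fst (∀ q' : Nat.Primes, (LocAlg Qbar q')ˣ) (ArchAlg Qbar)ˣ))

theorem val_piq (a : AmbJ) :
    ((piq q a : (Qqbar q)ˣ) : Qqbar q) =
      locMult q ((a.1 q : (LocAlg Qbar q)ˣ) : LocAlg Qbar q) := rfl

theorem rhoMul_eq_piq (a : JSgrp S) : rhoMul q S a = piq q (a : AmbJ) := rfl

/-- Equivariance of `piq` along `φ_q`. -/
theorem val_piq_smul (s : primeLocalGaloisGroup q) (a : AmbJ) :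
    ((piq q (primeLocalToGlobal q s • a) : (Qqbar q)ˣ) : Qqbar q) =
      aut q s ((piq q a : (Qqbar q)ˣ) : Qqbar q) := by
  rw [val_piq, val_piq, ← locMult_smul]
  rfl

variable (F : IntermediateField ℚ Qbar)

/-- The finite-level multiplication map `ℚ_q ⊗ F → Qbar_q`, `a ⊗ x ↦ a · ι_q (g x)`
(`= Bridge.locHom (pv q) F g`, see `locMul_eq_locHom`). -/
def locMul : LocAlg F q →+* Qqbar q :=
  (locMult q).comp
    ((locMap ((MulSemiringAction.toRingHom Γℚ Qbar g).comp (incl F)) q :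
      LocAlg F q →ₐ[ℚ_[pv q]] LocAlg Qbar q) : LocAlg F q →+* LocAlg Qbar q)

theorem locMul_apply (e : LocAlg F q) :
    locMul q g F e =
      locMult q (locMap ((MulSemiringAction.toRingHom Γℚ Qbar g).comp (incl F)) q e) := rfl

@[simp] theorem locMul_tmul (a : ℚ_[pv q]) (x : F) :
    locMul q g F (a ⊗ₜ[ℚ] x) = qqToQqbar q a * embQ q (g (x : Qbar)) := by
  rw [locMul_apply, locMap_tmul, locMult_tmul]
  rfl

/-- `locMul` is helper36's `Bridge.locHom`. -/
theorem locMul_eq_locHom (e : LocAlg F q) :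
    locMul q g F e = Bridge.locHom (pv q) F g e := by
  induction e using TensorProduct.induction_on with
  | zero =>
    rw [map_zero, map_zero]
    rfl
  | tmul a x =>
    rw [locMul_tmul, Bridge.locHom_tmul]
    rfl
  | add x y hx hy =>
    rw [map_add, map_add, hx, hy]
    rfl

/-- `locMul` only depends on the coset `g * F.fixingSubgroup`. -/
theorem locMul_mul_of_mem_fixingSubgroup {s : Γℚ} (hs : s ∈ F.fixingSubgroup) (e : LocAlg F q) :
    locMul q (g * s) F e = locMul q g F e := by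
  induction e using TensorProduct.induction_on with
  | zero => rw [map_zero, map_zero]
  | tmul a x =>
    rw [locMul_tmul, locMul_tmul, AlgEquiv.mul_apply,
      (IntermediateField.mem_fixingSubgroup_iff F s).1 hs x x.2]
  | add x y hx hy => rw [map_add, map_add, hx, hy]

/-- Equivariance of `locMul` in `g` along `φ_q`. -/
theorem locMul_primeLocalToGlobal_mul (h : primeLocalGaloisGroup q) (e : LocAlg F q) :
    locMul q (primeLocalToGlobal q h * g) F e = aut q h (locMul q g F e) := by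
  induction e using TensorProduct.induction_on with
  | zero => rw [map_zero, map_zero, map_zero]
  | tmul a x =>
    rw [locMul_tmul, locMul_tmul, AlgEquiv.mul_apply, embQ_primeLocalToGlobal, map_mul,
      aut_qqToQqbar]
  | add x y hx hy => rw [map_add, map_add, hx, hy, map_add]

variable [FiniteDimensional ℚ F]

/-- **Finite-level formula**: the `g`-twisted projection of an idele of the finite level `F` is
the image of its `q`-component under `a ⊗ x ↦ a · ι_q (g x)`. -/
theorem val_piq_smul_toAmb (b : Idele F) :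
    ((piq q (g • toAmb F b) : (Qqbar q)ˣ) : Qqbar q) =
      locMul q g F (((b : IdeleProd F).1 q : (LocAlg F q)ˣ) : LocAlg F q) := by
  rw [val_piq, locMul_apply, locMap_comp]
  rfl

theorem piq_smul_toAmb (b : Idele F) :
    piq q (g • toAmb F b) =
      Units.map (locMul q g F : LocAlg F q →* Qqbar q) ((b : IdeleProd F).1 q) :=
  Units.ext (val_piq_smul_toAmb q g F b)

theorem val_piq_smul_toAmb_eq_locHom (b : Idele F) :
    ((piq q (g • toAmb F b) : (Qqbar q)ˣ) : Qqbar q) =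
      Bridge.locHom (pv q) F g (((b : IdeleProd F).1 q : (LocAlg F q)ˣ) : LocAlg F q) := by
  rw [val_piq_smul_toAmb, locMul_eq_locHom]

/-- The untwisted case `g = 1`. -/
theorem piq_toAmb (b : Idele F) :
    piq q (toAmb F b) =
      Units.map (locMul q 1 F : LocAlg F q →* Qqbar q) ((b : IdeleProd F).1 q) := by
  rw [← piq_smul_toAmb, one_smul]

/-- The finite-level formula for `rhoMul`. -/
theorem rhoMul_smul_of_eq_toAmb (b : Idele F) (j : JSgrp S) (hj : (j : AmbJ) = toAmb F b) :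
    rhoMul q S (g • j) =
      Units.map (locMul q g F : LocAlg F q →* Qqbar q) ((b : IdeleProd F).1 q) := by
  rw [rhoMul_eq_piq, coe_smul_JSgrp, hj, piq_smul_toAmb]

/-- The finite-level formula for `λ_g`. -/
theorem toUnit_lamg_of_eq_toAmb (b : Idele F) (j : JSgrp S) (hj : (j : AmbJ) = toAmb F b) :
    toUnit q ((lamg q S W g).hom (Additive.ofMul j)) =
      Units.map (locMul q g F : LocAlg F q →* Qqbar q) ((b : IdeleProd F).1 q) := by
  rw [toUnit_lamg, rhoMul_smul_of_eq_toAmb q S g F b j hj]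

end Arith

end Fermat.Agent.Lib.CFT.Global.SVersion.LocalProjConj
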