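import Fermat.Agent.Lib.CFT.Global.PlacesInfinite

/-!
# P-CFT Global/SVersion/LocalZeroArch: the archimedean factor is divisible by odd integers

(Z4) For a number field `L` and an odd `p`, every element of `ℝ ⊗ L` is a `p`-th power; in
particular the unit group `(ℝ ⊗ L)ˣ` is `p`-divisible.
-/

set_option autoImplicit false

open scoped TensorProduct

namespace Fermat.Agent.Lib.CFT.Global.SVersion.LocalZero

open Fermat.Agent.Lib.CFT.Global NumberField

/-- Every real number is a `p`-th power for odd `p`. -/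
theorem exists_pow_eq_real {p : ℕ} (hp : Odd p) (x : ℝ) : ∃ y : ℝ, y ^ p = x := by
  have hp0 : p ≠ 0 := fun h => by simp [h] at hp
  rcases le_total 0 x with hx | hx
  · exact ⟨x ^ ((p : ℝ)⁻¹), Real.rpow_inv_natCast_pow hx hp0⟩
  · refine ⟨-((-x) ^ ((p : ℝ)⁻¹)), ?_⟩
    rw [hp.neg_pow, Real.rpow_inv_natCast_pow (neg_nonneg.2 hx) hp0, neg_neg]

/-- Every complex number is a `p`-th power for `p ≠ 0`. -/
theorem exists_pow_eq_complex {p : ℕ} (hp0 : p ≠ 0) (x : ℂ) : ∃ y : ℂ, y ^ p = x :=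
  IsAlgClosed.exists_pow_nat_eq x (Nat.pos_of_ne_zero hp0)

variable (L : Type) [Field L] [NumberField L]

/-- Every element of the mixed space `ℝ^r₁ × ℂ^r₂` is a `p`-th power for odd `p`. -/
theorem exists_pow_eq_mixedSpace {p : ℕ} (hp : Odd p) (x : mixedEmbedding.mixedSpace L) :
    ∃ y : mixedEmbedding.mixedSpace L, y ^ p = x := by
  have hp0 : p ≠ 0 := fun h => by simp [h] at hp
  choose y1 hy1 using fun w => exists_pow_eq_real hp (x.1 w)
  choose y2 hy2 using fun w => exists_pow_eq_complex hp0 (x.2 w)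
  refine ⟨(y1, y2), Prod.ext (funext fun w => ?_) (funext fun w => ?_)⟩
  · exact hy1 w
  · exact hy2 w

/-- (Z4) Every element of `ℝ ⊗ L` is a `p`-th power for odd `p`. -/
theorem exists_pow_eq_archAlg {p : ℕ} (hp : Odd p) (x : ArchAlg L) : ∃ y : ArchAlg L, y ^ p = x := by
  obtain ⟨y, hy⟩ := exists_pow_eq_mixedSpace L hp (PlacesInfinite.archEquivMixed L x)
  refine ⟨(PlacesInfinite.archEquivMixed L).symm y, ?_⟩
  rw [← map_pow, hy, AlgEquiv.symm_apply_apply]

/-- (Z4) The unit group of `ℝ ⊗ L` is `p`-divisible for odd `p`. -/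
theorem exists_pow_eq_archUnits {p : ℕ} (hp : Odd p) (u : (ArchAlg L)ˣ) :
    ∃ v : (ArchAlg L)ˣ, v ^ p = u := by
  have hp0 : p ≠ 0 := fun h => by simp [h] at hp
  obtain ⟨y, hy⟩ := exists_pow_eq_archAlg L hp (u : ArchAlg L)
  have hu : IsUnit y := (isUnit_pow_iff hp0).1 (hy ▸ u.isUnit)
  refine ⟨hu.unit, Units.ext ?_⟩
  rw [Units.val_pow_eq_pow_val, IsUnit.unit_spec, hy]

end Fermat.Agent.Lib.CFT.Global.SVersion.LocalZero
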