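import Fermat.Agent.Lib.CFT.Global.SVersion.LocalZero
import Fermat.Agent.Lib.CFT.Global.SVersion.LocalZeroArch
import Fermat.Agent.Lib.CFT.Global.SVersion.Descent

/-!
# P-CFT Global/SVersion/LocalZeroMain: `(J_S)^W` in terms of local fields (degree `0`)

`F₀` a finite extension of `ℚ` inside `Qbar` unramified outside `S`, `W = F₀.fixingSubgroup`,
and for every prime `q` a system `r q : ι q → Γℚ` of representatives of the double cosets
`φ_q(G_q) \ Γℚ / W`.  The map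
`Θ : (J_S)^W → ∏_{q ∈ S} ∏_i ℚ_q(ι(r_{q,i} F₀))ˣ`, `a ↦ piqAt q (r q i) a`,
is surjective, its kernel is the archimedean factor, and the archimedean factor is `p`-divisible
for odd `p`.  Hence `Θ` induces an isomorphism modulo `p`-th powers.
-/

set_option autoImplicit false

open scoped TensorProduct

noncomputable section

namespace Fermat.Agent.Lib.CFT.Global.SVersion.LocalZero

open Fermat.Agent.Lib.CFT.Global Fermat.Agent.Lib.CFT.Profinite.Bridge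
open Fermat.Agent.Lib.CFT.Global.SVersion.Descent
open scoped Fermat.Agent.Lib.CFT.Global.SVersion

local notation "Qbar" => AlgebraicClosure ℚ
local notation "Γℚ" => (AlgebraicClosure ℚ ≃ₐ[ℚ] AlgebraicClosure ℚ)

variable (S : Finset Nat.Primes) (F₀ : IntermediateField ℚ Qbar) [FiniteDimensional ℚ F₀]

/-! ### Ideles with prescribed components -/

/-- The idele with prescribed components which are trivial outside `S`. -/
def mkAtS (u : ∀ q : Nat.Primes, (LocAlg F₀ q)ˣ) (hu : ∀ q ∉ S, u q = 1) (v : (ArchAlg F₀)ˣ) :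
    Idele F₀ :=
  ⟨(u, v), by
    refine Set.Finite.subset S.finite_toSet ?_
    intro q hq
    by_contra hqS
    apply hq
    simp only [Finset.mem_coe] at hqS
    show u q ∈ locIntUnits F₀ q
    rw [hu q hqS]
    exact one_mem _⟩

@[simp] theorem mkAtS_fst (u : ∀ q : Nat.Primes, (LocAlg F₀ q)ˣ) (hu : ∀ q ∉ S, u q = 1)
    (v : (ArchAlg F₀)ˣ) (q : Nat.Primes) : (mkAtS S F₀ u hu v : IdeleProd F₀).1 q = u q := rfl

@[simp] theorem mkAtS_snd (u : ∀ q : Nat.Primes, (LocAlg F₀ q)ˣ) (hu : ∀ q ∉ S, u q = 1)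
    (v : (ArchAlg F₀)ˣ) : (mkAtS S F₀ u hu v : IdeleProd F₀).2 = v := rfl

theorem mkAtS_mem_ideleAtS (u : ∀ q : Nat.Primes, (LocAlg F₀ q)ˣ) (hu : ∀ q ∉ S, u q = 1)
    (v : (ArchAlg F₀)ˣ) : mkAtS S F₀ u hu v ∈ ideleAtS S F₀ :=
  fun q hq => hu q hq

/-! ### (D1), (D2): descent to a level field which need not be normal -/

variable {S F₀}

/-- (D1) Membership of an idele of `F₀` in `J_S` is tested at the level `F₀`. -/
theorem toAmb_mem_ideleSS_iff' (hF₀ : F₀.IsUnramifiedOutside S) (b : Idele F₀) :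
    toAmb F₀ b ∈ ideleSS S ↔ b ∈ ideleAtS S F₀ := by
  set L := GalLevel.ofUnram F₀ hF₀ with hL
  have h : F₀ ≤ L.F := GalLevel.le_ofUnram F₀ hF₀
  rw [← toAmb_levelMap h b, toAmb_mem_ideleSS_iff S L]
  exact ideleMap_mem_ideleAtS_iff S _ b

/-- (D2) An element of `⋃_F Idele F` fixed by `W = F₀.fixingSubgroup` is an idele of `F₀`. -/
theorem exists_toAmb_eq_of_fixed (hF₀ : F₀.IsUnramifiedOutside S) {a : AmbJ} (ha : a ∈ ideleS S)
    (hfix : ∀ σ ∈ F₀.fixingSubgroup, σ • a = a) : ∃ b : Idele F₀, toAmb F₀ b = a := by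
  obtain ⟨L', hle, b, -, rfl⟩ := LevelSubgroups.exists_rep_of_le ha (GalLevel.ofUnram F₀ hF₀)
  have h : F₀ ≤ L'.F := (GalLevel.le_ofUnram F₀ hF₀).trans hle
  obtain ⟨b₀, hb₀⟩ := exists_levelMap_eq_of_fixed h b (fun σ hσ => by
    apply toAmb_injective L'.F
    rw [toAmb_smul]
    exact hfix σ hσ)
  exact ⟨b₀, by rw [← hb₀, toAmb_levelMap]⟩

/-- (D2) `(J_S)^W = J_S(F₀)`. -/
theorem exists_toAmb_eq_of_fixed_ideleSS (hF₀ : F₀.IsUnramifiedOutside S) {a : AmbJ}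
    (ha : a ∈ ideleSS S) (hfix : ∀ σ ∈ F₀.fixingSubgroup, σ • a = a) :
    ∃ b ∈ ideleAtS S F₀, toAmb F₀ b = a := by
  obtain ⟨b, rfl⟩ := exists_toAmb_eq_of_fixed hF₀ (ideleSS_le_ideleS S ha) hfix
  exact ⟨b, (toAmb_mem_ideleSS_iff' hF₀ b).1 ha, rfl⟩

/-! ### (D3)-(D6): the map `Θ` -/

variable {ι : Nat.Primes → Type*} [∀ q, Finite (ι q)] (r : ∀ q, ι q → Γℚ)

/-- (D3) Surjectivity of `Θ`: every family of units of the local fields `ℚ_q(ι(r_{q,i} F₀))` is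
the image of a `W`-invariant element of `J_S` with trivial archimedean component. -/
theorem exists_piqAt_eq (hF₀ : F₀.IsUnramifiedOutside S)
    (hc : ∀ q ∈ S, Covers q F₀ (r q)) (hs : ∀ q ∈ S, Separated q F₀ (r q))
    (y : ∀ q, ∀ i : ι q,
      (localFieldOf (pv q) (F₀.map ((r q i : Γℚ) : Qbar →ₐ[ℚ] Qbar)))ˣ) :
    ∃ a ∈ ideleSS S, (∀ σ ∈ F₀.fixingSubgroup, σ • a = a) ∧ a.2 = 1 ∧
      ∀ q ∈ S, ∀ i : ι q, ((piqAt q (r q i) a : (PadicAlgCl (pv q))ˣ) : PadicAlgCl (pv q)) =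
        ((y q i : localFieldOf (pv q) (F₀.map ((r q i : Γℚ) : Qbar →ₐ[ℚ] Qbar))) :
          PadicAlgCl (pv q)) := by
  classical
  let u : ∀ q : Nat.Primes, (LocAlg F₀ q)ˣ := fun q =>
    if hq : q ∈ S then (locProdUnitsEquiv q F₀ (r q) (hc q hq) (hs q hq)).symm (y q) else 1
  have hu : ∀ q ∉ S, u q = 1 := fun q hq => dif_neg hq
  set b := mkAtS S F₀ u hu 1 with hb
  refine ⟨toAmb F₀ b, (toAmb_mem_ideleSS_iff' hF₀ b).2 (mkAtS_mem_ideleAtS S F₀ u hu 1),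
    fun σ hσ => smul_toAmb_of_mem_fixingSubgroup F₀ hσ b, ?_, fun q hq i => ?_⟩
  · rw [toAmb_snd, hb, mkAtS_snd, map_one]
  · rw [coe_piqAt_toAmb, hb, mkAtS_fst]
    have huq : u q = (locProdUnitsEquiv q F₀ (r q) (hc q hq) (hs q hq)).symm (y q) := dif_pos hq
    rw [huq, ← locProdUnitsEquiv_apply_coe q F₀ (r q) (hc q hq) (hs q hq), MulEquiv.apply_symm_apply]

omit [∀ q, Finite (ι q)] in
/-- (D4) The kernel of `Θ` is the archimedean factor. -/
theorem fst_eq_one_of_piqAt_eq_one (hF₀ : F₀.IsUnramifiedOutside S)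
    (hc : ∀ q ∈ S, Covers q F₀ (r q)) {a : AmbJ} (ha : a ∈ ideleSS S)
    (hfix : ∀ σ ∈ F₀.fixingSubgroup, σ • a = a)
    (h1 : ∀ q ∈ S, ∀ i : ι q, piqAt q (r q i) a = 1) (q : Nat.Primes) : a.1 q = 1 := by
  obtain ⟨b, hbS, rfl⟩ := exists_toAmb_eq_of_fixed_ideleSS hF₀ ha hfix
  rw [toAmb_fst]
  by_cases hq : q ∈ S
  · have hb1 : (b : IdeleProd F₀).1 q = 1 := by
      apply Units.ext
      apply locProd_injective (hc q hq)
      rw [Units.val_one, map_one]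
      funext i
      apply Subtype.ext
      rw [locProd_apply_coe, ← coe_piqAt_toAmb, h1 q hq i]
      rfl
    rw [hb1, map_one]
  · rw [hbS q hq, map_one]

/-- (D5) The archimedean factor of `(J_S)^W` is `p`-divisible for odd `p`. -/
theorem exists_pow_eq_of_fst_eq_one (hF₀ : F₀.IsUnramifiedOutside S) {p : ℕ} (hp : Odd p)
    {a : AmbJ} (ha : a ∈ ideleSS S) (hfix : ∀ σ ∈ F₀.fixingSubgroup, σ • a = a)
    (h1 : ∀ q, a.1 q = 1) :
    ∃ c ∈ ideleSS S, (∀ σ ∈ F₀.fixingSubgroup, σ • c = c) ∧ (∀ q, c.1 q = 1) ∧ c ^ p = a := by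
  obtain ⟨b, hbS, rfl⟩ := exists_toAmb_eq_of_fixed_ideleSS hF₀ ha hfix
  obtain ⟨v, hv⟩ := exists_pow_eq_archUnits F₀ hp (b : IdeleProd F₀).2
  set c := mkAtS S F₀ (fun _ => 1) (fun _ _ => rfl) v with hc
  have hb1 : ∀ q, (b : IdeleProd F₀).1 q = 1 := by
    intro q
    apply locToAmb_injective F₀ q
    rw [map_one]
    exact h1 q
  refine ⟨toAmb F₀ c, (toAmb_mem_ideleSS_iff' hF₀ c).2 (mkAtS_mem_ideleAtS S F₀ _ _ v),
    fun σ hσ => smul_toAmb_of_mem_fixingSubgroup F₀ hσ c, fun q => ?_, ?_⟩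
  · rw [toAmb_fst, hc, mkAtS_fst, map_one]
  · rw [← map_pow]
    congr 1
    apply Subtype.ext
    refine Prod.ext (funext fun q => ?_) ?_
    · show ((c : IdeleProd F₀).1 q) ^ p = (b : IdeleProd F₀).1 q
      rw [hc, mkAtS_fst, one_pow, hb1 q]
    · show ((c : IdeleProd F₀).2) ^ p = (b : IdeleProd F₀).2
      rw [hc, mkAtS_snd, hv]

/-- (D6) Injectivity of `Θ` modulo `p`-th powers: if the image of a `W`-invariant element `a`
of `J_S` is a `p`-th power of a family of units of the local fields, then `a` is a `p`-th power of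
a `W`-invariant element of `J_S` (`p` odd). -/
theorem exists_pow_eq_of_piqAt_eq_pow (hF₀ : F₀.IsUnramifiedOutside S) {p : ℕ} (hp : Odd p)
    (hc : ∀ q ∈ S, Covers q F₀ (r q)) (hs : ∀ q ∈ S, Separated q F₀ (r q))
    {a : AmbJ} (ha : a ∈ ideleSS S) (hfix : ∀ σ ∈ F₀.fixingSubgroup, σ • a = a)
    (y : ∀ q, ∀ i : ι q,
      (localFieldOf (pv q) (F₀.map ((r q i : Γℚ) : Qbar →ₐ[ℚ] Qbar)))ˣ)
    (hy : ∀ q ∈ S, ∀ i : ι q, ((piqAt q (r q i) a : (PadicAlgCl (pv q))ˣ) : PadicAlgCl (pv q)) =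
      ((y q i : localFieldOf (pv q) (F₀.map ((r q i : Γℚ) : Qbar →ₐ[ℚ] Qbar))) :
        PadicAlgCl (pv q)) ^ p) :
    ∃ c ∈ ideleSS S, (∀ σ ∈ F₀.fixingSubgroup, σ • c = c) ∧ c ^ p = a := by
  obtain ⟨b, hbS, hbfix, -, hby⟩ := exists_piqAt_eq r hF₀ hc hs y
  have hab : a / b ^ p ∈ ideleSS S := div_mem ha (pow_mem hbS p)
  have habfix : ∀ σ ∈ F₀.fixingSubgroup, σ • (a / b ^ p) = a / b ^ p := by
    intro σ hσ
    rw [smul_div', smul_pow', hfix σ hσ, hbfix σ hσ]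
  have hab1 : ∀ q ∈ S, ∀ i : ι q, piqAt q (r q i) (a / b ^ p) = 1 := by
    intro q hq i
    apply Units.ext
    rw [map_div, map_pow, Units.val_div_eq_div_val, Units.val_pow_eq_pow_val, hy q hq i,
      hby q hq i, Units.val_one]
    exact div_self (pow_ne_zero p (by
      have := (y q i).ne_zero
      exact fun h => this (Subtype.ext h)))
  have h1 := fst_eq_one_of_piqAt_eq_one r hF₀ hc hab habfix hab1
  obtain ⟨c, hcS, hcfix, -, hcp⟩ := exists_pow_eq_of_fst_eq_one hF₀ hp hab habfix h1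
  refine ⟨c * b, mul_mem hcS hbS, fun σ hσ => ?_, ?_⟩
  · rw [smul_mul', hcfix σ hσ, hbfix σ hσ]
  · rw [mul_pow, hcp, div_mul_cancel]

end Fermat.Agent.Lib.CFT.Global.SVersion.LocalZero
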