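/-
helper89 (P-CFT, Global/SVersion, item (G3) in level form; abstract part (R-abs)).
Reciprocity modulo `p` for a class formation over a level family.

For a `Formation k Γ` (helper7) and a prime `p` we consider the *level characters*
`χ : Γ → ZMod p` (additive characters trivial on some level) and the pairing
`C^Γ × LevelChar → ZMod p`, `(x, χ) ↦ χ (rec x)`.  It is always nondegenerate on the right; under
the existence hypothesis `ExistenceModP` (`⋂_U (p C^Γ + N_U C^U) = p C^Γ`) its left kernel is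
`p C^Γ`, and when the group of level characters is finite the pairing is perfect.
-/
import Mathlib
import Fermat.Agent.Lib.CFT.Coh.ClassFormation.Formation

set_option autoImplicit false
set_option linter.unusedSectionVars false

universe u

namespace Fermat.Agent.Lib.CFT.Global.SVersion.RecModP

open Fermat.Agent.Lib.CFT.Coh.ClassFormation Fermat.Agent.Lib.CFT.Profinite

variable {k Γ : Type u} [CommRing k] [Group Γ]

/-! ### Level characters -/

section LevelChar

variable (𝒰 : LevelFamily Γ) (p : ℕ)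

/-- The additive characters `Γ → ZMod p` which are trivial on some level. -/
def levelChar : Submodule (ZMod p) (Additive Γ →+ ZMod p) where
  carrier := {χ | ∃ U ∈ 𝒰.levels, ∀ s ∈ U, χ (Additive.ofMul s) = 0}
  zero_mem' := by
    obtain ⟨U, hU⟩ := 𝒰.nonempty
    exact ⟨U, hU, fun s _ => rfl⟩
  add_mem' := by
    rintro χ ψ ⟨U, hU, hχ⟩ ⟨V, hV, hψ⟩
    obtain ⟨W, hW, hle⟩ := 𝒰.directed U hU V hV
    refine ⟨W, hW, fun s hs => ?_⟩
    rw [AddMonoidHom.add_apply, hχ s (hle hs).1, hψ s (hle hs).2, add_zero]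
  smul_mem' := by
    rintro c χ ⟨U, hU, hχ⟩
    refine ⟨U, hU, fun s hs => ?_⟩
    rw [AddMonoidHom.smul_apply, hχ s hs, smul_zero]

theorem mem_levelChar {χ : Additive Γ →+ ZMod p} :
    χ ∈ levelChar 𝒰 p ↔ ∃ U ∈ 𝒰.levels, ∀ s ∈ U, χ (Additive.ofMul s) = 0 := Iff.rfl

/-- A level character is trivial on a normal level. -/
theorem exists_normal_level {χ : Additive Γ →+ ZMod p} (hχ : χ ∈ levelChar 𝒰 p) :
    ∃ U ∈ 𝒰.levels, U.Normal ∧ ∀ s ∈ U, χ (Additive.ofMul s) = 0 := by
  obtain ⟨U, hU, h⟩ := hχ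
  obtain ⟨V, hV, hle, hn⟩ := 𝒰.normal_le U hU
  exact ⟨V, hV, hn, fun s hs => h s (hle hs)⟩

end LevelChar

/-! ### Descent of a character to the abelianised quotient -/

section Descend

variable (p : ℕ) (χ : Additive Γ →+ ZMod p) (U : Subgroup Γ) [U.Normal]
  (h : ∀ s ∈ U, χ (Additive.ofMul s) = 0)

/-- The character of `(Γ ⧸ U)^ab` induced by a character of `Γ` which is trivial on `U`. -/
noncomputable def descend : Additive (Abelianization (Γ ⧸ U)) →+ ZMod p :=
  MonoidHom.toAdditiveLeft (Abelianization.lift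
    (QuotientGroup.lift U (AddMonoidHom.toMultiplicativeRight χ) (fun s hs => by
      rw [MonoidHom.mem_ker]
      exact congrArg Multiplicative.ofAdd (h s hs))))

theorem descend_of (g : Γ) :
    descend p χ U h (Additive.ofMul (Abelianization.of (g : Γ ⧸ U))) = χ (Additive.ofMul g) :=
  rfl

/-- Every element of `(Γ ⧸ U)^ab` is the class of an element of `Γ`. -/
theorem exists_eq_of (z : Additive (Abelianization (Γ ⧸ U))) :
    ∃ g : Γ, z = Additive.ofMul (Abelianization.of (g : Γ ⧸ U)) := by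
  obtain ⟨q, hq⟩ := QuotientGroup.mk_surjective (Additive.toMul z)
  obtain ⟨g, rfl⟩ := QuotientGroup.mk_surjective q
  exact ⟨g, congrArg Additive.ofMul hq.symm⟩

end Descend

/-! ### The pairing `(x, χ) ↦ χ (rec x)` -/

section Pairing

variable (F : Formation k Γ) (p : ℕ)

/-- The value `χ (rec_U x)` computed at a normal level `U` on which `χ` is trivial. -/
noncomputable def pairAt (χ : Additive Γ →+ ZMod p) (U : Subgroup Γ) [U.Normal]
    (hU : U ∈ F.𝒰.levels) (h : ∀ s ∈ U, χ (Additive.ofMul s) = 0) (x : F.C.ρ.invariants) :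
    ZMod p :=
  descend p χ U h (F.recMap U hU x)

theorem pairAt_eq_of_recMap_eq (χ : Additive Γ →+ ZMod p) (U : Subgroup Γ) [U.Normal]
    (hU : U ∈ F.𝒰.levels) (h : ∀ s ∈ U, χ (Additive.ofMul s) = 0) (x : F.C.ρ.invariants)
    (g : Γ) (hg : F.recMap U hU x = Additive.ofMul (Abelianization.of (g : Γ ⧸ U))) :
    pairAt F p χ U hU h x = χ (Additive.ofMul g) := by
  rw [pairAt, hg, descend_of]

/-- Independence of the level, first for comparable levels. -/
theorem pairAt_compat (χ : Additive Γ →+ ZMod p) (U U' : Subgroup Γ) [U.Normal] [U'.Normal]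
    (hU : U ∈ F.𝒰.levels) (hU' : U' ∈ F.𝒰.levels) (hle : U' ≤ U)
    (h : ∀ s ∈ U, χ (Additive.ofMul s) = 0) (x : F.C.ρ.invariants) :
    pairAt F p χ U hU h x = pairAt F p χ U' hU' (fun s hs => h s (hle hs)) x := by
  obtain ⟨g, hg⟩ := exists_eq_of U' (F.recMap U' hU' x)
  rw [pairAt_eq_of_recMap_eq F p χ U' hU' _ x g hg]
  apply pairAt_eq_of_recMap_eq
  rw [F.recMap_compat U U' hU hU' hle x, hg]
  rfl

/-- Independence of the level. -/
theorem pairAt_eq (χ : Additive Γ →+ ZMod p) (U V : Subgroup Γ) [U.Normal] [V.Normal]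
    (hU : U ∈ F.𝒰.levels) (hV : V ∈ F.𝒰.levels)
    (h : ∀ s ∈ U, χ (Additive.ofMul s) = 0) (h' : ∀ s ∈ V, χ (Additive.ofMul s) = 0)
    (x : F.C.ρ.invariants) :
    pairAt F p χ U hU h x = pairAt F p χ V hV h' x := by
  obtain ⟨W, hW, hWU, hWV, hn⟩ := F.𝒰.exists_normal_le_inf hU hV
  rw [pairAt_compat F p χ U W hU hW hWU h x, pairAt_compat F p χ V W hV hW hWV h' x]

/-- **The pairing** `(χ, x) ↦ χ (rec x)` between level characters and `C^Γ`. -/
noncomputable def pair (χ : levelChar F.𝒰 p) (x : F.C.ρ.invariants) : ZMod p :=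
  haveI := (exists_normal_level F.𝒰 p χ.2).choose_spec.2.1
  pairAt F p χ.1 (exists_normal_level F.𝒰 p χ.2).choose
    (exists_normal_level F.𝒰 p χ.2).choose_spec.1
    (exists_normal_level F.𝒰 p χ.2).choose_spec.2.2 x

theorem pair_eq (χ : levelChar F.𝒰 p) (U : Subgroup Γ) [U.Normal] (hU : U ∈ F.𝒰.levels)
    (h : ∀ s ∈ U, χ.1 (Additive.ofMul s) = 0) (x : F.C.ρ.invariants) :
    pair F p χ x = pairAt F p χ.1 U hU h x := by
  haveI := (exists_normal_level F.𝒰 p χ.2).choose_spec.2.1
  exact pairAt_eq F p χ.1 _ U _ hU _ h x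

/-- The defining property of the pairing. -/
theorem pair_eq_of_recMap_eq (χ : levelChar F.𝒰 p) (U : Subgroup Γ) [U.Normal]
    (hU : U ∈ F.𝒰.levels) (h : ∀ s ∈ U, χ.1 (Additive.ofMul s) = 0) (x : F.C.ρ.invariants)
    (g : Γ) (hg : F.recMap U hU x = Additive.ofMul (Abelianization.of (g : Γ ⧸ U))) :
    pair F p χ x = χ.1 (Additive.ofMul g) := by
  rw [pair_eq F p χ U hU h x, pairAt_eq_of_recMap_eq F p χ.1 U hU h x g hg]

theorem pair_add_right (χ : levelChar F.𝒰 p) (x y : F.C.ρ.invariants) :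
    pair F p χ (x + y) = pair F p χ x + pair F p χ y := by
  obtain ⟨U, hU, hn, h⟩ := exists_normal_level F.𝒰 p χ.2
  rw [pair_eq F p χ U hU h, pair_eq F p χ U hU h, pair_eq F p χ U hU h, pairAt, map_add, map_add]
  rfl

theorem pair_add_left (χ ψ : levelChar F.𝒰 p) (x : F.C.ρ.invariants) :
    pair F p (χ + ψ) x = pair F p χ x + pair F p ψ x := by
  obtain ⟨U, hU, hUn, hχ⟩ := exists_normal_level F.𝒰 p χ.2
  obtain ⟨V, hV, hVn, hψ⟩ := exists_normal_level F.𝒰 p ψ.2
  obtain ⟨W, hW, hWU, hWV, hn⟩ := F.𝒰.exists_normal_le_inf hU hV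
  obtain ⟨g, hg⟩ := exists_eq_of W (F.recMap W hW x)
  rw [pair_eq_of_recMap_eq F p χ W hW (fun s hs => hχ s (hWU hs)) x g hg,
    pair_eq_of_recMap_eq F p ψ W hW (fun s hs => hψ s (hWV hs)) x g hg,
    pair_eq_of_recMap_eq F p (χ + ψ) W hW (fun s hs => by
      show χ.1 (Additive.ofMul s) + ψ.1 (Additive.ofMul s) = 0
      rw [hχ s (hWU hs), hψ s (hWV hs), add_zero]) x g hg]
  rfl

theorem pair_smul_left (c : ZMod p) (χ : levelChar F.𝒰 p) (x : F.C.ρ.invariants) :
    pair F p (c • χ) x = c * pair F p χ x := by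
  obtain ⟨U, hU, hUn, hχ⟩ := exists_normal_level F.𝒰 p χ.2
  obtain ⟨g, hg⟩ := exists_eq_of U (F.recMap U hU x)
  rw [pair_eq_of_recMap_eq F p χ U hU hχ x g hg,
    pair_eq_of_recMap_eq F p (c • χ) U hU (fun s hs => by
      show c • χ.1 (Additive.ofMul s) = 0
      rw [hχ s hs, smul_zero]) x g hg]
  rfl

/-- The pairing as a homomorphism `C^Γ →+ Dual (levelChar)`. -/
noncomputable def pairDual : F.C.ρ.invariants →+ Module.Dual (ZMod p) (levelChar F.𝒰 p) where
  toFun x :=
    { toFun := fun χ => pair F p χ x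
      map_add' := fun χ ψ => pair_add_left F p χ ψ x
      map_smul' := fun c χ => pair_smul_left F p c χ x }
  map_zero' := by
    ext χ
    have h := pair_add_right F p χ 0 0
    rw [add_zero] at h
    exact left_eq_add.mp h
  map_add' x y := by
    ext χ
    exact pair_add_right F p χ x y

@[simp] theorem pairDual_apply (x : F.C.ρ.invariants) (χ : levelChar F.𝒰 p) :
    pairDual F p x χ = pair F p χ x := rfl

end Pairing

/-! ### Nondegeneracy and perfectness -/

section Main

variable (F : Formation k Γ) (p : ℕ)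

/-- The pull-back to `Γ` of a character of `(Γ ⧸ U)^ab`. -/
noncomputable def pullback (U : Subgroup Γ) [U.Normal]
    (ψ : Additive (Abelianization (Γ ⧸ U)) →+ ZMod p) : Additive Γ →+ ZMod p :=
  ψ.comp (MonoidHom.toAdditive (Abelianization.of.comp (QuotientGroup.mk' U)))

theorem pullback_apply (U : Subgroup Γ) [U.Normal]
    (ψ : Additive (Abelianization (Γ ⧸ U)) →+ ZMod p) (g : Γ) :
    pullback p U ψ (Additive.ofMul g) = ψ (Additive.ofMul (Abelianization.of (g : Γ ⧸ U))) := rfl

theorem pullback_eq_zero_of_mem (U : Subgroup Γ) [U.Normal]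
    (ψ : Additive (Abelianization (Γ ⧸ U)) →+ ZMod p) (s : Γ) (hs : s ∈ U) :
    pullback p U ψ (Additive.ofMul s) = 0 := by
  rw [pullback_apply, (QuotientGroup.eq_one_iff s).mpr hs, map_one]
  exact map_zero ψ

theorem pullback_mem_levelChar (U : Subgroup Γ) [U.Normal] (hU : U ∈ F.𝒰.levels)
    (ψ : Additive (Abelianization (Γ ⧸ U)) →+ ZMod p) : pullback p U ψ ∈ levelChar F.𝒰 p :=
  ⟨U, hU, pullback_eq_zero_of_mem p U ψ⟩

/-- The pairing with a pulled-back character is the value on the reciprocity image. -/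
theorem pair_pullback (U : Subgroup Γ) [U.Normal] (hU : U ∈ F.𝒰.levels)
    (ψ : Additive (Abelianization (Γ ⧸ U)) →+ ZMod p) (x : F.C.ρ.invariants) :
    pair F p ⟨pullback p U ψ, pullback_mem_levelChar F p U hU ψ⟩ x = ψ (F.recMap U hU x) := by
  obtain ⟨g, hg⟩ := exists_eq_of U (F.recMap U hU x)
  rw [pair_eq_of_recMap_eq F p _ U hU (pullback_eq_zero_of_mem p U ψ) x g hg, hg]
  rfl

/-- **Right nondegeneracy**: a level character which pairs to zero with all of `C^Γ` is zero
(surjectivity of the reciprocity maps). -/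
theorem eq_zero_of_forall_pair_eq_zero (χ : levelChar F.𝒰 p)
    (h : ∀ x : F.C.ρ.invariants, pair F p χ x = 0) : χ = 0 := by
  obtain ⟨U, hU, hn, hχ⟩ := exists_normal_level F.𝒰 p χ.2
  apply Subtype.ext
  apply AddMonoidHom.ext
  intro a
  obtain ⟨x, hx⟩ := F.recMap_surjective U hU
    (Additive.ofMul (Abelianization.of ((Additive.toMul a : Γ) : Γ ⧸ U)))
  have := pair_eq_of_recMap_eq F p χ U hU hχ x (Additive.toMul a) hx
  rw [h x] at this
  exact this.symm

variable [Fact p.Prime]

/-- The **existence theorem modulo `p`** as a hypothesis on the formation: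
`⋂_U (p C^Γ + N_U C^U) = p C^Γ`. -/
def ExistenceModP : Prop :=
  ∀ x : F.C.ρ.invariants,
    (∀ (U : Subgroup Γ) [U.Normal] (hU : U ∈ F.𝒰.levels),
      letI := levelFintype F.𝒰 U hU
      ∃ (y : F.C.ρ.invariants) (c : F.C.quotientToInvariants U),
        F.toLevel U x = p • F.toLevel U y + (F.C.quotientToInvariants U).ρ.norm c) →
    ∃ y : F.C.ρ.invariants, x = p • y

theorem pair_nsmul (χ : levelChar F.𝒰 p) (y : F.C.ρ.invariants) : pair F p χ (p • y) = 0 := by
  have h : pairDual F p (p • y) χ = 0 := by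
    rw [map_nsmul, LinearMap.smul_apply, nsmul_eq_mul, ZMod.natCast_self, zero_mul]
  exact h

/-- **Left kernel**: under the existence theorem modulo `p`, the left kernel of the pairing is
`p C^Γ`. -/
theorem forall_pair_eq_zero_iff (hex : ExistenceModP F p) (x : F.C.ρ.invariants) :
    (∀ χ : levelChar F.𝒰 p, pair F p χ x = 0) ↔ ∃ y : F.C.ρ.invariants, x = p • y := by
  constructor
  · intro h
    apply hex x
    intro U _ hU
    rw [← F.forall_addChar_recMap_eq_zero_iff U hU p x]
    intro ψ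
    rw [← pair_pullback F p U hU ψ x]
    exact h _
  · rintro ⟨y, rfl⟩ χ
    exact pair_nsmul F p χ y

theorem pairDual_eq_zero_iff (hex : ExistenceModP F p) (x : F.C.ρ.invariants) :
    pairDual F p x = 0 ↔ ∃ y : F.C.ρ.invariants, x = p • y := by
  rw [← forall_pair_eq_zero_iff F p hex x]
  constructor
  · intro h χ
    rw [← pairDual_apply, h]
    rfl
  · intro h
    ext χ
    exact h χ

/-- **Perfectness on the right**: if there are only finitely many level characters, every linear
form on the level characters is `χ ↦ χ (rec x)` for some `x ∈ C^Γ`. -/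
theorem pairDual_surjective [Finite (levelChar F.𝒰 p)] :
    Function.Surjective (pairDual F p) := by
  have hfin : Module.Finite (ZMod p) (levelChar F.𝒰 p) := Module.Finite.of_finite
  set I : Submodule (ZMod p) (Module.Dual (ZMod p) (levelChar F.𝒰 p)) :=
    AddSubgroup.toZModSubmodule p (pairDual F p).range with hI
  have hco : I.dualCoannihilator = ⊥ := by
    rw [Submodule.eq_bot_iff]
    intro χ hχ
    rw [Submodule.mem_dualCoannihilator] at hχ
    apply eq_zero_of_forall_pair_eq_zero F p χ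
    intro x
    exact hχ (pairDual F p x) ⟨x, rfl⟩
  have hfinI : FiniteDimensional (ZMod p) I := inferInstance
  have htop : I = ⊤ := by
    rw [← Subspace.dualCoannihilator_dualAnnihilator_eq (W := I), hco,
      Submodule.dualAnnihilator_bot]
  intro φ
  have hφ : φ ∈ I := by rw [htop]; trivial
  exact hφ

/-- **Perfectness**: under the existence theorem modulo `p`, and if there are only finitely many
level characters, `x ↦ (χ ↦ χ (rec x))` induces a bijection `C^Γ / p ≃ Dual (levelChar)`: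
it is surjective and two elements have the same image iff they differ by an element of
`p C^Γ`. -/
theorem pairDual_eq_iff (hex : ExistenceModP F p) (x x' : F.C.ρ.invariants) :
    pairDual F p x = pairDual F p x' ↔ ∃ y : F.C.ρ.invariants, x = x' + p • y := by
  rw [← sub_eq_zero, ← map_sub, pairDual_eq_zero_iff F p hex]
  constructor
  · rintro ⟨y, hy⟩
    exact ⟨y, by rw [← hy]; abel⟩
  · rintro ⟨y, hy⟩
    exact ⟨y, by rw [hy]; abel⟩

end Main

/-! ### Link with the cup product (helper7's character formula) -/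

section Cup

variable (F : Formation k Γ) (p : ℕ) [NeZero p]

/-- The character of `Γ` attached to an additive function on a finite quotient `Γ ⧸ U`. -/
def charOfLevel (U : Subgroup Γ) [U.Normal] (χ : Γ ⧸ U → ZMod p)
    (hχ : ∀ q q', χ (q * q') = χ q + χ q') : Additive Γ →+ ZMod p where
  toFun a := χ ((Additive.toMul a : Γ) : Γ ⧸ U)
  map_zero' := by
    have h := hχ 1 1
    rw [mul_one] at h
    exact left_eq_add.mp h
  map_add' a b := by
    show χ (((Additive.toMul a * Additive.toMul b : Γ)) : Γ ⧸ U) = _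
    rw [QuotientGroup.mk_mul]
    exact hχ _ _

theorem charOfLevel_apply (U : Subgroup Γ) [U.Normal] (χ : Γ ⧸ U → ZMod p)
    (hχ : ∀ q q', χ (q * q') = χ q + χ q') (g : Γ) :
    charOfLevel p U χ hχ (Additive.ofMul g) = χ (g : Γ ⧸ U) := rfl

theorem charOfLevel_eq_zero_of_mem (U : Subgroup Γ) [U.Normal] (χ : Γ ⧸ U → ZMod p)
    (hχ : ∀ q q', χ (q * q') = χ q + χ q') (s : Γ) (hs : s ∈ U) :
    charOfLevel p U χ hχ (Additive.ofMul s) = 0 := by
  rw [charOfLevel_apply, (QuotientGroup.eq_one_iff s).mpr hs]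
  have h := hχ 1 1
  rw [mul_one] at h
  exact left_eq_add.mp h

theorem charOfLevel_mem (U : Subgroup Γ) [U.Normal] (hU : U ∈ F.𝒰.levels) (χ : Γ ⧸ U → ZMod p)
    (hχ : ∀ q q', χ (q * q') = χ q + χ q') : charOfLevel p U χ hχ ∈ levelChar F.𝒰 p := by
  exact ⟨U, hU, charOfLevel_eq_zero_of_mem p U χ hχ⟩

/-- **The pairing is the cup product**: `inv (x ∪ δχ) = χ (rec x) / p`. -/
theorem inv_cupDelta_eq_pair (U : Subgroup Γ) [U.Normal] (hU : U ∈ F.𝒰.levels)
    (χ : Γ ⧸ U → ZMod p) (hχ : ∀ q q', χ (q * q') = χ q + χ q') (x : F.C.ρ.invariants) :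
    F.inv (F.𝒰.classMk F.C 2 ⟨F.cupDeltaFun U p χ x, F.cupDeltaFun_mem U hU p χ hχ x⟩) =
      ((((pair F p ⟨charOfLevel p U χ hχ, charOfLevel_mem F p U hU χ hχ⟩ x).val : ℚ) / (p : ℚ) : ℚ) :
        AddCircle (1 : ℚ)) := by
  obtain ⟨g, hg⟩ := exists_eq_of U (F.recMap U hU x)
  rw [F.inv_cupDelta U hU p χ hχ x (g : Γ ⧸ U) hg,
    pair_eq_of_recMap_eq F p _ U hU (charOfLevel_eq_zero_of_mem p U χ hχ) x g hg,
    charOfLevel_apply]

end Cup

end Fermat.Agent.Lib.CFT.Global.SVersion.RecModP
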