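import Fermat.Agent.Lib.CFT.Global.SVersion.Divisible
import Fermat.Agent.Lib.CFT.Global.SVersion.Level
import Fermat.Agent.Lib.CFT.Global.SVersion.Ambient

/-!
# Bridge: integral local units of the idelic model vs. valuation subrings of `Qbar`
(helper45, P-CFT Global/S-version, task 219)

`Ideles.lean` defines the integral structure of `ℚ_q ⊗ F` as the `ℤ_q`-subalgebra `locInt F q`
generated by `1 ⊗ 𝓞 F`; `Divisible.lean` (helper25) works with valuation subrings of
`Qbar = AlgebraicClosure ℚ` lying over `q` (`IsSUnitBar`).  This file proves that the two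
languages agree on principal ideles:

* `IsIntegralAt q x` : some multiple `n x` with `q ∤ n` is an algebraic integer;
* `isIntegralAt_iff_forall_mem` : for an algebraic extension `E / ℚ`, `IsIntegralAt q x` iff `x`
  lies in every valuation subring of `E` over `q`;
* `one_tmul_mem_locInt_iff` : `1 ⊗ x ∈ locInt F q ↔ IsIntegralAt q x`;
* `locUnit_mem_locIntUnits_iff_forall_valuation` : `locUnit F q x ∈ locIntUnits F q` iff
  `A.valuation (φ x) = 1` for every valuation subring `A` over `q` of an algebraic extension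
  `E / ℚ` receiving `F` (e.g. `E = F` or `E = Qbar`);
* `mem_sUnitsS_iff_isSUnitBar` : for a finite subextension `F` of `Qbar`,
  `x ∈ sUnitsS S F ↔ IsSUnitBar S x`.
-/

open scoped TensorProduct NumberField

namespace Fermat.Agent.Lib.CFT.Global.SVersion.SUnitsBridge

section Part1

variable {E : Type*} [Field E]

/-- `x` is integral at the rational prime `q`: some multiple `n x`, `q ∤ n`, is an algebraic
integer. -/
def IsIntegralAt (q : ℕ) (x : E) : Prop := ∃ n : ℕ, ¬ q ∣ n ∧ IsIntegral ℤ ((n : E) * x)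

lemma mem_of_isIntegral_int (A : ValuationSubring E) {y : E} (hy : IsIntegral ℤ y) : y ∈ A := by
  have h1 : IsIntegral A y := hy.tower_top
  obtain ⟨a, ha⟩ := IsIntegrallyClosed.isIntegral_iff.1 h1
  rw [← ha]
  exact a.2

/-- Elements integral at `q` lie in every valuation subring over `q`. -/
lemma IsIntegralAt.mem {q : ℕ} (hq : q.Prime) {x : E} (hx : IsIntegralAt q x)
    (A : ValuationSubring E) (hA : A.LiesOverPrime q) : x ∈ A := by
  obtain ⟨n, hn, hint⟩ := hx
  have h1 : (n : E) * x ∈ A := mem_of_isIntegral_int A hint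
  have h2 : A.valuation (n : E) = 1 := valuation_natCast_eq_one hA hq hn
  rw [← A.valuation_le_one_iff] at h1 ⊢
  rwa [map_mul, h2, one_mul] at h1

variable [CharZero E]

set_option maxHeartbeats 1000000 in
/-- Conversely, for an algebraic extension of `ℚ`, an element lying in all valuation subrings
over `q` is integral at `q`. -/
lemma isIntegralAt_of_forall_mem [Algebra.IsAlgebraic ℚ E] {q : ℕ} (hq : q.Prime) {x : E}
    (hx : ∀ A : ValuationSubring E, A.LiesOverPrime q → x ∈ A) : IsIntegralAt q x := by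
  have hq0 : (q : ℤ) ≠ 0 := by exact_mod_cast hq.ne_zero
  have hP : (Ideal.span {(q : ℤ)}).IsPrime :=
    (Ideal.span_singleton_prime hq0).2 (Nat.prime_iff_prime_int.1 hq)
  set P : Ideal ℤ := Ideal.span {(q : ℤ)} with hPdef
  have hM : ∀ m : P.primeCompl, IsUnit (Int.castRingHom E m) := by
    intro m
    apply IsUnit.mk0
    intro h0
    have : (m : ℤ) = 0 := by
      have : ((m : ℤ) : E) = 0 := h0
      exact_mod_cast this
    exact m.2 (by rw [this]; exact zero_mem _)
  let alg : Algebra (Localization.AtPrime P) E :=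
    (IsLocalization.lift (M := P.primeCompl) (S := Localization.AtPrime P) hM).toAlgebra
  have hst : @IsScalarTower ℤ (Localization.AtPrime P) E Algebra.toSMul Algebra.toSMul
      Algebra.toSMul :=
    IsScalarTower.of_algebraMap_eq (fun z => by
      rw [RingHom.algebraMap_toAlgebra, IsLocalization.lift_eq]; rfl)
  set R : Subring E := (integralClosure (Localization.AtPrime P) E).toSubring with hR
  by_contra hcon
  have hxR : x ∉ R := by
    intro hxR
    apply hcon
    have hxint : IsIntegral (Localization.AtPrime P) x := hxR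
    obtain ⟨m, hm⟩ := IsIntegral.exists_multiple_integral_of_isLocalization P.primeCompl x hxint
    have hmq : ¬ (q : ℤ) ∣ (m : ℤ) := fun hd => m.2 (Ideal.mem_span_singleton.2 hd)
    refine ⟨(m : ℤ).natAbs, ?_, ?_⟩
    · intro hd
      apply hmq
      exact Int.natCast_dvd.2 hd
    · have hmx : (m • x : E) = ((m : ℤ) : E) * x := by
        rw [Submonoid.smul_def, zsmul_eq_mul]
      rw [hmx] at hm
      rcases Int.natAbs_eq (m : ℤ) with h | h
      · rw [h] at hm
        simpa using hm
      · rw [h] at hm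
        have := hm.neg
        simpa using this
  obtain ⟨V, hRV, hxV⟩ := Subring.exists_le_valuationSubring_of_isIntegrallyClosedIn hxR
  -- integers prime to `q` are units of `V`
  have hunit : ∀ m : ℕ, ¬ q ∣ m → V.valuation (m : E) = 1 := by
    intro m hm
    have hmP : (m : ℤ) ∈ P.primeCompl := by
      intro hmem
      apply hm
      have := Ideal.mem_span_singleton.1 hmem
      exact_mod_cast this
    have h1 : (m : E)⁻¹ ∈ V := by
      apply hRV
      have h2 : algebraMap (Localization.AtPrime P) E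
          (IsLocalization.mk' (Localization.AtPrime P) (1 : ℤ) ⟨(m : ℤ), hmP⟩) = (m : E)⁻¹ := by
        rw [RingHom.algebraMap_toAlgebra]
        apply eq_inv_of_mul_eq_one_left
        have h3 := IsLocalization.mk'_spec (Localization.AtPrime P) (1 : ℤ)
          (⟨(m : ℤ), hmP⟩ : P.primeCompl)
        have h4 := congrArg (IsLocalization.lift (M := P.primeCompl)
          (S := Localization.AtPrime P) hM) h3
        rw [map_mul, IsLocalization.lift_eq, IsLocalization.lift_eq] at h4
        simpa using h4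
      rw [← h2]
      exact Subalgebra.algebraMap_mem _ _
    have h3 : V.valuation ((m : E)⁻¹) ≤ 1 := (V.valuation_le_one_iff _).2 h1
    have h4 : V.valuation (m : E) ≤ 1 := by
      exact_mod_cast valuation_intCast_le_one V (m : ℤ)
    have hm0 : (m : E) ≠ 0 := by
      intro h0
      apply hm
      have : m = 0 := by exact_mod_cast h0
      rw [this]; exact dvd_zero _
    rw [map_inv₀] at h3
    have h5 : V.valuation (m : E) ≠ 0 := (Valuation.ne_zero_iff _).2 hm0
    apply le_antisymm h4
    by_contra hlt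
    rw [not_le] at hlt
    have : 1 < (V.valuation (m : E))⁻¹ := (one_lt_inv₀ (zero_lt_iff.2 h5)).2 hlt
    exact absurd h3 (not_le.2 this)
  apply hxV
  by_cases hqV : V.LiesOverPrime q
  · exact hx V hqV
  · -- `q` is a unit of `V`, hence `V ⊇ ℚ`, hence `V = E`
    have hq1 : V.valuation (q : E) = 1 := by
      have h4 : V.valuation (q : E) ≤ 1 := by
        exact_mod_cast valuation_intCast_le_one V (q : ℤ)
      apply le_antisymm h4
      by_contra hlt
      rw [not_le] at hlt
      exact hqV ((ValuationSubring.mem_nonunits_iff V).2 hlt)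
    have hall : ∀ d : ℕ, d ≠ 0 → V.valuation (d : E) = 1 := by
      intro d hd
      obtain ⟨e, n', hn', rfl⟩ := Nat.exists_eq_pow_mul_and_not_dvd hd q hq.ne_one
      push_cast
      rw [map_mul, map_pow, hq1, one_pow, one_mul, hunit n' hn']
    have halg : IsAlgebraic ℤ x :=
      (IsFractionRing.isAlgebraic_iff ℤ ℚ E).2 (Algebra.IsAlgebraic.isAlgebraic x)
    obtain ⟨d, hd0, hdint⟩ := halg.exists_integral_multiple
    have hdx : (d • x : E) ∈ V := mem_of_isIntegral_int V hdint
    rw [zsmul_eq_mul] at hdx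
    have hdv : V.valuation (d : E) = 1 := by
      obtain ⟨k, rfl | rfl⟩ := d.eq_nat_or_neg
      · have hk : k ≠ 0 := by rintro rfl; exact hd0 rfl
        exact_mod_cast hall k hk
      · have hk : k ≠ 0 := by rintro rfl; exact hd0 rfl
        push_cast
        rw [Valuation.map_neg]
        exact hall k hk
    rw [← V.valuation_le_one_iff] at hdx ⊢
    rwa [map_mul, hdv, one_mul] at hdx

theorem isIntegralAt_iff_forall_mem [Algebra.IsAlgebraic ℚ E] {q : ℕ} (hq : q.Prime) (x : E) :
    IsIntegralAt q x ↔ ∀ A : ValuationSubring E, A.LiesOverPrime q → x ∈ A :=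
  ⟨fun h A hA => h.mem hq A hA, isIntegralAt_of_forall_mem hq⟩

end Part1

section Part2

open Fermat.Agent.Lib.CFT.Global

variable (F : Type) [Field F] [NumberField F] (q : Nat.Primes)

theorem one_tmul_mem_locInt_of_isIntegralAt {x : F} (hx : IsIntegralAt (q : ℕ) x) :
    ((1 : ℚ_[pv q]) ⊗ₜ[ℚ] x : LocAlg F q) ∈ locInt F q := by
  obtain ⟨n, hn, hint⟩ := hx
  have hunit : IsUnit ((n : ℤ_[pv q])) := by
    rw [PadicInt.isUnit_iff, PadicInt.norm_natCast_eq_one_iff]
    exact (Nat.Prime.coprime_iff_not_dvd q.2).2 hn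
  obtain ⟨u, hu⟩ := hunit
  have h3 : (n : ℚ) • (((u⁻¹ : ℤ_[pv q]ˣ) : ℤ_[pv q]) : ℚ_[pv q]) = 1 := by
    have : ((u : ℤ_[pv q]) : ℚ_[pv q]) *
        (((u⁻¹ : ℤ_[pv q]ˣ) : ℤ_[pv q]) : ℚ_[pv q]) = 1 := by
      rw [← PadicInt.coe_mul]; simp
    rw [hu] at this
    simpa [Algebra.smul_def] using this
  have h1 : ((1 : ℚ_[pv q]) ⊗ₜ[ℚ] x : LocAlg F q) =
      ((((u⁻¹ : ℤ_[pv q]ˣ) : ℤ_[pv q]) : ℚ_[pv q]) ⊗ₜ[ℚ] ((n : F) * x) : LocAlg F q) := by
    have h2 : (n : F) * x = (n : ℚ) • x := by
      rw [Algebra.smul_def]; simp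
    rw [h2, ← TensorProduct.smul_tmul, h3]
  rw [h1]
  exact tmul_mem_locInt F q _ (⟨(n : F) * x, hint⟩ : 𝓞 F)

/-- The `ℚ_q`-basis of `ℚ_q ⊗ F` induced by the integral basis of `F`. -/
noncomputable def locBasis : Module.Basis (Module.Free.ChooseBasisIndex ℤ (𝓞 F)) ℚ_[pv q] (LocAlg F q) :=
  Algebra.TensorProduct.basis ℚ_[pv q] (NumberField.integralBasis F)

lemma locBasis_repr_one_tmul (x : F) (i : Module.Free.ChooseBasisIndex ℤ (𝓞 F)) :
    (locBasis F q).repr ((1 : ℚ_[pv q]) ⊗ₜ[ℚ] x) i =
      (((NumberField.integralBasis F).repr x i : ℚ) : ℚ_[pv q]) := by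
  rw [locBasis, Algebra.TensorProduct.basis_repr_tmul]
  simp

/-- The coordinates of an element of `locInt` are `q`-adic integers. -/
lemma norm_locBasis_repr_le_one {z : LocAlg F q} (hz : z ∈ locInt F q)
    (i : Module.Free.ChooseBasisIndex ℤ (𝓞 F)) : ‖(locBasis F q).repr z i‖ ≤ 1 := by
  let g : 𝓞 F →* LocAlg F q :=
    ((Algebra.TensorProduct.includeRight : F →ₐ[ℚ] LocAlg F q) : F →* LocAlg F q).comp
      ((algebraMap (𝓞 F) F : 𝓞 F →+* F) : 𝓞 F →* F)
  have hg : ∀ y : 𝓞 F, g y = (1 : ℚ_[pv q]) ⊗ₜ[ℚ] (y : F) := fun y => rfl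
  have hrange : Set.range (fun x : 𝓞 F => ((1 : ℚ_[pv q]) ⊗ₜ[ℚ] (x : F) : LocAlg F q)) =
      (MonoidHom.mrange g : Set (LocAlg F q)) := by
    ext w
    simp only [Set.mem_range, MonoidHom.coe_mrange, hg]
  have hz' : z ∈ Submodule.span ℤ_[pv q] (MonoidHom.mrange g : Set (LocAlg F q)) := by
    have h1 : z ∈ Subalgebra.toSubmodule (locInt F q) := hz
    rw [locInt, Algebra.adjoin_eq_span, hrange, Submonoid.closure_eq] at h1
    exact h1
  clear hz
  induction hz' using Submodule.span_induction with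
  | mem w hw =>
    obtain ⟨y, rfl⟩ := hw
    rw [hg, locBasis_repr_one_tmul, NumberField.integralBasis_repr_apply]
    have : (((algebraMap ℤ ℚ) (((NumberField.RingOfIntegers.basis F).repr y) i) : ℚ) : ℚ_[pv q]) =
        (((((NumberField.RingOfIntegers.basis F).repr y) i) : ℤ) : ℚ_[pv q]) := by
      simp
    rw [this]
    exact Padic.norm_int_le_one _
  | zero => simp
  | add a b _ _ ha hb =>
    rw [map_add, Finsupp.add_apply]
    exact le_trans (Padic.nonarchimedean _ _) (max_le ha hb)
  | smul r a _ ha =>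
    have h1 : r • a = (r : ℚ_[pv q]) • a := by
      rw [← IsScalarTower.algebraMap_smul ℚ_[pv q] r a]
      rfl
    rw [h1, map_smul, Finsupp.smul_apply, smul_eq_mul, norm_mul]
    exact mul_le_one₀ (PadicInt.norm_le_one r) (norm_nonneg _) ha

theorem isIntegralAt_of_one_tmul_mem_locInt {x : F}
    (hx : ((1 : ℚ_[pv q]) ⊗ₜ[ℚ] x : LocAlg F q) ∈ locInt F q) : IsIntegralAt (q : ℕ) x := by
  classical
  set B := NumberField.integralBasis F with hB
  set c : Module.Free.ChooseBasisIndex ℤ (𝓞 F) → ℚ := fun i => B.repr x i with hcdef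
  have hc : ∀ i, ¬ (q : ℕ) ∣ (c i).den := by
    intro i
    have h1 := norm_locBasis_repr_le_one F q hx i
    rw [locBasis_repr_one_tmul] at h1
    have h2 := PadicInt.isUnit_den (p := pv q) (c i) h1
    rw [PadicInt.isUnit_iff, PadicInt.norm_natCast_eq_one_iff] at h2
    exact (Nat.Prime.coprime_iff_not_dvd q.2).1 h2
  refine ⟨∏ i, (c i).den, ?_, ?_⟩
  · intro hd
    obtain ⟨i, _, hi⟩ := (Nat.Prime.prime q.2).exists_mem_finset_dvd hd
    exact hc i hi
  · set n := ∏ i, (c i).den with hn
    have hz : ∀ i, ∃ z : ℤ, (n : ℚ) * c i = z := by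
      intro i
      obtain ⟨k, hk⟩ : (c i).den ∣ n := Finset.dvd_prod_of_mem _ (Finset.mem_univ i)
      refine ⟨k * (c i).num, ?_⟩
      rw [hk]
      push_cast
      have := Rat.mul_den_eq_num (c i)
      linear_combination (k : ℚ) * this
    choose z hz using hz
    have hsum : (n : F) * x =
        ((∑ i, z i • NumberField.RingOfIntegers.basis F i : 𝓞 F) : F) := by
      have hx' : x = ∑ i, c i • B i := (B.sum_repr x).symm
      have h2 : (n : F) * x = (n : ℚ) • x := by
        rw [Algebra.smul_def]; simp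
      rw [h2]
      conv_lhs => rw [hx']
      rw [Finset.smul_sum]
      change _ = algebraMap (𝓞 F) F _
      rw [map_sum]
      refine Finset.sum_congr rfl (fun i _ => ?_)
      rw [smul_smul, hz i, map_zsmul, hB, NumberField.integralBasis_apply,
        Int.cast_smul_eq_zsmul]
    rw [hsum]
    exact NumberField.RingOfIntegers.isIntegral_coe _

theorem one_tmul_mem_locInt_iff (x : F) :
    ((1 : ℚ_[pv q]) ⊗ₜ[ℚ] x : LocAlg F q) ∈ locInt F q ↔ IsIntegralAt (q : ℕ) x :=
  ⟨isIntegralAt_of_one_tmul_mem_locInt F q, one_tmul_mem_locInt_of_isIntegralAt F q⟩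

end Part2

section Part3

open Fermat.Agent.Lib.CFT.Global

variable {E : Type*} [Field E]

lemma IsIntegralAt.map {F : Type*} [Field F] (φ : F →+* E) {q : ℕ} {x : F} :
    IsIntegralAt q (φ x) ↔ IsIntegralAt q x := by
  have key : ∀ n : ℕ, IsIntegral ℤ ((n : E) * φ x) ↔ IsIntegral ℤ ((n : F) * x) := by
    intro n
    have h1 : (n : E) * φ x = φ.toIntAlgHom ((n : F) * x) := by
      simp
    rw [h1]
    exact isIntegral_algHom_iff φ.toIntAlgHom φ.injective
  constructor
  · rintro ⟨n, hn, h⟩
    exact ⟨n, hn, (key n).1 h⟩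
  · rintro ⟨n, hn, h⟩
    exact ⟨n, hn, (key n).2 h⟩

variable (F : Type) [Field F] [NumberField F] (q : Nat.Primes)

theorem locUnit_mem_locIntUnits_iff (x : Fˣ) :
    locUnit F q x ∈ locIntUnits F q ↔
      IsIntegralAt (q : ℕ) (x : F) ∧ IsIntegralAt (q : ℕ) ((x : F)⁻¹) := by
  rw [mem_locIntUnits, ← map_inv, val_locUnit, val_locUnit, one_tmul_mem_locInt_iff,
    one_tmul_mem_locInt_iff, Units.val_inv_eq_inv_val]

variable [CharZero E] [Algebra.IsAlgebraic ℚ E]

/-- The bridge: a principal idele is an integral unit at `q` iff it is a unit at every valuation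
subring over `q` of any algebraic extension `E` of `ℚ` containing `F`. -/
theorem locUnit_mem_locIntUnits_iff_forall_valuation (φ : F →+* E) (x : Fˣ) :
    locUnit F q x ∈ locIntUnits F q ↔
      ∀ A : ValuationSubring E, A.LiesOverPrime (q : ℕ) → A.valuation (φ x) = 1 := by
  rw [locUnit_mem_locIntUnits_iff, ← IsIntegralAt.map φ, ← IsIntegralAt.map φ (x := (x : F)⁻¹),
    isIntegralAt_iff_forall_mem q.2, isIntegralAt_iff_forall_mem q.2, map_inv₀]
  have hx0 : φ x ≠ 0 := (map_ne_zero φ).2 x.ne_zero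
  constructor
  · rintro ⟨h1, h2⟩ A hA
    have h3 := (A.valuation_le_one_iff _).2 (h1 A hA)
    have h4 := (A.valuation_le_one_iff _).2 (h2 A hA)
    rw [map_inv₀] at h4
    have h5 : A.valuation (φ x) ≠ 0 := (Valuation.ne_zero_iff _).2 hx0
    apply le_antisymm h3
    by_contra hlt
    rw [not_le] at hlt
    have : 1 < (A.valuation (φ x))⁻¹ := (one_lt_inv₀ (zero_lt_iff.2 h5)).2 hlt
    exact absurd h4 (not_le.2 this)
  · intro h
    refine ⟨fun A hA => ?_, fun A hA => ?_⟩
    · rw [← A.valuation_le_one_iff, h A hA]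
    · rw [← A.valuation_le_one_iff, map_inv₀, h A hA, inv_one]

/-- Same statement inside `F` itself. -/
theorem locUnit_mem_locIntUnits_iff_forall_valuation_self (x : Fˣ) :
    locUnit F q x ∈ locIntUnits F q ↔
      ∀ A : ValuationSubring F, A.LiesOverPrime (q : ℕ) → A.valuation (x : F) = 1 :=
  locUnit_mem_locIntUnits_iff_forall_valuation (E := F) F q (RingHom.id F) x

end Part3

section Part4

open Fermat.Agent.Lib.CFT.Global

local notation "Qbar" => AlgebraicClosure ℚ

local instance isAlgebraicQbar_sub : Algebra.IsAlgebraic ℚ (AlgebraicClosure ℚ) :=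
  AlgebraicClosure.isAlgebraic ℚ

variable (S : Finset Nat.Primes) (F : IntermediateField ℚ Qbar) [FiniteDimensional ℚ F]

/-- The bridge statement in the exact shape requested by helper11 (msg 2181). -/
theorem locUnit_mem_locIntUnits_iff_valuation (q : Nat.Primes) (x : Fˣ) :
    locUnit F q x ∈ locIntUnits F q ↔
      ∀ A : ValuationSubring Qbar, A.LiesOverPrime (q : ℕ) → A.valuation ((x : F) : Qbar) = 1 :=
  locUnit_mem_locIntUnits_iff_forall_valuation (E := Qbar) F q (incl F) x

/-- For a finite subextension `F` of `Qbar`, the idelic `S`-units of `F` (`sUnitsS`, defined via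
`locIntUnits`) are the elements which are units at all valuation subrings of `Qbar` over primes
outside `S` (helper25's `IsSUnitBar`). -/
theorem mem_sUnitsS_iff_isSUnitBar (x : Fˣ) :
    x ∈ sUnitsS S F ↔ IsSUnitBar S ((x : F) : Qbar) := by
  rw [mem_sUnitsS]
  constructor
  · intro h q hq A hA
    exact (locUnit_mem_locIntUnits_iff_forall_valuation (E := Qbar) F q (incl F) x).1 (h q hq) A hA
  · intro h q hq
    exact (locUnit_mem_locIntUnits_iff_forall_valuation (E := Qbar) F q (incl F) x).2
      (fun A hA => h q hq A hA)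

/-- Every element of `ESbar S` (the `S`-units of `ℚ_S` in the valuation language) lying in a finite
level field `F` is an idelic `S`-unit of `F`. -/
theorem mem_sUnitsS_of_mem_ESbar (x : Fˣ)
    (hx : Units.map ((incl F : F →+* Qbar) : F →* Qbar) x ∈ ESbar S) : x ∈ sUnitsS S F :=
  (mem_sUnitsS_iff_isSUnitBar S F x).2 ((mem_ESbar.1 hx).2)

/-- Conversely an idelic `S`-unit of a level field unramified outside `S` lies in `ESbar S`. -/
theorem mem_ESbar_of_mem_sUnitsS (hF : F.IsUnramifiedOutside S) (x : Fˣ) (hx : x ∈ sUnitsS S F) :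
    Units.map ((incl F : F →+* Qbar) : F →* Qbar) x ∈ ESbar S :=
  mem_ESbar.2 ⟨⟨F, hF, (x : F).2⟩, (mem_sUnitsS_iff_isSUnitBar S F x).1 hx⟩

end Part4

end Fermat.Agent.Lib.CFT.Global.SVersion.SUnitsBridge
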