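import Fermat.Agent.Lib.CFT.Global.SVersion.SemiLocal
import Fermat.Agent.Lib.CFT.Global.SVersion.LocalZero
import Fermat.Agent.Lib.CFT.Global.SVersion.LevelFamilyAt
import Fermat.Agent.Lib.CFT.Global.SVersion.LocalProjBridge
import Fermat.Agent.Lib.CFT.Profinite.ShapiroClosedHom

/-!
# Shapiro in the limit for the `q`-factor of `J_S` (helper65, P-CFT Global/S-version, (P2))

`F₀` a level field (finite over `ℚ`, unramified outside `S`), `W = F₀.fixingSubgroup`,
`𝒢 = galFamilyOver F₀ hF₀`, `q` a prime, `φ_q : G_q → Γℚ`, and `r : ι → Γℚ` a finite system of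
representatives of the double cosets `φ_q(G_q) \ Γℚ / W` (`LocalZero.Covers`, `LocalZero.Separated`).

* `projAt S q g : JSqGrp S q →* Ωqˣ`, `u ↦ mulMap (g • u)`; `projAt_levelToJSq` (finite-level
  formula: on `(ℚ_q ⊗ L.F)ˣ` it is `locHom g`);
* `eq_one_of_projAt_eq_one` **(INJ)** and `exists_projAt_eq` **(SURJ)**: the `q`-factor of `J_S`,
  restricted to `W`, is the product over `i` of the modules of `S_{r i}`-equivariant level-constant
  functions `W → Ωqˣ` (Chinese remainder theorem `ℚ_q ⊗ L ≅ ∏_w L_w` at every finite level `L`);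
* `rhoQMul`, `rhoQ S q : res φ_q (JSq S q) ⟶ L_q` (`ρ_q` on the `q`-factor), `rho_hom_eq`
  (`ρ_q` factors through the projection onto the `q`-factor), `rho_hom_jsIncl_self / _of_ne / _arch`;
* `lamQ S q W g : res c_g (res W (JSq S q)) ⟶ res S_g L_q`, `lamg_hom_eq`;
* `semilocal_bijective`, `semilocal_T_bijective`: the maps induced by `(c_{r i}, λ_{r i})`,
  `Hⁿ(𝒢, res_W (JSq S q)) → ∏ i, Hⁿ(comap 𝒢 c_{r i}, res L_q)`, and the same for the cohomology `T`
  of the cone of multiplication by `p`, are bijective in every degree.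
-/

set_option autoImplicit false

open scoped TensorProduct

noncomputable section

namespace Fermat.Agent.Lib.CFT.Global.SVersion.SemiLocalInduced

open Fermat.Agent.Lib.CFT.Global Fermat.Agent.Lib.CFT.Profinite.Bridge
open Fermat.Agent.Lib.CFT.Global.SVersion Fermat.Agent.Lib.CFT.Global.SVersion.LocalZero

local notation "Qbar" => AlgebraicClosure ℚ
local notation "Γℚ" => (AlgebraicClosure ℚ ≃ₐ[ℚ] AlgebraicClosure ℚ)

variable (S : Finset Nat.Primes) (q : Nat.Primes)

local notation "Ωq" => PadicAlgCl (pv q)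
local notation "Gq" => (PadicAlgCl (pv q) ≃ₐ[ℚ_[pv q]] PadicAlgCl (pv q))

local instance instTowerQqPadic_sli : IsScalarTower ℚ ℚ_[pv q] (PadicAlgCl (pv q)) :=
  IsScalarTower.of_algebraMap_eq' (Subsingleton.elim _ _)

/-- The twisted projection `JSq → Ωqˣ`, `u ↦ mulMap (g • u)`. -/
def projAt (g : Γℚ) : JSqGrp S q →* Ωqˣ where
  toFun u := Units.map (mulMap q : LocAlg Qbar q →* Ωq) (g • (u : (LocAlg Qbar q)ˣ))
  map_one' := by
    rw [OneMemClass.coe_one, smul_one, map_one]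
  map_mul' a b := by
    rw [Subgroup.coe_mul, smul_mul', map_mul]

theorem projAt_apply (g : Γℚ) (u : JSqGrp S q) :
    projAt S q g u = Units.map (mulMap q : LocAlg Qbar q →* Ωq) (g • (u : (LocAlg Qbar q)ˣ)) := rfl

theorem projAt_smul (g σ : Γℚ) (u : JSqGrp S q) :
    projAt S q g (σ • u) = projAt S q (g * σ) u := by
  rw [projAt_apply, projAt_apply, mul_smul]
  rfl

/-- Finite-level formula. -/
theorem projAt_levelToJSq (L : GalLevel S) (g : Γℚ) (v : (LocAlg L.F q)ˣ) :
    projAt S q g (levelToJSq S L q v) =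
      Units.map (locHom (pv q) L.F g : LocAlg L.F q →* Ωq) v := by
  apply Units.ext
  change _ = locHom (pv q) L.F g (v : LocAlg L.F q)
  rw [← mulMap_locMap, locMap_comp]
  rfl

/-! ### Representatives for a bigger field -/

section Reps

variable {q} (F₀ : IntermediateField ℚ Qbar) {ι : Type*} (r : ι → Γℚ)

/-- The family `(i, w) ↦ r i * w`, `w ∈ W = F₀.fixingSubgroup`. -/
def repMul : ι × ↥F₀.fixingSubgroup → Γℚ := fun iw => r iw.1 * (iw.2 : Γℚ)

variable {F₀ r}

/-- If `r` covers the double cosets modulo `W = F₀.fixingSubgroup`, then the family `r i * w`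
covers the double cosets modulo the fixing subgroup of any `F`. -/
theorem covers_repMul (hc : Covers q F₀ r) (F : IntermediateField ℚ Qbar) :
    Covers q F (repMul F₀ r) := by
  intro g
  obtain ⟨i, h, hh⟩ := hc g
  refine ⟨(i, (⟨_, hh⟩ : ↥F₀.fixingSubgroup)⁻¹), h, ?_⟩
  have e : g⁻¹ * localGaloisToGlobal (pv q) h *
      (r i * (g⁻¹ * localGaloisToGlobal (pv q) h * r i)⁻¹) = 1 := by group
  change g⁻¹ * localGaloisToGlobal (pv q) h *
      (r i * (g⁻¹ * localGaloisToGlobal (pv q) h * r i)⁻¹) ∈ F.fixingSubgroup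
  rw [e]
  exact one_mem _

end Reps

/-! ### Joint injectivity -/

section Inj

variable {S q} {F₀ : IntermediateField ℚ Qbar} {ι : Type*} {r : ι → Γℚ}

/-- **(INJ)** An element of the `q`-component of `J_S` all of whose twisted projections
`projAt (r i * w)`, `w ∈ W = F₀.fixingSubgroup`, are trivial is trivial. -/
theorem eq_one_of_projAt_eq_one (hc : Covers q F₀ r) (u : JSqGrp S q)
    (hu : ∀ i, ∀ w ∈ F₀.fixingSubgroup, projAt S q (r i * w) u = 1) : u = 1 := by
  obtain ⟨L, -, v, rfl⟩ := exists_levelToJSq_eq S q u (GalLevel.bot S)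
  have hv : v = 1 := by
    apply Units.ext
    apply locProd_injective (covers_repMul hc L.F)
    funext iw
    apply Subtype.ext
    have h1 := hu iw.1 iw.2 iw.2.2
    rw [projAt_levelToJSq] at h1
    have h2 := congrArg (fun x : Ωqˣ => (x : Ωq)) h1
    rw [locProd_apply_coe, Units.val_one, map_one]
    exact h2
  rw [hv, map_one]

end Inj

/-! ### Joint surjectivity -/

section Surj

variable {S q} {F₀ : IntermediateField ℚ Qbar} {ι : Type*} {r : ι → Γℚ}

/-- **(SURJ)** Every family of `Ωqˣ`-valued functions on `W = F₀.fixingSubgroup` which is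
equivariant for the stabilisers `{h | (r i)⁻¹ φ_q(h) r i ∈ W}` and constant modulo a Galois level
is the family of twisted projections of an element of the `q`-component of `J_S`. -/
theorem exists_projAt_eq (hc : Covers q F₀ r) (hs : Separated q F₀ r)
    (L : GalLevel S) (hL : F₀ ≤ L.F) (f : ι → ↥F₀.fixingSubgroup → Ωqˣ)
    (hequiv : ∀ i (h : Gq)
      (hh : (r i)⁻¹ * localGaloisToGlobal (pv q) h * r i ∈ F₀.fixingSubgroup)
      (w : ↥F₀.fixingSubgroup), ((f i (⟨_, hh⟩ * w) : Ωqˣ) : Ωq) = h ((f i w : Ωqˣ) : Ωq))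
    (hlevel : ∀ i (w s : ↥F₀.fixingSubgroup), (s : Γℚ) ∈ L.F.fixingSubgroup →
      f i (w * s) = f i w) :
    ∃ u : JSqGrp S q, ∀ i (w : ↥F₀.fixingSubgroup), projAt S q (r i * w) u = f i w := by
  classical
  have hVW : L.F.fixingSubgroup ≤ F₀.fixingSubgroup :=
    IntermediateField.fixingSubgroup_antitone hL
  have hex : ∀ m : MaximalSpectrum (LocAlg L.F q), ∃ iw : ι × ↥F₀.fixingSubgroup,
      placeAt (pv q) L.F (repMul F₀ r iw) = m := fun m => (covers_repMul hc L.F).exists_eq m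
  choose κ hκ using hex
  have hc'' : Covers q L.F (fun m => repMul F₀ r (κ m)) := by
    intro g
    obtain ⟨h, s, hs', e⟩ := (placeAt_eq_iff (pv q) L.F g
      (repMul F₀ r (κ (placeAt (pv q) L.F g)))).1 (hκ _).symm
    refine ⟨placeAt (pv q) L.F g, h⁻¹, ?_⟩
    change g⁻¹ * localGaloisToGlobal (pv q) h⁻¹ * repMul F₀ r (κ (placeAt (pv q) L.F g)) ∈ _
    rw [e]
    have e2 : g⁻¹ * localGaloisToGlobal (pv q) h⁻¹ * (localGaloisToGlobal (pv q) h * g * s) = s := by
      rw [map_inv]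
      group
    rw [e2]
    exact hs'
  have hs'' : Separated q L.F (fun m => repMul F₀ r (κ m)) := by
    intro m m' h hh
    have h1 := placeAt_eq_of_mem hh
    rw [hκ, hκ] at h1
    exact h1
  have hy : ∀ m, ((f (κ m).1 (κ m).2 : Ωqˣ) : Ωq) ∈
      localFieldOf (pv q) (L.F.map ((repMul F₀ r (κ m) : Γℚ) : Qbar →ₐ[ℚ] Qbar)) := by
    intro m
    rw [mem_localFieldOf_iff_fixed]
    intro h hh
    have hd : (r (κ m).1)⁻¹ * localGaloisToGlobal (pv q) h * r (κ m).1 ∈ F₀.fixingSubgroup := by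
      have e : (r (κ m).1)⁻¹ * localGaloisToGlobal (pv q) h * r (κ m).1 =
          ((κ m).2 : Γℚ) * ((repMul F₀ r (κ m))⁻¹ * localGaloisToGlobal (pv q) h *
            repMul F₀ r (κ m)) * ((κ m).2 : Γℚ)⁻¹ := by
        unfold repMul
        group
      rw [e]
      exact mul_mem (mul_mem (κ m).2.2 (hVW hh)) (inv_mem (κ m).2.2)
    have h1 := hequiv (κ m).1 h hd (κ m).2
    have h2 : (⟨_, hd⟩ : ↥F₀.fixingSubgroup) * (κ m).2 = (κ m).2 * ⟨_, hVW hh⟩ := by
      apply Subtype.ext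
      change (r (κ m).1)⁻¹ * localGaloisToGlobal (pv q) h * r (κ m).1 * ((κ m).2 : Γℚ) =
        ((κ m).2 : Γℚ) * ((repMul F₀ r (κ m))⁻¹ * localGaloisToGlobal (pv q) h *
            repMul F₀ r (κ m))
      unfold repMul
      group
    rw [h2, hlevel (κ m).1 (κ m).2 _ hh] at h1
    exact h1.symm
  let y : ∀ m, (localFieldOf (pv q)
      (L.F.map ((repMul F₀ r (κ m) : Γℚ) : Qbar →ₐ[ℚ] Qbar)))ˣ := fun m =>
    Units.mk0 ⟨_, hy m⟩ (fun h0 => (f (κ m).1 (κ m).2).ne_zero (congrArg Subtype.val h0))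
  let e : (LocAlg L.F q)ˣ :=
    (locProdUnitsEquiv q L.F (fun m => repMul F₀ r (κ m)) hc'' hs'').symm y
  have he : ∀ m, locHom (pv q) L.F (repMul F₀ r (κ m)) (e : LocAlg L.F q) =
      ((f (κ m).1 (κ m).2 : Ωqˣ) : Ωq) := by
    intro m
    rw [← locProdUnitsEquiv_apply_coe q L.F (fun m => repMul F₀ r (κ m)) hc'' hs'' e m,
      MulEquiv.apply_symm_apply]
    rfl
  refine ⟨levelToJSq S L q e, fun i w => ?_⟩
  rw [projAt_levelToJSq]
  apply Units.ext
  change locHom (pv q) L.F (r i * w) (e : LocAlg L.F q) = _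
  obtain ⟨h, s, hs', ee⟩ := (placeAt_eq_iff (pv q) L.F
    (repMul F₀ r (κ (placeAt (pv q) L.F (r i * w)))) (r i * w)).1 (hκ _)
  have hem := he (placeAt (pv q) L.F (r i * w))
  generalize κ (placeAt (pv q) L.F (r i * w)) = jw at ee hem
  obtain ⟨j, w'⟩ := jw
  change r i * (w : Γℚ) = localGaloisToGlobal (pv q) h * (r j * (w' : Γℚ)) * s at ee
  change locHom (pv q) L.F (r j * (w' : Γℚ)) (e : LocAlg L.F q) = ((f j w' : Ωqˣ) : Ωq) at hem
  have hij : j = i := by
    apply hs j i h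
    have e1 : (r i)⁻¹ * localGaloisToGlobal (pv q) h * r j =
        (r i)⁻¹ * (localGaloisToGlobal (pv q) h * (r j * (w' : Γℚ)) * s) * s⁻¹ * (w' : Γℚ)⁻¹ := by
      group
    rw [← ee] at e1
    have e2 : (r i)⁻¹ * (r i * (w : Γℚ)) * s⁻¹ * (w' : Γℚ)⁻¹ = (w : Γℚ) * s⁻¹ * (w' : Γℚ)⁻¹ := by
      group
    rw [e1, e2]
    exact mul_mem (mul_mem w.2 (inv_mem (hVW hs'))) (inv_mem w'.2)
  subst hij
  have hd : (r j)⁻¹ * localGaloisToGlobal (pv q) h * r j ∈ F₀.fixingSubgroup := by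
    have e1 : (r j)⁻¹ * localGaloisToGlobal (pv q) h * r j =
        (r j)⁻¹ * (localGaloisToGlobal (pv q) h * (r j * (w' : Γℚ)) * s) * s⁻¹ * (w' : Γℚ)⁻¹ := by
      group
    rw [← ee] at e1
    have e2 : (r j)⁻¹ * (r j * (w : Γℚ)) * s⁻¹ * (w' : Γℚ)⁻¹ = (w : Γℚ) * s⁻¹ * (w' : Γℚ)⁻¹ := by
      group
    rw [e1, e2]
    exact mul_mem (mul_mem w.2 (inv_mem (hVW hs'))) (inv_mem w'.2)
  have hw : w = (⟨_, hd⟩ : ↥F₀.fixingSubgroup) * w' * ⟨s, hVW hs'⟩ := by
    apply Subtype.ext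
    change (w : Γℚ) = (r j)⁻¹ * localGaloisToGlobal (pv q) h * r j * (w' : Γℚ) * s
    have e1 : (r j)⁻¹ * localGaloisToGlobal (pv q) h * r j * (w' : Γℚ) * s =
        (r j)⁻¹ * (localGaloisToGlobal (pv q) h * (r j * (w' : Γℚ)) * s) := by group
    rw [e1, ← ee]
    group
  rw [ee, locHom_mul_of_mem_fixingSubgroup (pv q) L.F _ hs', locHom_localGaloisToGlobal_mul,
    AlgHom.comp_apply, hem]
  conv_rhs => rw [hw]
  rw [hlevel j _ ⟨s, hVW hs'⟩ hs', hequiv j h hd w']
  rfl

end Surj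

/-! ### The local projection on the `q`-factor -/

section RepLevel

open ExtCitation Fermat.Agent.Lib.CFT.Local.LqModule Fermat.Agent.Lib.CFT.Duality.ArithKDatum
open Fermat.Agent.Lib.CFT.Global.SVersion.LocalProjConj
open Fermat.Agent.Lib.CFT.Global.SVersion.LocalProjBridge
open Fermat.Agent.Lib.CFT.Profinite Fermat.Agent.Lib.CFT.Profinite.LES

/-- The projection of the `q`-factor of `J_S` to `Qbar_qˣ` (multiplication map). -/
def rhoQMul : JSqGrp S q →* (Qqbar q)ˣ :=
  (Units.map (locMult q : LocAlg Qbar q →* Qqbar q)).comp (locUnitsS S q).subtype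

theorem val_rhoQMul (u : JSqGrp S q) :
    ((rhoQMul S q u : (Qqbar q)ˣ) : Qqbar q) =
      locMult q (((u : (LocAlg Qbar q)ˣ)) : LocAlg Qbar q) := rfl

theorem val_rhoQMul_smul (s : primeLocalGaloisGroup q) (u : JSqGrp S q) :
    ((rhoQMul S q (primeLocalToGlobal q s • u) : (Qqbar q)ˣ) : Qqbar q) =
      aut q s ((rhoQMul S q u : (Qqbar q)ˣ) : Qqbar q) := by
  rw [val_rhoQMul, val_rhoQMul, ← locMult_smul]
  rfl

/-- `ρ_q` on the `q`-factor: `res φ_q (JSq S q) ⟶ L_q`. -/
def rhoQ : Rep.res (primeLocalToGlobal q) (JSq S q) ⟶ Lq q :=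
  Rep.ofHom (LinearMap.intertwiningMap_of_isIntertwiningMap
    (ρ := (Rep.res (primeLocalToGlobal q) (JSq S q)).ρ) (σ := (Lq q).ρ)
    ((rhoQMul S q).toAdditive.toIntLinearMap) (fun s v => by
      symm
      rw [ρ_eq_iff]
      exact (val_rhoQMul_smul S q s (Additive.toMul v)).symm))

theorem rhoQ_hom_apply (x : JSq S q) :
    (rhoQ S q).hom x =
      ofUnit q (rhoQMul S q (Additive.toMul (show Additive (JSqGrp S q) from x))) := rfl

theorem rhoMul_eq_rhoQMul (a : JSgrp S) : rhoMul q S a = rhoQMul S q (jsProjLoc S q a) := rfl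

/-- `ρ_q` factors through the projection onto the `q`-factor. -/
theorem rho_hom_eq (hq : q ∈ S) (a : JS S) :
    (rho q S).hom a = (rhoQ S q).hom ((jsProj S (some ⟨q, hq⟩)).hom a) := rfl

/-- `ρ_q` of the multiplicative side. -/
theorem rhoQ_hom_ofMul (u : JSqGrp S q) :
    (rhoQ S q).hom (Additive.ofMul u) = ofUnit q (rhoQMul S q u) := rfl

theorem rho_hom_ofMul (a : JSgrp S) :
    (rho q S).hom (Additive.ofMul a) = ofUnit q (rhoQMul S q (jsProjLoc S q a)) := rfl

/-- `ρ_q` on the image of the `q`-factor. -/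
theorem rho_hom_jsIncl_self (hq : q ∈ S) (u : Additive (JSqGrp S q)) :
    (rho q S).hom ((jsIncl S (some ⟨q, hq⟩)).hom u) = (rhoQ S q).hom u := by
  change ofUnit q (rhoQMul S q (jsProjLoc S q (jsInclLoc S hq u.toMul))) =
    ofUnit q (rhoQMul S q u.toMul)
  rw [jsProjLoc_jsInclLoc]

/-- `ρ_q` kills the `q'`-factors for `q' ≠ q`. -/
theorem rho_hom_jsIncl_of_ne (q' : ↥S) (h : q ≠ q'.1) (u : Additive (JSqGrp S q'.1)) :
    (rho q S).hom ((jsIncl S (some q')).hom u) = 0 := by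
  change ofUnit q (rhoQMul S q (jsProjLoc S q (jsInclLoc S q'.2 u.toMul))) = 0
  rw [jsProjLoc_jsInclLoc_of_ne S q'.2 h, map_one]
  rfl

/-- `ρ_q` kills the archimedean factor. -/
theorem rho_hom_jsIncl_arch (u : Additive (JSarchGrp S)) :
    (rho q S).hom ((jsIncl S none).hom u) = 0 := by
  change ofUnit q (rhoQMul S q (jsProjLoc S q (jsInclArch S u.toMul))) = 0
  rw [jsProjLoc_jsInclArch, map_one]
  rfl

variable (W : Subgroup Γℚ) (g : Γℚ)

/-- `λ_g` on the `q`-factor: `res c_g (res W (JSq S q)) ⟶ res S_g L_q`, `u ↦ ρ_q (g • u)`. -/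
def lamQ : Rep.res (cg q W g) (Rep.res W.subtype (JSq S q)) ⟶
    Rep.res (Sg q W g).subtype (Lq q) :=
  lamOf (rhoQ S q) g

theorem lamQ_hom_apply (x : JSq S q) :
    (lamQ S q W g).hom x = (rhoQ S q).hom ((JSq S q).ρ g x) := rfl

theorem toUnit_lamQ (u : JSqGrp S q) :
    toUnit q ((lamQ S q W g).hom (Additive.ofMul u)) = rhoQMul S q (g • u) := rfl

/-- `λ_g` on `J_S` factors through the projection onto the `q`-factor. -/
theorem lamg_hom_eq (hq : q ∈ S) (a : JS S) :
    (lamg q S W g).hom a = (lamQ S q W g).hom ((jsProj S (some ⟨q, hq⟩)).hom a) := by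
  change (rho q S).hom ((JS S).ρ g a) =
    (rhoQ S q).hom ((JSq S q).ρ g ((jsProj S (some ⟨q, hq⟩)).hom a))
  rw [rho_hom_eq S q hq]
  exact congrArg (rhoQ S q).hom (Rep.hom_comm_apply (jsProj S (some ⟨q, hq⟩)) g a)

/-- Comparison with the twisted projection `projAt`. -/
theorem val_rhoQMul_smul_eq_projAt (u : JSqGrp S q) :
    ((rhoQMul S q (g • u) : (Qqbar q)ˣ) : Qqbar q) =
      (((projAt S q g u : Ωqˣ) : Ωq) : Qqbar q) :=
  (mulMap_eq_locMult q _).symm

theorem rhoQMul_smul_eq_projAt (u : JSqGrp S q) :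
    rhoQMul S q (g • u) = (projAt S q g u : (Qqbar q)ˣ) :=
  Units.ext (val_rhoQMul_smul_eq_projAt S q g u)

theorem lamQ_ρ_apply (w : ↥W) (u : JSqGrp S q) :
    (lamQ S q W g).hom ((Rep.res W.subtype (JSq S q)).ρ w (Additive.ofMul u)) =
      ofUnit q (projAt S q (g * w) u : (Qqbar q)ˣ) := by
  rw [← rhoQMul_smul_eq_projAt, mul_smul]
  rfl

end RepLevel

/-! ### Shapiro in the limit for the `q`-factor -/

section Main

open ExtCitation Fermat.Agent.Lib.CFT.Local.LqModule Fermat.Agent.Lib.CFT.Duality.ArithKDatum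
open Fermat.Agent.Lib.CFT.Global.SVersion.LocalProjConj
open Fermat.Agent.Lib.CFT.Profinite Fermat.Agent.Lib.CFT.Profinite.LES
open Fermat.Agent.Lib.CFT.Duality Fermat.Agent.Lib.CFT.Duality.KCalc

variable {S}

/-- Finitely many Galois levels are contained in a common one. -/
theorem exists_galLevel_ge {ι : Type*} [Finite ι] (Ls : ι → GalLevel S) (L₀ : GalLevel S) :
    ∃ L : GalLevel S, L₀.F ≤ L.F ∧ ∀ i, (Ls i).F ≤ L.F := by
  classical
  have key : ∀ s : Finset ι, ∃ L : GalLevel S, L₀.F ≤ L.F ∧ ∀ i ∈ s, (Ls i).F ≤ L.F := by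
    intro s
    induction s using Finset.induction_on with
    | empty => exact ⟨L₀, le_rfl, fun i hi => absurd hi (Finset.notMem_empty i)⟩
    | insert a s _ ih =>
      obtain ⟨L, h0, hL⟩ := ih
      refine ⟨L.sup (Ls a), h0.trans (L.le_sup_left (Ls a)), fun i hi => ?_⟩
      rcases Finset.mem_insert.1 hi with rfl | hi
      · exact L.le_sup_right (Ls i)
      · exact (hL i hi).trans (L.le_sup_left (Ls a))
  have := Fintype.ofFinite ι
  obtain ⟨L, h0, hL⟩ := key Finset.univ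
  exact ⟨L, h0, fun i => hL i (Finset.mem_univ i)⟩

variable {q} (F₀ : IntermediateField ℚ Qbar) (hF₀ : F₀.IsUnramifiedOutside S)
  {ι : Type*} (r : ι → Γℚ)

/-- `LocalZero.Covers` is the hypothesis `hcover` of `Semilocal.funRep_bijective` for
`φ = primeLocalToGlobal q`, `V = F₀.fixingSubgroup`. -/
theorem covers_iff : Covers q F₀ r ↔ ∀ g : Γℚ, ∃ i, ∃ h : primeLocalGaloisGroup q,
    g⁻¹ * primeLocalToGlobal q h * r i ∈ F₀.fixingSubgroup := Iff.rfl

/-- `LocalZero.Separated` is the hypothesis `hdisj` of `Semilocal.funRep_bijective` for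
`φ = primeLocalToGlobal q`, `V = F₀.fixingSubgroup`. -/
theorem separated_iff : Separated q F₀ r ↔ ∀ i j, ∀ h : primeLocalGaloisGroup q,
    (r j)⁻¹ * primeLocalToGlobal q h * r i ∈ F₀.fixingSubgroup → i = j := Iff.rfl

/-- **(INJ)**, representation form. -/
theorem semilocal_hinj (hc : Covers q F₀ r)
    (x : Rep.res F₀.fixingSubgroup.subtype (JSq S q))
    (hx : ∀ i (w : ↥F₀.fixingSubgroup), (lamQ S q F₀.fixingSubgroup (r i)).hom
      ((Rep.res F₀.fixingSubgroup.subtype (JSq S q)).ρ w x) = 0) : x = 0 := by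
  have key : ∀ u : JSqGrp S q, (∀ i (w : ↥F₀.fixingSubgroup),
      (lamQ S q F₀.fixingSubgroup (r i)).hom
        ((Rep.res F₀.fixingSubgroup.subtype (JSq S q)).ρ w (Additive.ofMul u)) = 0) → u = 1 := by
    intro u hu
    refine eq_one_of_projAt_eq_one hc u fun i w hw => ?_
    have h2 := hu i ⟨w, hw⟩
    rw [lamQ_ρ_apply] at h2
    exact ofUnit_injective q (h2.trans (ofUnit_one q).symm)
  exact congrArg Additive.ofMul (key (Additive.toMul x) hx)

include hF₀ in
/-- **(SURJ)**, representation form. -/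
theorem semilocal_hsurj [Finite ι] (hc : Covers q F₀ r) (hs : Separated q F₀ r)
    (f : ∀ i, ↥F₀.fixingSubgroup → Rep.res (Sg q F₀.fixingSubgroup (r i)).subtype (Lq q))
    (hf1 : ∀ i (s : ↥(Sg q F₀.fixingSubgroup (r i))) (w : ↥F₀.fixingSubgroup),
      f i (cg q F₀.fixingSubgroup (r i) s * w) =
        (Rep.res (Sg q F₀.fixingSubgroup (r i)).subtype (Lq q)).ρ s (f i w))
    (hf2 : ∀ i, ∃ U ∈ (galFamilyOver F₀ hF₀).levels, ∀ w s : ↥F₀.fixingSubgroup, s ∈ U →
      f i (w * s) = f i w) :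
    ∃ x : Rep.res F₀.fixingSubgroup.subtype (JSq S q), ∀ i (w : ↥F₀.fixingSubgroup),
      (lamQ S q F₀.fixingSubgroup (r i)).hom
        ((Rep.res F₀.fixingSubgroup.subtype (JSq S q)).ρ w x) = f i w := by
  choose U hU hfU using hf2
  choose Ls hLs hULs using hU
  obtain ⟨L, hL0, hL⟩ := exists_galLevel_ge Ls (GalLevel.ofUnram F₀ hF₀)
  have hF₀L : F₀ ≤ L.F := (GalLevel.le_ofUnram F₀ hF₀).trans hL0
  obtain ⟨u, hu⟩ := exists_projAt_eq (S := S) hc hs L hF₀L
    (fun i w => (toUnit q (f i w) : (Qqbar q)ˣ))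
    (fun i h hh w => by
      have h1 := hf1 i ⟨h, hh⟩ w
      exact congrArg (fun z : Lq q => ((toUnit q z : (Qqbar q)ˣ) : Qqbar q)) h1)
    (fun i w s hs' => by
      have h1 : s ∈ U i := by
        rw [hULs i]
        exact GalLevel.V_le_of_le (hL i) hs'
      rw [hfU i w s h1])
  refine ⟨Additive.ofMul u, fun i w => ?_⟩
  rw [lamQ_ρ_apply, hu i w]
  exact ofUnit_toUnit q (f i w)

/-- **Shapiro in the limit for the `q`-factor of `J_S`** (level cohomology). For a level field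
`F₀`, `W = F₀.fixingSubgroup` with the Galois level family over `F₀`, and a finite system `r` of
representatives of the double cosets `φ_q(G_q) \ Γℚ / W`, the maps induced by `(c_{r i}, λ_{r i})`
identify `Hⁿ(W, JSq S q)` with the product of the `Hⁿ(S_{r i}, L_q)` (for the level families
pulled back along the `c_{r i}`). -/
theorem semilocal_bijective [Fintype ι] (hc : Covers q F₀ r) (hs : Separated q F₀ r) (n : ℕ) :
    Function.Bijective
      (fun (ξ : (galFamilyOver F₀ hF₀).levelCohomology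
          (Rep.res F₀.fixingSubgroup.subtype (JSq S q)) n) (i : ι) =>
        (LES.map (cg q F₀.fixingSubgroup (r i))
          (isCompatible_comap (galFamilyOver F₀ hF₀) (cg q F₀.fixingSubgroup (r i)))
          (lamQ S q F₀.fixingSubgroup (r i)) n).hom ξ) :=
  jointShapiroHom_bijective (galFamilyOver F₀ hF₀) (fun i => cg q F₀.fixingSubgroup (r i))
    (fun i => lamQ S q F₀.fixingSubgroup (r i))
    (fun x _ hx => semilocal_hinj F₀ r hc x hx)
    (fun f hf1 hf2 => by
      obtain ⟨x, hx⟩ := semilocal_hsurj F₀ hF₀ r hc hs f hf1 hf2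
      exact ⟨x, isDiscrete_res_galFamilyOver F₀ hF₀ (isDiscrete_JSq S q) x, hx⟩) n

/-- **Shapiro in the limit for the `q`-factor of `J_S`**, for the cohomology `T` of the cone of
multiplication by `p`. -/
theorem semilocal_T_bijective [Fintype ι] (hc : Covers q F₀ r) (hs : Separated q F₀ r)
    (p n : ℕ) :
    Function.Bijective
      (fun (t : T (galFamilyOver F₀ hF₀) p (Rep.res F₀.fixingSubgroup.subtype (JSq S q)) n)
          (i : ι) =>
        TMapOfHom (galFamilyOver F₀ hF₀) p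
          (comap (galFamilyOver F₀ hF₀) (cg q F₀.fixingSubgroup (r i)))
          (cg q F₀.fixingSubgroup (r i))
          (isCompatible_comap (galFamilyOver F₀ hF₀) (cg q F₀.fixingSubgroup (r i)))
          (lamQ S q F₀.fixingSubgroup (r i)) n t) :=
  jointShapiroHomT_bijective (galFamilyOver F₀ hF₀) (fun i => cg q F₀.fixingSubgroup (r i))
    (fun i => lamQ S q F₀.fixingSubgroup (r i))
    (fun x _ hx => semilocal_hinj F₀ r hc x hx)
    (fun f hf1 hf2 => by
      obtain ⟨x, hx⟩ := semilocal_hsurj F₀ hF₀ r hc hs f hf1 hf2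
      exact ⟨x, isDiscrete_res_galFamilyOver F₀ hF₀ (isDiscrete_JSq S q) x, hx⟩) p n

end Main

end Fermat.Agent.Lib.CFT.Global.SVersion.SemiLocalInduced
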